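import Mathlib

set_option autoImplicit false

/-!
# Module-level exactness inputs for hyper-Ext (S55, node HYPER-EXT, part 4)

* `postcomp_injective`, `postcomp_exact`, `postcomp_surjective`: `Hom(P, -)` preserves short exact
  sequences for a projective module `P`;
* `precomp_injective`, `precomp_exact`: `Hom(-, X)` is left exact;
* `exists_extension_of_smul_mem`: for a finite free `ℤ`-module `P₀`, a submodule `N` with
  `p • P₀ ⊆ N`, and a `p`-divisible abelian group `X`, every homomorphism `N → X` extends to `P₀`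
  (i.e. `Ext¹_ℤ(P₀/N, X) = 0`);
* `precomp_surjective_of_divisible`: the same for an injective map `P₁ → P₀`.
-/

namespace Fermat.Agent.CFT.HExt

section postcomp

variable {k : Type*} [CommRing k] {P X' X X'' : Type*} [AddCommGroup P] [Module k P]
  [AddCommGroup X'] [Module k X'] [AddCommGroup X] [Module k X] [AddCommGroup X''] [Module k X'']

theorem postcomp_injective (f : X' →ₗ[k] X) (hf : Function.Injective f) :
    Function.Injective (fun h : P →ₗ[k] X' => f ∘ₗ h) := by
  intro h₁ h₂ h
  ext x
  exact hf (LinearMap.congr_fun h x)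

theorem postcomp_exact (f : X' →ₗ[k] X) (g : X →ₗ[k] X'') (hf : Function.Injective f)
    (hfg : Function.Exact f g) :
    Function.Exact (fun h : P →ₗ[k] X' => f ∘ₗ h) (fun h : P →ₗ[k] X => g ∘ₗ h) := by
  intro h
  constructor
  · intro hh
    have hmem : ∀ x, h x ∈ LinearMap.range f := fun x =>
      (hfg (h x)).1 (LinearMap.congr_fun hh x)
    refine ⟨(LinearEquiv.ofInjective f hf).symm.toLinearMap ∘ₗ h.codRestrict _ hmem, ?_⟩
    ext x
    simp only [LinearMap.comp_apply, LinearEquiv.coe_coe]
    exact congrArg Subtype.val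
      ((LinearEquiv.ofInjective f hf).apply_symm_apply (h.codRestrict _ hmem x))
  · rintro ⟨h', rfl⟩
    ext x
    exact hfg.apply_apply_eq_zero (h' x)

theorem postcomp_surjective [Module.Projective k P] (g : X →ₗ[k] X'')
    (hg : Function.Surjective g) : Function.Surjective (fun h : P →ₗ[k] X => g ∘ₗ h) :=
  fun h => Module.projective_lifting_property g h hg

end postcomp

section precomp

variable {k : Type*} [CommRing k] {P₁ P₀ M X : Type*} [AddCommGroup P₁] [Module k P₁]
  [AddCommGroup P₀] [Module k P₀] [AddCommGroup M] [Module k M] [AddCommGroup X] [Module k X]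

theorem precomp_injective (π : P₀ →ₗ[k] M) (hπ : Function.Surjective π) :
    Function.Injective (fun h : M →ₗ[k] X => h ∘ₗ π) := by
  intro h₁ h₂ h
  ext m
  obtain ⟨x, rfl⟩ := hπ m
  exact LinearMap.congr_fun h x

theorem precomp_exact (i : P₁ →ₗ[k] P₀) (π : P₀ →ₗ[k] M) (hπ : Function.Surjective π)
    (hiπ : Function.Exact i π) :
    Function.Exact (fun h : M →ₗ[k] X => h ∘ₗ π) (fun h : P₀ →ₗ[k] X => h ∘ₗ i) := by
  intro h
  constructor
  · intro hh
    have hker : LinearMap.ker π ≤ LinearMap.ker h := by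
      intro x hx
      obtain ⟨y, rfl⟩ := (hiπ x).1 hx
      exact LinearMap.congr_fun hh y
    refine ⟨(LinearMap.ker π).liftQ h hker ∘ₗ
      (LinearMap.quotKerEquivOfSurjective π hπ).symm.toLinearMap, ?_⟩
    ext x
    have : (LinearMap.quotKerEquivOfSurjective π hπ).symm (π x) = Submodule.Quotient.mk x := by
      rw [LinearEquiv.symm_apply_eq]; rfl
    simp only [LinearMap.comp_apply, LinearEquiv.coe_coe, this, Submodule.liftQ_apply]
  · rintro ⟨h', rfl⟩
    ext x
    simp only [LinearMap.comp_apply, hiπ.apply_apply_eq_zero, map_zero, LinearMap.zero_apply]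

end precomp

section divisible

variable {P₀ X : Type*} [AddCommGroup P₀] [Module.Free ℤ P₀] [Module.Finite ℤ P₀] [AddCommGroup X]

/-- `Ext¹_ℤ(P₀/N, X) = 0` for a `p`-divisible group `X` when `p` kills `P₀/N`. -/
theorem exists_extension_of_smul_mem (N : Submodule ℤ P₀) (p : ℤ) (hN : ∀ x : P₀, p • x ∈ N)
    (hX : ∀ x : X, ∃ y : X, p • y = x) (f : N →ₗ[ℤ] X) :
    ∃ g : P₀ →ₗ[ℤ] X, g ∘ₗ N.subtype = f := by
  classical
  obtain ⟨n, snf⟩ := N.smithNormalForm (Module.Free.chooseBasis ℤ P₀)
  -- each diagonal entry divides `p`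
  have hdiv : ∀ j : Fin n, ∃ c : ℤ, p = snf.a j * c := by
    intro j
    refine ⟨snf.bN.repr ⟨p • snf.bM (snf.f j), hN _⟩ j, ?_⟩
    have h1 := snf.repr_apply_embedding_eq_repr_smul (m := ⟨p • snf.bM (snf.f j), hN _⟩) (i := j)
    have h3 : snf.bN.repr (snf.a j • (⟨p • snf.bM (snf.f j), hN _⟩ : N)) j =
        snf.a j * snf.bN.repr ⟨p • snf.bM (snf.f j), hN _⟩ j := by
      rw [map_smul, Finsupp.smul_apply, smul_eq_mul]
    have h2 : snf.bM.repr (p • snf.bM (snf.f j)) (snf.f j) = p := by
      rw [map_smul, Module.Basis.repr_self, Finsupp.smul_apply, Finsupp.single_eq_same,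
        smul_eq_mul, mul_one]
    rw [← h3, ← h1]
    exact h2.symm
  -- choose the values on the basis
  have hx : ∀ j : Fin n, ∃ x : X, snf.a j • x = f (snf.bN j) := by
    intro j
    obtain ⟨c, hc⟩ := hdiv j
    obtain ⟨y, hy⟩ := hX (f (snf.bN j))
    exact ⟨c • y, by rw [smul_smul, ← hc, hy]⟩
  choose x hx using hx
  refine ⟨snf.bM.constr ℤ (Function.extend snf.f x 0), ?_⟩
  refine snf.bN.ext fun j => ?_
  rw [LinearMap.comp_apply, Submodule.subtype_apply, snf.snf, map_smul,
    Module.Basis.constr_basis, snf.f.injective.extend_apply, hx]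

/-- Restriction along an injective map of lattices `P₁ → P₀` with cokernel killed by `p` is
surjective on homomorphisms into a `p`-divisible group. -/
theorem precomp_surjective_of_divisible {P₁ : Type*} [AddCommGroup P₁] (i : P₁ →ₗ[ℤ] P₀)
    (hi : Function.Injective i) (p : ℤ) (hp : ∀ x : P₀, p • x ∈ LinearMap.range i)
    (hX : ∀ x : X, ∃ y : X, p • y = x) :
    Function.Surjective (fun h : P₀ →ₗ[ℤ] X => h ∘ₗ i) := by
  intro f
  obtain ⟨g, hg⟩ := exists_extension_of_smul_mem (LinearMap.range i) p hp hX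
    (f ∘ₗ (LinearEquiv.ofInjective i hi).symm.toLinearMap)
  refine ⟨g, ?_⟩
  ext y
  have := LinearMap.congr_fun hg (LinearEquiv.ofInjective i hi y)
  simp only [LinearMap.comp_apply, Submodule.subtype_apply, LinearEquiv.coe_coe,
    LinearEquiv.symm_apply_apply] at this
  exact this

end divisible

end Fermat.Agent.CFT.HExt
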