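import Fermat.Agent.CFT.LC.Complex
import Fermat.Agent.CFT.CupLowEval
import Fermat.Agent.CFT.HyperExt.ModuleExact

/-!
# Smoothness of internal Homs and the `Hom` complexes (S55, node A5, LC instantiation part 1)

* `IsSmooth.of_injective`, `IsSmooth.of_surjective`: sub- and quotient representations of smooth
  representations are smooth;
* `IsSmooth.ihom`: `Hom_k(P, X)` is smooth for `P` finitely generated smooth and `X` smooth;
* `Cup.postcomp P f : Hom(P, X) ⟶ Hom(P, Y)` and the exactness properties of `Cup.postcomp`,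
  `Cup.precomp` on the underlying modules, in the form needed by `LC.cx_shortExact`.
-/

set_option autoImplicit false

universe u

open CategoryTheory

namespace Fermat.Agent.CFT

variable {k G : Type u} [CommRing k] [Group G] {L : LevelStructure G}

/-- A subrepresentation of a smooth representation is smooth. -/
lemma IsSmooth.of_injective {A B : Rep.{u} k G} (f : A ⟶ B) (hf : Function.Injective f.hom)
    (hB : IsSmooth L B) : IsSmooth L A := by
  intro a
  obtain ⟨N, hN, h⟩ := hB (f.hom a)
  refine ⟨N, hN, fun g hg => hf ?_⟩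
  rw [Rep.hom_comm_apply, h g hg]

/-- A quotient of a smooth representation is smooth. -/
lemma IsSmooth.of_surjective {A B : Rep.{u} k G} (f : A ⟶ B) (hf : Function.Surjective f.hom)
    (hA : IsSmooth L A) : IsSmooth L B := by
  intro b
  obtain ⟨a, rfl⟩ := hf b
  obtain ⟨N, hN, h⟩ := hA a
  refine ⟨N, hN, fun g hg => ?_⟩
  rw [← Rep.hom_comm_apply, h g hg]

/-- A finitely generated smooth representation is fixed pointwise by a level. -/
lemma IsSmooth.exists_level_of_moduleFinite {P : Rep.{u} k G} [Module.Finite k P]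
    (hP : IsSmooth L P) : ∃ N, L.IsLevel N ∧ ∀ g ∈ N, ∀ x : P, P.ρ g x = x := by
  obtain ⟨S, hS⟩ := (Module.Finite.fg_top : (⊤ : Submodule k P).FG)
  obtain ⟨N, hN, h⟩ := hP.exists_level_of_finite S.finite_toSet
  refine ⟨N, hN, fun g hg x => ?_⟩
  have hx : x ∈ Submodule.span k (S : Set P) := by rw [hS]; trivial
  have key : Set.EqOn (P.ρ g) (LinearMap.id : P →ₗ[k] P) (S : Set P) := fun s hs => h s hs g hg
  exact LinearMap.eqOn_span key hx

/-- `Hom_k(P, X)` is smooth if `P` is finitely generated and smooth and `X` is smooth. -/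
lemma IsSmooth.ihom {P X : Rep.{u} k G} [Module.Finite k P] (hP : IsSmooth L P)
    (hX : IsSmooth L X) : IsSmooth L ((Rep.ihom P).obj X) := by
  intro f
  change P →ₗ[k] X at f
  obtain ⟨S, hS⟩ := (Module.Finite.fg_top : (⊤ : Submodule k P).FG)
  obtain ⟨N₁, hN₁, h₁⟩ := hP.exists_level_of_moduleFinite
  obtain ⟨N₂, hN₂, h₂⟩ := hX.exists_level_of_finite ((S.finite_toSet).image f)
  obtain ⟨N, hN, hle⟩ := L.directed hN₁ hN₂
  refine ⟨N, hN, fun g hg => ?_⟩
  have hg₁ : g⁻¹ ∈ N₁ := N₁.inv_mem ((hle.trans inf_le_left) hg)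
  have hg₂ : g ∈ N₂ := (hle.trans inf_le_right) hg
  change X.ρ g ∘ₗ f ∘ₗ P.ρ g⁻¹ = f
  have key : Set.EqOn (X.ρ g ∘ₗ f) f (S : Set P) := fun s hs =>
    h₂ (f s) ⟨s, hs, rfl⟩ g hg₂
  refine LinearMap.ext fun x => ?_
  have hx : x ∈ Submodule.span k (S : Set P) := by rw [hS]; trivial
  simp only [LinearMap.comp_apply, h₁ g⁻¹ hg₁ x]
  exact LinearMap.eqOn_span key hx

namespace Cup

/-- Postcomposition with `f : X ⟶ Y`, as a morphism `ihom(P, X) ⟶ ihom(P, Y)`. -/
noncomputable abbrev postcomp (P : Rep.{u} k G) {X Y : Rep.{u} k G} (f : X ⟶ Y) :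
    (Rep.ihom P).obj X ⟶ (Rep.ihom P).obj Y := (Rep.ihom P).map f

lemma postcomp_hom_apply (P : Rep.{u} k G) {X Y : Rep.{u} k G} (f : X ⟶ Y) (h : P →ₗ[k] X) :
    (postcomp P f).hom h = f.hom.toLinearMap ∘ₗ h := rfl

lemma postcomp_hom_apply_apply (P : Rep.{u} k G) {X Y : Rep.{u} k G} (f : X ⟶ Y)
    (h : P →ₗ[k] X) (x : P) :
    (RepPairing.eval P Y).toLin ((postcomp P f).hom h) x = f.hom (h x) := rfl

lemma precomp_hom_apply' {M I : Rep.{u} k G} (u : M ⟶ I) (D : Rep.{u} k G) (f : I →ₗ[k] D) :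
    (precomp u D).hom f = f ∘ₗ u.hom.toLinearMap := rfl

/-- `precomp` and `postcomp` commute. -/
lemma postcomp_precomp {M I : Rep.{u} k G} (u : M ⟶ I) {X Y : Rep.{u} k G} (f : X ⟶ Y)
    (h : I →ₗ[k] X) :
    (postcomp M f).hom ((precomp u X).hom h) = (precomp u Y).hom ((postcomp I f).hom h) := rfl

section exactness

variable (P : Rep.{u} k G) {X' X X'' : Rep.{u} k G} (f : X' ⟶ X) (g : X ⟶ X'')

lemma postcomp_hom_injective (hf : Function.Injective f.hom) :
    Function.Injective (postcomp P f).hom :=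
  HExt.postcomp_injective (P := P) f.hom.toLinearMap hf

lemma postcomp_hom_exact (hf : Function.Injective f.hom)
    (hfg : Function.Exact f.hom g.hom) :
    Function.Exact (postcomp P f).hom (postcomp P g).hom :=
  HExt.postcomp_exact (P := P) f.hom.toLinearMap g.hom.toLinearMap hf hfg

lemma postcomp_hom_surjective [Module.Projective k P] (hg : Function.Surjective g.hom) :
    Function.Surjective (postcomp P g).hom :=
  HExt.postcomp_surjective (P := P) g.hom.toLinearMap hg

end exactness

section exactness'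

variable {P₁ P₀ N : Rep.{u} k G} (i : P₁ ⟶ P₀) (π : P₀ ⟶ N) (X : Rep.{u} k G)

lemma precomp_hom_injective (hπ : Function.Surjective π.hom) :
    Function.Injective (precomp π X).hom :=
  HExt.precomp_injective (X := X) π.hom.toLinearMap hπ

lemma precomp_hom_exact (hπ : Function.Surjective π.hom) (hiπ : Function.Exact i.hom π.hom) :
    Function.Exact (precomp π X).hom (precomp i X).hom :=
  HExt.precomp_exact (X := X) i.hom.toLinearMap π.hom.toLinearMap hπ hiπ

end exactness'

end Cup

end Fermat.Agent.CFT
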