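import Mathlib

set_option autoImplicit false

/-!
# By-hand `ℕ`-indexed cochain complexes of modules (S55, node HYPER-EXT, part 1)

A light-weight, element-level library (no category theory):

* `Cx k` : `ℕ`-indexed cochain complexes of `k`-modules, `Cx.Hom` their morphisms;
* `Cx.Hs C n` : the cohomology of `C` **at the spot `n + 1`**, `ker d_{n+1} / range d_n`
  (uniform in `n`; the cohomology at spot `0` is handled by prepending a zero term, see
  `Shift.lean`);
* `Cx.ShortExact i p` and the long exact cohomology sequence: `ShortExact.δ`, `exact_map_map`,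
  `exact_map_δ`, `exact_δ_map`.
-/

namespace Fermat.Agent.CFT.HExt

universe u v

/-- Lift a linear map along a surjective linear map. -/
noncomputable def liftSurj {k : Type*} [CommRing k] {W Q R : Type*} [AddCommGroup W] [Module k W]
    [AddCommGroup Q] [Module k Q] [AddCommGroup R] [Module k R] (f : W →ₗ[k] Q)
    (hf : Function.Surjective f) (g : W →ₗ[k] R) (h : LinearMap.ker f ≤ LinearMap.ker g) :
    Q →ₗ[k] R :=
  (Submodule.liftQ (LinearMap.ker f) g h).comp
    (LinearMap.quotKerEquivOfSurjective f hf).symm.toLinearMap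

theorem liftSurj_apply {k : Type*} [CommRing k] {W Q R : Type*} [AddCommGroup W] [Module k W]
    [AddCommGroup Q] [Module k Q] [AddCommGroup R] [Module k R] (f : W →ₗ[k] Q)
    (hf : Function.Surjective f) (g : W →ₗ[k] R) (h : LinearMap.ker f ≤ LinearMap.ker g) (w : W) :
    liftSurj f hf g h (f w) = g w := by
  have : (LinearMap.quotKerEquivOfSurjective f hf).symm (f w) = Submodule.Quotient.mk w := by
    rw [LinearEquiv.symm_apply_eq]
    rfl
  simp only [liftSurj, LinearMap.coe_comp, LinearEquiv.coe_coe, Function.comp_apply, this,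
    Submodule.liftQ_apply]

/-- An `ℕ`-indexed cochain complex of `k`-modules. -/
structure Cx (k : Type u) [CommRing k] where
  /-- the terms -/
  X : ℕ → Type v
  [instACG : ∀ n, AddCommGroup (X n)]
  [instMod : ∀ n, Module k (X n)]
  /-- the differential -/
  d : ∀ n, X n →ₗ[k] X (n + 1)
  d_d : ∀ n (x : X n), d (n + 1) (d n x) = 0

attribute [instance] Cx.instACG Cx.instMod

variable {k : Type u} [CommRing k]

namespace Cx

/-- Morphisms of complexes. -/
structure Hom (A B : Cx.{u, v} k) where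
  /-- the components -/
  f : ∀ n, A.X n →ₗ[k] B.X n
  comm : ∀ n (x : A.X n), f (n + 1) (A.d n x) = B.d n (f n x)

/-- The identity morphism. -/
def Hom.id (A : Cx.{u, v} k) : Hom A A where
  f _ := LinearMap.id
  comm _ _ := rfl

/-- Composition of morphisms. -/
def Hom.comp {A B C : Cx.{u, v} k} (g : Hom B C) (f : Hom A B) : Hom A C where
  f n := (g.f n).comp (f.f n)
  comm n x := by simp only [LinearMap.comp_apply, f.comm, g.comm]

variable (C : Cx.{u, v} k) (n : ℕ)

/-- Cycles at the spot `n + 1`. -/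
def Z : Submodule k (C.X (n + 1)) := LinearMap.ker (C.d (n + 1))

/-- Boundaries at the spot `n + 1`. -/
def B : Submodule k (C.X (n + 1)) := LinearMap.range (C.d n)

theorem mem_Z_iff (z : C.X (n + 1)) : z ∈ C.Z n ↔ C.d (n + 1) z = 0 := LinearMap.mem_ker

theorem mem_B_iff (z : C.X (n + 1)) : z ∈ C.B n ↔ ∃ y, C.d n y = z := LinearMap.mem_range

theorem B_le_Z : C.B n ≤ C.Z n := by
  rintro _ ⟨y, rfl⟩
  exact C.d_d n y

/-- Cohomology at the spot `n + 1`. -/
def Hs : Type v := C.Z n ⧸ (C.B n).comap (C.Z n).subtype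

instance : AddCommGroup (C.Hs n) := by unfold Hs; infer_instance

instance : Module k (C.Hs n) := by unfold Hs; infer_instance

variable {C n}

/-- The class of a cycle. -/
def Hs.mk (z : C.X (n + 1)) (hz : C.d (n + 1) z = 0) : C.Hs n :=
  Submodule.Quotient.mk (p := (C.B n).comap (C.Z n).subtype) ⟨z, (C.mem_Z_iff n z).2 hz⟩

theorem Hs.induction_on {P : C.Hs n → Prop} (x : C.Hs n)
    (h : ∀ (z : C.X (n + 1)) (hz : C.d (n + 1) z = 0), P (Hs.mk z hz)) : P x := by
  induction x using Submodule.Quotient.induction_on with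
  | _ z => exact h z.1 ((C.mem_Z_iff n z.1).1 z.2)

theorem Hs.mk_eq_zero_iff {z : C.X (n + 1)} {hz : C.d (n + 1) z = 0} :
    Hs.mk z hz = 0 ↔ ∃ y, C.d n y = z :=
  (Submodule.Quotient.mk_eq_zero ((C.B n).comap (C.Z n).subtype)).trans (C.mem_B_iff n z)

theorem Hs.mk_eq_mk_iff {z z' : C.X (n + 1)} {hz : C.d (n + 1) z = 0}
    {hz' : C.d (n + 1) z' = 0} : Hs.mk z hz = Hs.mk z' hz' ↔ ∃ y, C.d n y = z - z' :=
  (Submodule.Quotient.eq ((C.B n).comap (C.Z n).subtype)).trans (C.mem_B_iff n _)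

theorem Hs.mk_congr {z z' : C.X (n + 1)} (h : z = z') (hz : C.d (n + 1) z = 0) :
    Hs.mk z hz = Hs.mk z' (h ▸ hz) := by
  subst h; rfl

theorem Hs.mk_congr' {z z' : C.X (n + 1)} (h : z = z') {hz : C.d (n + 1) z = 0}
    {hz' : C.d (n + 1) z' = 0} : Hs.mk z hz = Hs.mk z' hz' := by
  subst h; rfl

theorem Hs.mk_zero : Hs.mk (C := C) (n := n) 0 (map_zero _) = 0 := by
  rw [Hs.mk_eq_zero_iff]; exact ⟨0, map_zero _⟩

theorem Hs.mk_add {z z' : C.X (n + 1)} (hz : C.d (n + 1) z = 0) (hz' : C.d (n + 1) z' = 0) :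
    Hs.mk (z + z') (by rw [map_add, hz, hz', add_zero]) = Hs.mk z hz + Hs.mk z' hz' := rfl

theorem Hs.mk_sub {z z' : C.X (n + 1)} (hz : C.d (n + 1) z = 0) (hz' : C.d (n + 1) z' = 0) :
    Hs.mk (z - z') (by rw [map_sub, hz, hz', sub_zero]) = Hs.mk z hz - Hs.mk z' hz' := rfl

theorem Hs.mk_neg {z : C.X (n + 1)} (hz : C.d (n + 1) z = 0) :
    Hs.mk (-z) (by rw [map_neg, hz, neg_zero]) = -Hs.mk z hz := rfl

theorem Hs.mk_smul (c : k) {z : C.X (n + 1)} (hz : C.d (n + 1) z = 0) :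
    Hs.mk (c • z) (by rw [map_smul, hz, smul_zero]) = c • Hs.mk z hz := rfl

/-- The class map as a linear map on cycles. -/
def Hs.mkL : C.Z n →ₗ[k] C.Hs n := Submodule.mkQ _

theorem Hs.mkL_apply (z : C.Z n) : Hs.mkL z = Hs.mk z.1 ((C.mem_Z_iff n z.1).1 z.2) := rfl

theorem Hs.mkL_surjective : Function.Surjective (Hs.mkL (C := C) (n := n)) :=
  Submodule.mkQ_surjective _

section map

variable {A B : Cx.{u, v} k} (f : Hom A B)

/-- The induced map on cycles. -/
def Hom.mapZ (n : ℕ) : A.Z n →ₗ[k] B.Z n :=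
  ((f.f (n + 1)).comp (A.Z n).subtype).codRestrict (B.Z n) (by
    intro z
    rw [mem_Z_iff]
    simp only [LinearMap.comp_apply, Submodule.subtype_apply]
    rw [← f.comm, z.2, map_zero])

/-- The induced map on spot cohomology. -/
def Hom.mapHs (n : ℕ) : A.Hs n →ₗ[k] B.Hs n :=
  Submodule.mapQ _ _ (f.mapZ n) (by
    rintro ⟨z, hz⟩ hzB
    rw [Submodule.mem_comap] at hzB
    obtain ⟨y, hy⟩ := hzB
    rw [Submodule.mem_comap, Submodule.mem_comap]
    refine ⟨f.f n y, ?_⟩
    rw [← f.comm, hy]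
    rfl)

theorem Hom.mapHs_mk (n : ℕ) (z : A.X (n + 1)) (hz : A.d (n + 1) z = 0) :
    f.mapHs n (Hs.mk z hz) = Hs.mk (f.f (n + 1) z) (by rw [← f.comm, hz, map_zero]) := rfl

theorem Hom.mapHs_id (A : Cx.{u, v} k) (n : ℕ) : (Hom.id A).mapHs n = LinearMap.id := by
  ext x
  induction x using Hs.induction_on with
  | _ z hz => rfl

theorem Hom.mapHs_comp {A B C : Cx.{u, v} k} (g : Hom B C) (f : Hom A B) (n : ℕ) :
    (g.comp f).mapHs n = (g.mapHs n).comp (f.mapHs n) := by
  ext x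
  induction x using Hs.induction_on with
  | _ z hz => rfl

end map

section les

variable {A B C : Cx.{u, v} k}

/-- A degreewise short exact sequence of complexes. -/
structure ShortExact (i : Hom A B) (p : Hom B C) : Prop where
  inj : ∀ n, Function.Injective (i.f n)
  surj : ∀ n, Function.Surjective (p.f n)
  exact : ∀ n, Function.Exact (i.f n) (p.f n)

variable {i : Hom A B} {p : Hom B C}

theorem ShortExact.comp_eq_zero (h : ShortExact i p) (n : ℕ) (a : A.X n) : p.f n (i.f n a) = 0 :=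
  (h.exact n).apply_apply_eq_zero a

/-- The module of pairs `(b, a)` with `i a = d b`. -/
def deltaW (i : Hom A B) (n : ℕ) : Submodule k (B.X (n + 1) × A.X (n + 2)) :=
  LinearMap.ker ((i.f (n + 2)).comp (LinearMap.snd k _ _) -
    (B.d (n + 1)).comp (LinearMap.fst k _ _))

theorem mem_deltaW_iff (i : Hom A B) (n : ℕ) (w : B.X (n + 1) × A.X (n + 2)) :
    w ∈ deltaW i n ↔ i.f (n + 2) w.2 = B.d (n + 1) w.1 := by
  simp only [deltaW, LinearMap.mem_ker, LinearMap.sub_apply, LinearMap.comp_apply,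
    LinearMap.snd_apply, LinearMap.fst_apply, sub_eq_zero]

theorem ShortExact.d_snd_eq_zero (h : ShortExact i p) (n : ℕ) (w : deltaW i n) : A.d (n + 2) w.1.2 = 0 := by
  apply h.inj (n + 3)
  rw [map_zero, i.comm, (mem_deltaW_iff i n w.1).1 w.2, B.d_d]

theorem ShortExact.d_p_fst_eq_zero (h : ShortExact i p) (n : ℕ) (w : deltaW i n) :
    C.d (n + 1) (p.f (n + 1) w.1.1) = 0 := by
  rw [← p.comm, ← (mem_deltaW_iff i n w.1).1 w.2, h.comp_eq_zero]

/-- `(b, a) ↦ [p b]`. -/
def ShortExact.deltaF (h : ShortExact i p) (n : ℕ) : deltaW i n →ₗ[k] C.Hs n :=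
  Hs.mkL.comp
    (((p.f (n + 1)).comp ((LinearMap.fst k _ _).comp (deltaW i n).subtype)).codRestrict (C.Z n)
      (fun w => h.d_p_fst_eq_zero n w))

/-- `(b, a) ↦ [a]`. -/
def ShortExact.deltaG (h : ShortExact i p) (n : ℕ) : deltaW i n →ₗ[k] A.Hs (n + 1) :=
  Hs.mkL.comp
    (((LinearMap.snd k _ _).comp (deltaW i n).subtype).codRestrict (A.Z (n + 1))
      (fun w => h.d_snd_eq_zero n w))

theorem ShortExact.deltaF_apply (h : ShortExact i p) (n : ℕ) (w : deltaW i n) :
    h.deltaF n w = Hs.mk (p.f (n + 1) w.1.1) (h.d_p_fst_eq_zero n w) := rfl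

theorem ShortExact.deltaG_apply (h : ShortExact i p) (n : ℕ) (w : deltaW i n) :
    h.deltaG n w = Hs.mk w.1.2 (h.d_snd_eq_zero n w) := rfl

theorem ShortExact.exists_deltaW (h : ShortExact i p) (n : ℕ) (z : C.X (n + 1)) (hz : C.d (n + 1) z = 0) :
    ∃ w : deltaW i n, p.f (n + 1) w.1.1 = z := by
  obtain ⟨b, hb⟩ := h.surj (n + 1) z
  have h0 : p.f (n + 2) (B.d (n + 1) b) = 0 := by rw [p.comm, hb, hz]
  obtain ⟨a, ha⟩ := (h.exact (n + 2) _).1 h0
  exact ⟨⟨(b, a), (mem_deltaW_iff i n _).2 ha⟩, hb⟩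

theorem ShortExact.deltaF_surjective (h : ShortExact i p) (n : ℕ) : Function.Surjective (h.deltaF n) := by
  intro x
  induction x using Hs.induction_on with
  | _ z hz =>
    obtain ⟨w, hw⟩ := h.exists_deltaW n z hz
    exact ⟨w, by rw [h.deltaF_apply]; exact Hs.mk_congr hw _⟩

theorem ShortExact.ker_deltaF_le (h : ShortExact i p) (n : ℕ) :
    LinearMap.ker (h.deltaF n) ≤ LinearMap.ker (h.deltaG n) := by
  intro w hw
  rw [LinearMap.mem_ker, h.deltaF_apply, Hs.mk_eq_zero_iff] at hw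
  obtain ⟨y, hy⟩ := hw
  obtain ⟨y', rfl⟩ := h.surj n y
  have h0 : p.f (n + 1) (w.1.1 - B.d n y') = 0 := by
    rw [map_sub, p.comm, hy, sub_self]
  obtain ⟨a'', ha''⟩ := (h.exact (n + 1) _).1 h0
  rw [LinearMap.mem_ker, h.deltaG_apply, Hs.mk_eq_zero_iff]
  refine ⟨a'', h.inj (n + 2) ?_⟩
  rw [i.comm, ha'', map_sub, B.d_d, sub_zero, (mem_deltaW_iff i n w.1).1 w.2]

/-- The connecting homomorphism `H^{n+1}(C) → H^{n+2}(A)` (spots). -/
noncomputable def ShortExact.δ (h : ShortExact i p) (n : ℕ) : C.Hs n →ₗ[k] A.Hs (n + 1) :=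
  liftSurj (h.deltaF n) (h.deltaF_surjective n) (h.deltaG n) (h.ker_deltaF_le n)

/-- Computation rule for `δ`: if `p b = z` and `i a = d b` then `δ [z] = [a]`. -/
theorem ShortExact.δ_mk (h : ShortExact i p) (n : ℕ) (z : C.X (n + 1)) (hz : C.d (n + 1) z = 0) (b : B.X (n + 1))
    (a : A.X (n + 2)) (hb : p.f (n + 1) b = z) (ha : i.f (n + 2) a = B.d (n + 1) b) :
    h.δ n (Hs.mk z hz) = Hs.mk a (h.d_snd_eq_zero n ⟨(b, a), (mem_deltaW_iff i n _).2 ha⟩) := by
  have : Hs.mk z hz = h.deltaF n ⟨(b, a), (mem_deltaW_iff i n _).2 ha⟩ := by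
    rw [h.deltaF_apply]; exact Hs.mk_congr hb.symm _
  rw [this, ShortExact.δ, liftSurj_apply, h.deltaG_apply]

/-- Exactness of `H(A) → H(B) → H(C)`. -/
theorem ShortExact.exact_map_map (h : ShortExact i p) (n : ℕ) : Function.Exact (i.mapHs n) (p.mapHs n) := by
  intro x
  constructor
  · intro hx
    induction x using Hs.induction_on with
    | _ b hb =>
      rw [Hom.mapHs_mk, Hs.mk_eq_zero_iff] at hx
      obtain ⟨y, hy⟩ := hx
      obtain ⟨y', rfl⟩ := h.surj n y
      have h0 : p.f (n + 1) (b - B.d n y') = 0 := by rw [map_sub, p.comm, hy, sub_self]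
      obtain ⟨a, ha⟩ := (h.exact (n + 1) _).1 h0
      have hda : A.d (n + 1) a = 0 := by
        apply h.inj (n + 2)
        rw [map_zero, i.comm, ha, map_sub, hb, B.d_d, sub_zero]
      refine ⟨Hs.mk a hda, ?_⟩
      rw [Hom.mapHs_mk, Hs.mk_eq_mk_iff]
      exact ⟨-y', by rw [map_neg, ha]; abel⟩
  · rintro ⟨y, rfl⟩
    induction y using Hs.induction_on with
    | _ a ha =>
      rw [Hom.mapHs_mk, Hom.mapHs_mk, Hs.mk_eq_zero_iff]
      exact ⟨0, by rw [map_zero, h.comp_eq_zero]⟩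

/-- Exactness of `H(B) → H(C) → H(A)[1]`. -/
theorem ShortExact.exact_map_δ (h : ShortExact i p) (n : ℕ) : Function.Exact (p.mapHs n) (h.δ n) := by
  intro x
  constructor
  · intro hx
    induction x using Hs.induction_on with
    | _ z hz =>
      obtain ⟨w, hw⟩ := h.exists_deltaW n z hz
      have hwm := (mem_deltaW_iff i n w.1).1 w.2
      rw [h.δ_mk n z hz w.1.1 w.1.2 hw hwm, Hs.mk_eq_zero_iff] at hx
      obtain ⟨a'', ha''⟩ := hx
      have hd : B.d (n + 1) (w.1.1 - i.f (n + 1) a'') = 0 := by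
        rw [map_sub, ← i.comm, ha'', hwm, sub_self]
      refine ⟨Hs.mk _ hd, ?_⟩
      rw [Hom.mapHs_mk]
      refine Hs.mk_congr ?_ _
      rw [map_sub, hw, h.comp_eq_zero, sub_zero]
  · rintro ⟨y, rfl⟩
    induction y using Hs.induction_on with
    | _ b hb =>
      rw [Hom.mapHs_mk, h.δ_mk n _ _ b 0 rfl (by rw [map_zero, hb]), Hs.mk_eq_zero_iff]
      exact ⟨0, map_zero _⟩

/-- Exactness of `H(C) → H(A)[1] → H(B)[1]`. -/
theorem ShortExact.exact_δ_map (h : ShortExact i p) (n : ℕ) : Function.Exact (h.δ n) (i.mapHs (n + 1)) := by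
  intro x
  constructor
  · intro hx
    induction x using Hs.induction_on with
    | _ a ha =>
      rw [Hom.mapHs_mk, Hs.mk_eq_zero_iff] at hx
      obtain ⟨b, hb⟩ := hx
      have hz : C.d (n + 1) (p.f (n + 1) b) = 0 := by
        rw [← p.comm, hb, h.comp_eq_zero]
      refine ⟨Hs.mk _ hz, ?_⟩
      rw [h.δ_mk n _ hz b a rfl hb.symm]
  · rintro ⟨y, rfl⟩
    induction y using Hs.induction_on with
    | _ z hz =>
      obtain ⟨w, hw⟩ := h.exists_deltaW n z hz
      have hwm := (mem_deltaW_iff i n w.1).1 w.2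
      rw [h.δ_mk n z hz w.1.1 w.1.2 hw hwm, Hom.mapHs_mk, Hs.mk_eq_zero_iff]
      exact ⟨w.1.1, hwm.symm⟩

end les

end Cx

end Fermat.Agent.CFT.HExt
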