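import Mathlib
import Fermat.Agent.CFT.HyperExt.Cx

set_option autoImplicit false

/-!
# The fiber of a degree-one map of complexes (S55, node HYPER-EXT, part 2)

* `Cx.Hom1 F G` : families `F^n → G^{n+1}` commuting with the differentials;
* `Cx.fib ψ` : the fiber complex `F^n × G^n`, `d (a, b) = (d a, ψ a - d b)`;
* the long exact sequence `H(G) → H(fib ψ) → H(F) → H(G)[1] → H(fib ψ)[1]`
  (`fib_exact_bdry_fst`, `fib_exact_fst_map`, `fib_exact_map_bdry`);
* the comparison with the kernel for a degreewise surjective `ψ` (`kerToFib_bijective`);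
* functoriality of the fiber and short exact sequences of fibers (`fibMap`, `fibMap_shortExact`).
-/

namespace Fermat.Agent.CFT.HExt

universe u v

variable {k : Type u} [CommRing k]

namespace Cx

/-- A linear map between terms of two complexes which preserves cycles and boundaries induces a
map between spot cohomologies. -/
def Hs.mapOf {C D : Cx.{u, v} k} {n m : ℕ} (φ : C.X (n + 1) →ₗ[k] D.X (m + 1))
    (hZ : ∀ z, C.d (n + 1) z = 0 → D.d (m + 1) (φ z) = 0)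
    (hB : ∀ y, ∃ y', D.d m y' = φ (C.d n y)) : C.Hs n →ₗ[k] D.Hs m :=
  Submodule.mapQ _ _
    ((φ.comp (C.Z n).subtype).codRestrict (D.Z m)
      (fun z => (D.mem_Z_iff m _).2 (hZ z.1 ((C.mem_Z_iff n z.1).1 z.2))))
    (by
      rintro ⟨z, hz⟩ hzB
      rw [Submodule.mem_comap] at hzB
      obtain ⟨y, hy⟩ := hzB
      rw [Submodule.mem_comap, Submodule.mem_comap]
      obtain ⟨y', hy'⟩ := hB y
      refine ⟨y', ?_⟩
      rw [hy', hy]
      rfl)

theorem Hs.mapOf_mk {C D : Cx.{u, v} k} {n m : ℕ} (φ : C.X (n + 1) →ₗ[k] D.X (m + 1))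
    (hZ : ∀ z, C.d (n + 1) z = 0 → D.d (m + 1) (φ z) = 0)
    (hB : ∀ y, ∃ y', D.d m y' = φ (C.d n y)) (z : C.X (n + 1)) (hz : C.d (n + 1) z = 0) :
    Hs.mapOf φ hZ hB (Hs.mk z hz) = Hs.mk (φ z) (hZ z hz) := rfl

/-- A degree-one map of complexes. -/
structure Hom1 (F G : Cx.{u, v} k) where
  /-- the components -/
  f : ∀ n, F.X n →ₗ[k] G.X (n + 1)
  comm : ∀ n (x : F.X n), f (n + 1) (F.d n x) = G.d (n + 1) (f n x)

variable {F G : Cx.{u, v} k}

/-- The map induced on spot cohomology by a degree-one map. -/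
def Hom1.mapHs (ψ : Hom1 F G) (n : ℕ) : F.Hs n →ₗ[k] G.Hs (n + 1) :=
  Hs.mapOf (ψ.f (n + 1)) (fun z hz => by rw [← ψ.comm, hz, map_zero])
    (fun y => ⟨ψ.f n y, (ψ.comm n y).symm⟩)

theorem Hom1.mapHs_mk (ψ : Hom1 F G) (n : ℕ) (z : F.X (n + 1)) (hz : F.d (n + 1) z = 0) :
    ψ.mapHs n (Hs.mk z hz) = Hs.mk (ψ.f (n + 1) z) (by rw [← ψ.comm, hz, map_zero]) := rfl

/-- The fiber of a degree-one map. -/
abbrev fib (ψ : Hom1 F G) : Cx.{u, v} k where
  X n := F.X n × G.X n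
  d n :=
    { toFun := fun x => (F.d n x.1, ψ.f n x.1 - G.d n x.2)
      map_add' := fun x y => by
        refine Prod.ext ?_ ?_
        · simp only [Prod.fst_add, map_add]
        · simp only [Prod.fst_add, Prod.snd_add, map_add]
          abel
      map_smul' := fun c x => by
        refine Prod.ext ?_ ?_
        · simp only [Prod.smul_fst, map_smul, RingHom.id_apply]
        · simp only [Prod.smul_fst, Prod.smul_snd, map_smul, RingHom.id_apply, smul_sub] }
  d_d n x := by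
    refine Prod.ext ?_ ?_
    · exact F.d_d n x.1
    · change ψ.f (n + 1) (F.d n x.1) - G.d (n + 1) (ψ.f n x.1 - G.d n x.2) = 0
      rw [map_sub, G.d_d, sub_zero, ψ.comm, sub_self]

theorem fib_d_apply (ψ : Hom1 F G) (n : ℕ) (x : F.X n × G.X n) :
    (fib ψ).d n x = (F.d n x.1, ψ.f n x.1 - G.d n x.2) := rfl

theorem fib_d_eq_zero_iff (ψ : Hom1 F G) (n : ℕ) (x : F.X n × G.X n) :
    (fib ψ).d n x = 0 ↔ F.d n x.1 = 0 ∧ ψ.f n x.1 = G.d n x.2 := by
  rw [fib_d_apply, Prod.mk_eq_zero, sub_eq_zero]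

/-- The projection of the fiber to `F`. -/
def fibFst (ψ : Hom1 F G) : Hom (fib ψ) F where
  f _ := LinearMap.fst k _ _
  comm _ _ := rfl

/-- The boundary map `H(G) → H(fib ψ)`, `[b] ↦ [(0, b)]`. -/
def fibBdry (ψ : Hom1 F G) (n : ℕ) : G.Hs n →ₗ[k] (fib ψ).Hs n :=
  Hs.mapOf (C := G) (D := fib ψ) (LinearMap.inr k _ _)
    (fun z hz => by
      rw [fib_d_eq_zero_iff]
      simp only [LinearMap.inr_apply, map_zero, hz, and_self])
    (fun y => ⟨(0, -y), by
      rw [fib_d_apply]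
      simp only [map_zero, map_neg, sub_neg_eq_add, zero_add, LinearMap.inr_apply]⟩)

theorem fibBdry_mk (ψ : Hom1 F G) (n : ℕ) (b : G.X (n + 1)) (hb : G.d (n + 1) b = 0) :
    fibBdry ψ n (Hs.mk b hb) = Hs.mk (C := fib ψ) ((0, b) : F.X (n + 1) × G.X (n + 1))
      ((fib_d_eq_zero_iff ψ (n + 1) _).2 ⟨map_zero _, by rw [map_zero, hb]⟩) := rfl

/-- Exactness of `H(G) → H(fib ψ) → H(F)`. -/
theorem fib_exact_bdry_fst (ψ : Hom1 F G) (n : ℕ) :
    Function.Exact (fibBdry ψ n) ((fibFst ψ).mapHs n) := by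
  intro x
  constructor
  · intro hx
    induction x using Hs.induction_on with
    | _ z hz =>
      rw [Hom.mapHs_mk, Hs.mk_eq_zero_iff] at hx
      obtain ⟨a', ha'⟩ := hx
      obtain ⟨hz1, hz2⟩ := (fib_d_eq_zero_iff ψ (n + 1) z).1 hz
      have hb : G.d (n + 1) (z.2 - ψ.f n a') = 0 := by
        rw [map_sub, ← hz2, ← ψ.comm, ha']
        exact sub_self _
      refine ⟨Hs.mk _ hb, ?_⟩
      rw [fibBdry_mk, Hs.mk_eq_mk_iff]
      refine ⟨(-a', 0), ?_⟩
      rw [fib_d_apply]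
      refine Prod.ext ?_ ?_
      · simp only [map_neg, ha']
        change -(fibFst ψ).f (n + 1) z = 0 - z.1
        rw [zero_sub]; rfl
      · simp only [map_neg, map_zero, sub_zero]
        change _ = (z.2 - ψ.f n a') - z.2
        abel
  · rintro ⟨y, rfl⟩
    induction y using Hs.induction_on with
    | _ b hb =>
      rw [fibBdry_mk, Hom.mapHs_mk, Hs.mk_eq_zero_iff]
      exact ⟨0, map_zero _⟩

/-- Exactness of `H(fib ψ) → H(F) → H(G)[1]`. -/
theorem fib_exact_fst_map (ψ : Hom1 F G) (n : ℕ) :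
    Function.Exact ((fibFst ψ).mapHs n) (ψ.mapHs n) := by
  intro x
  constructor
  · intro hx
    induction x using Hs.induction_on with
    | _ a ha =>
      rw [Hom1.mapHs_mk, Hs.mk_eq_zero_iff] at hx
      obtain ⟨b, hb⟩ := hx
      have hz : (fib ψ).d (n + 1) (a, b) = 0 :=
        (fib_d_eq_zero_iff ψ (n + 1) _).2 ⟨ha, hb.symm⟩
      exact ⟨Hs.mk _ hz, rfl⟩
  · rintro ⟨y, rfl⟩
    induction y using Hs.induction_on with
    | _ z hz =>
      obtain ⟨-, hz2⟩ := (fib_d_eq_zero_iff ψ (n + 1) z).1 hz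
      rw [Hom.mapHs_mk, Hom1.mapHs_mk, Hs.mk_eq_zero_iff]
      exact ⟨z.2, hz2.symm⟩

/-- Exactness of `H(F) → H(G)[1] → H(fib ψ)[1]`. -/
theorem fib_exact_map_bdry (ψ : Hom1 F G) (n : ℕ) :
    Function.Exact (ψ.mapHs n) (fibBdry ψ (n + 1)) := by
  intro x
  constructor
  · intro hx
    induction x using Hs.induction_on with
    | _ b hb =>
      rw [fibBdry_mk, Hs.mk_eq_zero_iff] at hx
      obtain ⟨w, hw⟩ := hx
      rw [fib_d_apply, Prod.mk.injEq] at hw
      obtain ⟨hw1, hw2⟩ := hw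
      refine ⟨Hs.mk w.1 hw1, ?_⟩
      rw [Hom1.mapHs_mk, Hs.mk_eq_mk_iff]
      exact ⟨w.2, by rw [← hw2]; abel⟩
  · rintro ⟨y, rfl⟩
    induction y using Hs.induction_on with
    | _ a ha =>
      rw [Hom1.mapHs_mk, fibBdry_mk, Hs.mk_eq_zero_iff]
      refine ⟨(a, 0), ?_⟩
      rw [fib_d_apply]
      simp only [ha, map_zero, sub_zero]

section kernel

variable {K : Cx.{u, v} k}

/-- The comparison map from a complex `K` killed by `ψ` to the fiber, `c ↦ (ι c, 0)`. -/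
def kerToFib (ι : Hom K F) (ψ : Hom1 F G) (h0 : ∀ n (c : K.X n), ψ.f n (ι.f n c) = 0) :
    Hom K (fib ψ) where
  f n :=
    { toFun := fun c => (ι.f n c, 0)
      map_add' := fun x y => by rw [map_add, Prod.mk_add_mk, add_zero]
      map_smul' := fun c x => by rw [map_smul, RingHom.id_apply, Prod.smul_mk, smul_zero] }
  comm n c := by
    rw [fib_d_apply]
    change (ι.f (n + 1) (K.d n c), (0 : G.X (n + 1))) = (F.d n (ι.f n c), ψ.f n (ι.f n c) - G.d n 0)
    rw [ι.comm, h0, map_zero, sub_zero]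

theorem kerToFib_f_apply (ι : Hom K F) (ψ : Hom1 F G)
    (h0 : ∀ n (c : K.X n), ψ.f n (ι.f n c) = 0) (n : ℕ) (c : K.X n) :
    (kerToFib ι ψ h0).f n c = (ι.f n c, 0) := rfl

/-- If `0 → K → F → G[1] → 0` is degreewise exact (and `G^0 → G^1` is zero), then `K → fib ψ` is a
quasi-isomorphism at all spots. -/
theorem kerToFib_bijective (ι : Hom K F) (ψ : Hom1 F G)
    (hinj : ∀ n, Function.Injective (ι.f n)) (hex : ∀ n, Function.Exact (ι.f n) (ψ.f n))
    (hsurj : ∀ n, Function.Surjective (ψ.f n)) (hG0 : ∀ b : G.X 0, G.d 0 b = 0) (n : ℕ) :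
    Function.Bijective
      ((kerToFib ι ψ (fun n c => (hex n).apply_apply_eq_zero c)).mapHs n) := by
  have h0 : ∀ n (c : K.X n), ψ.f n (ι.f n c) = 0 := fun n c => (hex n).apply_apply_eq_zero c
  constructor
  · -- injectivity
    rw [← LinearMap.ker_eq_bot, LinearMap.ker_eq_bot']
    intro x hx
    induction x using Hs.induction_on with
    | _ c hc =>
      rw [Hom.mapHs_mk, Hs.mk_eq_zero_iff] at hx
      obtain ⟨w, hw⟩ := hx
      rw [fib_d_apply, kerToFib_f_apply, Prod.mk.injEq] at hw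
      obtain ⟨hw1, hw2⟩ := hw
      rw [sub_eq_zero] at hw2
      -- `w = (a', b')` with `d a' = ι c` and `ψ a' = d b'`
      have key : ∃ a'' : F.X n, ψ.f n a'' = 0 ∧ F.d n a'' = ι.f (n + 1) c := by
        cases n with
        | zero =>
          refine ⟨w.1, ?_, hw1⟩
          rw [hw2, hG0]
        | succ m =>
          obtain ⟨a'', ha''⟩ := hsurj m w.2
          refine ⟨w.1 - F.d m a'', ?_, ?_⟩
          · rw [map_sub, ψ.comm, ha'', hw2, sub_self]
          · rw [map_sub, F.d_d, sub_zero, hw1]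
      obtain ⟨a'', h1, h2⟩ := key
      obtain ⟨c', hc'⟩ := (hex n _).1 h1
      rw [Hs.mk_eq_zero_iff]
      refine ⟨c', hinj (n + 1) ?_⟩
      rw [ι.comm, hc', h2]
  · -- surjectivity
    intro x
    induction x using Hs.induction_on with
    | _ z hz =>
      obtain ⟨hz1, hz2⟩ := (fib_d_eq_zero_iff ψ (n + 1) z).1 hz
      obtain ⟨a', ha'⟩ := hsurj n z.2
      have h1 : ψ.f (n + 1) (z.1 - F.d n a') = 0 := by
        rw [map_sub, ψ.comm, ha', hz2, sub_self]
      obtain ⟨c, hc⟩ := (hex (n + 1) _).1 h1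
      have hdc : K.d (n + 1) c = 0 := by
        apply hinj (n + 2)
        rw [map_zero, ι.comm, hc, map_sub, hz1, F.d_d, sub_zero]
      refine ⟨Hs.mk c hdc, ?_⟩
      rw [Hom.mapHs_mk, Hs.mk_eq_mk_iff]
      refine ⟨(-a', 0), ?_⟩
      rw [fib_d_apply, kerToFib_f_apply, hc]
      refine Prod.ext ?_ ?_
      · simp only [map_neg, Prod.fst_sub]
        abel
      · simp only [map_neg, map_zero, sub_zero, ha', Prod.snd_sub, zero_sub]

end kernel

section functoriality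

variable {F₁ G₁ F₂ G₂ F₃ G₃ : Cx.{u, v} k}

/-- The map induced on fibers by a commutative square. -/
def fibMap (ψ₁ : Hom1 F₁ G₁) (ψ₂ : Hom1 F₂ G₂) (α : Hom F₁ F₂) (β : Hom G₁ G₂)
    (hsq : ∀ n (x : F₁.X n), β.f (n + 1) (ψ₁.f n x) = ψ₂.f n (α.f n x)) :
    Hom (fib ψ₁) (fib ψ₂) where
  f n := LinearMap.prodMap (α.f n) (β.f n)
  comm n x := by
    rw [fib_d_apply, fib_d_apply]
    simp only [LinearMap.prodMap_apply, α.comm, map_sub, hsq, β.comm]

theorem fibMap_f_apply (ψ₁ : Hom1 F₁ G₁) (ψ₂ : Hom1 F₂ G₂) (α : Hom F₁ F₂) (β : Hom G₁ G₂)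
    (hsq : ∀ n (x : F₁.X n), β.f (n + 1) (ψ₁.f n x) = ψ₂.f n (α.f n x)) (n : ℕ)
    (x : F₁.X n × G₁.X n) : (fibMap ψ₁ ψ₂ α β hsq).f n x = (α.f n x.1, β.f n x.2) := rfl

/-- A short exact sequence of squares induces a short exact sequence of fibers. -/
theorem fibMap_shortExact (ψ₁ : Hom1 F₁ G₁) (ψ₂ : Hom1 F₂ G₂) (ψ₃ : Hom1 F₃ G₃)
    (α : Hom F₁ F₂) (β : Hom G₁ G₂) (α' : Hom F₂ F₃) (β' : Hom G₂ G₃)
    (hsq : ∀ n (x : F₁.X n), β.f (n + 1) (ψ₁.f n x) = ψ₂.f n (α.f n x))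
    (hsq' : ∀ n (x : F₂.X n), β'.f (n + 1) (ψ₂.f n x) = ψ₃.f n (α'.f n x))
    (hα : ShortExact α α') (hβ : ShortExact β β') :
    ShortExact (fibMap ψ₁ ψ₂ α β hsq) (fibMap ψ₂ ψ₃ α' β' hsq') where
  inj n := by
    intro x y hxy
    rw [fibMap_f_apply, fibMap_f_apply, Prod.mk.injEq] at hxy
    exact Prod.ext (hα.inj n hxy.1) (hβ.inj n hxy.2)
  surj n := by
    rintro ⟨a, b⟩
    obtain ⟨a', rfl⟩ := hα.surj n a
    obtain ⟨b', rfl⟩ := hβ.surj n b
    exact ⟨(a', b'), rfl⟩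
  exact n := by
    intro x
    constructor
    · intro hx
      rw [fibMap_f_apply, Prod.mk_eq_zero] at hx
      obtain ⟨a, ha⟩ := (hα.exact n _).1 hx.1
      obtain ⟨b, hb⟩ := (hβ.exact n _).1 hx.2
      exact ⟨(a, b), by rw [fibMap_f_apply]; exact Prod.ext ha hb⟩
    · rintro ⟨y, rfl⟩
      rw [fibMap_f_apply, fibMap_f_apply, Prod.mk_eq_zero]
      exact ⟨hα.comp_eq_zero n _, hβ.comp_eq_zero n _⟩

end functoriality

end Cx

end Fermat.Agent.CFT.HExt
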