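import Mathlib
import Fermat.Agent.CFT.HyperExt.Fib

set_option autoImplicit false

/-!
# Prepending a zero term; cohomology in all degrees; the fiber of a chain map
(S55, node HYPER-EXT, part 3)

* `Cx.sh C` : the complex `0 → C^0 → C^1 → …` with `PUnit` in degree `0`;
* `Cx.H C n := (sh C).Hs n` : the cohomology of `C` in degree `n` (all `n ≥ 0`), with `H.mk`;
* `Cx.Fib φ` : the fiber of a chain map `φ : F → G`, with
  `Fib^0 = 0 × 0`, `Fib^1 = F^0 × 0`, `Fib^{n+2} = F^{n+1} × G^n`; `Cx.E φ n` its cohomology;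
* the long exact sequence `E^n → H^n(F) → H^n(G) → E^{n+1} → H^{n+1}(F)`;
* `kerEquivE` : for a short exact sequence `0 → K → F → G → 0`, `H^n(K) ≃ E^n(φ)`;
* `EShortExact` : a short exact sequence of chain maps induces a long exact sequence of the `E`.
-/

namespace Fermat.Agent.CFT.HExt

universe u v

variable {k : Type u} [CommRing k]

namespace Cx

/-- Terms of the shifted complex. -/
def shX (X : ℕ → Type v) : ℕ → Type v
  | 0 => PUnit.{v + 1}
  | n + 1 => X n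

instance shACG (C : Cx.{u, v} k) : ∀ n, AddCommGroup (shX C.X n)
  | 0 => inferInstanceAs (AddCommGroup PUnit.{v + 1})
  | n + 1 => C.instACG n

instance shMod (C : Cx.{u, v} k) : ∀ n, Module k (shX C.X n)
  | 0 => inferInstanceAs (Module k PUnit.{v + 1})
  | n + 1 => C.instMod n

/-- The differential of the shifted complex. -/
def shd (C : Cx.{u, v} k) : ∀ n, shX C.X n →ₗ[k] shX C.X (n + 1)
  | 0 => 0
  | n + 1 => C.d n

/-- The complex `0 → C^0 → C^1 → …`. -/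
def sh (C : Cx.{u, v} k) : Cx.{u, v} k where
  X := shX C.X
  d := shd C
  d_d n x := by
    cases n with
    | zero => exact map_zero _
    | succ m => exact C.d_d m x

theorem sh_d_zero (C : Cx.{u, v} k) (b : (sh C).X 0) : (sh C).d 0 b = 0 := rfl

/-- The shift of a morphism. -/
def shHom {A B : Cx.{u, v} k} (f : Hom A B) : Hom (sh A) (sh B) where
  f n := match n with
    | 0 => LinearMap.id
    | n + 1 => f.f n
  comm n x := by
    cases n with
    | zero => exact (map_zero _).trans (map_zero _).symm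
    | succ m => exact f.comm m x

theorem ShortExact.sh {A B C : Cx.{u, v} k} {i : Hom A B} {p : Hom B C} (h : ShortExact i p) :
    ShortExact (shHom i) (shHom p) where
  inj n := by
    cases n with
    | zero => exact fun _ _ _ => rfl
    | succ m => exact h.inj m
  surj n := by
    cases n with
    | zero => exact fun x => ⟨x, rfl⟩
    | succ m => exact h.surj m
  exact n := by
    cases n with
    | zero => exact fun x => ⟨fun _ => ⟨x, rfl⟩, fun _ => rfl⟩
    | succ m => exact h.exact m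

/-- Cohomology in degree `n` (all `n ≥ 0`). -/
def H (C : Cx.{u, v} k) (n : ℕ) : Type v := (sh C).Hs n

instance (C : Cx.{u, v} k) (n : ℕ) : AddCommGroup (C.H n) := by unfold H; infer_instance

instance (C : Cx.{u, v} k) (n : ℕ) : Module k (C.H n) := by unfold H; infer_instance

/-- The class of a cocycle. -/
def H.mk {C : Cx.{u, v} k} {n : ℕ} (z : C.X n) (hz : C.d n z = 0) : C.H n :=
  Hs.mk (C := sh C) (n := n) z hz

theorem H.induction_on {C : Cx.{u, v} k} {n : ℕ} {P : C.H n → Prop} (x : C.H n)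
    (h : ∀ (z : C.X n) (hz : C.d n z = 0), P (H.mk z hz)) : P x :=
  Hs.induction_on (C := sh C) x h

theorem H.mk_eq_zero_iff_succ {C : Cx.{u, v} k} {n : ℕ} {z : C.X (n + 1)}
    {hz : C.d (n + 1) z = 0} : H.mk z hz = 0 ↔ ∃ y, C.d n y = z :=
  Hs.mk_eq_zero_iff (C := sh C) (n := n + 1)

theorem H.mk_eq_zero_iff_zero {C : Cx.{u, v} k} {z : C.X 0} {hz : C.d 0 z = 0} :
    H.mk z hz = 0 ↔ z = 0 := by
  refine (Hs.mk_eq_zero_iff (C := sh C) (n := 0)).trans ⟨?_, fun h => ⟨0, h ▸ rfl⟩⟩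
  rintro ⟨y, rfl⟩
  rfl

theorem H.mk_eq_mk_iff_succ {C : Cx.{u, v} k} {n : ℕ} {z z' : C.X (n + 1)}
    {hz : C.d (n + 1) z = 0} {hz' : C.d (n + 1) z' = 0} :
    H.mk z hz = H.mk z' hz' ↔ ∃ y, C.d n y = z - z' :=
  Hs.mk_eq_mk_iff (C := sh C) (n := n + 1)

theorem H.mk_eq_mk_iff_zero {C : Cx.{u, v} k} {z z' : C.X 0} {hz : C.d 0 z = 0}
    {hz' : C.d 0 z' = 0} : H.mk z hz = H.mk z' hz' ↔ z = z' := by
  refine (Hs.mk_eq_mk_iff (C := sh C) (n := 0)).trans ⟨?_, fun h => ⟨0, ?_⟩⟩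
  · rintro ⟨y, hy⟩
    exact sub_eq_zero.1 hy.symm
  · subst h
    change (0 : C.X 0) = z - z
    exact (sub_self z).symm

theorem H.mk_add {C : Cx.{u, v} k} {n : ℕ} {z z' : C.X n} (hz : C.d n z = 0)
    (hz' : C.d n z' = 0) :
    H.mk (z + z') (by rw [map_add, hz, hz', add_zero]) = H.mk z hz + H.mk z' hz' := rfl

theorem H.mk_smul {C : Cx.{u, v} k} {n : ℕ} (c : k) {z : C.X n} (hz : C.d n z = 0) :
    H.mk (c • z) (by rw [map_smul, hz, smul_zero]) = c • H.mk z hz := rfl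

theorem H.mk_congr {C : Cx.{u, v} k} {n : ℕ} {z z' : C.X n} (h : z = z') (hz : C.d n z = 0) :
    H.mk z hz = H.mk z' (h ▸ hz) := by
  subst h; rfl

/-- The induced map on cohomology. -/
def Hom.mapH {A B : Cx.{u, v} k} (f : Hom A B) (n : ℕ) : A.H n →ₗ[k] B.H n :=
  (shHom f).mapHs n

theorem Hom.mapH_mk {A B : Cx.{u, v} k} (f : Hom A B) (n : ℕ) (z : A.X n) (hz : A.d n z = 0) :
    f.mapH n (H.mk z hz) = H.mk (f.f n z) (by rw [← f.comm, hz, map_zero]) := rfl

theorem Hom.mapH_id (A : Cx.{u, v} k) (n : ℕ) : (Hom.id A).mapH n = LinearMap.id := by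
  ext x
  induction x using H.induction_on with
  | _ z hz => rfl

theorem Hom.mapH_comp {A B C : Cx.{u, v} k} (g : Hom B C) (f : Hom A B) (n : ℕ) :
    (g.comp f).mapH n = (g.mapH n).comp (f.mapH n) := by
  ext x
  induction x using H.induction_on with
  | _ z hz => rfl

/-! ### The long exact sequence of a short exact sequence of complexes, in all degrees -/

section les

variable {A B C : Cx.{u, v} k} {i : Hom A B} {p : Hom B C}

/-- The connecting homomorphism `H^n(C) → H^{n+1}(A)`. -/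
noncomputable def ShortExact.δH (h : ShortExact i p) (n : ℕ) : C.H n →ₗ[k] A.H (n + 1) :=
  h.sh.δ n

theorem ShortExact.δH_mk (h : ShortExact i p) (n : ℕ) (z : C.X n) (hz : C.d n z = 0) (b : B.X n)
    (a : A.X (n + 1)) (hb : p.f n b = z) (ha : i.f (n + 1) a = B.d n b) :
    ∃ ha0 : A.d (n + 1) a = 0, h.δH n (H.mk z hz) = H.mk a ha0 :=
  ⟨_, h.sh.δ_mk n z hz b a hb ha⟩

theorem ShortExact.exact_mapH_mapH (h : ShortExact i p) (n : ℕ) :
    Function.Exact (i.mapH n) (p.mapH n) := h.sh.exact_map_map n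

theorem ShortExact.exact_mapH_δH (h : ShortExact i p) (n : ℕ) :
    Function.Exact (p.mapH n) (h.δH n) := h.sh.exact_map_δ n

theorem ShortExact.exact_δH_mapH (h : ShortExact i p) (n : ℕ) :
    Function.Exact (h.δH n) (i.mapH (n + 1)) := h.sh.exact_δ_map n

theorem ShortExact.mapH_zero_injective (h : ShortExact i p) : Function.Injective (i.mapH 0) := by
  rw [← LinearMap.ker_eq_bot, LinearMap.ker_eq_bot']
  intro x hx
  induction x using H.induction_on with
  | _ z hz =>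
    rw [Hom.mapH_mk, H.mk_eq_zero_iff_zero] at hx
    rw [H.mk_eq_zero_iff_zero]
    exact h.inj 0 (hx.trans (map_zero _).symm)

end les

/-! ### The fiber of a chain map -/

section fiber

variable {F G : Cx.{u, v} k}

/-- A chain map `F → G` as a degree-one map `F → sh G`. -/
def Hom.toHom1 (φ : Hom F G) : Hom1 F (sh G) where
  f n := φ.f n
  comm n x := φ.comm n x

/-- The fiber complex of a chain map (with two extra zero terms in low degrees, so that its spot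
cohomology `Hs n` is the degree `n` cohomology of the usual fiber). -/
abbrev Fib (φ : Hom F G) : Cx.{u, v} k := fib (shHom φ).toHom1

/-- The cohomology of the fiber of `φ` in degree `n`. -/
def E (φ : Hom F G) (n : ℕ) : Type v := (Fib φ).Hs n

instance (φ : Hom F G) (n : ℕ) : AddCommGroup (E φ n) := by unfold E; infer_instance

instance (φ : Hom F G) (n : ℕ) : Module k (E φ n) := by unfold E; infer_instance

/-- `E^n(φ) → H^n(F)`. -/
def EtoH (φ : Hom F G) (n : ℕ) : E φ n →ₗ[k] F.H n := (fibFst (shHom φ).toHom1).mapHs n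

/-- The identification `Hs (sh G) (n + 1) = Hs G n`. -/
def shiftEquiv (G : Cx.{u, v} k) (n : ℕ) : (sh G).Hs (n + 1) ≃ₗ[k] G.Hs n :=
  LinearEquiv.refl k (G.Hs n)

/-- `H^n(G) → E^{n+1}(φ)`. -/
def HtoE (φ : Hom F G) (n : ℕ) : G.H n →ₗ[k] E φ (n + 1) :=
  (fibBdry (shHom φ).toHom1 (n + 1)).comp (shiftEquiv (sh G) n).symm.toLinearMap

theorem EtoH_mk (φ : Hom F G) (n : ℕ) (w : (Fib φ).X (n + 1)) (hw : (Fib φ).d (n + 1) w = 0) :
    EtoH φ n (Hs.mk (C := Fib φ) w hw) =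
      H.mk (C := F) (n := n) w.1 ((fib_d_eq_zero_iff (shHom φ).toHom1 (n + 1) w).1 hw).1 := rfl

theorem HtoE_mk (φ : Hom F G) (n : ℕ) (z : G.X n) (hz : G.d n z = 0) :
    HtoE φ n (H.mk z hz) = Hs.mk (C := Fib φ) (n := n + 1)
      ((0, z) : (sh F).X (n + 2) × (sh (sh G)).X (n + 2))
      ((fib_d_eq_zero_iff (shHom φ).toHom1 (n + 2) _).2 ⟨map_zero _, by
        rw [map_zero]; exact hz.symm⟩) := rfl

theorem exact_EtoH_mapH (φ : Hom F G) (n : ℕ) : Function.Exact (EtoH φ n) (φ.mapH n) :=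
  fib_exact_fst_map (shHom φ).toHom1 n

theorem exact_mapH_HtoE (φ : Hom F G) (n : ℕ) : Function.Exact (φ.mapH n) (HtoE φ n) :=
  fib_exact_map_bdry (shHom φ).toHom1 n

theorem exact_HtoE_EtoH (φ : Hom F G) (n : ℕ) : Function.Exact (HtoE φ n) (EtoH φ (n + 1)) := by
  intro x
  refine (fib_exact_bdry_fst (shHom φ).toHom1 (n + 1) x).trans ?_
  constructor
  · rintro ⟨y, rfl⟩
    exact ⟨shiftEquiv (sh G) n y, rfl⟩
  · rintro ⟨y, rfl⟩
    exact ⟨_, rfl⟩

theorem EtoH_zero_injective (φ : Hom F G) : Function.Injective (EtoH φ 0) := by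
  rw [← LinearMap.ker_eq_bot, LinearMap.ker_eq_bot']
  intro x hx
  obtain ⟨y, rfl⟩ := (fib_exact_bdry_fst (shHom φ).toHom1 0 x).1 hx
  induction y using Hs.induction_on with
  | _ b hb =>
    have hb0 : Hs.mk (C := sh (sh G)) (n := 0) b hb = 0 := by
      rw [Hs.mk_eq_zero_iff]
      exact ⟨0, rfl⟩
    rw [hb0]
    exact map_zero _

end fiber

/-! ### Comparison with the kernel -/

section kernel

variable {K F G : Cx.{u, v} k} {ι : Hom K F} {φ : Hom F G}

/-- `H^n(K) → E^n(φ)` for a complex `K` mapping to the kernel of `φ`. -/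
noncomputable def kerToE (h : ShortExact ι φ) (n : ℕ) : K.H n →ₗ[k] E φ n :=
  (kerToFib (shHom ι) (shHom φ).toHom1
    (fun n c => (h.sh.exact n).apply_apply_eq_zero c)).mapHs n

theorem kerToE_bijective (h : ShortExact ι φ) (n : ℕ) : Function.Bijective (kerToE h n) :=
  kerToFib_bijective (shHom ι) (shHom φ).toHom1 h.sh.inj h.sh.exact h.sh.surj
    (fun b => sh_d_zero (sh G) b) n

/-- For a short exact sequence `0 → K → F → G → 0`: `H^n(K) ≃ E^n(φ)`. -/
noncomputable def kerEquivE (h : ShortExact ι φ) (n : ℕ) : K.H n ≃ₗ[k] E φ n :=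
  LinearEquiv.ofBijective (kerToE h n) (kerToE_bijective h n)

theorem EtoH_kerToE (h : ShortExact ι φ) (n : ℕ) (x : K.H n) :
    EtoH φ n (kerToE h n x) = ι.mapH n x := by
  induction x using H.induction_on with
  | _ z hz => rfl

end kernel

/-! ### Short exact sequences of chain maps -/

section functoriality

variable {F₁ G₁ F₂ G₂ F₃ G₃ : Cx.{u, v} k}

/-- The map induced on fibers by a commutative square of chain maps. -/
def FibMap (φ₁ : Hom F₁ G₁) (φ₂ : Hom F₂ G₂) (α : Hom F₁ F₂) (β : Hom G₁ G₂)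
    (hsq : ∀ n (x : F₁.X n), β.f n (φ₁.f n x) = φ₂.f n (α.f n x)) : Hom (Fib φ₁) (Fib φ₂) :=
  fibMap (shHom φ₁).toHom1 (shHom φ₂).toHom1 (shHom α) (shHom (shHom β)) (by
    intro n x
    cases n with
    | zero => rfl
    | succ m => exact hsq m x)

/-- The map induced on `E` by a commutative square of chain maps. -/
def EMap (φ₁ : Hom F₁ G₁) (φ₂ : Hom F₂ G₂) (α : Hom F₁ F₂) (β : Hom G₁ G₂)
    (hsq : ∀ n (x : F₁.X n), β.f n (φ₁.f n x) = φ₂.f n (α.f n x)) (n : ℕ) :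
    E φ₁ n →ₗ[k] E φ₂ n :=
  (FibMap φ₁ φ₂ α β hsq).mapHs n

theorem EMap_mk (φ₁ : Hom F₁ G₁) (φ₂ : Hom F₂ G₂) (α : Hom F₁ F₂) (β : Hom G₁ G₂)
    (hsq : ∀ n (x : F₁.X n), β.f n (φ₁.f n x) = φ₂.f n (α.f n x)) (n : ℕ)
    (w : (Fib φ₁).X (n + 1)) (hw : (Fib φ₁).d (n + 1) w = 0) :
    EMap φ₁ φ₂ α β hsq n (Hs.mk (C := Fib φ₁) w hw) =
      Hs.mk (C := Fib φ₂) ((FibMap φ₁ φ₂ α β hsq).f (n + 1) w)
        (by rw [← (FibMap φ₁ φ₂ α β hsq).comm, hw, map_zero]) := rfl

theorem EtoH_EMap (φ₁ : Hom F₁ G₁) (φ₂ : Hom F₂ G₂) (α : Hom F₁ F₂) (β : Hom G₁ G₂)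
    (hsq : ∀ n (x : F₁.X n), β.f n (φ₁.f n x) = φ₂.f n (α.f n x)) (n : ℕ) (x : E φ₁ n) :
    EtoH φ₂ n (EMap φ₁ φ₂ α β hsq n x) = α.mapH n (EtoH φ₁ n x) := by
  induction x using Hs.induction_on with
  | _ z hz => rfl

theorem EMap_HtoE (φ₁ : Hom F₁ G₁) (φ₂ : Hom F₂ G₂) (α : Hom F₁ F₂) (β : Hom G₁ G₂)
    (hsq : ∀ n (x : F₁.X n), β.f n (φ₁.f n x) = φ₂.f n (α.f n x)) (n : ℕ) (x : G₁.H n) :
    EMap φ₁ φ₂ α β hsq (n + 1) (HtoE φ₁ n x) = HtoE φ₂ n (β.mapH n x) := by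
  induction x using H.induction_on with
  | _ z hz =>
    rw [HtoE_mk, EMap_mk, Hom.mapH_mk, HtoE_mk]
    refine Hs.mk_congr' (C := Fib φ₂) ?_
    change ((shHom α).f (n + 2) 0, (shHom (shHom β)).f (n + 2) z) = (0, β.f n z)
    rw [map_zero]
    rfl

theorem FibMap_shortExact (φ₁ : Hom F₁ G₁) (φ₂ : Hom F₂ G₂) (φ₃ : Hom F₃ G₃)
    (α : Hom F₁ F₂) (β : Hom G₁ G₂) (α' : Hom F₂ F₃) (β' : Hom G₂ G₃)
    (hsq : ∀ n (x : F₁.X n), β.f n (φ₁.f n x) = φ₂.f n (α.f n x))
    (hsq' : ∀ n (x : F₂.X n), β'.f n (φ₂.f n x) = φ₃.f n (α'.f n x))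
    (hα : ShortExact α α') (hβ : ShortExact β β') :
    ShortExact (FibMap φ₁ φ₂ α β hsq) (FibMap φ₂ φ₃ α' β' hsq') :=
  fibMap_shortExact _ _ _ _ _ _ _ _ _ hα.sh hβ.sh.sh

end functoriality

end Cx

end Fermat.Agent.CFT.HExt
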