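import Mathlib
import Fermat.Agent.CFT.HyperExt.Shift

set_option autoImplicit false

/-!
# Bicartesian squares and the octahedral long exact sequence (S55, node HYPER-EXT, part 5)

* `fibMap_bijective_of_bicartesian` / `EMap_bijective_of_bicartesian` : for a commutative square
  of chain maps which is degreewise bicartesian (`0 → A → B₁ × B₂ → C → 0` exact), the induced
  map between the fibers of `A → B₂` and `B₁ → C` is a quasi-isomorphism.
  (Application: a morphism of lattice resolutions over `id_M` induces an isomorphism on hyper-Ext.)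
* the octahedral sequence of composable chain maps `F -φ→ G -ψ→ K`:
  `E^n(φ) → E^n(ψ φ) → E^n(ψ) → E^{n+1}(φ) → E^{n+1}(ψ φ)` is exact
  (`exact_octU_octV`, `exact_octV_octW`, `exact_octW_octU`).
  (Application: three nested lattices `L₁ ⊆ L₂ ⊆ L₃` give the long exact sequence of hyper-Ext in
  the first variable for `0 → L₂/L₁ → L₃/L₁ → L₃/L₂ → 0`.)
-/

namespace Fermat.Agent.CFT.HExt

universe u v

variable {k : Type u} [CommRing k]

namespace Cx

/-! ### Bicartesian squares -/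

section bicartesian

variable {A B₁ B₂ C : Cx.{u, v} k}

/-- Spot-level statement: the square `ψ₁ : A → B₂` (degree one), `α : A → B₁`, `β : B₂ → C`,
`ψ₂ : B₁ → C` (degree one) is degreewise bicartesian; then `fib ψ₁ → fib ψ₂` is a
quasi-isomorphism at all spots. -/
theorem fibMap_bijective_of_bicartesian (ψ₁ : Hom1 A B₂) (ψ₂ : Hom1 B₁ C) (α : Hom A B₁)
    (β : Hom B₂ C) (hsq : ∀ n (x : A.X n), β.f (n + 1) (ψ₁.f n x) = ψ₂.f n (α.f n x))
    (hinj : ∀ n (x : A.X n), α.f n x = 0 → ψ₁.f n x = 0 → x = 0)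
    (hex : ∀ n (y₁ : B₁.X n) (y₂ : B₂.X (n + 1)), ψ₂.f n y₁ = β.f (n + 1) y₂ →
      ∃ x : A.X n, α.f n x = y₁ ∧ ψ₁.f n x = y₂)
    (hsurj : ∀ n (c : C.X (n + 1)), ∃ (y₁ : B₁.X n) (y₂ : B₂.X (n + 1)),
      ψ₂.f n y₁ - β.f (n + 1) y₂ = c)
    (hβ0 : Function.Surjective (β.f 0)) (n : ℕ) :
    Function.Bijective ((fibMap ψ₁ ψ₂ α β hsq).mapHs n) := by
  constructor
  · -- injectivity
    rw [← LinearMap.ker_eq_bot, LinearMap.ker_eq_bot']
    intro ξ hξ
    induction ξ using Hs.induction_on with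
    | _ z hz =>
      obtain ⟨hz1, hz2⟩ := (fib_d_eq_zero_iff ψ₁ (n + 1) z).1 hz
      rw [Hom.mapHs_mk, Hs.mk_eq_zero_iff] at hξ
      obtain ⟨uw, huw⟩ := hξ
      rw [fib_d_apply, fibMap_f_apply, Prod.mk.injEq] at huw
      obtain ⟨hu1, hu2⟩ := huw
      -- `α z.1 = d uw.1`, `β z.2 = ψ₂ uw.1 - d uw.2`
      -- find `y₁ : B₂^n`, `u' : B₁^n` with `β (z.2 - d y₁) = ψ₂ u'` and `d u' = d uw.1`
      have key : ∃ (u' : B₁.X n) (y₁ : B₂.X n), B₁.d n u' = α.f (n + 1) z.1 ∧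
          ψ₂.f n u' = β.f (n + 1) (z.2 + B₂.d n y₁) := by
        cases n with
        | zero =>
          obtain ⟨y₁, hy₁⟩ := hβ0 uw.2
          refine ⟨uw.1, y₁, hu1, ?_⟩
          rw [map_add, β.comm, hy₁, ← hu2]
          abel
        | succ m =>
          obtain ⟨u₁, y₁, h1⟩ := hsurj m uw.2
          refine ⟨uw.1 - B₁.d m u₁, -y₁, ?_, ?_⟩
          · rw [map_sub, B₁.d_d, sub_zero, hu1]
          · rw [map_sub, ψ₂.comm, map_add, map_neg, map_neg, β.comm, ← hu2, ← h1, map_sub]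
            abel
      obtain ⟨u', y₁, hk1, hk2⟩ := key
      obtain ⟨x', hx1, hx2⟩ := hex n u' _ hk2
      rw [Hs.mk_eq_zero_iff]
      refine ⟨(x', y₁), ?_⟩
      rw [fib_d_apply]
      refine Prod.ext ?_ ?_
      · change A.d n x' = z.1
        have h0 : A.d n x' - z.1 = 0 := by
          apply hinj (n + 1)
          · rw [map_sub, α.comm, hx1, hk1, sub_self]
          · rw [map_sub, ψ₁.comm, hx2, map_add, B₂.d_d, add_zero, hz2, sub_self]
        exact sub_eq_zero.1 h0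
      · change ψ₁.f n x' - B₂.d n y₁ = z.2
        rw [hx2]
        abel
  · -- surjectivity
    intro ξ
    induction ξ using Hs.induction_on with
    | _ z hz =>
      obtain ⟨hz1, hz2⟩ := (fib_d_eq_zero_iff ψ₂ (n + 1) z).1 hz
      obtain ⟨u₀, y₀, h0⟩ := hsurj n z.2
      -- `z - d (u₀, 0) = (z.1 - d u₀, -β y₀)`
      have h1 : ψ₂.f (n + 1) (z.1 - B₁.d n u₀) = β.f (n + 2) (B₂.d (n + 1) (-y₀)) := by
        rw [map_sub, ψ₂.comm, hz2, ← h0, map_sub, map_neg, map_neg, ← β.comm]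
        abel
      obtain ⟨x, hx1, hx2⟩ := hex (n + 1) _ _ h1
      have hdx : A.d (n + 1) x = 0 := by
        apply hinj (n + 2)
        · rw [α.comm, hx1, map_sub, hz1, B₁.d_d, sub_zero]
        · rw [ψ₁.comm, hx2, B₂.d_d]
      have hcyc : (fib ψ₁).d (n + 1) (x, -y₀) = 0 :=
        (fib_d_eq_zero_iff ψ₁ (n + 1) _).2 ⟨hdx, hx2⟩
      refine ⟨Hs.mk _ hcyc, ?_⟩
      rw [Hom.mapHs_mk, Hs.mk_eq_mk_iff]
      refine ⟨(-u₀, 0), ?_⟩
      rw [fib_d_apply, fibMap_f_apply]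
      refine Prod.ext ?_ ?_
      · change B₁.d n (-u₀) = α.f (n + 1) x - z.1
        rw [hx1, map_neg]
        abel
      · change ψ₂.f n (-u₀) - C.d n 0 = β.f (n + 1) (-y₀) - z.2
        rw [map_zero, sub_zero, map_neg, map_neg, ← h0]
        abel

end bicartesian

/-! ### The octahedral sequence, spot level -/

section octahedral

/-- Precomposition of a degree-one map with a chain map. -/
def Hom1.compHom {F G K : Cx.{u, v} k} (ψ : Hom1 G K) (φ : Hom F G) : Hom1 F K where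
  f n := (ψ.f n).comp (φ.f n)
  comm n x := by simp only [LinearMap.comp_apply, φ.comm, ψ.comm]

/-- Postcomposition of a degree-one map with a chain map. -/
def Hom.compHom1 {F G K : Cx.{u, v} k} (ψ : Hom G K) (φ : Hom1 F G) : Hom1 F K where
  f n := (ψ.f (n + 1)).comp (φ.f n)
  comm n x := by simp only [LinearMap.comp_apply, φ.comm, ψ.comm]

variable {F G G' K : Cx.{u, v} k} (φ₀ : Hom F G) (ψ' : Hom G' K) (e : Hom1 G G')

/-- `fib (e φ₀) → fib (ψ' e φ₀)`, `(a, b) ↦ (a, ψ' b)`. -/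
def octU : Hom (fib (e.compHom φ₀)) (fib (ψ'.compHom1 (e.compHom φ₀))) :=
  fibMap (e.compHom φ₀) (ψ'.compHom1 (e.compHom φ₀)) (Hom.id F) ψ' (fun _ _ => rfl)

/-- `fib (ψ' e φ₀) → fib (ψ' e)`, `(a, c) ↦ (φ₀ a, c)`. -/
def octV : Hom (fib (ψ'.compHom1 (e.compHom φ₀))) (fib (ψ'.compHom1 e)) :=
  fibMap (ψ'.compHom1 (e.compHom φ₀)) (ψ'.compHom1 e) φ₀ (Hom.id K) (fun _ _ => rfl)

theorem octW_cyc (n : ℕ) (z : (fib (ψ'.compHom1 e)).X (n + 1))
    (hz : (fib (ψ'.compHom1 e)).d (n + 1) z = 0) :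
    (fib (e.compHom φ₀)).d (n + 2) ((0, e.f (n + 1) z.1) : F.X (n + 2) × G'.X (n + 2)) = 0 := by
  obtain ⟨hz1, -⟩ := (fib_d_eq_zero_iff (ψ'.compHom1 e) (n + 1) z).1 hz
  rw [fib_d_eq_zero_iff]
  refine ⟨map_zero _, ?_⟩
  change (e.compHom φ₀).f (n + 2) 0 = G'.d (n + 2) (e.f (n + 1) z.1)
  rw [map_zero, ← e.comm, hz1, map_zero]

/-- `H(fib (ψ' e)) → H(fib (e φ₀))[1]`, `[(b, c)] ↦ [(0, e b)]`. -/
def octW (n : ℕ) : (fib (ψ'.compHom1 e)).Hs n →ₗ[k] (fib (e.compHom φ₀)).Hs (n + 1) :=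
  Hs.mapOf (C := fib (ψ'.compHom1 e)) (D := fib (e.compHom φ₀))
    (φ := (LinearMap.inr k (F.X (n + 2)) (G'.X (n + 2))).comp
      ((e.f (n + 1)).comp (LinearMap.fst k (G.X (n + 1)) (K.X (n + 1)))))
    (fun z hz => octW_cyc φ₀ ψ' e n z hz)
    (fun y => ⟨(0, -e.f n y.1), by
      rw [fib_d_apply]
      refine Prod.ext (map_zero _) ?_
      change (e.compHom φ₀).f (n + 1) 0 - G'.d (n + 1) (-e.f n y.1) = e.f (n + 1) (G.d n y.1)
      rw [map_zero, map_neg, zero_sub, neg_neg, e.comm]⟩)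

theorem octW_mk (n : ℕ) (z : (fib (ψ'.compHom1 e)).X (n + 1))
    (hz : (fib (ψ'.compHom1 e)).d (n + 1) z = 0) :
    ∃ h0, octW φ₀ ψ' e n (Hs.mk z hz) = Hs.mk (C := fib (e.compHom φ₀)) (n := n + 1)
      ((0, e.f (n + 1) z.1) : F.X (n + 2) × G'.X (n + 2)) h0 :=
  ⟨octW_cyc φ₀ ψ' e n z hz, rfl⟩

variable (he : ∀ n, Function.Bijective (e.f n))

include he in
/-- Exactness of `H(fib φ) → H(fib (ψ φ)) → H(fib ψ)`. -/
theorem exact_octU_octV (n : ℕ) :
    Function.Exact ((octU φ₀ ψ' e).mapHs n) ((octV φ₀ ψ' e).mapHs n) := by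
  intro ξ
  constructor
  · intro hξ
    induction ξ using Hs.induction_on with
    | _ z hz =>
      obtain ⟨hz1, hz2⟩ := (fib_d_eq_zero_iff (ψ'.compHom1 (e.compHom φ₀)) (n + 1) z).1 hz
      rw [Hom.mapHs_mk, Hs.mk_eq_zero_iff] at hξ
      obtain ⟨w, hw⟩ := hξ
      rw [fib_d_apply, Prod.mk.injEq] at hw
      obtain ⟨hw1, hw2⟩ := hw
      change G.d n w.1 = φ₀.f (n + 1) z.1 at hw1
      change ψ'.f (n + 1) (e.f n w.1) - K.d n w.2 = z.2 at hw2
      have hcyc : (fib (e.compHom φ₀)).d (n + 1)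
          ((z.1, e.f n w.1) : F.X (n + 1) × G'.X (n + 1)) = 0 := by
        rw [fib_d_eq_zero_iff]
        refine ⟨hz1, ?_⟩
        change e.f (n + 1) (φ₀.f (n + 1) z.1) = G'.d (n + 1) (e.f n w.1)
        rw [← e.comm, hw1]
      refine ⟨Hs.mk _ hcyc, ?_⟩
      rw [Hom.mapHs_mk, Hs.mk_eq_mk_iff]
      refine ⟨((0 : F.X n), (-w.2 : K.X n)), ?_⟩
      rw [fib_d_apply]
      refine Prod.ext ?_ ?_
      · change F.d n 0 = z.1 - z.1
        rw [map_zero, sub_self]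
      · change (ψ'.compHom1 (e.compHom φ₀)).f n 0 - K.d n (-w.2) =
          ψ'.f (n + 1) (e.f n w.1) - z.2
        rw [map_zero, map_neg, ← hw2]
        abel
  · rintro ⟨η, rfl⟩
    induction η using Hs.induction_on with
    | _ z hz =>
      obtain ⟨hz1, hz2⟩ := (fib_d_eq_zero_iff (e.compHom φ₀) (n + 1) z).1 hz
      change e.f (n + 1) (φ₀.f (n + 1) z.1) = G'.d (n + 1) z.2 at hz2
      obtain ⟨b, hb⟩ := (he n).2 z.2
      have hdb : G.d n b = φ₀.f (n + 1) z.1 := by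
        apply (he (n + 1)).1
        rw [e.comm, hb, hz2]
      rw [Hom.mapHs_mk, Hom.mapHs_mk, Hs.mk_eq_zero_iff]
      refine ⟨((b : G.X n), (0 : K.X n)), ?_⟩
      rw [fib_d_apply]
      refine Prod.ext ?_ ?_
      · change G.d n b = φ₀.f (n + 1) z.1
        exact hdb
      · change ψ'.f (n + 1) (e.f n b) - K.d n 0 = ψ'.f (n + 1) z.2
        rw [map_zero, sub_zero, hb]

include he in
/-- Exactness of `H(fib (ψ φ)) → H(fib ψ) → H(fib φ)[1]`. -/
theorem exact_octV_octW (n : ℕ) :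
    Function.Exact ((octV φ₀ ψ' e).mapHs n) (octW φ₀ ψ' e n) := by
  intro ξ
  constructor
  · intro hξ
    induction ξ using Hs.induction_on with
    | _ z hz =>
      obtain ⟨hz1, hz2⟩ := (fib_d_eq_zero_iff (ψ'.compHom1 e) (n + 1) z).1 hz
      change ψ'.f (n + 2) (e.f (n + 1) z.1) = K.d (n + 1) z.2 at hz2
      obtain ⟨h0, hW⟩ := octW_mk φ₀ ψ' e n z hz
      rw [hW, Hs.mk_eq_zero_iff] at hξ
      obtain ⟨w, hw⟩ := hξ
      rw [fib_d_apply, Prod.mk.injEq] at hw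
      obtain ⟨hw1, hw2⟩ := hw
      change e.f (n + 1) (φ₀.f (n + 1) w.1) - G'.d (n + 1) w.2 = e.f (n + 1) z.1 at hw2
      -- `w = (a', b')` with `d a' = 0`, `e z.1 = e (φ₀ a') - d b'`; write `b' = e b₀`
      obtain ⟨b₀, hb₀⟩ := (he n).2 w.2
      have hz1' : z.1 = φ₀.f (n + 1) w.1 - G.d n b₀ := by
        apply (he (n + 1)).1
        rw [map_sub, e.comm, hb₀, hw2]
      have hcyc : (fib (ψ'.compHom1 (e.compHom φ₀))).d (n + 1)
          ((w.1, z.2 + ψ'.f (n + 1) w.2) : F.X (n + 1) × K.X (n + 1)) = 0 := by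
        rw [fib_d_eq_zero_iff]
        refine ⟨hw1, ?_⟩
        change ψ'.f (n + 2) (e.f (n + 1) (φ₀.f (n + 1) w.1)) = K.d (n + 1) (z.2 + ψ'.f (n + 1) w.2)
        rw [map_add, ← hz2, ← ψ'.comm, ← hw2, map_sub]
        abel
      refine ⟨Hs.mk _ hcyc, ?_⟩
      rw [Hom.mapHs_mk, Hs.mk_eq_mk_iff]
      refine ⟨((b₀ : G.X n), (0 : K.X n)), ?_⟩
      rw [fib_d_apply]
      refine Prod.ext ?_ ?_
      · change G.d n b₀ = φ₀.f (n + 1) w.1 - z.1
        rw [hz1']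
        abel
      · change ψ'.f (n + 1) (e.f n b₀) - K.d n 0 = (z.2 + ψ'.f (n + 1) w.2) - z.2
        rw [map_zero, hb₀]
        abel
  · rintro ⟨η, rfl⟩
    induction η using Hs.induction_on with
    | _ z hz =>
      obtain ⟨hz1, hz2⟩ := (fib_d_eq_zero_iff (ψ'.compHom1 (e.compHom φ₀)) (n + 1) z).1 hz
      rw [Hom.mapHs_mk]
      obtain ⟨h0, hW⟩ := octW_mk φ₀ ψ' e n _
        (by rw [← (octV φ₀ ψ' e).comm, hz, map_zero] :
          (fib (ψ'.compHom1 e)).d (n + 1) ((octV φ₀ ψ' e).f (n + 1) z) = 0)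
      rw [hW, Hs.mk_eq_zero_iff]
      refine ⟨((z.1 : F.X (n + 1)), (0 : G'.X (n + 1))), ?_⟩
      rw [fib_d_apply]
      refine Prod.ext ?_ ?_
      · exact hz1
      · change e.f (n + 1) (φ₀.f (n + 1) z.1) - G'.d (n + 1) 0 = e.f (n + 1) (φ₀.f (n + 1) z.1)
        rw [map_zero, sub_zero]

include he in
/-- Exactness of `H(fib ψ) → H(fib φ)[1] → H(fib (ψ φ))[1]`. -/
theorem exact_octW_octU (n : ℕ) :
    Function.Exact (octW φ₀ ψ' e n) ((octU φ₀ ψ' e).mapHs (n + 1)) := by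
  intro ξ
  constructor
  · intro hξ
    induction ξ using Hs.induction_on with
    | _ z hz =>
      obtain ⟨hz1, hz2⟩ := (fib_d_eq_zero_iff (e.compHom φ₀) (n + 2) z).1 hz
      change e.f (n + 2) (φ₀.f (n + 2) z.1) = G'.d (n + 2) z.2 at hz2
      rw [Hom.mapHs_mk, Hs.mk_eq_zero_iff] at hξ
      obtain ⟨w, hw⟩ := hξ
      rw [fib_d_apply, Prod.mk.injEq] at hw
      obtain ⟨hw1, hw2⟩ := hw
      change F.d (n + 1) w.1 = z.1 at hw1
      change ψ'.f (n + 2) (e.f (n + 1) (φ₀.f (n + 1) w.1)) - K.d (n + 1) w.2 =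
        ψ'.f (n + 2) z.2 at hw2
      -- `z.2 = e b₁`; `b₀ := b₁ - φ₀ w.1`, `c₀ := - w.2`
      obtain ⟨b₁, hb₁⟩ := (he (n + 1)).2 z.2
      have hcyc : (fib (ψ'.compHom1 e)).d (n + 1)
          ((b₁ - φ₀.f (n + 1) w.1, -w.2) : G.X (n + 1) × K.X (n + 1)) = 0 := by
        rw [fib_d_eq_zero_iff]
        refine ⟨?_, ?_⟩
        · change G.d (n + 1) (b₁ - φ₀.f (n + 1) w.1) = 0
          apply (he (n + 2)).1
          rw [map_zero, map_sub, map_sub, e.comm, hb₁, ← hz2, ← φ₀.comm, hw1, sub_self]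
        · change ψ'.f (n + 2) (e.f (n + 1) (b₁ - φ₀.f (n + 1) w.1)) = K.d (n + 1) (-w.2)
          rw [map_sub, map_sub, hb₁, ← hw2, map_neg]
          abel
      refine ⟨Hs.mk _ hcyc, ?_⟩
      obtain ⟨h0, hW⟩ := octW_mk φ₀ ψ' e n _ hcyc
      rw [hW, Hs.mk_eq_mk_iff]
      refine ⟨((-w.1 : F.X (n + 1)), (0 : G'.X (n + 1))), ?_⟩
      rw [fib_d_apply]
      refine Prod.ext ?_ ?_
      · change F.d (n + 1) (-w.1) = 0 - z.1
        rw [map_neg, hw1, zero_sub]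
      · change e.f (n + 1) (φ₀.f (n + 1) (-w.1)) - G'.d (n + 1) 0 =
          e.f (n + 1) (b₁ - φ₀.f (n + 1) w.1) - z.2
        rw [map_zero, map_neg, map_neg, map_sub, hb₁]
        abel
  · rintro ⟨η, rfl⟩
    induction η using Hs.induction_on with
    | _ z hz =>
      obtain ⟨hz1, hz2⟩ := (fib_d_eq_zero_iff (ψ'.compHom1 e) (n + 1) z).1 hz
      change ψ'.f (n + 2) (e.f (n + 1) z.1) = K.d (n + 1) z.2 at hz2
      obtain ⟨h0, hW⟩ := octW_mk φ₀ ψ' e n z hz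
      rw [hW, Hom.mapHs_mk, Hs.mk_eq_zero_iff]
      refine ⟨((0 : F.X (n + 1)), (-z.2 : K.X (n + 1))), ?_⟩
      rw [fib_d_apply]
      refine Prod.ext ?_ ?_
      · change F.d (n + 1) 0 = 0
        exact map_zero _
      · change (ψ'.compHom1 (e.compHom φ₀)).f (n + 1) 0 - K.d (n + 1) (-z.2) =
          ψ'.f (n + 2) (e.f (n + 1) z.1)
        rw [map_zero, map_neg, hz2]
        abel

end octahedral

end Cx

end Fermat.Agent.CFT.HExt
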