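import Mathlib
import Fermat.Agent.CFT.HyperExt.Octahedral

set_option autoImplicit false

/-!
# Bicartesian squares and the octahedral sequence for `E` (S55, node HYPER-EXT, part 6)

User-level versions (for honest chain maps and the groups `E φ n`) of the results of
`Octahedral.lean`:

* `EMap_bijective_of_bicartesian`;
* `Eoct φ ψ n : E ψ n → E φ (n + 1)` and the exact sequence
  `E^n(φ) → E^n(χ) → E^n(ψ) → E^{n+1}(φ) → E^{n+1}(χ)` for `χ = ψ ∘ φ`
  (`exact_EMap_EMap`, `exact_EMap_Eoct`, `exact_Eoct_EMap`).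
-/

namespace Fermat.Agent.CFT.HExt

universe u v

variable {k : Type u} [CommRing k]

namespace Cx

theorem Hom.ext' {A B : Cx.{u, v} k} {f g : Hom A B} (h : ∀ n (x : A.X n), f.f n x = g.f n x) :
    f = g := by
  cases f with
  | mk f hf =>
    cases g with
    | mk g hg =>
      have : f = g := funext fun n => LinearMap.ext (h n)
      subst this
      rfl

theorem Hom1.ext' {A B : Cx.{u, v} k} {f g : Hom1 A B}
    (h : ∀ n (x : A.X n), f.f n x = g.f n x) : f = g := by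
  cases f with
  | mk f hf =>
    cases g with
    | mk g hg =>
      have : f = g := funext fun n => LinearMap.ext (h n)
      subst this
      rfl

theorem shHom_id (A : Cx.{u, v} k) : shHom (Hom.id A) = Hom.id (sh A) :=
  Hom.ext' fun n x => by cases n <;> rfl

/-! ### Bicartesian squares -/

section bicartesian

variable {A B₁ B₂ C : Cx.{u, v} k}

/-- For a degreewise bicartesian square of chain maps
```
A  --a₂--> B₂
|a₁        |b₂
B₁ --b₁--> C
```
the induced map `E(a₂) → E(b₁)` is bijective in all degrees. -/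
theorem EMap_bijective_of_bicartesian (a₂ : Hom A B₂) (b₁ : Hom B₁ C) (a₁ : Hom A B₁)
    (b₂ : Hom B₂ C) (hsq : ∀ n (x : A.X n), b₂.f n (a₂.f n x) = b₁.f n (a₁.f n x))
    (hinj : ∀ n (x : A.X n), a₁.f n x = 0 → a₂.f n x = 0 → x = 0)
    (hex : ∀ n (y₁ : B₁.X n) (y₂ : B₂.X n), b₁.f n y₁ = b₂.f n y₂ →
      ∃ x : A.X n, a₁.f n x = y₁ ∧ a₂.f n x = y₂)
    (hsurj : ∀ n (c : C.X n), ∃ (y₁ : B₁.X n) (y₂ : B₂.X n), b₁.f n y₁ - b₂.f n y₂ = c) (n : ℕ) :
    Function.Bijective (EMap a₂ b₁ a₁ b₂ hsq n) := by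
  refine fibMap_bijective_of_bicartesian (shHom a₂).toHom1 (shHom b₁).toHom1 (shHom a₁)
    (shHom (shHom b₂)) _ ?_ ?_ ?_ ?_ n
  · intro m x
    cases m with
    | zero => exact fun _ _ => rfl
    | succ m => exact hinj m x
  · intro m y₁ y₂
    cases m with
    | zero => exact fun _ => ⟨PUnit.unit, rfl, rfl⟩
    | succ m => exact hex m y₁ y₂
  · intro m c
    cases m with
    | zero => exact ⟨PUnit.unit, PUnit.unit, rfl⟩
    | succ m => exact hsurj m c
  · exact fun x => ⟨x, rfl⟩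

end bicartesian

/-! ### The octahedral sequence -/

section octahedral

variable {F G K : Cx.{u, v} k} (φ : Hom F G) (ψ : Hom G K) (χ : Hom F K)
  (hχ : ∀ n (x : F.X n), χ.f n x = ψ.f n (φ.f n x))

/-- The connecting map `E^n(ψ) → E^{n+1}(φ)` of the octahedral sequence: the composite
`E^n(ψ) → H^n(G) → E^{n+1}(φ)`. -/
def Eoct (n : ℕ) : E ψ n →ₗ[k] E φ (n + 1) := (HtoE φ n).comp (EtoH ψ n)

/-- general form of the spot-level octahedral theorems, with all derived maps as variables. -/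
private theorem oct_general {F G G' K : Cx.{u, v} k} (φ₀ : Hom F G) (ψ' : Hom G' K)
    (e : Hom1 G G') (he : ∀ n, Function.Bijective (e.f n))
    (φ₁ : Hom1 F G') (χ₁ : Hom1 F K) (ψ₁ : Hom1 G K) (α : Hom F F) (κ : Hom K K)
    (hφ₁ : φ₁ = e.compHom φ₀) (hχ₁ : χ₁ = ψ'.compHom1 (e.compHom φ₀))
    (hψ₁ : ψ₁ = ψ'.compHom1 e) (hα : α = Hom.id F) (hκ : κ = Hom.id K)
    (hsqU : ∀ n (x : F.X n), ψ'.f (n + 1) (φ₁.f n x) = χ₁.f n (α.f n x))
    (hsqV : ∀ n (x : F.X n), κ.f (n + 1) (χ₁.f n x) = ψ₁.f n (φ₀.f n x))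
    (W : ∀ n, (fib ψ₁).Hs n →ₗ[k] (fib φ₁).Hs (n + 1))
    (hW : ∀ n (z : (fib ψ₁).X (n + 1)) (hz : (fib ψ₁).d (n + 1) z = 0),
      ∃ h0, W n (Hs.mk z hz) = Hs.mk (C := fib φ₁) (n := n + 1)
        ((0, e.f (n + 1) z.1) : F.X (n + 2) × G'.X (n + 2)) h0) (n : ℕ) :
    Function.Exact ((fibMap φ₁ χ₁ α ψ' hsqU).mapHs n) ((fibMap χ₁ ψ₁ φ₀ κ hsqV).mapHs n) ∧
    Function.Exact ((fibMap χ₁ ψ₁ φ₀ κ hsqV).mapHs n) (W n) ∧
    Function.Exact (W n) ((fibMap φ₁ χ₁ α ψ' hsqU).mapHs (n + 1)) := by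
  subst hφ₁ hχ₁ hψ₁ hα hκ
  have hWeq : ∀ n, W n = octW φ₀ ψ' e n := by
    intro n
    ext x
    induction x using Hs.induction_on with
    | _ z hz =>
      obtain ⟨h0, h1⟩ := hW n z hz
      obtain ⟨h0', h1'⟩ := octW_mk φ₀ ψ' e n z hz
      rw [h1, h1']
  rw [hWeq n]
  exact ⟨exact_octU_octV φ₀ ψ' e he n, exact_octV_octW φ₀ ψ' e he n,
    exact_octW_octU φ₀ ψ' e he n⟩

include hχ in
private theorem oct_all (n : ℕ) :
    Function.Exact (EMap φ χ (Hom.id F) ψ (fun n x => (hχ n x).symm) n)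
      (EMap χ ψ φ (Hom.id K) (fun n x => hχ n x) n) ∧
    Function.Exact (EMap χ ψ φ (Hom.id K) (fun n x => hχ n x) n) (Eoct φ ψ n) ∧
    Function.Exact (Eoct φ ψ n)
      (EMap φ χ (Hom.id F) ψ (fun n x => (hχ n x).symm) (n + 1)) := by
  refine oct_general (shHom φ) (shHom (shHom ψ)) (Hom.id (sh G)).toHom1
    (fun _ => Function.bijective_id) (shHom φ).toHom1 (shHom χ).toHom1 (shHom ψ).toHom1
    (shHom (Hom.id F)) (shHom (shHom (Hom.id K))) rfl ?_ rfl (shHom_id F) ?_ _ _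
    (fun n => Eoct φ ψ n) ?_ n
  · refine Hom1.ext' fun m x => ?_
    cases m with
    | zero => rfl
    | succ m => exact hχ m x
  · rw [shHom_id, shHom_id]
  · intro m z hz
    obtain ⟨hz1, -⟩ := (fib_d_eq_zero_iff (shHom ψ).toHom1 (m + 1) z).1 hz
    have h0 : (fib (shHom φ).toHom1).d (m + 2)
        ((0, (Hom.id (sh G)).toHom1.f (m + 1) z.1) : (sh F).X (m + 2) × (sh (sh G)).X (m + 2)) =
        0 := by
      rw [fib_d_eq_zero_iff]
      refine ⟨map_zero _, ?_⟩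
      rw [map_zero]
      exact hz1.symm
    exact ⟨h0, rfl⟩

include hχ in
/-- Exactness of `E^n(φ) → E^n(χ) → E^n(ψ)` for `χ = ψ ∘ φ`. -/
theorem exact_EMap_EMap (n : ℕ) :
    Function.Exact (EMap φ χ (Hom.id F) ψ (fun n x => (hχ n x).symm) n)
      (EMap χ ψ φ (Hom.id K) (fun n x => hχ n x) n) := (oct_all φ ψ χ hχ n).1

include hχ in
/-- Exactness of `E^n(χ) → E^n(ψ) → E^{n+1}(φ)` for `χ = ψ ∘ φ`. -/
theorem exact_EMap_Eoct (n : ℕ) :
    Function.Exact (EMap χ ψ φ (Hom.id K) (fun n x => hχ n x) n) (Eoct φ ψ n) :=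
  (oct_all φ ψ χ hχ n).2.1

include hχ in
/-- Exactness of `E^n(ψ) → E^{n+1}(φ) → E^{n+1}(χ)` for `χ = ψ ∘ φ`. -/
theorem exact_Eoct_EMap (n : ℕ) :
    Function.Exact (Eoct φ ψ n)
      (EMap φ χ (Hom.id F) ψ (fun n x => (hχ n x).symm) (n + 1)) := (oct_all φ ψ χ hχ n).2.2

end octahedral

end Cx

end Fermat.Agent.CFT.HExt
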