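import Mathlib
import Fermat.Agent.CFT.HyperExt.LCHom
import Fermat.Agent.CFT.HyperExt.OctahedralE

/-!
# Hyper-Ext against a two-term lattice complex, over level cohomology (S55, node A7.X)

* `LC.cxMap_comm_of_comm`, `LC.cx_bicartesian`: functoriality of the LC cochain complex and
  preservation of (elementwise) bicartesian squares;
* `LatticePair L`: a morphism `i : P₁ ⟶ P₀` of finitely generated smooth representations;
  `LatticePair.Ext R hX n := E^n(C(Hom(P₀, X)) → C(Hom(P₁, X)))`;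
* `LatticePair.Hom`, `LatticePair.Ext.map` (contravariant functoriality), `map_id`, `map_comp`;
* `LatticePair.Hom.IsQis` and `Ext.map_bijective_of_isQis` (resolution independence);
* generic lemmas on `Cx.EMap`: `EMap_congr`, `EMap_id`, `EMap_comp`.
-/

set_option autoImplicit false

universe u

open CategoryTheory

namespace Fermat.Agent.CFT

open HExt

/-! ### Generic lemmas on `EMap` -/

namespace HExt.Cx

variable {k : Type u} [CommRing k] {F₁ G₁ F₂ G₂ F₃ G₃ : Cx.{u, u} k}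

theorem EMap_congr (φ₁ : Hom F₁ G₁) (φ₂ : Hom F₂ G₂) (α α' : Hom F₁ F₂) (β β' : Hom G₁ G₂)
    (hsq : ∀ n (x : F₁.X n), β.f n (φ₁.f n x) = φ₂.f n (α.f n x))
    (hsq' : ∀ n (x : F₁.X n), β'.f n (φ₁.f n x) = φ₂.f n (α'.f n x))
    (hα : ∀ n (x : F₁.X n), α.f n x = α'.f n x) (hβ : ∀ n (x : G₁.X n), β.f n x = β'.f n x)
    (n : ℕ) : EMap φ₁ φ₂ α β hsq n = EMap φ₁ φ₂ α' β' hsq' n := by
  have h1 : α = α' := Hom.ext' hα
  have h2 : β = β' := Hom.ext' hβ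
  subst h1 h2
  rfl

theorem EMap_id (φ : Hom F₁ G₁)
    (hsq : ∀ n (x : F₁.X n), (Hom.id G₁).f n (φ.f n x) = φ.f n ((Hom.id F₁).f n x)) (n : ℕ) :
    EMap φ φ (Hom.id F₁) (Hom.id G₁) hsq n = LinearMap.id := by
  ext x
  induction x using Hs.induction_on with
  | _ w hw =>
    rw [EMap_mk]
    have key : (FibMap φ φ (Hom.id F₁) (Hom.id G₁) hsq).f (n + 1) w = w := by
      refine Prod.ext rfl ?_
      cases n <;> rfl
    exact Hs.mk_congr' (C := Fib φ) (hz' := hw) key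

theorem EMap_comp (φ₁ : Hom F₁ G₁) (φ₂ : Hom F₂ G₂) (φ₃ : Hom F₃ G₃) (α : Hom F₁ F₂)
    (β : Hom G₁ G₂) (α' : Hom F₂ F₃) (β' : Hom G₂ G₃)
    (hsq : ∀ n (x : F₁.X n), β.f n (φ₁.f n x) = φ₂.f n (α.f n x))
    (hsq' : ∀ n (x : F₂.X n), β'.f n (φ₂.f n x) = φ₃.f n (α'.f n x))
    (hsq'' : ∀ n (x : F₁.X n), (β'.comp β).f n (φ₁.f n x) = φ₃.f n ((α'.comp α).f n x))
    (n : ℕ) (x : E φ₁ n) :
    EMap φ₂ φ₃ α' β' hsq' n (EMap φ₁ φ₂ α β hsq n x) =
      EMap φ₁ φ₃ (α'.comp α) (β'.comp β) hsq'' n x := by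
  induction x using Hs.induction_on with
  | _ w hw =>
    rw [EMap_mk, EMap_mk, EMap_mk]
    have key : (FibMap φ₂ φ₃ α' β' hsq').f (n + 1) ((FibMap φ₁ φ₂ α β hsq).f (n + 1) w) =
        (FibMap φ₁ φ₃ (α'.comp α) (β'.comp β) hsq'').f (n + 1) w := by
      refine Prod.ext rfl ?_
      cases n <;> rfl
    exact Hs.mk_congr' (C := Fib φ₃) key

end HExt.Cx

/-! ### Functoriality of the LC complex -/

namespace LC

variable {k G : Type u} [CommRing k] [Group G] {L : LevelStructure G}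

lemma cxMap_comm_of_comm {A B B' C : Rep.{u} k G} (hA : IsSmooth L A) (hB : IsSmooth L B)
    (hB' : IsSmooth L B') (hC : IsSmooth L C) (f : A ⟶ B) (g : B ⟶ C) (f' : A ⟶ B')
    (g' : B' ⟶ C) (h : ∀ a, g.hom (f.hom a) = g'.hom (f'.hom a)) (n : ℕ) (x : (cx hA).X n) :
    (cxMap hB hC g).f n ((cxMap hA hB f).f n x) =
      (cxMap hB' hC g').f n ((cxMap hA hB' f').f n x) := by
  match n, x with
  | 0, x => exact h x
  | 1, x => exact Subtype.ext (funext fun s => h _)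
  | 2, x => exact Subtype.ext (funext fun s => h _)
  | 3, x => exact Subtype.ext (funext fun s => h _)
  | _ + 4, _ => rfl

lemma cxMap_id_apply {A : Rep.{u} k G} (hA : IsSmooth L A) (n : ℕ) (x : (cx hA).X n) :
    (cxMap hA hA (𝟙 A)).f n x = x := by
  match n, x with
  | 0, x => rfl
  | 1, x => rfl
  | 2, x => rfl
  | 3, x => rfl
  | _ + 4, _ => rfl

lemma cxMap_comp_apply {A B C : Rep.{u} k G} (hA : IsSmooth L A) (hB : IsSmooth L B)
    (hC : IsSmooth L C) (f : A ⟶ B) (g : B ⟶ C) (n : ℕ) (x : (cx hA).X n) :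
    (cxMap hA hC (f ≫ g)).f n x = (cxMap hB hC g).f n ((cxMap hA hB f).f n x) := by
  match n, x with
  | 0, x => rfl
  | 1, x => rfl
  | 2, x => rfl
  | 3, x => rfl
  | _ + 4, _ => rfl

lemma cxMap_congr_apply {A B : Rep.{u} k G} (hA : IsSmooth L A) (hB : IsSmooth L B)
    (f f' : A ⟶ B) (h : ∀ a, f.hom a = f'.hom a) (n : ℕ) (x : (cx hA).X n) :
    (cxMap hA hB f).f n x = (cxMap hA hB f').f n x := by
  match n, x with
  | 0, x => exact h x
  | 1, x => exact Subtype.ext (funext fun s => h _)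
  | 2, x => exact Subtype.ext (funext fun s => h _)
  | 3, x => exact Subtype.ext (funext fun s => h _)
  | _ + 4, _ => rfl

/-! ### Joint level-constancy -/

lemma isLC₁_comp₂ {X Y Z : Type*} {f : G → X} {f' : G → Y} (hf : L.IsLC₁ f) (hf' : L.IsLC₁ f')
    (Φ : X → Y → Z) : L.IsLC₁ (fun g => Φ (f g) (f' g)) := by
  obtain ⟨N, hN, h⟩ := hf
  obtain ⟨N', hN', h'⟩ := hf'
  obtain ⟨N'', hN'', hle⟩ := L.directed hN hN'
  refine ⟨N'', hN'', fun g s hs => ?_⟩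
  simp only [h g s ((hle.trans inf_le_left) hs), h' g s ((hle.trans inf_le_right) hs)]

lemma isLC₂_comp₂ {X Y Z : Type*} {f : G × G → X} {f' : G × G → Y} (hf : L.IsLC₂ f)
    (hf' : L.IsLC₂ f') (Φ : X → Y → Z) : L.IsLC₂ (fun g => Φ (f g) (f' g)) := by
  obtain ⟨N, hN, h⟩ := hf
  obtain ⟨N', hN', h'⟩ := hf'
  obtain ⟨N'', hN'', hle⟩ := L.directed hN hN'
  refine ⟨N'', hN'', fun g g' s hs s' hs' => ?_⟩
  simp only [h g g' s ((hle.trans inf_le_left) hs) s' ((hle.trans inf_le_left) hs'),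
    h' g g' s ((hle.trans inf_le_right) hs) s' ((hle.trans inf_le_right) hs')]

lemma isLC₃_comp₂ {X Y Z : Type*} {f : G × G × G → X} {f' : G × G × G → Y} (hf : L.IsLC₃ f)
    (hf' : L.IsLC₃ f') (Φ : X → Y → Z) : L.IsLC₃ (fun g => Φ (f g) (f' g)) := by
  obtain ⟨N, hN, h⟩ := hf
  obtain ⟨N', hN', h'⟩ := hf'
  obtain ⟨N'', hN'', hle⟩ := L.directed hN hN'
  refine ⟨N'', hN'', fun g g' g'' s hs s' hs' s'' hs'' => ?_⟩
  simp only [h g g' g'' s ((hle.trans inf_le_left) hs) s' ((hle.trans inf_le_left) hs')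
      s'' ((hle.trans inf_le_left) hs''),
    h' g g' g'' s ((hle.trans inf_le_right) hs) s' ((hle.trans inf_le_right) hs')
      s'' ((hle.trans inf_le_right) hs'')]

/-! ### The LC complex preserves bicartesian squares -/

section bicartesian

variable {A B₁ B₂ C : Rep.{u} k G} (hA : IsSmooth L A) (hB₁ : IsSmooth L B₁)
  (hB₂ : IsSmooth L B₂) (hC : IsSmooth L C) (a₁ : A ⟶ B₁) (a₂ : A ⟶ B₂) (b₁ : B₁ ⟶ C)
  (b₂ : B₂ ⟶ C)

include hA hB₁ hB₂ in
lemma cx_bicartesian_inj (h0 : ∀ x : A, a₁.hom x = 0 → a₂.hom x = 0 → x = 0) (n : ℕ)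
    (x : (cx hA).X n) (h1 : (cxMap hA hB₁ a₁).f n x = 0) (h2 : (cxMap hA hB₂ a₂).f n x = 0) :
    x = 0 := by
  match n, x, h1, h2 with
  | 0, x, h1, h2 => exact h0 x h1 h2
  | 1, x, h1, h2 =>
    exact Subtype.ext (funext fun s => h0 _ (congrFun (congrArg Subtype.val h1) s)
      (congrFun (congrArg Subtype.val h2) s))
  | 2, x, h1, h2 =>
    exact Subtype.ext (funext fun s => h0 _ (congrFun (congrArg Subtype.val h1) s)
      (congrFun (congrArg Subtype.val h2) s))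
  | 3, x, h1, h2 =>
    exact Subtype.ext (funext fun s => h0 _ (congrFun (congrArg Subtype.val h1) s)
      (congrFun (congrArg Subtype.val h2) s))
  | _ + 4, _, _, _ => rfl

open Classical in
/-- a choice of a common preimage -/
private noncomputable def glue (a₁ : A ⟶ B₁) (a₂ : A ⟶ B₂) (u : B₁) (v : B₂) : A :=
  if h : ∃ x : A, a₁.hom x = u ∧ a₂.hom x = v then h.choose else 0

private lemma glue_spec (h0 : ∀ (y₁ : B₁) (y₂ : B₂), b₁.hom y₁ = b₂.hom y₂ →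
    ∃ x : A, a₁.hom x = y₁ ∧ a₂.hom x = y₂) (u : B₁) (v : B₂) (huv : b₁.hom u = b₂.hom v) :
    a₁.hom (glue a₁ a₂ u v) = u ∧ a₂.hom (glue a₁ a₂ u v) = v := by
  have h := h0 u v huv
  simp only [glue, dif_pos h]
  exact h.choose_spec

include hA hB₁ hB₂ hC in
lemma cx_bicartesian_ex (h0 : ∀ (y₁ : B₁) (y₂ : B₂), b₁.hom y₁ = b₂.hom y₂ →
    ∃ x : A, a₁.hom x = y₁ ∧ a₂.hom x = y₂) (n : ℕ) (y₁ : (cx hB₁).X n) (y₂ : (cx hB₂).X n)
    (h : (cxMap hB₁ hC b₁).f n y₁ = (cxMap hB₂ hC b₂).f n y₂) :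
    ∃ x : (cx hA).X n, (cxMap hA hB₁ a₁).f n x = y₁ ∧ (cxMap hA hB₂ a₂).f n x = y₂ := by
  match n, y₁, y₂, h with
  | 0, y₁, y₂, h => exact h0 y₁ y₂ h
  | 1, (y₁ : ↥(C₁ L B₁)), (y₂ : ↥(C₁ L B₂)), h =>
    have hp : ∀ s, b₁.hom ((y₁ : G → B₁) s) = b₂.hom ((y₂ : G → B₂) s) :=
      fun s => congrFun (congrArg Subtype.val h) s
    refine ⟨⟨fun s => glue a₁ a₂ ((y₁ : G → B₁) s) ((y₂ : G → B₂) s),
      isLC₁_comp₂ y₁.2 y₂.2 (glue a₁ a₂)⟩, ?_, ?_⟩
    · exact Subtype.ext (funext fun s => (glue_spec a₁ a₂ b₁ b₂ h0 _ _ (hp s)).1)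
    · exact Subtype.ext (funext fun s => (glue_spec a₁ a₂ b₁ b₂ h0 _ _ (hp s)).2)
  | 2, (y₁ : ↥(C₂ L B₁)), (y₂ : ↥(C₂ L B₂)), h =>
    have hp : ∀ s, b₁.hom ((y₁ : G × G → B₁) s) = b₂.hom ((y₂ : G × G → B₂) s) :=
      fun s => congrFun (congrArg Subtype.val h) s
    refine ⟨⟨fun s => glue a₁ a₂ ((y₁ : G × G → B₁) s) ((y₂ : G × G → B₂) s),
      isLC₂_comp₂ y₁.2 y₂.2 (glue a₁ a₂)⟩, ?_, ?_⟩
    · exact Subtype.ext (funext fun s => (glue_spec a₁ a₂ b₁ b₂ h0 _ _ (hp s)).1)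
    · exact Subtype.ext (funext fun s => (glue_spec a₁ a₂ b₁ b₂ h0 _ _ (hp s)).2)
  | 3, (y₁ : ↥(C₃ L B₁)), (y₂ : ↥(C₃ L B₂)), h =>
    have hp : ∀ s, b₁.hom ((y₁ : G × G × G → B₁) s) = b₂.hom ((y₂ : G × G × G → B₂) s) :=
      fun s => congrFun (congrArg Subtype.val h) s
    refine ⟨⟨fun s => glue a₁ a₂ ((y₁ : G × G × G → B₁) s) ((y₂ : G × G × G → B₂) s),
      isLC₃_comp₂ y₁.2 y₂.2 (glue a₁ a₂)⟩, ?_, ?_⟩
    · exact Subtype.ext (funext fun s => (glue_spec a₁ a₂ b₁ b₂ h0 _ _ (hp s)).1)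
    · exact Subtype.ext (funext fun s => (glue_spec a₁ a₂ b₁ b₂ h0 _ _ (hp s)).2)
  | _ + 4, _, _, _ => exact ⟨PUnit.unit, rfl, rfl⟩

include hB₁ hB₂ hC in
lemma cx_bicartesian_surj (h0 : ∀ c : C, ∃ (y₁ : B₁) (y₂ : B₂), b₁.hom y₁ - b₂.hom y₂ = c)
    (n : ℕ) (c : (cx hC).X n) :
    ∃ (y₁ : (cx hB₁).X n) (y₂ : (cx hB₂).X n),
      (cxMap hB₁ hC b₁).f n y₁ - (cxMap hB₂ hC b₂).f n y₂ = c := by
  choose Ψ₁ Ψ₂ hΨ using h0
  match n, c with
  | 0, c => exact ⟨Ψ₁ c, Ψ₂ c, hΨ c⟩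
  | 1, (c : ↥(C₁ L C)) =>
    refine ⟨⟨Ψ₁ ∘ (c : G → C), (c.2 : L.IsLC₁ _).comp _⟩,
      ⟨Ψ₂ ∘ (c : G → C), (c.2 : L.IsLC₁ _).comp _⟩, ?_⟩
    exact Subtype.ext (funext fun s => hΨ _)
  | 2, (c : ↥(C₂ L C)) =>
    refine ⟨⟨Ψ₁ ∘ (c : G × G → C), (c.2 : L.IsLC₂ _).comp _⟩,
      ⟨Ψ₂ ∘ (c : G × G → C), (c.2 : L.IsLC₂ _).comp _⟩, ?_⟩
    exact Subtype.ext (funext fun s => hΨ _)
  | 3, (c : ↥(C₃ L C)) =>
    refine ⟨⟨Ψ₁ ∘ (c : G × G × G → C), (c.2 : L.IsLC₃ _).comp _⟩,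
      ⟨Ψ₂ ∘ (c : G × G × G → C), (c.2 : L.IsLC₃ _).comp _⟩, ?_⟩
    exact Subtype.ext (funext fun s => hΨ _)
  | _ + 4, _ => exact ⟨PUnit.unit, PUnit.unit, rfl⟩

end bicartesian

end LC

/-! ### Module-level input for resolution independence -/

section ModuleQis

variable {k : Type*} [CommRing k] {P₀ P₁ P₀' P₁' X : Type*} [AddCommGroup P₀] [Module k P₀]
  [AddCommGroup P₁] [Module k P₁] [AddCommGroup P₀'] [Module k P₀'] [AddCommGroup P₁']
  [Module k P₁'] [AddCommGroup X] [Module k X]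
  (i : P₁ →ₗ[k] P₀) (i' : P₁' →ₗ[k] P₀') (f₀ : P₀ →ₗ[k] P₀') (f₁ : P₁ →ₗ[k] P₁')

include i' f₀ in
lemma lattice_qis_hom_inj (hsurj : ∀ x, ∃ y z, f₀ y + i' z = x) (h : P₀' →ₗ[k] X)
    (h1 : h ∘ₗ f₀ = 0) (h2 : h ∘ₗ i' = 0) : h = 0 := by
  ext x
  obtain ⟨y, z, rfl⟩ := hsurj x
  have e1 : h (f₀ y) = 0 := LinearMap.congr_fun h1 y
  have e2 : h (i' z) = 0 := LinearMap.congr_fun h2 z
  rw [map_add, e1, e2, add_zero, LinearMap.zero_apply]

lemma lattice_qis_ker (comm : ∀ x, i' (f₁ x) = f₀ (i x))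
    (hinj : ∀ y, (∃ z, i' z = f₀ y) → ∃ a, i a = y) (hi' : Function.Injective i')
    (y : P₀) (z : P₁') (h : f₀ y + i' z = 0) : ∃ a, i a = y ∧ f₁ a = -z := by
  have h1 : i' (-z) = f₀ y := by rw [map_neg]; exact (eq_neg_of_add_eq_zero_left h).symm
  obtain ⟨a, ha⟩ := hinj y ⟨-z, h1⟩
  refine ⟨a, ha, hi' ?_⟩
  rw [comm, ha, h1]

lemma lattice_qis_hom_ex (comm : ∀ x, i' (f₁ x) = f₀ (i x))
    (hinj : ∀ y, (∃ z, i' z = f₀ y) → ∃ a, i a = y)
    (hsurj : ∀ x, ∃ y z, f₀ y + i' z = x) (hi' : Function.Injective i')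
    (h₁ : P₀ →ₗ[k] X) (h₂ : P₁' →ₗ[k] X) (e : h₁ ∘ₗ i = h₂ ∘ₗ f₁) :
    ∃ h : P₀' →ₗ[k] X, h ∘ₗ f₀ = h₁ ∧ h ∘ₗ i' = h₂ := by
  have hσ : Function.Surjective (f₀.coprod i') := by
    intro x
    obtain ⟨y, z, rfl⟩ := hsurj x
    exact ⟨(y, z), by simp⟩
  have hker : LinearMap.ker (f₀.coprod i') ≤ LinearMap.ker (h₁.coprod h₂) := by
    rintro ⟨y, z⟩ hw
    rw [LinearMap.mem_ker, LinearMap.coprod_apply] at hw ⊢
    obtain ⟨a, rfl, ha⟩ := lattice_qis_ker i i' f₀ f₁ comm hinj hi' y z hw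
    have := LinearMap.congr_fun e a
    simp only [LinearMap.comp_apply] at this
    change h₁ (i a) + h₂ z = 0
    rw [this, ha, map_neg, neg_add_cancel]
  refine ⟨liftSurj (f₀.coprod i') hσ (h₁.coprod h₂) hker, ?_, ?_⟩
  · ext y
    have := liftSurj_apply (f₀.coprod i') hσ (h₁.coprod h₂) hker (y, 0)
    simpa using this
  · ext z
    have := liftSurj_apply (f₀.coprod i') hσ (h₁.coprod h₂) hker (0, z)
    simpa using this

lemma lattice_qis_hom_surj [Module.Projective k P₀'] (comm : ∀ x, i' (f₁ x) = f₀ (i x))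
    (hinj : ∀ y, (∃ z, i' z = f₀ y) → ∃ a, i a = y)
    (hsurj : ∀ x, ∃ y z, f₀ y + i' z = x) (hi : Function.Injective i)
    (hi' : Function.Injective i') (c : P₁ →ₗ[k] X) :
    ∃ (h₁ : P₀ →ₗ[k] X) (h₂ : P₁' →ₗ[k] X), h₁ ∘ₗ i - h₂ ∘ₗ f₁ = c := by
  have hσ : Function.Surjective (f₀.coprod i') := by
    intro x
    obtain ⟨y, z, rfl⟩ := hsurj x
    exact ⟨(y, z), by simp⟩
  obtain ⟨τ, hτ⟩ := Module.projective_lifting_property (f₀.coprod i') LinearMap.id hσ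
  -- the injection `ι : P₁ → P₀ × P₁'`
  let ι : P₁ →ₗ[k] P₀ × P₁' := i.prod (-f₁)
  have hι : Function.Injective ι := fun a b hab => hi (congrArg Prod.fst hab)
  have hmem : ∀ w : P₀ × P₁', w - τ ((f₀.coprod i') w) ∈ LinearMap.range ι := by
    intro w
    have h0 : (f₀.coprod i') (w - τ ((f₀.coprod i') w)) = 0 := by
      rw [map_sub]
      have := LinearMap.congr_fun hτ ((f₀.coprod i') w)
      simp only [LinearMap.comp_apply, LinearMap.id_apply] at this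
      rw [this, sub_self]
    obtain ⟨a, ha1, ha2⟩ := lattice_qis_ker i i' f₀ f₁ comm hinj hi' _ _
      (by rw [LinearMap.coprod_apply] at h0; exact h0)
    refine ⟨a, Prod.ext ha1 ?_⟩
    change -f₁ a = _
    rw [ha2, neg_neg]
  let ρ : P₀ × P₁' →ₗ[k] P₁ :=
    (LinearEquiv.ofInjective ι hι).symm.toLinearMap ∘ₗ
      (LinearMap.id - τ ∘ₗ (f₀.coprod i')).codRestrict (LinearMap.range ι) hmem
  have hρ : ∀ a, ρ (ι a) = a := by
    intro a
    have h0 : (f₀.coprod i') (ι a) = 0 := by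
      change f₀ (i a) + i' (-f₁ a) = 0
      rw [map_neg, comm, add_neg_cancel]
    have h1 : (LinearMap.id - τ ∘ₗ (f₀.coprod i')).codRestrict (LinearMap.range ι) hmem (ι a) =
        LinearEquiv.ofInjective ι hι a := by
      apply Subtype.ext
      simp only [LinearMap.codRestrict_apply, LinearMap.sub_apply, LinearMap.id_apply,
        LinearMap.comp_apply, h0, map_zero, sub_zero]
      rfl
    simp only [ρ, LinearMap.comp_apply, LinearEquiv.coe_coe, h1, LinearEquiv.symm_apply_apply]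
  refine ⟨(c ∘ₗ ρ) ∘ₗ LinearMap.inl k P₀ P₁', (c ∘ₗ ρ) ∘ₗ LinearMap.inr k P₀ P₁', ?_⟩
  ext a
  simp only [LinearMap.sub_apply, LinearMap.comp_apply, LinearMap.inl_apply, LinearMap.inr_apply]
  rw [← map_sub, ← map_sub]
  have : ((i a, (0 : P₁')) - ((0 : P₀), f₁ a) : P₀ × P₁') = ι a := by
    simp [ι]
  rw [this, hρ]

end ModuleQis

/-! ### Lattice pairs and hyper-Ext -/

section LatticePair

variable {k G : Type u} [CommRing k] [Group G]

/-- A two-term complex `i : P₁ ⟶ P₀` of finitely generated smooth representations (in the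
applications: an injective map of lattices, resolving `N = coker i`). -/
structure LatticePair (k : Type u) [CommRing k] {G : Type u} [Group G] (L : LevelStructure G) where
  /-- the degree-zero term -/
  P₀ : Rep.{u} k G
  /-- the degree-one term -/
  P₁ : Rep.{u} k G
  /-- the differential -/
  i : P₁ ⟶ P₀
  [fin₀ : Module.Finite k P₀]
  [fin₁ : Module.Finite k P₁]
  smooth₀ : IsSmooth L P₀
  smooth₁ : IsSmooth L P₁

attribute [instance] LatticePair.fin₀ LatticePair.fin₁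

namespace LatticePair

variable {L : LevelStructure G} (R R' R'' : LatticePair k L) {X : Rep.{u} k G}
  (hX : IsSmooth L X)

/-- The chain map `C(Hom(P₀, X)) → C(Hom(P₁, X))` of LC cochain complexes. -/
noncomputable def homMap :
    Cx.Hom (LC.cx (R.smooth₀.ihom hX)) (LC.cx (R.smooth₁.ihom hX)) :=
  LC.cxMap (R.smooth₀.ihom hX) (R.smooth₁.ihom hX) (Cup.precomp R.i X)

/-- Hyper-Ext of the two-term complex `R` with values in the smooth module `X`. -/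
def Ext (n : ℕ) : Type u := Cx.E (R.homMap hX) n

noncomputable instance (n : ℕ) : AddCommGroup (R.Ext hX n) := by unfold Ext; infer_instance

noncomputable instance (n : ℕ) : Module k (R.Ext hX n) := by unfold Ext; infer_instance

/-- Morphisms of two-term complexes. -/
structure Hom (R R' : LatticePair k L) where
  /-- degree zero -/
  f₀ : R.P₀ ⟶ R'.P₀
  /-- degree one -/
  f₁ : R.P₁ ⟶ R'.P₁
  comm : ∀ x : R.P₁, R'.i.hom (f₁.hom x) = f₀.hom (R.i.hom x)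

variable {R R' R''}

@[ext] lemma Hom.ext' {f g : Hom R R'} (h₀ : f.f₀ = g.f₀) (h₁ : f.f₁ = g.f₁) : f = g := by
  cases f; cases g; simp_all

/-- The identity morphism. -/
def Hom.id (R : LatticePair k L) : Hom R R where
  f₀ := 𝟙 _
  f₁ := 𝟙 _
  comm _ := rfl

/-- Composition of morphisms. -/
def Hom.comp (g : Hom R' R'') (f : Hom R R') : Hom R R'' where
  f₀ := f.f₀ ≫ g.f₀
  f₁ := f.f₁ ≫ g.f₁
  comm x := by
    change R''.i.hom (g.f₁.hom (f.f₁.hom x)) = g.f₀.hom (f.f₀.hom (R.i.hom x))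
    rw [g.comm, f.comm]

lemma Hom.sq (f : Hom R R') (n : ℕ) (x : (LC.cx (R'.smooth₀.ihom hX)).X n) :
    (LC.cxMap (R'.smooth₁.ihom hX) (R.smooth₁.ihom hX) (Cup.precomp f.f₁ X)).f n
        ((R'.homMap hX).f n x) =
      (R.homMap hX).f n
        ((LC.cxMap (R'.smooth₀.ihom hX) (R.smooth₀.ihom hX) (Cup.precomp f.f₀ X)).f n x) := by
  refine LC.cxMap_comm_of_comm _ _ _ _ _ _ _ _ (fun a => ?_) n x
  refine LinearMap.ext fun y => ?_
  change (show R'.P₀ →ₗ[k] X from a) (R'.i.hom (f.f₁.hom y)) =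
    (show R'.P₀ →ₗ[k] X from a) (f.f₀.hom (R.i.hom y))
  rw [f.comm]

/-- Contravariant functoriality of hyper-Ext. -/
noncomputable def Ext.map (f : Hom R R') (n : ℕ) : R'.Ext hX n →ₗ[k] R.Ext hX n :=
  Cx.EMap (R'.homMap hX) (R.homMap hX)
    (LC.cxMap (R'.smooth₀.ihom hX) (R.smooth₀.ihom hX) (Cup.precomp f.f₀ X))
    (LC.cxMap (R'.smooth₁.ihom hX) (R.smooth₁.ihom hX) (Cup.precomp f.f₁ X)) (f.sq hX) n

lemma Ext.map_id (n : ℕ) : Ext.map hX (Hom.id R) n = LinearMap.id := by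
  have h := Cx.EMap_id (R.homMap hX) (fun _ _ => rfl) n
  exact (Cx.EMap_congr _ _ _ _ _ _ _ _
    (fun m x => LC.cxMap_id_apply _ m x) (fun m x => LC.cxMap_id_apply _ m x) n).trans h

lemma Ext.map_comp (g : Hom R' R'') (f : Hom R R') (n : ℕ) (x : R''.Ext hX n) :
    Ext.map hX (g.comp f) n x = Ext.map hX f n (Ext.map hX g n x) := by
  have h := Cx.EMap_comp (R''.homMap hX) (R'.homMap hX) (R.homMap hX) _ _ _ _ (g.sq hX)
    (f.sq hX) (fun m y => by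
      change (LC.cxMap _ _ (Cup.precomp f.f₁ X)).f m ((LC.cxMap _ _ (Cup.precomp g.f₁ X)).f m
          ((R''.homMap hX).f m y)) =
        (R.homMap hX).f m ((LC.cxMap _ _ (Cup.precomp f.f₀ X)).f m
          ((LC.cxMap _ _ (Cup.precomp g.f₀ X)).f m y))
      rw [g.sq hX, f.sq hX]) n x
  change _ = Cx.EMap _ _ _ _ (f.sq hX) n (Cx.EMap _ _ _ _ (g.sq hX) n x)
  rw [h]
  refine LinearMap.congr_fun (Cx.EMap_congr _ _ _ _ _ _ _ _ (fun m y => ?_) (fun m y => ?_) n) x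
  · exact LC.cxMap_comp_apply _ _ _ (Cup.precomp g.f₀ X) (Cup.precomp f.f₀ X) m y
  · exact LC.cxMap_comp_apply _ _ _ (Cup.precomp g.f₁ X) (Cup.precomp f.f₁ X) m y

/-- `f` induces an isomorphism on cokernels (elementwise form). -/
structure Hom.IsQis (f : Hom R R') : Prop where
  inj : ∀ y : R.P₀, (∃ z, R'.i.hom z = f.f₀.hom y) → ∃ a, R.i.hom a = y
  surj : ∀ x : R'.P₀, ∃ (y : R.P₀) (z : R'.P₁), f.f₀.hom y + R'.i.hom z = x

/-- **Resolution independence**: a morphism of injective two-term complexes inducing an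
isomorphism on cokernels, with projective target `P₀'`, induces isomorphisms on hyper-Ext. -/
theorem Ext.map_bijective_of_isQis (f : Hom R R') (hf : f.IsQis)
    (hi : Function.Injective R.i.hom) (hi' : Function.Injective R'.i.hom)
    [Module.Projective k R'.P₀] (n : ℕ) : Function.Bijective (Ext.map hX f n) := by
  have comm : ∀ x, R'.i.hom.toLinearMap (f.f₁.hom.toLinearMap x) =
      f.f₀.hom.toLinearMap (R.i.hom.toLinearMap x) := f.comm
  refine Cx.EMap_bijective_of_bicartesian (R'.homMap hX) (R.homMap hX)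
    (LC.cxMap (R'.smooth₀.ihom hX) (R.smooth₀.ihom hX) (Cup.precomp f.f₀ X))
    (LC.cxMap (R'.smooth₁.ihom hX) (R.smooth₁.ihom hX) (Cup.precomp f.f₁ X)) (f.sq hX)
    ?_ ?_ ?_ n
  · intro m x h1 h2
    refine LC.cx_bicartesian_inj _ _ _ (Cup.precomp f.f₀ X) (Cup.precomp R'.i X) ?_ m x h1 h2
    intro h e1 e2
    exact lattice_qis_hom_inj R'.i.hom.toLinearMap f.f₀.hom.toLinearMap hf.surj
      (show R'.P₀ →ₗ[k] X from h) e1 e2
  · intro m y₁ y₂ h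
    refine LC.cx_bicartesian_ex _ _ _ _ (Cup.precomp f.f₀ X) (Cup.precomp R'.i X)
      (Cup.precomp R.i X) (Cup.precomp f.f₁ X) ?_ m y₁ y₂ h
    intro h₁ h₂ e
    exact lattice_qis_hom_ex R.i.hom.toLinearMap R'.i.hom.toLinearMap f.f₀.hom.toLinearMap
      f.f₁.hom.toLinearMap comm hf.inj hf.surj hi' (show R.P₀ →ₗ[k] X from h₁)
      (show R'.P₁ →ₗ[k] X from h₂) e
  · intro m c
    refine LC.cx_bicartesian_surj _ _ _ (Cup.precomp R.i X) (Cup.precomp f.f₁ X) ?_ m c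
    intro c
    exact lattice_qis_hom_surj R.i.hom.toLinearMap R'.i.hom.toLinearMap f.f₀.hom.toLinearMap
      f.f₁.hom.toLinearMap comm hf.inj hf.surj hi hi' (show R.P₁ →ₗ[k] X from c)

end LatticePair

end LatticePair

end Fermat.Agent.CFT
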