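import Mathlib
import Fermat.Agent.CFT.HyperExt.LCExt

/-!
# The first-variable long exact sequence of hyper-Ext for a short exact sequence of modules
(S55, node A7.X, part 2)

* `LatticeRes L N`: a two-term resolution `0 → P₁ → P₀ → N → 0` of `N` by finitely generated
  smooth representations;
* for a short exact sequence `0 → A → B → C → 0` and a resolution `RB` of `B`:
  the nested triple `P₁ ⊆ L₂ ⊆ P₀`, `L₂ = ker(P₀ → B → C)`, the resolutions
  `RB.quotRes` of `C` and `RB.subRes` of `A`;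
* the octahedral exact sequence
  `Ext(quotRes) → Ext(RB) → Ext(subRes) → Ext(quotRes)[1] → Ext(RB)[1]`.
-/

set_option autoImplicit false
set_option linter.unusedSectionVars false

universe u

open CategoryTheory

namespace Fermat.Agent.CFT

open HExt

variable {k G : Type u} [CommRing k] [Group G]

/-- A two-term resolution `0 → P₁ → P₀ → N → 0`. -/
structure LatticeRes (L : LevelStructure G) (N : Rep.{u} k G) extends LatticePair k L where
  /-- the augmentation -/
  π : P₀ ⟶ N
  surj : Function.Surjective π.hom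
  exact : Function.Exact i.hom π.hom
  inj : Function.Injective i.hom

namespace LatticeRes

variable {L : LevelStructure G} {A B C : Rep.{u} k G}

lemma smooth {N : Rep.{u} k G} (R : LatticeRes L N) : IsSmooth L N :=
  IsSmooth.of_surjective R.π R.surj R.smooth₀

section nested

variable [IsNoetherianRing k] (RB : LatticeRes L B) (ι : A ⟶ B) (π : B ⟶ C)

/-- The middle lattice `L₂ = ker(P₀ → B → C)`. -/
def midSub : Submodule k RB.P₀ :=
  LinearMap.ker (π.hom.toLinearMap ∘ₗ RB.π.hom.toLinearMap)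

lemma mem_midSub_iff (x : RB.P₀) : x ∈ RB.midSub π ↔ π.hom (RB.π.hom x) = 0 := LinearMap.mem_ker

lemma midSub_le_comap (g : G) : RB.midSub π ≤ (RB.midSub π).comap (RB.P₀.ρ g) := by
  intro x hx
  rw [Submodule.mem_comap, mem_midSub_iff, Rep.hom_comm_apply, Rep.hom_comm_apply,
    (RB.mem_midSub_iff π x).1 hx, map_zero]

/-- The middle lattice as a representation. -/
noncomputable def mid : Rep.{u} k G :=
  Rep.subrepresentation RB.P₀ (RB.midSub π) (RB.midSub_le_comap π)

/-- The inclusion `L₂ ⟶ P₀`. -/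
noncomputable def midIncl : RB.mid π ⟶ RB.P₀ :=
  Rep.subtype RB.P₀ (RB.midSub π) (RB.midSub_le_comap π)

lemma midIncl_injective : Function.Injective (RB.midIncl π).hom := Subtype.val_injective

lemma midIncl_apply_mem (x : RB.mid π) : π.hom (RB.π.hom ((RB.midIncl π).hom x)) = 0 :=
  (RB.mem_midSub_iff π _).1 x.2

instance : Module.Finite k (RB.mid π) :=
  inferInstanceAs (Module.Finite k ↥(RB.midSub π))

lemma mid_smooth : IsSmooth L (RB.mid π) :=
  IsSmooth.of_injective (RB.midIncl π) (RB.midIncl_injective π) RB.smooth₀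

/-- The inclusion `P₁ ⟶ L₂`. -/
noncomputable def subIncl : RB.P₁ ⟶ RB.mid π :=
  Rep.ofHom ⟨RB.i.hom.toLinearMap.codRestrict (RB.midSub π) (fun x => by
      rw [mem_midSub_iff]
      have : RB.π.hom (RB.i.hom x) = 0 := RB.exact.apply_apply_eq_zero x
      change π.hom (RB.π.hom (RB.i.hom x)) = 0
      rw [this, map_zero]),
    fun g => by
      ext x
      exact Rep.hom_comm_apply RB.i g x⟩

lemma midIncl_subIncl (x : RB.P₁) :
    (RB.midIncl π).hom ((RB.subIncl π).hom x) = RB.i.hom x := rfl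

lemma subIncl_injective : Function.Injective (RB.subIncl π).hom := by
  intro x y h
  apply RB.inj
  rw [← midIncl_subIncl, ← midIncl_subIncl, h]

/-- The resolution `0 → L₂ → P₀ → C → 0` of the quotient. -/
noncomputable def quotRes (hπ : Function.Surjective π.hom) : LatticeRes L C where
  P₀ := RB.P₀
  P₁ := RB.mid π
  i := RB.midIncl π
  smooth₀ := RB.smooth₀
  smooth₁ := RB.mid_smooth π
  π := RB.π ≫ π
  surj := hπ.comp RB.surj
  exact := by
    intro x
    constructor
    · intro hx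
      exact ⟨⟨x, (RB.mem_midSub_iff π x).2 hx⟩, rfl⟩
    · rintro ⟨y, rfl⟩
      exact RB.midIncl_apply_mem π y
  inj := RB.midIncl_injective π

variable (hι : Function.Injective ι.hom) (hex : Function.Exact ι.hom π.hom)

include hex in
lemma exists_of_mem_mid (x : RB.mid π) : ∃ a : A, ι.hom a = RB.π.hom ((RB.midIncl π).hom x) :=
  (hex _).1 (RB.midIncl_apply_mem π x)

include hex in
lemma midSub_mem_range (x : ↥(RB.midSub π)) :
    (RB.π.hom.toLinearMap ∘ₗ (RB.midSub π).subtype) x ∈ LinearMap.range ι.hom.toLinearMap := by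
  obtain ⟨a, ha⟩ := (hex _).1 ((RB.mem_midSub_iff π x.1).1 x.2)
  exact ⟨a, ha⟩

/-- The augmentation `L₂ → A`, as a linear map. -/
noncomputable def midToALin : ↥(RB.midSub π) →ₗ[k] A :=
  (LinearEquiv.ofInjective ι.hom.toLinearMap hι).symm.toLinearMap ∘ₗ
    (RB.π.hom.toLinearMap ∘ₗ (RB.midSub π).subtype).codRestrict
      (LinearMap.range ι.hom.toLinearMap) (RB.midSub_mem_range ι π hex)

lemma ι_midToALin (x : ↥(RB.midSub π)) :
    ι.hom (RB.midToALin ι π hι hex x) = RB.π.hom x.1 :=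
  congrArg Subtype.val ((LinearEquiv.ofInjective ι.hom.toLinearMap hι).apply_symm_apply
    ⟨RB.π.hom x.1, RB.midSub_mem_range ι π hex x⟩)

/-- The augmentation `L₂ → A`. -/
noncomputable def midToA : RB.mid π ⟶ A :=
  Rep.ofHom ⟨RB.midToALin ι π hι hex, fun g => by
    ext x
    apply hι
    change ι.hom (RB.midToALin ι π hι hex ⟨RB.P₀.ρ g x.1, _⟩) =
      ι.hom (A.ρ g (RB.midToALin ι π hι hex x))
    rw [ι_midToALin, Rep.hom_comm_apply ι, ι_midToALin]
    exact Rep.hom_comm_apply RB.π g x.1⟩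

lemma ι_midToA (x : RB.mid π) :
    ι.hom ((RB.midToA ι π hι hex).hom x) = RB.π.hom ((RB.midIncl π).hom x) :=
  RB.ι_midToALin ι π hι hex x

/-- The resolution `0 → P₁ → L₂ → A → 0` of the sub-object. -/
noncomputable def subRes : LatticeRes L A where
  P₀ := RB.mid π
  P₁ := RB.P₁
  i := RB.subIncl π
  smooth₀ := RB.mid_smooth π
  smooth₁ := RB.smooth₁
  π := RB.midToA ι π hι hex
  surj := by
    intro a
    obtain ⟨x, hx⟩ := RB.surj (ι.hom a)
    have hx' : x ∈ RB.midSub π := by
      rw [mem_midSub_iff, hx]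
      exact hex.apply_apply_eq_zero a
    refine ⟨(show RB.mid π from ⟨x, hx'⟩), hι ?_⟩
    rw [ι_midToA]
    exact hx
  exact := by
    intro x
    constructor
    · intro hx
      have h0 : RB.π.hom ((RB.midIncl π).hom x) = 0 := by
        rw [← ι_midToA RB ι π hι hex, hx, map_zero]
      obtain ⟨y, hy⟩ := (RB.exact _).1 h0
      exact ⟨y, (RB.midIncl_injective π) hy⟩
    · rintro ⟨y, rfl⟩
      apply hι
      rw [ι_midToA, map_zero, midIncl_subIncl]
      exact RB.exact.apply_apply_eq_zero y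
  inj := RB.subIncl_injective π

/-! ### The octahedral sequence -/

variable (hπ : Function.Surjective π.hom) {X : Rep.{u} k G} (hX : IsSmooth L X)

/-- The morphism of pairs `(P₁ → P₀) ⟶ (L₂ → P₀)`. -/
noncomputable def toQuot :
    LatticePair.Hom RB.toLatticePair (RB.quotRes π hπ).toLatticePair where
  f₀ := 𝟙 _
  f₁ := RB.subIncl π
  comm _ := rfl

/-- The morphism of pairs `(P₁ → L₂) ⟶ (P₁ → P₀)`. -/
noncomputable def fromSub :
    LatticePair.Hom (RB.subRes ι π hι hex).toLatticePair RB.toLatticePair where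
  f₀ := RB.midIncl π
  f₁ := 𝟙 _
  comm _ := rfl

lemma homMap_comp (n : ℕ) (x : (LC.cx (RB.smooth₀.ihom hX)).X n) :
    (RB.homMap hX).f n x =
      ((RB.subRes ι π hι hex).homMap hX).f n (((RB.quotRes π hπ).homMap hX).f n x) := by
  refine (LC.cxMap_congr_apply _ _ _ (Cup.precomp (RB.midIncl π) X ≫ Cup.precomp (RB.subIncl π) X)
    (fun a => rfl) n x).trans ?_
  exact LC.cxMap_comp_apply _ _ _ _ _ n x

/-- The connecting homomorphism `Ext^n(A) → Ext^{n+1}(C)` (for the resolutions `subRes`,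
`quotRes`). -/
noncomputable def δExt (n : ℕ) :
    (RB.subRes ι π hι hex).Ext hX n →ₗ[k] (RB.quotRes π hπ).Ext hX (n + 1) :=
  Cx.Eoct ((RB.quotRes π hπ).homMap hX) ((RB.subRes ι π hι hex).homMap hX) n

lemma map_toQuot_eq (n : ℕ) :
    LatticePair.Ext.map hX (RB.toQuot π hπ) n =
      Cx.EMap ((RB.quotRes π hπ).homMap hX) (RB.homMap hX) (Cx.Hom.id _)
        ((RB.subRes ι π hι hex).homMap hX)
        (fun m x => (RB.homMap_comp ι π hι hex hπ hX m x).symm) n :=
  Cx.EMap_congr _ _ _ _ _ _ _ _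
    (fun m x => (LC.cxMap_congr_apply _ _ _ (𝟙 _) (fun _ => rfl) m x).trans
      (LC.cxMap_id_apply _ m x))
    (fun _ _ => rfl) n

lemma map_fromSub_eq (n : ℕ) :
    LatticePair.Ext.map hX (RB.fromSub ι π hι hex) n =
      Cx.EMap (RB.homMap hX) ((RB.subRes ι π hι hex).homMap hX)
        ((RB.quotRes π hπ).homMap hX) (Cx.Hom.id _)
        (fun m x => RB.homMap_comp ι π hι hex hπ hX m x) n :=
  Cx.EMap_congr _ _ _ _ _ _ _ _ (fun _ _ => rfl)
    (fun m x => (LC.cxMap_congr_apply _ _ _ (𝟙 _) (fun _ => rfl) m x).trans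
      (LC.cxMap_id_apply _ m x)) n

/-- Exactness of `Ext^n(C) → Ext^n(B) → Ext^n(A)`. -/
theorem exact_toQuot_fromSub (n : ℕ) :
    Function.Exact (LatticePair.Ext.map hX (RB.toQuot π hπ) n)
      (LatticePair.Ext.map hX (RB.fromSub ι π hι hex) n) := by
  rw [RB.map_toQuot_eq ι π hι hex hπ hX n, RB.map_fromSub_eq ι π hι hex hπ hX n]
  exact Cx.exact_EMap_EMap _ _ _ (RB.homMap_comp ι π hι hex hπ hX) n

/-- Exactness of `Ext^n(B) → Ext^n(A) → Ext^{n+1}(C)`. -/
theorem exact_fromSub_δExt (n : ℕ) :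
    Function.Exact (LatticePair.Ext.map hX (RB.fromSub ι π hι hex) n)
      (RB.δExt ι π hι hex hπ hX n) := by
  rw [RB.map_fromSub_eq ι π hι hex hπ hX n]
  exact Cx.exact_EMap_Eoct _ _ _ (RB.homMap_comp ι π hι hex hπ hX) n

/-- Exactness of `Ext^n(A) → Ext^{n+1}(C) → Ext^{n+1}(B)`. -/
theorem exact_δExt_toQuot (n : ℕ) :
    Function.Exact (RB.δExt ι π hι hex hπ hX n)
      (LatticePair.Ext.map hX (RB.toQuot π hπ) (n + 1)) := by
  rw [RB.map_toQuot_eq ι π hι hex hπ hX (n + 1)]
  exact Cx.exact_Eoct_EMap _ _ _ (RB.homMap_comp ι π hι hex hπ hX) n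

end nested

end LatticeRes

end Fermat.Agent.CFT
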