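import Mathlib
import Fermat.Agent.CFT.HyperExt.LCExtSES

/-!
# The standard resolution of the trivial module `𝔽_p` (S55, node A8)

`stdRes L p : LatticeRes L (Rep.trivial ℤ G (ZMod p))` is `0 → ℤ --p--> ℤ → ℤ/p → 0` with trivial
`G`-action.
-/

set_option autoImplicit false

open CategoryTheory

namespace Fermat.Agent.CFT

variable {G : Type} [Group G]

/-- Trivial representations are smooth. -/
lemma isSmooth_trivial {k : Type} [CommRing k] (L : LevelStructure G) (V : Type) [AddCommGroup V]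
    [Module k V] : IsSmooth L (Rep.trivial k G V) := by
  intro a
  obtain ⟨N, hN⟩ := L.exists_level
  exact ⟨N, hN, fun _ _ => rfl⟩

/-- Multiplication by `p` on the trivial module `ℤ`. -/
noncomputable def stdResI (p : ℕ) : Rep.trivial ℤ G ℤ ⟶ Rep.trivial ℤ G ℤ :=
  Rep.ofHom ⟨(p : ℤ) • LinearMap.id, fun _ => rfl⟩

lemma stdResI_apply (p : ℕ) (x : ℤ) : (stdResI (G := G) p).hom x = (p : ℤ) * x := rfl

/-- The reduction `ℤ → ℤ/p` of trivial modules. -/
noncomputable def stdResπ (p : ℕ) : Rep.trivial ℤ G ℤ ⟶ Rep.trivial ℤ G (ZMod p) :=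
  Rep.ofHom ⟨(Int.castAddHom (ZMod p)).toIntLinearMap, fun _ => rfl⟩

lemma stdResπ_apply (p : ℕ) (x : ℤ) : (stdResπ (G := G) p).hom x = (x : ZMod p) := rfl

/-- The standard resolution `0 → ℤ --p--> ℤ → ℤ/p → 0`. -/
noncomputable def stdRes (L : LevelStructure G) (p : ℕ) [NeZero p] :
    LatticeRes L (Rep.trivial ℤ G (ZMod p)) where
  P₀ := Rep.trivial ℤ G ℤ
  P₁ := Rep.trivial ℤ G ℤ
  i := stdResI p
  fin₀ := inferInstanceAs (Module.Finite ℤ ℤ)
  fin₁ := inferInstanceAs (Module.Finite ℤ ℤ)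
  smooth₀ := isSmooth_trivial L ℤ
  smooth₁ := isSmooth_trivial L ℤ
  π := stdResπ p
  surj := ZMod.intCast_surjective
  exact := by
    intro y
    change ((y : ℤ) : ZMod p) = 0 ↔ ∃ x : ℤ, (p : ℤ) * x = y
    rw [ZMod.intCast_zmod_eq_zero_iff_dvd]
    exact ⟨fun ⟨x, hx⟩ => ⟨x, hx.symm⟩, fun ⟨x, hx⟩ => ⟨x, hx.symm⟩⟩
  inj := by
    intro x y h
    change (p : ℤ) * x = (p : ℤ) * y at h
    exact mul_left_cancel₀ (Int.natCast_ne_zero.2 (NeZero.ne p)) h

end Fermat.Agent.CFT
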