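import Fermat.Agent.CFT.HyperExt.LCDualityZMod
import Fermat.Agent.CFT.LC.DualityModulesLine
import Fermat.Agent.CFT.HyperExt.StdRes

/-!
# The abstract duality theorem: base cases and modules with unipotent action (S55, node A8.BT)
-/

set_option autoImplicit false
set_option linter.unusedSectionVars false

open CategoryTheory

namespace Fermat.Agent.CFT

open HExt

/-! ### (A1) Independence of the resolution -/

namespace LatticeRes

universe u

variable {k G : Type u} [CommRing k] [Group G] {L : LevelStructure G} {N : Rep.{u} k G}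
  {R R' : LatticeRes L N} (p : ℕ) {C : Rep.{u} k G} (hC : IsSmooth L C)
  (hpN : ∀ n : N, p • n = 0) (inv : LC.Hp p hC 2 →+ ZMod p)
  (f : LatticePair.Hom R.toLatticePair R'.toLatticePair)
  (hf : ∀ x : R.P₀, R'.π.hom (f.f₀.hom x) = R.π.hom x)

include hf in
/-- The duality maps of two resolutions of the same module correspond under a comparison map. -/
theorem dual_map_id (n s : ℕ) (hm : n + s = 1) (e' : R'.Ext hC (n + 1))
    (c : (LC.cx R.smooth).H s) :
    R.dual p hC hpN inv n s hm (LatticePair.Ext.map hC f (n + 1) e') c =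
      R'.dual p hC hpN inv n s hm e' c := by
  rw [dual_apply, dual_apply]
  exact congrArg inv (Subtype.ext (pair_map_id hC f hf n s 1 hm e' c))

variable (hq : f.IsQis) [Module.Projective k R'.P₀]

include hf hq in
theorem dual_bijective_iff_of_isQis (n s : ℕ) (hm : n + s = 1) :
    Function.Bijective (R.dual p hC hpN inv n s hm) ↔
      Function.Bijective (R'.dual p hC hpN inv n s hm) := by
  have hb := LatticePair.Ext.map_bijective_of_isQis hC f hq R.inj R'.inj (n + 1)
  have h : ⇑(R'.dual p hC hpN inv n s hm) =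
      ⇑(R.dual p hC hpN inv n s hm) ∘ ⇑(LatticePair.Ext.map hC f (n + 1)) := by
    funext e'
    ext c
    exact (dual_map_id p hC hpN inv f hf n s hm e' c).symm
  rw [h, Function.Bijective.of_comp_iff _ hb]

include hf hq in
theorem dual_injective_iff_of_isQis (n s : ℕ) (hm : n + s = 1) :
    Function.Injective (R.dual p hC hpN inv n s hm) ↔
      Function.Injective (R'.dual p hC hpN inv n s hm) := by
  have hb := LatticePair.Ext.map_bijective_of_isQis hC f hq R.inj R'.inj (n + 1)
  have h : ⇑(R'.dual p hC hpN inv n s hm) =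
      ⇑(R.dual p hC hpN inv n s hm) ∘ ⇑(LatticePair.Ext.map hC f (n + 1)) := by
    funext e'
    ext c
    exact (dual_map_id p hC hpN inv f hf n s hm e' c).symm
  rw [h, Function.Injective.of_comp_iff' _ hb]

include hf hq in
theorem dual_surjective_iff_of_isQis (n s : ℕ) (hm : n + s = 1) :
    Function.Surjective (R.dual p hC hpN inv n s hm) ↔
      Function.Surjective (R'.dual p hC hpN inv n s hm) := by
  have hb := LatticePair.Ext.map_bijective_of_isQis hC f hq R.inj R'.inj (n + 1)
  have h : ⇑(R'.dual p hC hpN inv n s hm) =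
      ⇑(R.dual p hC hpN inv n s hm) ∘ ⇑(LatticePair.Ext.map hC f (n + 1)) := by
    funext e'
    ext c
    exact (dual_map_id p hC hpN inv f hf n s hm e' c).symm
  rw [h, Function.Surjective.of_comp_iff _ hb.2]

end LatticeRes

/-! ### (A2) The trivial module `𝔽_p` -/

section Fp

attribute [local instance 2000] Rep.hV2

variable {G : Type} [Group G] {L : LevelStructure G} {p : ℕ} [Fact p.Prime]

lemma zmod_nsmul_self (a : ZMod p) : p • a = 0 := by
  rw [← Nat.cast_smul_eq_nsmul (ZMod p), ZMod.natCast_self, zero_smul]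

variable (L p) in
/-- The trivial module `𝔽_p` as an object of the duality chase. -/
noncomputable def PMod.Fp : PMod L p where
  N := Rep.trivial ℤ G (ZMod p)
  fin := inferInstanceAs (Finite (ZMod p))
  smooth := isSmooth_trivial L (ZMod p)
  tors := zmod_nsmul_self

/-- The set-theoretic section `ℤ/p → ℤ` of the reduction map. -/
def fpSection (a : ZMod p) : ℤ := (a.val : ℤ)

lemma fpSection_spec (a : ZMod p) : ((fpSection a : ℤ) : ZMod p) = a := by
  rw [fpSection, Int.cast_natCast, ZMod.natCast_zmod_val]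

variable (L p) in
/-- The comparison `zRes 𝔽_p ⟶ (ℤ --p--> ℤ)`. -/
noncomputable def fpLift :
    LatticePair.Hom (zRes (PMod.Fp L p).N (PMod.Fp L p).smooth) (stdRes L p).toLatticePair :=
  zRes.lift (PMod.Fp L p).smooth (stdRes L p).toLatticePair (stdRes L p).π (stdRes L p).exact
    (stdRes L p).inj (fun a => (fpSection a : ℤ)) fpSection_spec (fun _ _ => rfl)

lemma fpLift_isQis : (fpLift L p).IsQis := zRes.lift_isQis _ _ _ _ _ _ _ _

lemma fpLift_aug (x : zFree (PMod.Fp L p).N) :
    (stdRes L p).π.hom ((fpLift L p).f₀.hom x) = (zAug (PMod.Fp L p).N).hom x :=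
  π_zLift₀ (stdRes L p).toLatticePair (stdRes L p).π (fun a => (fpSection a : ℤ)) fpSection_spec
    (fun _ _ => rfl) x

instance projective_stdRes_P₀ : Module.Projective ℤ (stdRes L p).P₀ :=
  inferInstanceAs (Module.Projective ℤ ℤ)

variable {C : Rep.{0} ℤ G} (hC : IsSmooth L C) (inv : LC.Hp p hC 2 →+ ZMod p)

theorem fp_dual_bijective_iff (n s : ℕ) (hm : n + s = 1) :
    Function.Bijective ((PMod.Fp L p).res.dual p hC (PMod.Fp L p).tors inv n s hm) ↔
      Function.Bijective ((stdRes L p).dual p hC zmod_nsmul_self inv n s hm) :=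
  LatticeRes.dual_bijective_iff_of_isQis (R := (PMod.Fp L p).res) (R' := stdRes L p) p hC
    (PMod.Fp L p).tors inv (fpLift L p) fpLift_aug fpLift_isQis n s hm

theorem fp_dual_injective_iff (n s : ℕ) (hm : n + s = 1) :
    Function.Injective ((PMod.Fp L p).res.dual p hC (PMod.Fp L p).tors inv n s hm) ↔
      Function.Injective ((stdRes L p).dual p hC zmod_nsmul_self inv n s hm) :=
  LatticeRes.dual_injective_iff_of_isQis (R := (PMod.Fp L p).res) (R' := stdRes L p) p hC
    (PMod.Fp L p).tors inv (fpLift L p) fpLift_aug fpLift_isQis n s hm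

theorem fp_dual_surjective_iff (n s : ℕ) (hm : n + s = 1) :
    Function.Surjective ((PMod.Fp L p).res.dual p hC (PMod.Fp L p).tors inv n s hm) ↔
      Function.Surjective ((stdRes L p).dual p hC zmod_nsmul_self inv n s hm) :=
  LatticeRes.dual_surjective_iff_of_isQis (R := (PMod.Fp L p).res) (R' := stdRes L p) p hC
    (PMod.Fp L p).tors inv (fpLift L p) fpLift_aug fpLift_isQis n s hm

/-- `𝔽_p` is perfect for the canonical resolution iff it is for the standard resolution. -/
theorem fp_isPerfect_iff :
    (PMod.Fp L p).res.IsPerfect p hC (PMod.Fp L p).tors inv ↔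
      (stdRes L p).IsPerfect p hC zmod_nsmul_self inv :=
  and_congr (fp_dual_bijective_iff hC inv 0 1 rfl) (fp_dual_bijective_iff hC inv 1 0 rfl)

end Fp

/-! ### (A3), (A4): modules with trivial, resp. unipotent, action -/

section Line

attribute [local instance 2000] Rep.hV2

variable {G : Type} [Group G] {L : LevelStructure G} {p : ℕ} [Fact p.Prime]
  {C : Rep.{0} ℤ G} (hC : IsSmooth L C) (inv : LC.Hp p hC 2 →+ ZMod p)

/-- The quotient of an object of the chase by the line spanned by a fixed vector. -/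
noncomputable def PMod.lineQuot (M : PMod L p) (x : M.N) (hx : ∀ g, M.N.ρ g x = x) : PMod L p where
  N := Fermat.Agent.CFT.lineQuot M.N x hx
  fin := finite_lineQuot M.N x hx
  smooth := isSmooth_lineQuot M.N x hx M.smooth
  tors := smul_lineQuot_eq_zero M.N M.tors x hx

lemma PMod.card_lineQuot_lt (M : PMod L p) (x : M.N) (hx : ∀ g, M.N.ρ g x = x) (hx0 : x ≠ 0) :
    Nat.card (M.lineQuot x hx).N < Nat.card M.N := by
  have h := natCard_lineQuot_mul M.N M.tors x hx hx0
  have hp : 2 ≤ p := (Fact.out : p.Prime).two_le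
  have hpos : 0 < Nat.card (Fermat.Agent.CFT.lineQuot M.N x hx) := Nat.card_pos
  change Nat.card (Fermat.Agent.CFT.lineQuot M.N x hx) < Nat.card M.N
  nlinarith

/-- The `SESData` of the line sequence `0 → 𝔽_p → M → M/⟨x⟩ → 0`. -/
noncomputable def PMod.lineSES (M : PMod L p) (x : M.N) (hx : ∀ g, M.N.ρ g x = x)
    (hx0 : x ≠ 0) :
    SESData (PMod.T1 hC) (PMod.T2 hC) PMod.H0 PMod.H1 (PMod.p1 hC inv) (PMod.p2 hC inv)
      (PMod.Fp L p) M (M.lineQuot x hx) :=
  PMod.sesData (A := PMod.Fp L p) (B := M) (C' := M.lineQuot x hx) hC inv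
    (lineHom M.N M.tors x hx) (lineProj M.N x hx) (lineHom_injective M.N M.tors x hx hx0)
    (exact_lineHom_lineProj M.N M.tors x hx) (lineProj_surjective M.N x hx)

/-- **(A3)** If `𝔽_p` is perfect (for the standard resolution `ℤ --p--> ℤ`), then every object
with trivial action is perfect. -/
theorem PMod.perfect_of_trivial
    (hbase : (stdRes L p).IsPerfect p hC zmod_nsmul_self inv) :
    ∀ M : PMod L p, (∀ g (x : M.N), M.N.ρ g x = x) →
      Function.Bijective (PMod.p1 hC inv M) ∧ Function.Bijective (PMod.p2 hC inv M) := by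
  have hFp : Function.Bijective (PMod.p1 hC inv (PMod.Fp L p)) ∧
      Function.Bijective (PMod.p2 hC inv (PMod.Fp L p)) :=
    (PMod.isPerfect_iff hC inv _).1 ((fp_isPerfect_iff hC inv).2 hbase)
  intro M
  induction h : Nat.card M.N using Nat.strong_induction_on generalizing M with
  | _ n ih =>
    intro htriv
    by_cases h1 : Nat.card M.N ≤ 1
    · have : Subsingleton M.N := Finite.card_le_one_iff_subsingleton.1 h1
      exact ⟨PMod.bijective_of_subsingleton _, PMod.bijective_of_subsingleton _⟩
    · have : Nontrivial M.N := Finite.one_lt_card_iff_nontrivial.1 (by omega)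
      obtain ⟨x, hx0⟩ := exists_ne (0 : M.N)
      have hx : ∀ g, M.N.ρ g x = x := fun g => htriv g x
      obtain ⟨r, hr⟩ := exists_retraction_lineHom M.N M.tors x hx hx0 htriv
      obtain ⟨s, hs⟩ := exists_section_lineProj M.N M.tors x hx htriv
      have hQ := ih _ (h ▸ M.card_lineQuot_lt x hx hx0) (M.lineQuot x hx) rfl
        (fun g q => lineQuot_fixed M.N x hx ⊤ (fun g _ y => htriv g y) g trivial q)
      have hr' : (show (PMod.Fp L p).N ⟶ M.N from lineHom M.N M.tors x hx) ≫
          (show M.N ⟶ (PMod.Fp L p).N from r) = 𝟙 (PMod.Fp L p).N := hr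
      have hs' : (show (M.lineQuot x hx).N ⟶ M.N from s) ≫
          (show M.N ⟶ (M.lineQuot x hx).N from lineProj M.N x hx) = 𝟙 (M.lineQuot x hx).N := hs
      refine (M.lineSES hC inv x hx hx0).bijective_of_split
        (PMod.mapT1 (M := M) (M' := PMod.Fp L p) hC r) (fun t => ?_)
        (PMod.mapT2 (M := M) (M' := PMod.Fp L p) hC r) (fun t => ?_)
        (PMod.mapH0 (M := M.lineQuot x hx) (M' := M) s) (fun c => ?_)
        (PMod.mapH1 (M := M.lineQuot x hx) (M' := M) s) (fun c => ?_) hFp hQ
      · have e := PMod.mapT1_comp (M := PMod.Fp L p) (M' := M) (M'' := PMod.Fp L p) hC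
          (show (PMod.Fp L p).N ⟶ M.N from lineHom M.N M.tors x hx)
          (show M.N ⟶ (PMod.Fp L p).N from r) t
        rw [hr'] at e
        exact e.symm.trans (PMod.mapT1_id hC t)
      · have e := PMod.mapT2_comp (M := PMod.Fp L p) (M' := M) (M'' := PMod.Fp L p) hC
          (show (PMod.Fp L p).N ⟶ M.N from lineHom M.N M.tors x hx)
          (show M.N ⟶ (PMod.Fp L p).N from r) t
        rw [hr'] at e
        exact e.symm.trans (PMod.mapT2_id hC t)
      · have e := PMod.mapH0_comp (M := M.lineQuot x hx) (M' := M) (M'' := M.lineQuot x hx)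
          (show (M.lineQuot x hx).N ⟶ M.N from s)
          (show M.N ⟶ (M.lineQuot x hx).N from lineProj M.N x hx) c
        rw [hs'] at e
        exact e.symm.trans (PMod.mapH0_id c)
      · have e := PMod.mapH1_comp (M := M.lineQuot x hx) (M' := M) (M'' := M.lineQuot x hx)
          (show (M.lineQuot x hx).N ⟶ M.N from s)
          (show M.N ⟶ (M.lineQuot x hx).N from lineProj M.N x hx) c
        rw [hs'] at e
        exact e.symm.trans (PMod.mapH1_id c)

/-- **(A4)** If `𝔽_p` satisfies the one-sided conditions (`dual1` surjective, `dual2` injective,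
for the standard resolution `ℤ --p--> ℤ`), then `𝒜²(M)` is injective for every object `M` on
which `G` acts through a `p`-group. -/
theorem PMod.injective_p2_of_pgroup
    (hbase1 : Function.Surjective ((stdRes L p).dual1 p hC zmod_nsmul_self inv))
    (hbase2 : Function.Injective ((stdRes L p).dual2 p hC zmod_nsmul_self inv))
    (M : PMod L p) (K : Subgroup G) (hK : ∀ g ∈ K, ∀ x : M.N, M.N.ρ g x = x)
    (hG : ∀ g : G, ∃ n : ℕ, g ^ p ^ n ∈ K) : Function.Injective (PMod.p2 hC inv M) := by
  have h1 : Function.Surjective (PMod.p1 hC inv (PMod.Fp L p)) :=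
    (zmodBilin_surjective_iff _).2 ((fp_dual_surjective_iff hC inv 0 1 rfl).2 hbase1)
  have h2 : Function.Injective (PMod.p2 hC inv (PMod.Fp L p)) :=
    (PMod.injective_p2_iff hC inv _).2 ((fp_dual_injective_iff hC inv 1 0 rfl).2 hbase2)
  refine injective_p2_of_lineSteps (T1 := PMod.T1 hC) (T2 := PMod.T2 hC) (H0 := PMod.H0)
    (H1 := PMod.H1) (p1 := PMod.p1 hC inv) (p2 := PMod.p2 hC inv)
    (P := fun M : PMod L p => ∀ g ∈ K, ∀ x : M.N, M.N.ρ g x = x)
    (dim := fun M : PMod L p => Nat.card M.N - 1) ?_ ?_ M hK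
  · intro N _ h0
    have hpos : 0 < Nat.card N.N := Nat.card_pos
    have : Subsingleton N.N := Finite.card_le_one_iff_subsingleton.1 (by omega)
    exact (PMod.bijective_of_subsingleton _).1
  · intro N hN h0
    have : Nontrivial N.N := Finite.one_lt_card_iff_nontrivial.1 (by omega)
    obtain ⟨x, hx0, hx⟩ := exists_fixed_ne_zero_of_pow_mem N.N N.tors K hN hG
    refine ⟨(N.lineSES hC inv x hx hx0).toLineStep, ?_, ?_, h1, h2⟩
    · exact lineQuot_fixed N.N x hx K hN
    · have hlt := N.card_lineQuot_lt x hx hx0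
      have hpos : 0 < Nat.card (N.lineQuot x hx).N := Nat.card_pos
      change Nat.card (N.lineQuot x hx).N - 1 < Nat.card N.N - 1
      omega

end Line

end Fermat.Agent.CFT
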