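import Mathlib
import Fermat.Agent.CFT.HyperExt.Shift

set_option autoImplicit false

/-!
# Pairings of complexes and the induced cup products (S55, node A5/N3, part 1)

* `liftSurj₂`: descent of a bilinear map along two surjections;
* `Cx.Pairing A B Z`: a family of bilinear "cup products" `A^a × B^b → Z^{a+b}` satisfying the
  Leibniz rule `d(x ∪ y) = dx ∪ y + (-1)^a x ∪ dy`;
* `Cx.Pairing.cupH`: the induced pairing `H^a(A) × H^b(B) → H^{a+b}(Z)`.
-/

namespace Fermat.Agent.CFT.HExt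

universe u v

section lift

variable {k : Type*} [CommRing k] {W₁ W₂ Q₁ Q₂ R : Type*} [AddCommGroup W₁] [Module k W₁]
  [AddCommGroup W₂] [Module k W₂] [AddCommGroup Q₁] [Module k Q₁] [AddCommGroup Q₂] [Module k Q₂]
  [AddCommGroup R] [Module k R]

theorem bilin_congr_of_ker (f₁ : W₁ →ₗ[k] Q₁) (f₂ : W₂ →ₗ[k] Q₂) (β : W₁ →ₗ[k] W₂ →ₗ[k] R)
    (h₁ : ∀ w₁ w₂, f₁ w₁ = 0 → β w₁ w₂ = 0) (h₂ : ∀ w₁ w₂, f₂ w₂ = 0 → β w₁ w₂ = 0)
    {w₁ w₁' : W₁} {w₂ w₂' : W₂} (e₁ : f₁ w₁ = f₁ w₁') (e₂ : f₂ w₂ = f₂ w₂') :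
    β w₁ w₂ = β w₁' w₂' := by
  have a : β (w₁ - w₁') w₂ = 0 := h₁ _ _ (by rw [map_sub, e₁, sub_self])
  have b : β w₁' (w₂ - w₂') = 0 := h₂ _ _ (by rw [map_sub, e₂, sub_self])
  rw [map_sub, LinearMap.sub_apply, sub_eq_zero] at a
  rw [map_sub, sub_eq_zero] at b
  rw [a, b]

/-- Descent of a bilinear map along two surjective linear maps. -/
noncomputable def liftSurj₂ (f₁ : W₁ →ₗ[k] Q₁) (hf₁ : Function.Surjective f₁) (f₂ : W₂ →ₗ[k] Q₂)
    (hf₂ : Function.Surjective f₂) (β : W₁ →ₗ[k] W₂ →ₗ[k] R)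
    (h₁ : ∀ w₁ w₂, f₁ w₁ = 0 → β w₁ w₂ = 0) (h₂ : ∀ w₁ w₂, f₂ w₂ = 0 → β w₁ w₂ = 0) :
    Q₁ →ₗ[k] Q₂ →ₗ[k] R :=
  LinearMap.mk₂ k (fun q₁ q₂ => β (Function.surjInv hf₁ q₁) (Function.surjInv hf₂ q₂))
    (fun q₁ q₁' q₂ => by
      rw [← LinearMap.add_apply, ← map_add]
      exact bilin_congr_of_ker f₁ f₂ β h₁ h₂
        (by simp only [map_add, Function.surjInv_eq]) rfl)
    (fun c q₁ q₂ => by
      rw [← LinearMap.smul_apply, ← map_smul]
      exact bilin_congr_of_ker f₁ f₂ β h₁ h₂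
        (by simp only [map_smul, Function.surjInv_eq]) rfl)
    (fun q₁ q₂ q₂' => by
      rw [← map_add]
      exact bilin_congr_of_ker f₁ f₂ β h₁ h₂ rfl
        (by simp only [map_add, Function.surjInv_eq]))
    (fun c q₁ q₂ => by
      rw [← map_smul]
      exact bilin_congr_of_ker f₁ f₂ β h₁ h₂ rfl
        (by simp only [map_smul, Function.surjInv_eq]))

theorem liftSurj₂_apply (f₁ : W₁ →ₗ[k] Q₁) (hf₁ : Function.Surjective f₁) (f₂ : W₂ →ₗ[k] Q₂)
    (hf₂ : Function.Surjective f₂) (β : W₁ →ₗ[k] W₂ →ₗ[k] R)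
    (h₁ : ∀ w₁ w₂, f₁ w₁ = 0 → β w₁ w₂ = 0) (h₂ : ∀ w₁ w₂, f₂ w₂ = 0 → β w₁ w₂ = 0)
    (w₁ : W₁) (w₂ : W₂) :
    liftSurj₂ f₁ hf₁ f₂ hf₂ β h₁ h₂ (f₁ w₁) (f₂ w₂) = β w₁ w₂ := by
  rw [liftSurj₂, LinearMap.mk₂_apply]
  exact bilin_congr_of_ker f₁ f₂ β h₁ h₂ (Function.surjInv_eq hf₁ _) (Function.surjInv_eq hf₂ _)

end lift

variable {k : Type u} [CommRing k]

namespace Cx

/-- Cocycles in degree `n` (all `n ≥ 0`). -/
def Zc (C : Cx.{u, v} k) (n : ℕ) : Submodule k (C.X n) := LinearMap.ker (C.d n)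

theorem mem_Zc_iff (C : Cx.{u, v} k) (n : ℕ) (z : C.X n) : z ∈ C.Zc n ↔ C.d n z = 0 :=
  LinearMap.mem_ker

/-- The class of a cocycle, as a linear map. -/
def H.mkL {C : Cx.{u, v} k} {n : ℕ} : C.Zc n →ₗ[k] C.H n := Hs.mkL (C := sh C) (n := n)

theorem H.mkL_apply {C : Cx.{u, v} k} {n : ℕ} (z : C.Zc n) :
    H.mkL z = H.mk z.1 ((C.mem_Zc_iff n z.1).1 z.2) := rfl

theorem H.mkL_surjective {C : Cx.{u, v} k} {n : ℕ} :
    Function.Surjective (H.mkL (C := C) (n := n)) := Hs.mkL_surjective (C := sh C) (n := n)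

/-- Uniform description of the coboundaries: `H.mk z = 0` iff `z` is in the image of the
differential of the shifted complex. -/
theorem H.mk_eq_zero_iff {C : Cx.{u, v} k} {n : ℕ} {z : C.X n} {hz : C.d n z = 0} :
    H.mk z hz = 0 ↔ ∃ y : (sh C).X n, (sh C).d n y = z :=
  Hs.mk_eq_zero_iff (C := sh C) (n := n)

/-- A pairing of complexes `A × B → Z`: bilinear cup products in all bidegrees satisfying the
Leibniz rule `d(x ∪ y) = dx ∪ y + (-1)^a x ∪ dy`.  The target degree is a separate index `c`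
with a proof of `a + b = c`, so that no casts are needed. -/
structure Pairing (A B Z : Cx.{u, v} k) where
  /-- the cup product in bidegree `(a, b)` -/
  cup : ∀ a b c : ℕ, a + b = c → (A.X a →ₗ[k] B.X b →ₗ[k] Z.X c)
  /-- the Leibniz rule -/
  leibniz : ∀ (a b c : ℕ) (h : a + b = c) (x : A.X a) (y : B.X b),
    Z.d c (cup a b c h x y) = cup (a + 1) b (c + 1) (by omega) (A.d a x) y +
      (-1 : k) ^ a • cup a (b + 1) (c + 1) (by omega) x (B.d b y)

namespace Pairing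

variable {A B Z : Cx.{u, v} k} (P : Pairing A B Z)

/-- The cup product of two cocycles is a cocycle. -/
theorem d_cup_eq_zero (a b c : ℕ) (h : a + b = c) {x : A.X a} {y : B.X b} (hx : A.d a x = 0)
    (hy : B.d b y = 0) : Z.d c (P.cup a b c h x y) = 0 := by
  rw [P.leibniz, hx, hy, map_zero, map_zero, LinearMap.zero_apply, smul_zero, add_zero]

/-- `(d x') ∪ y` is a coboundary if `y` is a cocycle (uniformly in the degree of `x'`). -/
theorem exists_d_eq_cup_left (a b c : ℕ) (h : a + b = c) (x' : (sh A).X a) {y : B.X b}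
    (hy : B.d b y = 0) :
    ∃ z' : (sh Z).X c, (sh Z).d c z' = P.cup a b c h ((sh A).d a x') y := by
  cases a with
  | zero =>
    refine ⟨0, ?_⟩
    rw [map_zero]
    change (0 : Z.X c) = P.cup 0 b c h 0 y
    rw [map_zero, LinearMap.zero_apply]
  | succ a' =>
    cases c with
    | zero => omega
    | succ c' =>
      have key : ∀ x'' : A.X a', Z.d c' (P.cup a' b c' (by omega) x'' y) =
          P.cup (a' + 1) b (c' + 1) h (A.d a' x'') y := by
        intro x''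
        rw [P.leibniz, hy, map_zero, smul_zero, add_zero]
      exact ⟨P.cup a' b c' (by omega) x' y, key x'⟩

/-- `x ∪ (d y')` is a coboundary if `x` is a cocycle (uniformly in the degree of `y'`). -/
theorem exists_d_eq_cup_right (a b c : ℕ) (h : a + b = c) {x : A.X a} (hx : A.d a x = 0)
    (y' : (sh B).X b) :
    ∃ z' : (sh Z).X c, (sh Z).d c z' = P.cup a b c h x ((sh B).d b y') := by
  cases b with
  | zero =>
    refine ⟨0, ?_⟩
    rw [map_zero]
    change (0 : Z.X c) = P.cup a 0 c h x 0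
    rw [map_zero]
  | succ b' =>
    cases c with
    | zero => omega
    | succ c' =>
      have key : ∀ y'' : B.X b', Z.d c' ((-1 : k) ^ a • P.cup a b' c' (by omega) x y'') =
          P.cup a (b' + 1) (c' + 1) h x (B.d b' y'') := by
        intro y''
        rw [map_smul, P.leibniz, hx, map_zero, LinearMap.zero_apply, zero_add, smul_smul,
          ← pow_add, ← two_mul, pow_mul, neg_one_sq, one_pow, one_smul]
      exact ⟨(-1 : k) ^ a • P.cup a b' c' (by omega) x y', key y'⟩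

/-- The cup product on cocycles. -/
def cupZc (a b c : ℕ) (h : a + b = c) : A.Zc a →ₗ[k] B.Zc b →ₗ[k] Z.Zc c :=
  LinearMap.mk₂ k
    (fun x y => ⟨P.cup a b c h x.1 y.1, (Z.mem_Zc_iff c _).2
      (P.d_cup_eq_zero a b c h ((A.mem_Zc_iff a x.1).1 x.2) ((B.mem_Zc_iff b y.1).1 y.2))⟩)
    (fun x x' y => Subtype.ext (by
      change P.cup a b c h (x.1 + x'.1) y.1 = P.cup a b c h x.1 y.1 + P.cup a b c h x'.1 y.1
      rw [map_add, LinearMap.add_apply]))
    (fun r x y => Subtype.ext (by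
      change P.cup a b c h (r • x.1) y.1 = r • P.cup a b c h x.1 y.1
      rw [map_smul, LinearMap.smul_apply]))
    (fun x y y' => Subtype.ext (by
      change P.cup a b c h x.1 (y.1 + y'.1) = P.cup a b c h x.1 y.1 + P.cup a b c h x.1 y'.1
      rw [map_add]))
    (fun r x y => Subtype.ext (by
      change P.cup a b c h x.1 (r • y.1) = r • P.cup a b c h x.1 y.1
      rw [map_smul]))

theorem cupZc_apply_coe (a b c : ℕ) (h : a + b = c) (x : A.Zc a) (y : B.Zc b) :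
    (P.cupZc a b c h x y : Z.X c) = P.cup a b c h x.1 y.1 := rfl

/-- The induced cup product on cohomology. -/
noncomputable def cupH (a b c : ℕ) (h : a + b = c) : A.H a →ₗ[k] B.H b →ₗ[k] Z.H c :=
  liftSurj₂ H.mkL H.mkL_surjective H.mkL H.mkL_surjective ((P.cupZc a b c h).compr₂ H.mkL)
    (by
      intro x y hx
      rw [H.mkL_apply, H.mk_eq_zero_iff] at hx
      obtain ⟨x', hx'⟩ := hx
      rw [LinearMap.compr₂_apply, H.mkL_apply, H.mk_eq_zero_iff]
      obtain ⟨z', hz'⟩ := P.exists_d_eq_cup_left a b c h x' ((B.mem_Zc_iff b y.1).1 y.2)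
      exact ⟨z', by rw [hz', hx']; rfl⟩)
    (by
      intro x y hy
      rw [H.mkL_apply, H.mk_eq_zero_iff] at hy
      obtain ⟨y', hy'⟩ := hy
      rw [LinearMap.compr₂_apply, H.mkL_apply, H.mk_eq_zero_iff]
      obtain ⟨z', hz'⟩ := P.exists_d_eq_cup_right a b c h ((A.mem_Zc_iff a x.1).1 x.2) y'
      exact ⟨z', by rw [hz', hy']; rfl⟩)

theorem cupH_mk (a b c : ℕ) (h : a + b = c) (x : A.X a) (hx : A.d a x = 0) (y : B.X b)
    (hy : B.d b y = 0) :
    P.cupH a b c h (H.mk x hx) (H.mk y hy) =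
      H.mk (P.cup a b c h x y) (P.d_cup_eq_zero a b c h hx hy) :=
  liftSurj₂_apply H.mkL H.mkL_surjective H.mkL H.mkL_surjective _ _ _
    ⟨x, (A.mem_Zc_iff a x).2 hx⟩ ⟨y, (B.mem_Zc_iff b y).2 hy⟩

end Pairing

end Cx

end Fermat.Agent.CFT.HExt
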