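import Mathlib
import Fermat.Agent.CFT.HyperExt.Pairing
import Fermat.Agent.CFT.HyperExt.OctahedralE

set_option autoImplicit false

/-!
# The pairing between the fibre of a chain map and the cokernel of a chain map
(S55, node A5/N3, part 2)

Data: a chain map `φ : A₀ → A₁`, a degreewise short exact sequence `0 → B₁ → B₀ → B_N → 0`
(maps `i`, `π`), a complex `Z`, pairings `P₀ : A₀ × B₀ → Z`, `P₁ : A₁ × B₁ → Z` which are adjoint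
along `(φ, i)`: `φ x ∪₁ y = x ∪₀ i y`.

Then there is an induced pairing
`Epair : E^{n+1}(φ) × H^s(B_N) → H^{n+s+1}(Z)`,
given on representatives by `((a₀, a₁), c) ↦ a₀ ∪₀ b₀ + (-1)^n a₁ ∪₁ b₁`, where `b₀` lifts `c`
and `i b₁ = d b₀`.
-/

namespace Fermat.Agent.CFT.HExt

universe u v

variable {k : Type u} [CommRing k]

namespace Cx

section

variable {M N P : Type*} [AddCommGroup M] [AddCommGroup N] [AddCommGroup P] [Module k M]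
  [Module k N] [Module k P]

/-- Restrict the codomain of a bilinear map to a submodule containing its values. -/
def bilinCodRestrict (f : M →ₗ[k] N →ₗ[k] P) (p : Submodule k P) (h : ∀ m n, f m n ∈ p) :
    M →ₗ[k] N →ₗ[k] p :=
  LinearMap.mk₂ k (fun m n => ⟨f m n, h m n⟩)
    (fun m m' n => Subtype.ext (by simp))
    (fun c m n => Subtype.ext (by simp))
    (fun m n n' => Subtype.ext (by simp))
    (fun c m n => Subtype.ext (by simp))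

theorem coe_bilinCodRestrict (f : M →ₗ[k] N →ₗ[k] P) (p : Submodule k P)
    (h : ∀ m n, f m n ∈ p) (m : M) (n : N) : (bilinCodRestrict f p h m n : P) = f m n := rfl

end

/-- If `(b, a)` represents zero in `H(C)` then `b = d y' + i a''` and `a = d a''`. -/
theorem ShortExact.exists_of_deltaF_eq_zero {A B C : Cx.{u, v} k} {i : Hom A B} {p : Hom B C}
    (h : ShortExact i p) (n : ℕ) (w : deltaW i n) (hw : h.deltaF n w = 0) :
    ∃ (y' : B.X n) (a'' : A.X (n + 1)),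
      w.1.1 = B.d n y' + i.f (n + 1) a'' ∧ w.1.2 = A.d (n + 1) a'' := by
  rw [h.deltaF_apply, Hs.mk_eq_zero_iff] at hw
  obtain ⟨y, hy⟩ := hw
  obtain ⟨y', rfl⟩ := h.surj n y
  have h0 : p.f (n + 1) (w.1.1 - B.d n y') = 0 := by
    rw [map_sub, p.comm, hy, sub_self]
  obtain ⟨a'', ha''⟩ := (h.exact (n + 1) _).1 h0
  refine ⟨y', a'', ?_, h.inj (n + 2) ?_⟩
  · rw [ha'']; abel
  · rw [i.comm, ha'', map_sub, B.d_d, sub_zero, (mem_deltaW_iff i n w.1).1 w.2]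

/-! ### Hyper-cocycles as pairs -/

section Emk

variable {F G : Cx.{u, v} k} (φ : Hom F G)

/-- The class in `E^{n+1}(φ)` of a hyper-cocycle `(a₀, a₁)`: `d a₀ = 0`, `φ a₀ = d a₁`. -/
def E.mk (n : ℕ) (a₀ : F.X (n + 1)) (a₁ : G.X n) (h₀ : F.d (n + 1) a₀ = 0)
    (h₁ : φ.f (n + 1) a₀ = G.d n a₁) : E φ (n + 1) :=
  Hs.mk (C := Fib φ) (n := n + 1) ((a₀, a₁) : (sh F).X (n + 2) × (sh (sh G)).X (n + 2))
    ((fib_d_eq_zero_iff (shHom φ).toHom1 (n + 2) _).2 ⟨h₀, h₁⟩)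

theorem E.induction_on' {n : ℕ} {P : E φ (n + 1) → Prop} (e : E φ (n + 1))
    (h : ∀ (a₀ : F.X (n + 1)) (a₁ : G.X n) (h₀ : F.d (n + 1) a₀ = 0)
      (h₁ : φ.f (n + 1) a₀ = G.d n a₁), P (E.mk φ n a₀ a₁ h₀ h₁)) : P e := by
  induction e using Hs.induction_on with
  | _ w hw =>
    have hw' := (fib_d_eq_zero_iff (shHom φ).toHom1 (n + 2) w).1 hw
    exact h w.1 w.2 hw'.1 hw'.2

theorem E.mk_congr {n : ℕ} {a₀ a₀' : F.X (n + 1)} {a₁ a₁' : G.X n} (e₀ : a₀ = a₀')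
    (e₁ : a₁ = a₁') {h₀ : F.d (n + 1) a₀ = 0} {h₁ : φ.f (n + 1) a₀ = G.d n a₁}
    {h₀' : F.d (n + 1) a₀' = 0} {h₁' : φ.f (n + 1) a₀' = G.d n a₁'} :
    E.mk φ n a₀ a₁ h₀ h₁ = E.mk φ n a₀' a₁' h₀' h₁' := by
  subst e₀ e₁; rfl

theorem EtoH_Emk (n : ℕ) (a₀ : F.X (n + 1)) (a₁ : G.X n) (h₀ : F.d (n + 1) a₀ = 0)
    (h₁ : φ.f (n + 1) a₀ = G.d n a₁) :
    EtoH φ (n + 1) (E.mk φ n a₀ a₁ h₀ h₁) = H.mk a₀ h₀ := rfl

theorem HtoE_eq_Emk (n : ℕ) (z : G.X n) (hz : G.d n z = 0) :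
    HtoE φ n (H.mk z hz) = E.mk φ n 0 z (map_zero _) (by rw [map_zero, hz]) := rfl

theorem EMap_Emk {F' G' : Cx.{u, v} k} (φ' : Hom F' G') (α : Hom F F') (β : Hom G G')
    (hsq : ∀ n (x : F.X n), β.f n (φ.f n x) = φ'.f n (α.f n x)) (n : ℕ) (a₀ : F.X (n + 1))
    (a₁ : G.X n) (h₀ : F.d (n + 1) a₀ = 0) (h₁ : φ.f (n + 1) a₀ = G.d n a₁) :
    EMap φ φ' α β hsq (n + 1) (E.mk φ n a₀ a₁ h₀ h₁) =
      E.mk φ' n (α.f (n + 1) a₀) (β.f n a₁) (by rw [← α.comm, h₀, map_zero])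
        (by rw [← hsq, h₁, β.comm]) := rfl

theorem kerToE_eq_Emk {K : Cx.{u, v} k} {ι : Hom K F} (hK : ShortExact ι φ) (n : ℕ)
    (z : K.X (n + 1)) (hz : K.d (n + 1) z = 0) :
    kerToE hK (n + 1) (H.mk z hz) =
      E.mk φ n (ι.f (n + 1) z) 0 (by rw [← ι.comm, hz, map_zero])
        (by rw [hK.comp_eq_zero, map_zero]) := rfl

theorem Eoct_Emk {K : Cx.{u, v} k} (φ : Hom F G) (ψ : Hom G K) (n : ℕ) (a₂ : G.X (n + 1))
    (a₁ : K.X n) (h₀ : G.d (n + 1) a₂ = 0) (h₁ : ψ.f (n + 1) a₂ = K.d n a₁) :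
    Eoct φ ψ (n + 1) (E.mk ψ n a₂ a₁ h₀ h₁) =
      E.mk φ (n + 1) 0 a₂ (map_zero _) (by rw [map_zero, h₀]) := rfl

end Emk

/-- Two pairings are adjoint along `φ : A₀ → A₁` and `i : B₁ → B₀`. -/
def Pairing.Adj {A₀ A₁ B₁ B₀ Z : Cx.{u, v} k} (P₀ : Pairing A₀ B₀ Z) (P₁ : Pairing A₁ B₁ Z)
    (φ : Hom A₀ A₁) (i : Hom B₁ B₀) : Prop :=
  ∀ (a b c : ℕ) (h : a + b = c) (x : A₀.X a) (y : B₁.X b),
    P₁.cup a b c h (φ.f a x) y = P₀.cup a b c h x (i.f b y)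

section fibpair

variable {A₀ A₁ B₁ B₀ BN Z : Cx.{u, v} k}

theorem Fib_d_eq_zero_iff (φ : Hom A₀ A₁) (n : ℕ) (w : (Fib φ).X (n + 2)) :
    (Fib φ).d (n + 2) w = 0 ↔
      A₀.d (n + 1) (show A₀.X (n + 1) from w.1) = 0 ∧
        φ.f (n + 1) (show A₀.X (n + 1) from w.1) = A₁.d n (show A₁.X n from w.2) :=
  fib_d_eq_zero_iff (shHom φ).toHom1 (n + 2) w

theorem mem_deltaW_sh_iff (i : Hom B₁ B₀) (s : ℕ) (v : (sh B₀).X (s + 1) × (sh B₁).X (s + 2)) :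
    v ∈ deltaW (shHom i) s ↔
      i.f (s + 1) (show B₁.X (s + 1) from v.2) = B₀.d s (show B₀.X s from v.1) :=
  mem_deltaW_iff (shHom i) s v

/-- The identification of hyper-cochains with pairs. -/
def fibPr (φ : Hom A₀ A₁) (n : ℕ) : (Fib φ).X (n + 2) →ₗ[k] A₀.X (n + 1) × A₁.X n :=
  LinearMap.id

/-- The identification of cone-cochains with pairs. -/
def conePr (_i : Hom B₁ B₀) (s : ℕ) :
    ((sh B₀).X (s + 1) × (sh B₁).X (s + 2)) →ₗ[k] B₀.X s × B₁.X (s + 1) :=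
  LinearMap.id

variable (P₀ : Pairing A₀ B₀ Z) (P₁ : Pairing A₁ B₁ Z)

/-- The cochain-level pairing `((a₀, a₁), (b₀, b₁)) ↦ a₀ ∪₀ b₀ + (-1)^n a₁ ∪₁ b₁`. -/
def fibCup (n s m : ℕ) (hm : n + s = m) :
    (A₀.X (n + 1) × A₁.X n) →ₗ[k] (B₀.X s × B₁.X (s + 1)) →ₗ[k] Z.X (m + 1) :=
  (P₀.cup (n + 1) s (m + 1) (by omega)).compl₁₂ (LinearMap.fst k _ _) (LinearMap.fst k _ _) +
    (-1 : k) ^ n •
      (P₁.cup n (s + 1) (m + 1) (by omega)).compl₁₂ (LinearMap.snd k _ _) (LinearMap.snd k _ _)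

theorem fibCup_apply (n s m : ℕ) (hm : n + s = m) (a : A₀.X (n + 1) × A₁.X n)
    (b : B₀.X s × B₁.X (s + 1)) :
    fibCup P₀ P₁ n s m hm a b = P₀.cup (n + 1) s (m + 1) (by omega) a.1 b.1 +
      (-1 : k) ^ n • P₁.cup n (s + 1) (m + 1) (by omega) a.2 b.2 := rfl

variable {φ : Hom A₀ A₁} {i : Hom B₁ B₀} {π : Hom B₀ BN}

/-- hyper-cocycle `∪` cone-cocycle is a cocycle. -/
theorem d_fibCup_eq_zero (hadj : P₀.Adj P₁ φ i) (n s m : ℕ) (hm : n + s = m)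
    {a₀ : A₀.X (n + 1)} {a₁ : A₁.X n} (ha₀ : A₀.d (n + 1) a₀ = 0)
    (ha₁ : φ.f (n + 1) a₀ = A₁.d n a₁) {b₀ : B₀.X s} {b₁ : B₁.X (s + 1)}
    (hb₁ : i.f (s + 1) b₁ = B₀.d s b₀) (hdb₁ : B₁.d (s + 1) b₁ = 0) :
    Z.d (m + 1) (fibCup P₀ P₁ n s m hm (a₀, a₁) (b₀, b₁)) = 0 := by
  rw [fibCup_apply, map_add, map_smul, P₀.leibniz, P₁.leibniz, ha₀, hdb₁, ← hb₁, ← hadj, ha₁,
    map_zero, map_zero, LinearMap.zero_apply, smul_zero, add_zero, zero_add, pow_succ, mul_neg_one,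
    neg_smul, neg_add_cancel]

/-- The cochain-level pairing on hyper-cocycles and cone-cocycles, with values in cocycles. -/
def fibCupZ (hB : ShortExact i π) (hadj : P₀.Adj P₁ φ i) (n s m : ℕ) (hm : n + s = m) :
    (Fib φ).Z (n + 1) →ₗ[k] deltaW (shHom i) s →ₗ[k] Z.Zc (m + 1) :=
  bilinCodRestrict ((fibCup P₀ P₁ n s m hm).compl₁₂
      ((fibPr φ n).comp ((Fib φ).Z (n + 1)).subtype)
      ((conePr i s).comp (deltaW (shHom i) s).subtype)) (Z.Zc (m + 1))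
    (fun w v => (Z.mem_Zc_iff (m + 1) _).2
      (d_fibCup_eq_zero P₀ P₁ hadj n s m hm
        ((Fib_d_eq_zero_iff φ n w.1).1 (((Fib φ).mem_Z_iff (n + 1) w.1).1 w.2)).1
        ((Fib_d_eq_zero_iff φ n w.1).1 (((Fib φ).mem_Z_iff (n + 1) w.1).1 w.2)).2
        ((mem_deltaW_sh_iff i s v.1).1 v.2) (hB.sh.d_snd_eq_zero s v)))

theorem fibCupZ_apply_coe (hB : ShortExact i π) (hadj : P₀.Adj P₁ φ i) (n s m : ℕ)
    (hm : n + s = m) (w : (Fib φ).Z (n + 1)) (v : deltaW (shHom i) s) :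
    (fibCupZ P₀ P₁ hB hadj n s m hm w v : Z.X (m + 1)) = fibCup P₀ P₁ n s m hm w.1 v.1 := rfl

/-- first-variable descent: a hyper-coboundary pairs to a coboundary. -/
theorem fibCup_bdry_left (hadj : P₀.Adj P₁ φ i) (n s m : ℕ) (hm : n + s = m)
    (w' : (Fib φ).X (n + 1)) {b₀ : B₀.X s} {b₁ : B₁.X (s + 1)}
    (hb₁ : i.f (s + 1) b₁ = B₀.d s b₀) (hdb₁ : B₁.d (s + 1) b₁ = 0) :
    ∃ z' : Z.X m, Z.d m z' = fibCup P₀ P₁ n s m hm ((Fib φ).d (n + 1) w') (b₀, b₁) := by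
  obtain ⟨z₁, hz₁⟩ : ∃ z₁ : Z.X m, Z.d m z₁ = P₁.cup n (s + 1) (m + 1) (by omega)
      ((sh A₁).d n (show (sh A₁).X n from w'.2)) b₁ :=
    P₁.exists_d_eq_cup_left n (s + 1) (m + 1) (by omega) (show (sh A₁).X n from w'.2) hdb₁
  have key : ∀ (a₀' : A₀.X n) (a₁'' : A₁.X n),
      Z.d m (P₀.cup n s m hm a₀' b₀) - (-1 : k) ^ n • P₁.cup n (s + 1) (m + 1) (by omega) a₁'' b₁ =
        fibCup P₀ P₁ n s m hm (A₀.d n a₀', φ.f n a₀' - a₁'') (b₀, b₁) := by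
    intro a₀' a₁''
    rw [fibCup_apply, P₀.leibniz, ← hb₁, ← hadj]
    simp only [map_sub, LinearMap.sub_apply, smul_sub]
    abel
  refine ⟨P₀.cup n s m hm (show A₀.X n from w'.1) b₀ - (-1 : k) ^ n • z₁, ?_⟩
  rw [map_sub, map_smul, hz₁]
  exact key _ _

/-- second-variable descent: a cone-cocycle representing zero pairs to a coboundary. -/
theorem fibCup_bdry_right (hadj : P₀.Adj P₁ φ i) (n s m : ℕ) (hm : n + s = m)
    {a₀ : A₀.X (n + 1)} {a₁ : A₁.X n} (ha₁ : φ.f (n + 1) a₀ = A₁.d n a₁) (e : B₀.X s)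
    (he : ∃ z₀ : Z.X m, Z.d m z₀ = P₀.cup (n + 1) s (m + 1) (by omega) a₀ e) (a'' : B₁.X s) :
    ∃ z' : Z.X m, Z.d m z' =
      fibCup P₀ P₁ n s m hm (a₀, a₁) (e + i.f s a'', B₁.d s a'') := by
  obtain ⟨z₀, hz₀⟩ := he
  refine ⟨z₀ + P₁.cup n s m hm a₁ a'', ?_⟩
  rw [map_add, hz₀, P₁.leibniz, ← ha₁, hadj, fibCup_apply]
  simp only [map_add]
  abel

/-- The class of a hyper-cocycle, as a linear map. -/
def E.mkL (φ : Hom A₀ A₁) (n : ℕ) : (Fib φ).Z n →ₗ[k] E φ n := Hs.mkL (C := Fib φ) (n := n)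

theorem E.mkL_apply (φ : Hom A₀ A₁) (n : ℕ) (w : (Fib φ).Z n) :
    E.mkL φ n w = Hs.mk (C := Fib φ) w.1 (((Fib φ).mem_Z_iff n w.1).1 w.2) := rfl

theorem E.mkL_surjective (φ : Hom A₀ A₁) (n : ℕ) : Function.Surjective (E.mkL φ n) :=
  Hs.mkL_surjective (C := Fib φ) (n := n)

theorem E.mkL_eq_zero_iff (φ : Hom A₀ A₁) (n : ℕ) (w : (Fib φ).Z n) :
    E.mkL φ n w = 0 ↔ ∃ w' : (Fib φ).X n, (Fib φ).d n w' = w.1 :=
  Hs.mk_eq_zero_iff (C := Fib φ) (n := n) (z := w.1) (hz := ((Fib φ).mem_Z_iff n w.1).1 w.2)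

/-- `(b₀, b₁) ↦ [π b₀]`, as a linear map onto `H^s(B_N)`. -/
noncomputable def coneMkL (hB : ShortExact i π) (s : ℕ) : deltaW (shHom i) s →ₗ[k] BN.H s :=
  hB.sh.deltaF s

theorem coneMkL_surjective (hB : ShortExact i π) (s : ℕ) :
    Function.Surjective (coneMkL hB s) := hB.sh.deltaF_surjective s

theorem coneMkL_apply (hB : ShortExact i π) (s : ℕ) (v : deltaW (shHom i) s) :
    coneMkL hB s v = H.mk (π.f s (show B₀.X s from v.1.1)) (hB.sh.d_p_fst_eq_zero s v) := rfl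

/-- **The pairing** `E^{n+1}(φ) × H^s(B_N) → H^{n+s+1}(Z)`. -/
noncomputable def Epair (hB : ShortExact i π) (hadj : P₀.Adj P₁ φ i) (n s m : ℕ)
    (hm : n + s = m) : E φ (n + 1) →ₗ[k] BN.H s →ₗ[k] Z.H (m + 1) :=
  liftSurj₂ (E.mkL φ (n + 1)) (E.mkL_surjective φ (n + 1)) (coneMkL hB s)
    (coneMkL_surjective hB s) ((fibCupZ P₀ P₁ hB hadj n s m hm).compr₂ H.mkL)
    (by
      intro w v hw
      rw [E.mkL_eq_zero_iff] at hw
      obtain ⟨w', hw'⟩ := hw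
      rw [LinearMap.compr₂_apply, H.mkL_apply, H.mk_eq_zero_iff_succ]
      obtain ⟨z', hz'⟩ := fibCup_bdry_left P₀ P₁ hadj n s m hm w'
        ((mem_deltaW_sh_iff i s v.1).1 v.2) (hB.sh.d_snd_eq_zero s v)
      exact ⟨z', by rw [hz', hw']; rfl⟩)
    (by
      intro w v hv
      obtain ⟨y', a'', h1, h2⟩ := hB.sh.exists_of_deltaF_eq_zero s v hv
      rw [LinearMap.compr₂_apply, H.mkL_apply, H.mk_eq_zero_iff_succ]
      have hw := (Fib_d_eq_zero_iff φ n w.1).1 (((Fib φ).mem_Z_iff (n + 1) w.1).1 w.2)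
      obtain ⟨z', hz'⟩ := fibCup_bdry_right P₀ P₁ hadj n s m hm hw.2 ((sh B₀).d s y')
        (P₀.exists_d_eq_cup_right (n + 1) s (m + 1) (by omega) hw.1 y') a''
      refine ⟨z', ?_⟩
      rw [hz', fibCupZ_apply_coe]
      congr 1
      exact (Prod.ext h1 h2).symm)

/-- The pairing on representatives. -/
theorem Epair_mk (hB : ShortExact i π) (hadj : P₀.Adj P₁ φ i) (n s m : ℕ) (hm : n + s = m)
    (w : (Fib φ).X (n + 2)) (hw : (Fib φ).d (n + 2) w = 0) (c : BN.X s) (hc : BN.d s c = 0)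
    (b₀ : B₀.X s) (b₁ : B₁.X (s + 1)) (hb₀ : π.f s b₀ = c) (hb₁ : i.f (s + 1) b₁ = B₀.d s b₀) :
    Epair P₀ P₁ hB hadj n s m hm (Hs.mk (C := Fib φ) w hw) (H.mk c hc) =
      H.mk (fibCup P₀ P₁ n s m hm w (b₀, b₁))
        (d_fibCup_eq_zero P₀ P₁ hadj n s m hm ((Fib_d_eq_zero_iff φ n w).1 hw).1
          ((Fib_d_eq_zero_iff φ n w).1 hw).2 hb₁
          (hB.sh.d_snd_eq_zero s ⟨(b₀, b₁), (mem_deltaW_sh_iff i s _).2 hb₁⟩)) := by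
  have e2 : H.mk c hc = coneMkL hB s ⟨(b₀, b₁), (mem_deltaW_sh_iff i s _).2 hb₁⟩ := by
    rw [coneMkL_apply]
    exact H.mk_congr hb₀.symm _
  have e1 : Hs.mk (C := Fib φ) w hw =
      E.mkL φ (n + 1) ⟨w, ((Fib φ).mem_Z_iff (n + 1) w).2 hw⟩ := rfl
  rw [e1, e2, Epair, liftSurj₂_apply]
  rfl

theorem H.mk_congr' {C : Cx.{u, v} k} {n : ℕ} {z z' : C.X n} (h : z = z') {hz : C.d n z = 0}
    {hz' : C.d n z' = 0} : H.mk z hz = H.mk z' hz' := by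
  subst h; rfl

/-- Lifts of a cocycle of `B_N` to a cone-cocycle. -/
theorem ShortExact.exists_lift (hB : ShortExact i π) (s : ℕ) (c : BN.X s) (hc : BN.d s c = 0) :
    ∃ (b₀ : B₀.X s) (b₁ : B₁.X (s + 1)), π.f s b₀ = c ∧ i.f (s + 1) b₁ = B₀.d s b₀ := by
  obtain ⟨w, hw⟩ := hB.sh.exists_deltaW s c hc
  exact ⟨w.1.1, w.1.2, hw, (mem_deltaW_sh_iff i s w.1).1 w.2⟩

/-- The pairing on representatives, existential form. -/
theorem Epair_mk' (hB : ShortExact i π) (hadj : P₀.Adj P₁ φ i) (n s m : ℕ) (hm : n + s = m)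
    (w : (Fib φ).X (n + 2)) (hw : (Fib φ).d (n + 2) w = 0) (c : BN.X s) (hc : BN.d s c = 0)
    (b₀ : B₀.X s) (b₁ : B₁.X (s + 1)) (hb₀ : π.f s b₀ = c) (hb₁ : i.f (s + 1) b₁ = B₀.d s b₀) :
    ∃ hz, Epair P₀ P₁ hB hadj n s m hm (Hs.mk (C := Fib φ) w hw) (H.mk c hc) =
      H.mk (fibCup P₀ P₁ n s m hm w (b₀, b₁)) hz :=
  ⟨_, Epair_mk P₀ P₁ hB hadj n s m hm w hw c hc b₀ b₁ hb₀ hb₁⟩

/-- The pairing on representatives, in terms of `E.mk`. -/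
theorem Epair_Emk (hB : ShortExact i π) (hadj : P₀.Adj P₁ φ i) (n s m : ℕ) (hm : n + s = m)
    (a₀ : A₀.X (n + 1)) (a₁ : A₁.X n) (h₀ : A₀.d (n + 1) a₀ = 0)
    (h₁ : φ.f (n + 1) a₀ = A₁.d n a₁) (c : BN.X s) (hc : BN.d s c = 0)
    (b₀ : B₀.X s) (b₁ : B₁.X (s + 1)) (hb₀ : π.f s b₀ = c) (hb₁ : i.f (s + 1) b₁ = B₀.d s b₀) :
    ∃ hz, Epair P₀ P₁ hB hadj n s m hm (E.mk φ n a₀ a₁ h₀ h₁) (H.mk c hc) =
      H.mk (fibCup P₀ P₁ n s m hm (a₀, a₁) (b₀, b₁)) hz :=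
  Epair_mk' P₀ P₁ hB hadj n s m hm _ _ c hc b₀ b₁ hb₀ hb₁

end fibpair

/-! ### Naturality -/

section naturality

variable {A₀ A₁ B₁ B₀ BN Z A₀' A₁' B₁' B₀' BN' Z' : Cx.{u, v} k}

/-- **Naturality (contravariant in the fibre, covariant in the cone).**  A morphism of data
`(A₀' → A₁') → (A₀ → A₁)`, `(B₁ → B₀ → B_N) → (B₁' → B₀' → B_N')` for which the cups are adjoint
gives `⟨α_* e', c⟩ = ⟨e', β_* c⟩`. -/
theorem Epair_EMap_left {φ : Hom A₀ A₁} {i : Hom B₁ B₀} {π : Hom B₀ BN} (hB : ShortExact i π)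
    {φ' : Hom A₀' A₁'} {i' : Hom B₁' B₀'} {π' : Hom B₀' BN'} (hB' : ShortExact i' π')
    (P₀ : Pairing A₀ B₀ Z) (P₁ : Pairing A₁ B₁ Z) (hadj : P₀.Adj P₁ φ i)
    (P₀' : Pairing A₀' B₀' Z) (P₁' : Pairing A₁' B₁' Z) (hadj' : P₀'.Adj P₁' φ' i')
    (α₀ : Hom A₀' A₀) (α₁ : Hom A₁' A₁)
    (hsq : ∀ n (x : A₀'.X n), α₁.f n (φ'.f n x) = φ.f n (α₀.f n x))
    (β₁ : Hom B₁ B₁') (β₀ : Hom B₀ B₀') (βN : Hom BN BN')
    (hi : ∀ n (y : B₁.X n), i'.f n (β₁.f n y) = β₀.f n (i.f n y))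
    (hπ : ∀ n (y : B₀.X n), π'.f n (β₀.f n y) = βN.f n (π.f n y))
    (h₀ : ∀ (a b c : ℕ) (h : a + b = c) (x : A₀'.X a) (y : B₀.X b),
      P₀.cup a b c h (α₀.f a x) y = P₀'.cup a b c h x (β₀.f b y))
    (h₁ : ∀ (a b c : ℕ) (h : a + b = c) (x : A₁'.X a) (y : B₁.X b),
      P₁.cup a b c h (α₁.f a x) y = P₁'.cup a b c h x (β₁.f b y))
    (n s m : ℕ) (hm : n + s = m) (e' : E φ' (n + 1)) (c : BN.H s) :
    Epair P₀ P₁ hB hadj n s m hm (EMap φ' φ α₀ α₁ hsq (n + 1) e') c =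
      Epair P₀' P₁' hB' hadj' n s m hm e' (βN.mapH s c) := by
  induction e' using E.induction_on' with
  | _ a₀ a₁ ha₀ ha₁ =>
    induction c using H.induction_on with
    | _ c hc =>
      obtain ⟨b₀, b₁, hb₀, hb₁⟩ := hB.exists_lift s c hc
      rw [EMap_Emk, Hom.mapH_mk]
      obtain ⟨hz, e1⟩ := Epair_Emk P₀ P₁ hB hadj n s m hm (α₀.f (n + 1) a₀) (α₁.f n a₁)
        (by rw [← α₀.comm, ha₀, map_zero]) (by rw [← hsq, ha₁, α₁.comm]) c hc b₀ b₁ hb₀ hb₁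
      obtain ⟨hz', e2⟩ := Epair_Emk P₀' P₁' hB' hadj' n s m hm a₀ a₁ ha₀ ha₁ (βN.f s c)
        (by rw [← βN.comm, hc, map_zero]) (β₀.f s b₀) (β₁.f (s + 1) b₁)
        (by rw [hπ, hb₀]) (by rw [hi, hb₁, β₀.comm])
      rw [e1, e2]
      refine H.mk_congr' ?_
      rw [fibCup_apply, fibCup_apply, h₀, h₁]

/-- **Naturality in the target complex** (second-variable functoriality). -/
theorem Epair_EMap_right {φ : Hom A₀ A₁} {i : Hom B₁ B₀} {π : Hom B₀ BN} (hB : ShortExact i π)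
    {φ' : Hom A₀' A₁'}
    (P₀ : Pairing A₀ B₀ Z) (P₁ : Pairing A₁ B₁ Z) (hadj : P₀.Adj P₁ φ i)
    (P₀' : Pairing A₀' B₀ Z') (P₁' : Pairing A₁' B₁ Z') (hadj' : P₀'.Adj P₁' φ' i)
    (α₀ : Hom A₀ A₀') (α₁ : Hom A₁ A₁')
    (hsq : ∀ n (x : A₀.X n), α₁.f n (φ.f n x) = φ'.f n (α₀.f n x)) (ζ : Hom Z Z')
    (h₀ : ∀ (a b c : ℕ) (h : a + b = c) (x : A₀.X a) (y : B₀.X b),
      P₀'.cup a b c h (α₀.f a x) y = ζ.f c (P₀.cup a b c h x y))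
    (h₁ : ∀ (a b c : ℕ) (h : a + b = c) (x : A₁.X a) (y : B₁.X b),
      P₁'.cup a b c h (α₁.f a x) y = ζ.f c (P₁.cup a b c h x y))
    (n s m : ℕ) (hm : n + s = m) (e : E φ (n + 1)) (c : BN.H s) :
    Epair P₀' P₁' hB hadj' n s m hm (EMap φ φ' α₀ α₁ hsq (n + 1) e) c =
      ζ.mapH (m + 1) (Epair P₀ P₁ hB hadj n s m hm e c) := by
  induction e using E.induction_on' with
  | _ a₀ a₁ ha₀ ha₁ =>
    induction c using H.induction_on with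
    | _ c hc =>
      obtain ⟨b₀, b₁, hb₀, hb₁⟩ := hB.exists_lift s c hc
      rw [EMap_Emk]
      obtain ⟨hz, e1⟩ := Epair_Emk P₀' P₁' hB hadj' n s m hm (α₀.f (n + 1) a₀) (α₁.f n a₁)
        (by rw [← α₀.comm, ha₀, map_zero]) (by rw [← hsq, ha₁, α₁.comm]) c hc b₀ b₁ hb₀ hb₁
      obtain ⟨hz', e2⟩ := Epair_Emk P₀ P₁ hB hadj n s m hm a₀ a₁ ha₀ ha₁ c hc b₀ b₁ hb₀ hb₁
      rw [e1, e2, Hom.mapH_mk]
      refine H.mk_congr' ?_
      rw [fibCup_apply, fibCup_apply, h₀, h₁, map_add, map_smul]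

end naturality

/-! ### Compatibility with the kernel comparison and with the edge maps -/

section compat

variable {A₀ A₁ B₁ B₀ BN Z K : Cx.{u, v} k} {φ : Hom A₀ A₁} {i : Hom B₁ B₀} {π : Hom B₀ BN}
  (hB : ShortExact i π) (P₀ : Pairing A₀ B₀ Z) (P₁ : Pairing A₁ B₁ Z) (hadj : P₀.Adj P₁ φ i)

/-- **Kernel comparison.**  If `0 → K → A₀ → A₁ → 0` is short exact and `P_K : K × B_N → Z` is
compatible with `P₀`, then under `H(K) ≃ E(φ)` the pairing `Epair` is the ordinary cup product. -/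
theorem Epair_kerToE {ι : Hom K A₀} (hK : ShortExact ι φ) (PK : Pairing K BN Z)
    (hPK : ∀ (a b c : ℕ) (h : a + b = c) (x : K.X a) (y : B₀.X b),
      PK.cup a b c h x (π.f b y) = P₀.cup a b c h (ι.f a x) y)
    (n s m : ℕ) (hm : n + s = m) (x : K.H (n + 1)) (c : BN.H s) :
    Epair P₀ P₁ hB hadj n s m hm (kerToE hK (n + 1) x) c =
      PK.cupH (n + 1) s (m + 1) (by omega) x c := by
  induction x using H.induction_on with
  | _ z hz =>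
    induction c using H.induction_on with
    | _ c hc =>
      obtain ⟨b₀, b₁, hb₀, hb₁⟩ := hB.exists_lift s c hc
      rw [kerToE_eq_Emk]
      obtain ⟨hz', e1⟩ := Epair_Emk P₀ P₁ hB hadj n s m hm (ι.f (n + 1) z) 0
        (by rw [← ι.comm, hz, map_zero]) (by rw [hK.comp_eq_zero, map_zero]) c hc b₀ b₁ hb₀ hb₁
      rw [e1, PK.cupH_mk]
      refine H.mk_congr' ?_
      rw [fibCup_apply, ← hb₀, hPK, map_zero, LinearMap.zero_apply, smul_zero, add_zero]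

/-- **Edge map `E → H(A₀)`**: `⟨e, π_* b⟩ = EtoH(e) ∪₀ b`. -/
theorem Epair_mapH (n s m : ℕ) (hm : n + s = m) (e : E φ (n + 1)) (b : B₀.H s) :
    Epair P₀ P₁ hB hadj n s m hm e (π.mapH s b) =
      P₀.cupH (n + 1) s (m + 1) (by omega) (EtoH φ (n + 1) e) b := by
  induction e using E.induction_on' with
  | _ a₀ a₁ ha₀ ha₁ =>
    induction b using H.induction_on with
    | _ b₀ hb₀ =>
      rw [Hom.mapH_mk, EtoH_Emk]
      obtain ⟨hz', e1⟩ := Epair_Emk P₀ P₁ hB hadj n s m hm a₀ a₁ ha₀ ha₁ (π.f s b₀)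
        (by rw [← π.comm, hb₀, map_zero]) b₀ 0 rfl (by rw [map_zero, hb₀])
      rw [e1, P₀.cupH_mk]
      refine H.mk_congr' ?_
      rw [fibCup_apply, map_zero, smul_zero, add_zero]

/-- **Edge map `H(A₁) → E`**: `⟨HtoE x, c⟩ = (-1)^n x ∪₁ δ c`. -/
theorem Epair_HtoE (n s m : ℕ) (hm : n + s = m) (x : A₁.H n) (c : BN.H s) :
    Epair P₀ P₁ hB hadj n s m hm (HtoE φ n x) c =
      (-1 : k) ^ n • P₁.cupH n (s + 1) (m + 1) (by omega) x (hB.δH s c) := by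
  induction x using H.induction_on with
  | _ z hz =>
    induction c using H.induction_on with
    | _ c hc =>
      obtain ⟨b₀, b₁, hb₀, hb₁⟩ := hB.exists_lift s c hc
      obtain ⟨hb₁0, hδ⟩ := hB.δH_mk s c hc b₀ b₁ hb₀ hb₁
      rw [HtoE_eq_Emk, hδ, P₁.cupH_mk]
      obtain ⟨hz', e1⟩ := Epair_Emk P₀ P₁ hB hadj n s m hm 0 z (map_zero _)
        (by rw [map_zero, hz]) c hc b₀ b₁ hb₀ hb₁
      rw [e1, ← H.mk_smul]
      refine H.mk_congr' ?_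
      rw [fibCup_apply, map_zero, LinearMap.zero_apply, zero_add]

end compat

/-! ### Adjointness of the connecting maps for nested triples -/

section nested

variable {H₃ H₂ H₁ B₁ B₂ B₃ BM BI BQ Z : Cx.{u, v} k}

/-- **δ-adjointness.**  For `H₃ --φ--> H₂ --ψ--> H₁` (think `Hom(L_j, X)` for nested lattices
`L₁ ⊆ L₂ ⊆ L₃`) and the cochain complexes `B_j` of the `L_j` with quotients `B_M = B₂/B₁`,
`B_Q = B₃/B₂`, `B_I = B₃/B₁` (`0 → B_M → B_I → B_Q → 0` short exact):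
`⟨Eoct e, c⟩_Q = (-1)^{n+1} ⟨e, δ c⟩_M` for `e ∈ E^{n+1}(ψ)`, `c ∈ H^s(B_Q)`. -/
theorem Epair_Eoct (φ : Hom H₃ H₂) (ψ : Hom H₂ H₁) {j₁₂ : Hom B₁ B₂} {πM : Hom B₂ BM}
    (hM : ShortExact j₁₂ πM) {j₂₃ : Hom B₂ B₃} {πQ : Hom B₃ BQ} (hQ : ShortExact j₂₃ πQ)
    {u : Hom BM BI} {v : Hom BI BQ} (hS : ShortExact u v) (πI : Hom B₃ BI)
    (huπ : ∀ n (x : B₂.X n), u.f n (πM.f n x) = πI.f n (j₂₃.f n x))
    (hvπ : ∀ n (x : B₃.X n), v.f n (πI.f n x) = πQ.f n x)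
    (P₃ : Pairing H₃ B₃ Z) (P₂ : Pairing H₂ B₂ Z) (P₁ : Pairing H₁ B₁ Z)
    (adj₃₂ : P₃.Adj P₂ φ j₂₃) (adj₂₁ : P₂.Adj P₁ ψ j₁₂) (n s m : ℕ) (hm : n + s = m)
    (e : E ψ (n + 1)) (c : BQ.H s) :
    Epair P₃ P₂ hQ adj₃₂ (n + 1) s (m + 1) (by omega) (Eoct φ ψ (n + 1) e) c =
      (-1 : k) ^ (n + 1) •
        Epair P₂ P₁ hM adj₂₁ n (s + 1) (m + 1) (by omega) e (hS.δH s c) := by
  induction e using E.induction_on' with
  | _ a₂ a₁ ha₂ ha₁ =>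
    induction c using H.induction_on with
    | _ c hc =>
      obtain ⟨b₃, b₂, hb₃, hb₂⟩ := hQ.exists_lift s c hc
      -- the class `δ c`
      obtain ⟨hδ0, hδ⟩ := hS.δH_mk s c hc (πI.f s b₃) (πM.f (s + 1) b₂)
        (by rw [hvπ, hb₃]) (by rw [huπ, hb₂, πI.comm])
      have hdb₂ : B₂.d (s + 1) b₂ = 0 := by
        apply hQ.inj (s + 2)
        rw [map_zero, j₂₃.comm, hb₂, B₃.d_d]
      -- left-hand side
      rw [Eoct_Emk]
      obtain ⟨hz, e0⟩ := Epair_Emk P₃ P₂ hQ adj₃₂ (n + 1) s (m + 1) (by omega) 0 a₂ (map_zero _)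
        (by rw [map_zero, ha₂]) c hc b₃ b₂ hb₃ hb₂
      -- right-hand side
      obtain ⟨hz', e1⟩ := Epair_Emk P₂ P₁ hM adj₂₁ n (s + 1) (m + 1) (by omega) a₂ a₁ ha₂ ha₁
        (πM.f (s + 1) b₂) hδ0 b₂ 0 rfl (by rw [map_zero, hdb₂])
      rw [e0, hδ, e1, ← H.mk_smul]
      refine H.mk_congr' ?_
      rw [fibCup_apply, fibCup_apply, map_zero, LinearMap.zero_apply, zero_add, map_zero,
        smul_zero, add_zero]

end nested

end Cx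

end Fermat.Agent.CFT.HExt
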