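import Mathlib
import Fermat.Agent.CFT.HyperExt.LCExtSES
import Fermat.Agent.CFT.HyperExt.FibPairing
import Fermat.Agent.CFT.LC.CxPairing

/-!
# The pairing `Ext^{n+1}(N, X) × H^s(N) → H^{n+s+1}(X)` over level cohomology
(S55, node A7.X, part 3)

For a resolution `R : LatticeRes L N` and a smooth module `X`:

* `R.pair hX n s m hm : R.Ext hX (n+1) →ₗ H^s(N) →ₗ H^{m+1}(X)` (`n + s = m`), the hyper-Ext
  evaluation pairing (`Cx.Epair` for the evaluation pairings `Hom(P_j, X) × P_j → X`);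
* `pair_map`: naturality for a morphism of resolutions over a module map;
* `pair_δExt`: adjointness (up to the sign `(-1)^{n+1}`) of the connecting maps of the
  first-variable sequence of `LCExtSES.lean` and of the cohomology sequence of `0 → A → B → C → 0`.
-/

set_option autoImplicit false
set_option linter.unusedSectionVars false

universe u

open CategoryTheory

namespace Fermat.Agent.CFT

open HExt

variable {k G : Type u} [CommRing k] [Group G] {L : LevelStructure G}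

namespace LatticeRes

section pair

variable {N N' : Rep.{u} k G} (R : LatticeRes L N) (R' : LatticeRes L N') {X : Rep.{u} k G}
  (hX : IsSmooth L X)

/-- The evaluation pairing of complexes `C(Hom(P₀, X)) × C(P₀) → C(X)`. -/
noncomputable def P0 : Cx.Pairing (LC.cx (R.smooth₀.ihom hX)) (LC.cx R.smooth₀) (LC.cx hX) :=
  LC.cxPairing (RepPairing.eval R.P₀ X) (R.smooth₀.ihom hX) R.smooth₀ hX

/-- The evaluation pairing of complexes `C(Hom(P₁, X)) × C(P₁) → C(X)`. -/
noncomputable def P1 : Cx.Pairing (LC.cx (R.smooth₁.ihom hX)) (LC.cx R.smooth₁) (LC.cx hX) :=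
  LC.cxPairing (RepPairing.eval R.P₁ X) (R.smooth₁.ihom hX) R.smooth₁ hX

lemma adj : (R.P0 hX).Adj (R.P1 hX) (R.homMap hX) (LC.cxMap R.smooth₁ R.smooth₀ R.i) :=
  fun a b c h x y =>
    LC.cxPairing_adjoint (RepPairing.eval R.P₁ X) (RepPairing.eval R.P₀ X) (Cup.precomp R.i X)
      R.i (R.smooth₁.ihom hX) R.smooth₁ hX (R.smooth₀.ihom hX) R.smooth₀ (fun _ _ => rfl)
      a b c h x y

lemma shortExact :
    Cx.ShortExact (LC.cxMap R.smooth₁ R.smooth₀ R.i) (LC.cxMap R.smooth₀ R.smooth R.π) :=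
  LC.cx_shortExact R.i R.π R.smooth₁ R.smooth₀ R.smooth R.inj R.surj R.exact

/-- **The hyper-Ext pairing** `Ext^{n+1}(N, X) × H^s(N) → H^{n+s+1}(X)`. -/
noncomputable def pair (n s m : ℕ) (hm : n + s = m) :
    R.Ext hX (n + 1) →ₗ[k] (LC.cx R.smooth).H s →ₗ[k] (LC.cx hX).H (m + 1) :=
  Cx.Epair (R.P0 hX) (R.P1 hX) R.shortExact (R.adj hX) n s m hm

variable {R R'}

/-- **Naturality**: for a morphism of resolutions `f : R ⟶ R'` over `g : N ⟶ N'`,
`⟨f^* e', c⟩ = ⟨e', g_* c⟩`. -/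
theorem pair_map (f : LatticePair.Hom R.toLatticePair R'.toLatticePair) (g : N ⟶ N')
    (hfg : ∀ x : R.P₀, R'.π.hom (f.f₀.hom x) = g.hom (R.π.hom x)) (n s m : ℕ) (hm : n + s = m)
    (e' : R'.Ext hX (n + 1)) (c : (LC.cx R.smooth).H s) :
    R.pair hX n s m hm (LatticePair.Ext.map hX f (n + 1) e') c =
      R'.pair hX n s m hm e' ((LC.cxMap R.smooth R'.smooth g).mapH s c) := by
  refine Cx.Epair_EMap_left R.shortExact R'.shortExact (R.P0 hX) (R.P1 hX) (R.adj hX)
    (R'.P0 hX) (R'.P1 hX) (R'.adj hX) _ _ (f.sq hX)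
    (LC.cxMap R.smooth₁ R'.smooth₁ f.f₁) (LC.cxMap R.smooth₀ R'.smooth₀ f.f₀)
    (LC.cxMap R.smooth R'.smooth g) ?_ ?_ ?_ ?_ n s m hm e' c
  · intro m y
    exact LC.cxMap_comm_of_comm _ _ _ _ _ _ _ _ (fun a => f.comm a) m y
  · intro m y
    exact LC.cxMap_comm_of_comm _ _ _ _ _ _ _ _ (fun a => hfg a) m y
  · intro a b c h x y
    exact LC.cxPairing_adjoint (RepPairing.eval R.P₀ X) (RepPairing.eval R'.P₀ X)
      (Cup.precomp f.f₀ X) f.f₀ (R.smooth₀.ihom hX) R.smooth₀ hX (R'.smooth₀.ihom hX)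
      R'.smooth₀ (fun _ _ => rfl) a b c h x y
  · intro a b c h x y
    exact LC.cxPairing_adjoint (RepPairing.eval R.P₁ X) (RepPairing.eval R'.P₁ X)
      (Cup.precomp f.f₁ X) f.f₁ (R.smooth₁.ihom hX) R.smooth₁ hX (R'.smooth₁.ihom hX)
      R'.smooth₁ (fun _ _ => rfl) a b c h x y

end pair

section delta

variable [IsNoetherianRing k] {A B C : Rep.{u} k G} (RB : LatticeRes L B) (ι : A ⟶ B) (π : B ⟶ C)
  (hι : Function.Injective ι.hom) (hex : Function.Exact ι.hom π.hom)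
  (hπ : Function.Surjective π.hom) {X : Rep.{u} k G} (hX : IsSmooth L X)

/-- The short exact sequence of LC complexes attached to `0 → A → B → C → 0` (with the smoothness
proofs coming from the resolutions). -/
lemma sesShortExact :
    Cx.ShortExact (LC.cxMap (RB.subRes ι π hι hex).smooth RB.smooth ι)
      (LC.cxMap RB.smooth (RB.quotRes π hπ).smooth π) :=
  LC.cx_shortExact ι π _ _ _ hι hπ hex

/-- **δ-adjointness**: `⟨δ e, c⟩_C = (-1)^{n+1} ⟨e, δ c⟩_A` for `e ∈ Ext^{n+1}(A, X)`,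
`c ∈ H^s(C)`. -/
theorem pair_δExt (n s m : ℕ) (hm : n + s = m) (e : (RB.subRes ι π hι hex).Ext hX (n + 1))
    (c : (LC.cx (RB.quotRes π hπ).smooth).H s) :
    (RB.quotRes π hπ).pair hX (n + 1) s (m + 1) (by omega)
        (RB.δExt ι π hι hex hπ hX (n + 1) e) c =
      (-1 : k) ^ (n + 1) • (RB.subRes ι π hι hex).pair hX n (s + 1) (m + 1) (by omega) e
        ((RB.sesShortExact ι π hι hex hπ).δH s c) := by
  refine Cx.Epair_Eoct ((RB.quotRes π hπ).homMap hX) ((RB.subRes ι π hι hex).homMap hX)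
    (RB.subRes ι π hι hex).shortExact (RB.quotRes π hπ).shortExact
    (RB.sesShortExact ι π hι hex hπ) (LC.cxMap RB.smooth₀ RB.smooth RB.π) ?_ ?_
    ((RB.quotRes π hπ).P0 hX) ((RB.quotRes π hπ).P1 hX) ((RB.subRes ι π hι hex).P1 hX)
    ((RB.quotRes π hπ).adj hX) ((RB.subRes ι π hι hex).adj hX) n s m hm e c
  · intro m x
    exact LC.cxMap_comm_of_comm _ _ _ _ _ _ _ _ (fun a => RB.ι_midToA ι π hι hex a) m x
  · intro m x
    exact (LC.cxMap_comp_apply _ _ _ RB.π π m x).symm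

end delta

end LatticeRes

end Fermat.Agent.CFT
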