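import Mathlib
import Fermat.Agent.CFT.HyperExt.LCExtSES
import Fermat.Agent.CFT.HyperExt.FibPairing

/-!
# Torsion of hyper-Ext and of cohomology (S55, node A7.X, part 4)

* `Cx.smul_E_eq_zero`: if `φ : F → G` has a "homotopy inverse up to `c`" `η : G → F`
  (`η φ = c`, `φ η = c`), then `c` kills `E^{n+1}(φ)`;
* `LatticeRes.pLift`: for a resolution `R` of a module `N` killed by `c`, the morphism
  `h : P₀ ⟶ P₁` with `i ∘ h = c`;
* `LatticeRes.smul_Ext_eq_zero`: `c` kills `Ext^{n+1}(N, X)`;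
* `LC.smul_H_eq_zero`: `c` kills `H^n(N)`;
* `stdRes`: the standard resolution `0 → ℤ --p--> ℤ → 𝔽_p → 0` of the trivial module.
-/

set_option autoImplicit false
set_option linter.unusedSectionVars false

universe u

open CategoryTheory

namespace Fermat.Agent.CFT

open HExt

namespace HExt.Cx

variable {k : Type u} [CommRing k] {F G : Cx.{u, u} k}

/-- If `η φ = c` and `φ η = c` then `c` kills `E^{n+1}(φ)`. -/
theorem smul_E_eq_zero (φ : Hom F G) (η : Hom G F) (c : k)
    (h1 : ∀ n (x : F.X n), η.f n (φ.f n x) = c • x)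
    (h2 : ∀ n (y : G.X n), φ.f n (η.f n y) = c • y) (n : ℕ) (e : E φ (n + 1)) : c • e = 0 := by
  induction e using E.induction_on' with
  | _ a₀ a₁ ha₀ ha₁ =>
    change c • Hs.mk (C := Fib φ) (n := n + 1)
      ((a₀, a₁) : (sh F).X (n + 2) × (sh (sh G)).X (n + 2)) _ = 0
    rw [← Hs.mk_smul, Hs.mk_eq_zero_iff]
    refine ⟨((η.f n a₁, 0) : (sh F).X (n + 1) × (sh (sh G)).X (n + 1)), ?_⟩
    rw [fib_d_apply]
    refine Prod.ext ?_ ?_
    · change F.d n (η.f n a₁) = c • a₀
      rw [← η.comm, ← ha₁, h1]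
    · change (shHom φ).toHom1.f (n + 1) (η.f n a₁) -
        (sh (sh G)).d (n + 1) (0 : (sh (sh G)).X (n + 1)) = _
      rw [map_zero, sub_zero]
      exact h2 n a₁

end HExt.Cx

variable {k G : Type u} [CommRing k] [Group G] {L : LevelStructure G}

namespace LC

/-- A morphism acting as the scalar `c` acts as `c` on LC cochains. -/
lemma cxMap_smul_apply {A : Rep.{u} k G} (hA : IsSmooth L A) (f : A ⟶ A) (c : k)
    (h : ∀ a, f.hom a = c • a) (n : ℕ) (x : (cx hA).X n) : (cxMap hA hA f).f n x = c • x := by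
  match n, x with
  | 0, x => exact h x
  | 1, x => exact Subtype.ext (funext fun s => h _)
  | 2, x => exact Subtype.ext (funext fun s => h _)
  | 3, x => exact Subtype.ext (funext fun s => h _)
  | _ + 4, _ => rfl

/-- If `c` kills `N` it kills the LC cochains of `N`. -/
lemma smul_cx_eq_zero {N : Rep.{u} k G} (hN : IsSmooth L N) (c : k) (h : ∀ a : N, c • a = 0)
    (n : ℕ) (x : (cx hN).X n) : c • x = 0 := by
  match n, x with
  | 0, x => exact h x
  | 1, x => exact Subtype.ext (funext fun s => h _)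
  | 2, x => exact Subtype.ext (funext fun s => h _)
  | 3, x => exact Subtype.ext (funext fun s => h _)
  | _ + 4, _ => rfl

/-- If `c` kills `N` it kills the level cohomology of `N`. -/
theorem smul_H_eq_zero {N : Rep.{u} k G} (hN : IsSmooth L N) (c : k) (h : ∀ a : N, c • a = 0)
    (n : ℕ) (x : (cx hN).H n) : c • x = 0 := by
  induction x using Cx.H.induction_on with
  | _ z hz =>
    rw [← Cx.H.mk_smul]
    have : c • z = 0 := smul_cx_eq_zero hN c h n z
    exact (Cx.H.mk_congr this _).trans Cx.Hs.mk_zero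

end LC

namespace LatticeRes

variable {N : Rep.{u} k G} (R : LatticeRes L N) (c : k) (hc : ∀ a : N, c • a = 0)

include hc in
lemma smul_mem_range (x : R.P₀) : c • x ∈ LinearMap.range R.i.hom.toLinearMap := by
  have : R.π.hom (c • x) = 0 := by rw [map_smul, hc]
  obtain ⟨y, hy⟩ := (R.exact _).1 this
  exact ⟨y, hy⟩

/-- The lift `h : P₀ → P₁` of multiplication by `c` (linear map). -/
noncomputable def pLiftLin : R.P₀ →ₗ[k] R.P₁ :=
  (LinearEquiv.ofInjective R.i.hom.toLinearMap R.inj).symm.toLinearMap ∘ₗ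
    (c • (LinearMap.id : R.P₀ →ₗ[k] R.P₀)).codRestrict (LinearMap.range R.i.hom.toLinearMap)
      (R.smul_mem_range c hc)

lemma i_pLiftLin (x : R.P₀) : R.i.hom (R.pLiftLin c hc x) = c • x :=
  congrArg Subtype.val ((LinearEquiv.ofInjective R.i.hom.toLinearMap R.inj).apply_symm_apply
    ⟨c • x, R.smul_mem_range c hc x⟩)

/-- The lift `h : P₀ ⟶ P₁` of multiplication by `c`: `i ∘ h = c`. -/
noncomputable def pLift : R.P₀ ⟶ R.P₁ :=
  Rep.ofHom ⟨R.pLiftLin c hc, fun g => by
    ext x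
    apply R.inj
    change R.i.hom (R.pLiftLin c hc (R.P₀.ρ g x)) = R.i.hom (R.P₁.ρ g (R.pLiftLin c hc x))
    rw [i_pLiftLin, Rep.hom_comm_apply R.i, i_pLiftLin, map_smul]⟩

lemma i_pLift (x : R.P₀) : R.i.hom ((R.pLift c hc).hom x) = c • x := R.i_pLiftLin c hc x

lemma pLift_i (y : R.P₁) : (R.pLift c hc).hom (R.i.hom y) = c • y := by
  apply R.inj
  rw [i_pLift, map_smul]

include hc in
/-- `c` kills `Ext^{n+1}(N, X)` if it kills `N`. -/
theorem smul_Ext_eq_zero {X : Rep.{u} k G} (hX : IsSmooth L X) (n : ℕ)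
    (e : R.Ext hX (n + 1)) : c • e = 0 := by
  refine Cx.smul_E_eq_zero (R.homMap hX)
    (LC.cxMap (R.smooth₁.ihom hX) (R.smooth₀.ihom hX) (Cup.precomp (R.pLift c hc) X)) c ?_ ?_ n e
  · intro m x
    refine (LC.cxMap_comp_apply _ _ _ (Cup.precomp R.i X) (Cup.precomp (R.pLift c hc) X) m x).symm.trans ?_
    refine LC.cxMap_smul_apply _ _ c (fun a => ?_) m x
    refine LinearMap.ext fun y => ?_
    change (show R.P₀ →ₗ[k] X from a) (R.i.hom ((R.pLift c hc).hom y)) = c • (show R.P₀ →ₗ[k] X from a) y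
    rw [i_pLift, map_smul]
  · intro m y
    refine (LC.cxMap_comp_apply _ _ _ (Cup.precomp (R.pLift c hc) X) (Cup.precomp R.i X) m y).symm.trans ?_
    refine LC.cxMap_smul_apply _ _ c (fun a => ?_) m y
    refine LinearMap.ext fun z => ?_
    change (show R.P₁ →ₗ[k] X from a) ((R.pLift c hc).hom (R.i.hom z)) = c • (show R.P₁ →ₗ[k] X from a) z
    rw [pLift_i, map_smul]

end LatticeRes

end Fermat.Agent.CFT
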