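import Mathlib
import Fermat.Agent.CFT.HyperExt.LCExt

set_option autoImplicit false

/-!
# The canonical lattice resolution `0 → K_N → ℤ[N] → N → 0` (S55, node A7.X (b))

For a finite smooth `ℤ[G]`-module `N`:

* `zFree N : Rep ℤ G` is the permutation module `ℤ[N]` (`G` permutes the basis `zSingle N n`);
* `zAug N : zFree N ⟶ N` is the augmentation `[n] ↦ n`;
* `zKer N` is its kernel, `zKerι N : zKer N ⟶ zFree N` the inclusion;
* `zRes N hN : LatticePair ℤ L` is the resulting lattice pair, functorial in `N` on the nose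
  (`zRes.map`, `zRes.map_id`, `zRes.map_comp`);
* `zRes.lift`: for any lattice pair `R` resolving `N` with an equivariant set-theoretic section,
  a quasi-isomorphism `zRes N ⟶ R`.
-/

open CategoryTheory

namespace Fermat.Agent.CFT

universe u

variable {k G : Type u} [CommRing k] [Group G]

/-! ### The permutation module -/

/-- The permutation representation of `G` on `ℤ[N]`. -/
noncomputable def zPermRep (N : Rep.{u} k G) : Representation k G (N →₀ k) where
  toFun g := Finsupp.lmapDomain k k (N.ρ g)
  map_one' := by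
    refine Finsupp.lhom_ext' fun n => LinearMap.ext_ring ?_
    simp
  map_mul' g h := by
    refine Finsupp.lhom_ext' fun n => LinearMap.ext_ring ?_
    simp [Finsupp.mapDomain_single]

/-- The permutation module `ℤ[N]`. -/
noncomputable def zFree (N : Rep.{u} k G) : Rep.{u} k G := Rep.of (zPermRep N)

/-- The basis vector `[n]`. -/
noncomputable def zSingle (N : Rep.{u} k G) (n : N) : zFree N := Finsupp.single n (1 : k)

lemma zFree_ρ_single (N : Rep.{u} k G) (g : G) (n : N) :
    (zFree N).ρ g (zSingle N n) = zSingle N (N.ρ g n) := by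
  change Finsupp.mapDomain (N.ρ g) (Finsupp.single n (1 : k)) = _
  rw [Finsupp.mapDomain_single]
  rfl

/-- Two linear maps out of `ℤ[N]` agreeing on the basis are equal. -/
lemma zFree_hom_ext {N : Rep.{u} k G} {M : Type*} [AddCommGroup M] [Module k M] {f g : zFree N →ₗ[k] M}
    (h : ∀ n, f (zSingle N n) = g (zSingle N n)) : f = g :=
  Finsupp.lhom_ext' fun n => LinearMap.ext_ring (h n)

lemma zFree_induction {N : Rep.{u} k G} {p : zFree N → Prop} (x : zFree N) (h0 : p 0)
    (hadd : ∀ x y, p x → p y → p (x + y)) (hsingle : ∀ (n : N) (a : k), p (a • zSingle N n)) :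
    p x := by
  refine Finsupp.induction_linear (motive := p) x h0 hadd fun n a => ?_
  have e : (Finsupp.single n a : N →₀ k) = a • (Finsupp.single n (1 : k) : N →₀ k) := by
    rw [Finsupp.smul_single, smul_eq_mul, mul_one]
  have h : p (a • (Finsupp.single n (1 : k) : N →₀ k)) := hsingle n a
  exact e ▸ h

instance (N : Rep.{u} k G) : Module.Free k (zFree N) :=
  inferInstanceAs (Module.Free k (N →₀ k))

instance (N : Rep.{u} k G) [Finite N] : Module.Finite k (zFree N) :=
  inferInstanceAs (Module.Finite k (N →₀ k))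

/-- The augmentation `ℤ[N] → N`, `[n] ↦ n`. -/
noncomputable def zAug (N : Rep.{u} k G) : zFree N ⟶ N :=
  Rep.ofHom ⟨Finsupp.linearCombination k (id : N → N), fun g => by
    refine Finsupp.lhom_ext' fun n => LinearMap.ext_ring ?_
    change Finsupp.linearCombination k (id : N → N)
        (Finsupp.mapDomain (N.ρ g) (Finsupp.single n (1 : k))) =
      N.ρ g (Finsupp.linearCombination k (id : N → N) (Finsupp.single n (1 : k)))
    rw [Finsupp.mapDomain_single, Finsupp.linearCombination_single,
      Finsupp.linearCombination_single, one_smul, one_smul, id, id]⟩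

lemma zAug_single (N : Rep.{u} k G) (n : N) : (zAug N).hom (zSingle N n) = n := by
  change Finsupp.linearCombination k (id : N → N) (Finsupp.single n (1 : k)) = n
  rw [Finsupp.linearCombination_single, one_smul, id]

lemma zAug_surjective (N : Rep.{u} k G) : Function.Surjective (zAug N).hom :=
  fun n => ⟨zSingle N n, zAug_single N n⟩

/-! ### The kernel -/

/-- The kernel of the augmentation, as a submodule. -/
noncomputable def zKerSub (N : Rep.{u} k G) : Submodule k (zFree N) :=
  LinearMap.ker (zAug N).hom.toLinearMap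

lemma mem_zKerSub {N : Rep.{u} k G} (x : zFree N) : x ∈ zKerSub N ↔ (zAug N).hom x = 0 :=
  LinearMap.mem_ker

lemma zKerSub_le_comap (N : Rep.{u} k G) (g : G) :
    zKerSub N ≤ (zKerSub N).comap ((zFree N).ρ g) := by
  intro x hx
  rw [Submodule.mem_comap, mem_zKerSub, Rep.hom_comm_apply, (mem_zKerSub x).1 hx, map_zero]

/-- The kernel of the augmentation `ℤ[N] → N`, as a representation. -/
noncomputable def zKer (N : Rep.{u} k G) : Rep.{u} k G :=
  (zFree N).subrepresentation (zKerSub N) (zKerSub_le_comap N)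

/-- The inclusion `K_N ⟶ ℤ[N]`. -/
noncomputable def zKerι (N : Rep.{u} k G) : zKer N ⟶ zFree N :=
  Rep.subtype (zFree N) (zKerSub N) (zKerSub_le_comap N)

lemma zKerι_injective (N : Rep.{u} k G) : Function.Injective (zKerι N).hom :=
  Subtype.val_injective

lemma zKerι_exact (N : Rep.{u} k G) : Function.Exact (zKerι N).hom (zAug N).hom := by
  intro x
  constructor
  · intro hx
    exact ⟨⟨x, (mem_zKerSub x).2 hx⟩, rfl⟩
  · rintro ⟨y, rfl⟩
    exact (mem_zKerSub _).1 y.2


instance (N : Rep.{u} k G) [Finite N] [IsNoetherianRing k] : Module.Finite k (zKer N) :=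
  inferInstanceAs (Module.Finite k (zKerSub N))

/-! ### Smoothness and the lattice pair -/

variable {L : LevelStructure G}

lemma isSmooth_zFree {N : Rep.{u} k G} [Finite N] (hN : IsSmooth L N) : IsSmooth L (zFree N) := by
  obtain ⟨N₀, hN₀, hfix⟩ := hN.exists_level_of_finite (Set.finite_univ (α := N))
  intro x
  refine ⟨N₀, hN₀, fun g hg => ?_⟩
  induction x using zFree_induction with
  | h0 => exact map_zero _
  | hadd x y hx hy => rw [map_add, hx, hy]
  | hsingle n a => rw [map_smul, zFree_ρ_single, hfix n (Set.mem_univ n) g hg]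

/-- **The canonical lattice resolution** `K_N → k[N]` of a finite smooth module. -/
noncomputable def zRes (N : Rep.{u} k G) [Finite N] [IsNoetherianRing k] (hN : IsSmooth L N) :
    LatticePair k L where
  P₀ := zFree N
  P₁ := zKer N
  i := zKerι N
  smooth₀ := isSmooth_zFree hN
  smooth₁ := (isSmooth_zFree hN).of_injective (zKerι N) (zKerι_injective N)

/-! ### Functoriality -/

section functoriality

variable {N N' N'' : Rep.{u} k G}

/-- `k[N] ⟶ k[N']`, `[n] ↦ [f n]`. -/
noncomputable def zFreeMap (f : N ⟶ N') : zFree N ⟶ zFree N' :=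
  Rep.ofHom ⟨Finsupp.lmapDomain k k f.hom, fun g => by
    refine Finsupp.lhom_ext' fun n => LinearMap.ext_ring ?_
    change Finsupp.mapDomain f.hom (Finsupp.mapDomain (N.ρ g) (Finsupp.single n (1 : k))) =
      Finsupp.mapDomain (N'.ρ g) (Finsupp.mapDomain f.hom (Finsupp.single n (1 : k)))
    rw [Finsupp.mapDomain_single, Finsupp.mapDomain_single, Finsupp.mapDomain_single,
      Finsupp.mapDomain_single, Rep.hom_comm_apply]⟩

lemma zFreeMap_single (f : N ⟶ N') (n : N) :
    (zFreeMap f).hom (zSingle N n) = zSingle N' (f.hom n) := by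
  change Finsupp.mapDomain f.hom (Finsupp.single n (1 : k)) = _
  rw [Finsupp.mapDomain_single]
  rfl

lemma zAug_zFreeMap (f : N ⟶ N') (x : zFree N) :
    (zAug N').hom ((zFreeMap f).hom x) = f.hom ((zAug N).hom x) := by
  induction x using zFree_induction with
  | h0 => simp only [map_zero]
  | hadd x y hx hy => simp only [map_add, hx, hy]
  | hsingle n a => simp only [map_smul, zFreeMap_single, zAug_single]

lemma zFreeMap_id (N : Rep.{u} k G) : zFreeMap (𝟙 N) = 𝟙 (zFree N) := by
  apply Rep.hom_ext
  ext x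
  change (zFreeMap (𝟙 N)).hom x = x
  induction x using zFree_induction with
  | h0 => simp only [map_zero]
  | hadd x y hx hy => simp only [map_add, hx, hy]
  | hsingle n a =>
    rw [map_smul, zFreeMap_single]
    rfl

lemma zFreeMap_comp (f : N ⟶ N') (g : N' ⟶ N'') :
    zFreeMap (f ≫ g) = zFreeMap f ≫ zFreeMap g := by
  apply Rep.hom_ext
  ext x
  change (zFreeMap (f ≫ g)).hom x = (zFreeMap g).hom ((zFreeMap f).hom x)
  induction x using zFree_induction with
  | h0 => simp only [map_zero]
  | hadd x y hx hy => simp only [map_add, hx, hy]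
  | hsingle n a =>
    rw [map_smul, map_smul, map_smul, zFreeMap_single, zFreeMap_single, zFreeMap_single]
    rfl

/-- The induced map on the kernels of the augmentations. -/
noncomputable def zKerMap (f : N ⟶ N') : zKer N ⟶ zKer N' :=
  Rep.ofHom ⟨(zFreeMap f).hom.toLinearMap.restrict (p := zKerSub N) (q := zKerSub N')
    (fun x hx => by
      rw [mem_zKerSub] at hx ⊢
      change (zAug N').hom ((zFreeMap f).hom x) = 0
      rw [zAug_zFreeMap, hx, map_zero]), fun g => by
    refine LinearMap.ext fun x => Subtype.ext ?_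
    change (zFreeMap f).hom ((zFree N).ρ g x.1) = (zFree N').ρ g ((zFreeMap f).hom x.1)
    rw [Rep.hom_comm_apply]⟩

lemma zKerι_zKerMap (f : N ⟶ N') (x : zKer N) :
    (zKerι N').hom ((zKerMap f).hom x) = (zFreeMap f).hom ((zKerι N).hom x) := rfl

variable [IsNoetherianRing k] [Finite N] [Finite N'] [Finite N''] (hN : IsSmooth L N)
  (hN' : IsSmooth L N') (hN'' : IsSmooth L N'')

/-- Functoriality of the canonical resolution. -/
noncomputable def zRes.map (f : N ⟶ N') : LatticePair.Hom (zRes N hN) (zRes N' hN') where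
  f₀ := zFreeMap f
  f₁ := zKerMap f
  comm x := zKerι_zKerMap f x

lemma zRes.map_id : zRes.map hN hN (𝟙 N) = LatticePair.Hom.id (zRes N hN) := by
  refine LatticePair.Hom.ext' (zFreeMap_id N) ?_
  apply Rep.hom_ext
  ext x
  refine Subtype.ext ?_
  change (zFreeMap (𝟙 N)).hom x.1 = x.1
  rw [zFreeMap_id]
  rfl

lemma zRes.map_comp (f : N ⟶ N') (g : N' ⟶ N'') :
    zRes.map hN hN'' (f ≫ g) = (zRes.map hN' hN'' g).comp (zRes.map hN hN' f) := by
  refine LatticePair.Hom.ext' (zFreeMap_comp f g) ?_
  apply Rep.hom_ext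
  ext x
  refine Subtype.ext ?_
  change (zFreeMap (f ≫ g)).hom x.1 = (zFreeMap g).hom ((zFreeMap f).hom x.1)
  rw [zFreeMap_comp]
  rfl

end functoriality

/-! ### The lifting lemma -/

section lifting

variable {N : Rep.{u} k G} [IsNoetherianRing k] [Finite N] (hN : IsSmooth L N)
  (R : LatticePair k L) (π : R.P₀ ⟶ N) (hex : Function.Exact R.i.hom π.hom)
  (hi : Function.Injective R.i.hom) (σ : N → R.P₀) (hσ : ∀ n, π.hom (σ n) = n)
  (hσG : ∀ g n, R.P₀.ρ g (σ n) = σ (N.ρ g n))

/-- `k[N] ⟶ P₀`, `[n] ↦ σ n`, for an equivariant set map `σ`. -/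
noncomputable def zLift₀ : zFree N ⟶ R.P₀ :=
  Rep.ofHom ⟨Finsupp.linearCombination k σ, fun g => by
    refine Finsupp.lhom_ext' fun n => LinearMap.ext_ring ?_
    change Finsupp.linearCombination k σ (Finsupp.mapDomain (N.ρ g) (Finsupp.single n (1 : k))) =
      R.P₀.ρ g (Finsupp.linearCombination k σ (Finsupp.single n (1 : k)))
    rw [Finsupp.mapDomain_single, Finsupp.linearCombination_single,
      Finsupp.linearCombination_single, one_smul, one_smul, hσG]⟩

omit [IsNoetherianRing k] [Finite N] in
lemma zLift₀_single (n : N) : (zLift₀ R σ hσG).hom (zSingle N n) = σ n := by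
  change Finsupp.linearCombination k σ (Finsupp.single n (1 : k)) = σ n
  rw [Finsupp.linearCombination_single, one_smul]

omit [IsNoetherianRing k] [Finite N] in
include hσ in
lemma π_zLift₀ (x : zFree N) : π.hom ((zLift₀ R σ hσG).hom x) = (zAug N).hom x := by
  induction x using zFree_induction with
  | h0 => simp only [map_zero]
  | hadd x y hx hy => simp only [map_add, hx, hy]
  | hsingle n a => simp only [map_smul, zLift₀_single, zAug_single, hσ]

omit [IsNoetherianRing k] [Finite N] in
include hσ hex in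
lemma zLift₀_mem_range (x : zKer N) :
    (zLift₀ R σ hσG).hom ((zKerι N).hom x) ∈ LinearMap.range R.i.hom.toLinearMap := by
  have h0 : π.hom ((zLift₀ R σ hσG).hom ((zKerι N).hom x)) = 0 := by
    rw [π_zLift₀ R π σ hσ hσG]
    exact (mem_zKerSub _).1 x.2
  obtain ⟨y, hy⟩ := (hex _).1 h0
  exact ⟨y, hy⟩

/-- The induced linear map `K_N → P₁`. -/
noncomputable def zLift₁Lin : zKer N →ₗ[k] R.P₁ :=
  (LinearEquiv.ofInjective R.i.hom.toLinearMap hi).symm.toLinearMap ∘ₗ
    ((zLift₀ R σ hσG).hom.toLinearMap ∘ₗ (zKerι N).hom.toLinearMap).codRestrict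
      (LinearMap.range R.i.hom.toLinearMap) (zLift₀_mem_range R π hex σ hσ hσG)

omit [IsNoetherianRing k] [Finite N] in
lemma i_zLift₁Lin (x : zKer N) :
    R.i.hom (zLift₁Lin R π hex hi σ hσ hσG x) = (zLift₀ R σ hσG).hom ((zKerι N).hom x) :=
  congrArg Subtype.val ((LinearEquiv.ofInjective R.i.hom.toLinearMap hi).apply_symm_apply
    ((((zLift₀ R σ hσG).hom.toLinearMap ∘ₗ (zKerι N).hom.toLinearMap).codRestrict
      (LinearMap.range R.i.hom.toLinearMap) (zLift₀_mem_range R π hex σ hσ hσG)) x))

/-- The induced map `K_N ⟶ P₁`. -/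
noncomputable def zLift₁ : zKer N ⟶ R.P₁ :=
  Rep.ofHom ⟨zLift₁Lin R π hex hi σ hσ hσG, fun g => by
    have key : ∀ x : zKer N, R.i.hom (zLift₁Lin R π hex hi σ hσ hσG ((zKer N).ρ g x)) =
        R.i.hom (R.P₁.ρ g (zLift₁Lin R π hex hi σ hσ hσG x)) := by
      intro x
      rw [i_zLift₁Lin, Rep.hom_comm_apply, Rep.hom_comm_apply, Rep.hom_comm_apply, i_zLift₁Lin]
    exact LinearMap.ext fun x => hi (key x)⟩

omit [IsNoetherianRing k] [Finite N] in
lemma i_zLift₁ (x : zKer N) :
    R.i.hom ((zLift₁ R π hex hi σ hσ hσG).hom x) =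
      (zLift₀ R σ hσG).hom ((zKerι N).hom x) :=
  i_zLift₁Lin R π hex hi σ hσ hσG x

/-- **The lifting lemma**: the canonical resolution maps to every lattice pair resolving `N` which
admits an equivariant set-theoretic section. -/
noncomputable def zRes.lift : LatticePair.Hom (zRes N hN) R where
  f₀ := zLift₀ R σ hσG
  f₁ := zLift₁ R π hex hi σ hσ hσG
  comm x := i_zLift₁ R π hex hi σ hσ hσG x

lemma zRes.lift_f₀_single (n : N) :
    (zRes.lift hN R π hex hi σ hσ hσG).f₀.hom (zSingle N n) = σ n :=
  zLift₀_single R σ hσG n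

/-- The lift is a quasi-isomorphism. -/
theorem zRes.lift_isQis : (zRes.lift hN R π hex hi σ hσ hσG).IsQis where
  inj := by
    rintro y ⟨z, hz⟩
    have h0 : (zAug N).hom y = 0 := by
      rw [← π_zLift₀ R π σ hσ hσG y]
      have : (zLift₀ R σ hσG).hom y = R.i.hom z := hz.symm
      rw [this]
      exact hex.apply_apply_eq_zero z
    exact ⟨⟨y, (mem_zKerSub y).2 h0⟩, rfl⟩
  surj := by
    intro x
    have h0 : π.hom (x - σ (π.hom x)) = 0 := by rw [map_sub, hσ, sub_self]
    obtain ⟨z, hz⟩ := (hex _).1 h0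
    refine ⟨zSingle N (π.hom x), z, ?_⟩
    change (zLift₀ R σ hσG).hom (zSingle N (π.hom x)) + R.i.hom z = x
    rw [zLift₀_single, hz]
    abel

end lifting

/-! ### Basic facts on `zRes` -/

section basic

variable (N : Rep.{u} k G) [IsNoetherianRing k] [Finite N] (hN : IsSmooth L N)

lemma zRes_i_injective : Function.Injective (zRes N hN).i.hom := zKerι_injective N

lemma zRes_exact : Function.Exact (zRes N hN).i.hom (zAug N).hom := zKerι_exact N

instance : Module.Free k (zRes N hN).P₀ := inferInstanceAs (Module.Free k (zFree N))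

end basic

end Fermat.Agent.CFT
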