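import Mathlib
import Fermat.Agent.CFT.HyperExt.LCExtPair
import Fermat.Agent.CFT.HyperExt.LCExtTorsion
import Fermat.Agent.CFT.HyperExt.ZRes

/-!
# The duality maps of the abstract duality theorem (S55, node A8, definitions)

Setting: `G` a group with level structure `L`, `C : Rep ℤ G` smooth ("formation module"),
`p` a natural number, `N` a smooth module killed by `p` with a resolution `R : LatticeRes L N`.
Everything is stated with ADDITIVE maps and `ℕ`-multiples, so that no `ℤ`-module instance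
(diamond `AddCommGroup.toIntModule` / `Rep.hV2`) appears in the statements.

* `zResR N hN : LatticeRes L N`: helper23's canonical resolution `zRes` as a `LatticeRes`;
* `LC.Hp p hC n`: the `p`-torsion subgroup of `Hⁿ(G, C)`;
* `R.pairP p hC hpN n s hm`: the hyper-Ext pairing with values in `LC.Hp p hC 2` (`n + s = 1`);
* for `inv : LC.Hp p hC 2 →+ ZMod p`:
  `R.dual p hC hpN inv n s hm : Ext^{n+1}(N, C) →+ (H^s(N) →+ ZMod p)`,
  `R.dual1 := R.dual 0 1`, `R.dual2 := R.dual 1 0`, and `R.IsPerfect p hC hpN inv`.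
-/

set_option autoImplicit false
set_option linter.unusedSectionVars false

universe u

open CategoryTheory

namespace Fermat.Agent.CFT

open HExt

section general

variable {k G : Type u} [CommRing k] [Group G] {L : LevelStructure G}

section zres

variable [IsNoetherianRing k]

/-- The canonical resolution `0 → K_N → k[N] → N → 0` as a `LatticeRes`. -/
noncomputable def zResR (N : Rep.{u} k G) [Finite N] (hN : IsSmooth L N) : LatticeRes L N :=
  { zRes N hN with
    π := zAug N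
    surj := zAug_surjective N
    exact := zRes_exact (hN := hN)
    inj := zRes_i_injective (hN := hN) }

lemma zResR_toLatticePair (N : Rep.{u} k G) [Finite N] (hN : IsSmooth L N) :
    (zResR N hN).toLatticePair = zRes N hN := rfl

lemma zResR_π (N : Rep.{u} k G) [Finite N] (hN : IsSmooth L N) : (zResR N hN).π = zAug N := rfl

end zres

/-- `ℕ`-multiples version of `LC.smul_H_eq_zero`. -/
lemma LC.nsmul_H_eq_zero {N : Rep.{u} k G} (hN : IsSmooth L N) (p : ℕ) (h : ∀ a : N, p • a = 0)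
    (s : ℕ) (c : (LC.cx hN).H s) : p • c = 0 := by
  rw [← Nat.cast_smul_eq_nsmul k p c]
  exact LC.smul_H_eq_zero hN (p : k) (fun a => by rw [Nat.cast_smul_eq_nsmul k p a]; exact h a) s c

/-- `ℕ`-multiples version of `LatticeRes.smul_Ext_eq_zero`. -/
lemma LatticeRes.nsmul_Ext_eq_zero {N : Rep.{u} k G} (R : LatticeRes L N) (p : ℕ)
    (h : ∀ a : N, p • a = 0) {X : Rep.{u} k G} (hX : IsSmooth L X) (n : ℕ)
    (e : R.Ext hX (n + 1)) : p • e = 0 := by
  rw [← Nat.cast_smul_eq_nsmul k p e]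
  exact R.smul_Ext_eq_zero (p : k) (fun a => by rw [Nat.cast_smul_eq_nsmul k p a]; exact h a)
    hX n e

/-- The `p`-torsion subgroup of `Hⁿ(G, C)`. -/
def LC.Hp (p : ℕ) {C : Rep.{u} k G} (hC : IsSmooth L C) (n : ℕ) : AddSubgroup ((LC.cx hC).H n) :=
  (nsmulAddMonoidHom p : (LC.cx hC).H n →+ (LC.cx hC).H n).ker

lemma LC.mem_Hp {p : ℕ} {C : Rep.{u} k G} {hC : IsSmooth L C} {n : ℕ} {x : (LC.cx hC).H n} :
    x ∈ LC.Hp p hC n ↔ p • x = 0 := Iff.rfl

end general

variable {k G : Type u} [CommRing k] [Group G] {L : LevelStructure G}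

namespace LatticeRes

variable (p : ℕ) {C : Rep.{u} k G} (hC : IsSmooth L C)
variable {N : Rep.{u} k G} (R : LatticeRes L N) (hpN : ∀ n : N, p • n = 0)

include hpN in
lemma pair_mem_Hp (n s m : ℕ) (hm : n + s = m) (e : R.Ext hC (n + 1))
    (c : (LC.cx R.smooth).H s) : R.pair hC n s m hm e c ∈ LC.Hp p hC (m + 1) := by
  rw [LC.mem_Hp, ← map_nsmul, LC.nsmul_H_eq_zero R.smooth p hpN s c, map_zero]

/-- The hyper-Ext pairing `Ext^{n+1}(N, C) × H^s(N) → H²(C)[p]` (`n + s = 1`), additive form. -/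
noncomputable def pairP (n s : ℕ) (hm : n + s = 1) :
    R.Ext hC (n + 1) →+ (LC.cx R.smooth).H s →+ LC.Hp p hC 2 :=
  AddMonoidHom.mk' (fun e => AddMonoidHom.mk'
      (fun c => (⟨R.pair hC n s 1 hm e c, R.pair_mem_Hp p hC hpN n s 1 hm e c⟩ : LC.Hp p hC 2))
      (fun c c' => Subtype.ext (by simp [map_add])))
    (fun e e' => by
      ext c
      simp [map_add])

@[simp] lemma coe_pairP (n s : ℕ) (hm : n + s = 1) (e : R.Ext hC (n + 1))
    (c : (LC.cx R.smooth).H s) :
    ((R.pairP p hC hpN n s hm e c : LC.Hp p hC 2) : (LC.cx hC).H 2) = R.pair hC n s 1 hm e c :=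
  rfl

variable (inv : LC.Hp p hC 2 →+ ZMod p)

/-- The duality map `Ext^{n+1}(N, C) → Hom(H^s(N), ℤ/p)`, `n + s = 1`. -/
noncomputable def dual (n s : ℕ) (hm : n + s = 1) :
    R.Ext hC (n + 1) →+ ((LC.cx R.smooth).H s →+ ZMod p) :=
  (AddMonoidHom.compHom inv).comp (R.pairP p hC hpN n s hm)

@[simp] lemma dual_apply (n s : ℕ) (hm : n + s = 1) (e : R.Ext hC (n + 1))
    (c : (LC.cx R.smooth).H s) :
    R.dual p hC hpN inv n s hm e c = inv (R.pairP p hC hpN n s hm e c) := rfl

/-- `Ext¹(N, C) → Hom(H¹(N), ℤ/p)`. -/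
noncomputable abbrev dual1 : R.Ext hC 1 →+ ((LC.cx R.smooth).H 1 →+ ZMod p) :=
  R.dual p hC hpN inv 0 1 rfl

/-- `Ext²(N, C) → Hom(H⁰(N), ℤ/p)`. -/
noncomputable abbrev dual2 : R.Ext hC 2 →+ ((LC.cx R.smooth).H 0 →+ ZMod p) :=
  R.dual p hC hpN inv 1 0 rfl

/-- Both duality maps are bijective. -/
def IsPerfect : Prop :=
  Function.Bijective (R.dual1 p hC hpN inv) ∧ Function.Bijective (R.dual2 p hC hpN inv)

end LatticeRes

end Fermat.Agent.CFT
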