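import Mathlib
import Fermat.Agent.CFT.HyperExt.LCDualityDefs

/-!
# The canonical hyper-Ext functor and its six-term sequences (S55, node A8, SES-THM)

For finite smooth modules `N` we use the canonical resolution `zResR N hN` and write
`T^n(N) = (zResR N hN).Ext hX n`.

* `zExtMap f n : T^n(N') → T^n(N)` for `f : N ⟶ N'` (contravariant functoriality),
  `zExtMap_id`, `zExtMap_comp`, `zpair_map` (naturality of the pairing);
* `LatticeRes.pair_map_id`, `LatticeRes.Ext.map_bijective_of_lift`: comparison of two resolutions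
  of the same module;
* for a short exact sequence `0 → A → B → C → 0` of finite smooth modules:
  the connecting map `zδ : T^n(A) → T^{n+1}(C)`, exactness of
  `T^n(C) → T^n(B) → T^n(A) → T^{n+1}(C) → T^{n+1}(B)` and the adjointness `pair_zδ` with the
  connecting map of level cohomology.
-/

set_option autoImplicit false
set_option linter.unusedSectionVars false

universe u

open CategoryTheory

namespace Fermat.Agent.CFT

open HExt

variable {k G : Type u} [CommRing k] [Group G] {L : LevelStructure G}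

/-! ### Generalities -/

lemma LC.cxMap_id_mapH {N : Rep.{u} k G} (h h' : IsSmooth L N) (s : ℕ) (c : (LC.cx h).H s) :
    (LC.cxMap h h' (𝟙 N)).mapH s c = c := by
  induction c using Cx.H.induction_on with
  | _ z hz =>
    rw [Cx.Hom.mapH_mk]
    exact Cx.H.mk_congr (LC.cxMap_id_apply _ s z) _

lemma LC.mapH_cxMap_id_eq {N : Rep.{u} k G} (h h' : IsSmooth L N) (s : ℕ) (c : (LC.cx h).H s) :
    (LC.cxMap h h' (𝟙 N)).mapH s c = c := LC.cxMap_id_mapH h h' s c

namespace LatticeRes

variable {N : Rep.{u} k G} {R R' : LatticeRes L N} {X : Rep.{u} k G} (hX : IsSmooth L X)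

/-- Comparison of the pairings of two resolutions of the same module. -/
theorem pair_map_id (f : LatticePair.Hom R.toLatticePair R'.toLatticePair)
    (hf : ∀ x : R.P₀, R'.π.hom (f.f₀.hom x) = R.π.hom x) (n s m : ℕ) (hm : n + s = m)
    (e' : R'.Ext hX (n + 1)) (c : (LC.cx R.smooth).H s) :
    R.pair hX n s m hm (LatticePair.Ext.map hX f (n + 1) e') c = R'.pair hX n s m hm e' c := by
  rw [pair_map hX f (𝟙 N) hf n s m hm e' c, LC.mapH_cxMap_id_eq]

end LatticeRes

/-! ### The canonical functor -/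

section functor

variable [IsNoetherianRing k] {X : Rep.{u} k G} (hX : IsSmooth L X)
variable {N N' N'' : Rep.{u} k G} [Finite N] [Finite N'] [Finite N''] (hN : IsSmooth L N)
  (hN' : IsSmooth L N') (hN'' : IsSmooth L N'')

/-- Contravariant functoriality `T^n(N') → T^n(N)` of the canonical hyper-Ext. -/
noncomputable def zExtMap (f : N ⟶ N') (n : ℕ) :
    (zResR N' hN').Ext hX n →ₗ[k] (zResR N hN).Ext hX n :=
  LatticePair.Ext.map hX (zRes.map hN hN' f) n

lemma zExtMap_id (n : ℕ) (x : (zResR N hN).Ext hX n) : zExtMap hX hN hN (𝟙 N) n x = x := by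
  unfold zExtMap
  rw [zRes.map_id]
  exact LinearMap.congr_fun (LatticePair.Ext.map_id hX n) x

lemma zExtMap_comp (f : N ⟶ N') (g : N' ⟶ N'') (n : ℕ) (x : (zResR N'' hN'').Ext hX n) :
    zExtMap hX hN hN'' (f ≫ g) n x = zExtMap hX hN hN' f n (zExtMap hX hN' hN'' g n x) := by
  unfold zExtMap
  rw [zRes.map_comp hN hN' hN'']
  exact LatticePair.Ext.map_comp hX _ _ n x

/-- Naturality of the pairing for the canonical resolutions. -/
theorem zpair_map (f : N ⟶ N') (n s m : ℕ) (hm : n + s = m) (e' : (zResR N' hN').Ext hX (n + 1))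
    (c : (LC.cx hN).H s) :
    (zResR N hN).pair hX n s m hm (zExtMap hX hN hN' f (n + 1) e') c =
      (zResR N' hN').pair hX n s m hm e' ((LC.cxMap hN hN' f).mapH s c) :=
  LatticeRes.pair_map (R := zResR N hN) (R' := zResR N' hN') hX (zRes.map hN hN' f) f
    (fun x => zAug_zFreeMap f x) n s m hm e' c

end functor

/-! ### Short exact sequences -/

section ses

variable [IsDomain k] [IsPrincipalIdealRing k]

instance LatticeRes.mid_free {B C : Rep.{u} k G} (RB : LatticeRes L B) [Module.Free k RB.P₀]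
    (π : B ⟶ C) : Module.Free k (RB.mid π) := by
  obtain ⟨n, ⟨b⟩⟩ := Submodule.nonempty_basis_of_pid (Module.Free.chooseBasis k RB.P₀)
    (RB.midSub π)
  exact Module.Free.of_basis (M := ↥(RB.midSub π)) b

variable {X : Rep.{u} k G} (hX : IsSmooth L X)
variable {A B C : Rep.{u} k G} [Finite A] [Finite B] [Finite C] (hA : IsSmooth L A)
  (hB : IsSmooth L B) (hC : IsSmooth L C) (ι : A ⟶ B) (π : B ⟶ C)
  (hι : Function.Injective ι.hom) (hex : Function.Exact ι.hom π.hom)
  (hπ : Function.Surjective π.hom)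

/-- The equivariant set-theoretic section `a ↦ [ι a]` used to compare `zRes A` with the
sub-resolution of `zRes B`. -/
noncomputable def sesσ (a : A) : ((zResR B hB).subRes ι π hι hex).P₀ :=
  (⟨zSingle B (ι.hom a), (LatticeRes.mem_midSub_iff (zResR B hB) π _).2 (by
    change π.hom ((zAug B).hom (zSingle B (ι.hom a))) = 0
    rw [zAug_single]
    exact hex.apply_apply_eq_zero a)⟩ : ↥((zResR B hB).midSub π))

lemma midIncl_sesσ (a : A) :
    ((zResR B hB).midIncl π).hom (sesσ hB ι π hι hex a) = zSingle B (ι.hom a) := rfl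

lemma midToA_sesσ (a : A) :
    ((zResR B hB).midToA ι π hι hex).hom (sesσ hB ι π hι hex a) = a := by
  apply hι
  refine ((zResR B hB).ι_midToA ι π hι hex (sesσ hB ι π hι hex a)).trans ?_
  exact zAug_single B (ι.hom a)

lemma ρ_sesσ (g : G) (a : A) :
    ((zResR B hB).subRes ι π hι hex).P₀.ρ g (sesσ hB ι π hι hex a) =
      sesσ hB ι π hι hex (A.ρ g a) := by
  apply (zResR B hB).midIncl_injective π
  refine (Rep.hom_comm_apply ((zResR B hB).midIncl π) g (sesσ hB ι π hι hex a)).trans ?_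
  change (zFree B).ρ g (zSingle B (ι.hom a)) = zSingle B (ι.hom (A.ρ g a))
  rw [Rep.hom_comm_apply ι g a]
  exact zFree_ρ_single B g (ι.hom a)

/-- The comparison `zRes A ⟶ subRes`. -/
noncomputable def sesFA :
    LatticePair.Hom (zRes A hA) ((zResR B hB).subRes ι π hι hex).toLatticePair :=
  zRes.lift hA ((zResR B hB).subRes ι π hι hex).toLatticePair
    ((zResR B hB).subRes ι π hι hex).π ((zResR B hB).subRes ι π hι hex).exact
    ((zResR B hB).subRes ι π hι hex).inj (sesσ hB ι π hι hex)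
    (midToA_sesσ hB ι π hι hex) (ρ_sesσ hB ι π hι hex)

lemma sesFA_isQis : (sesFA hA hB ι π hι hex).IsQis := zRes.lift_isQis _ _ _ _ _ _ _ _

/-- The degree-one component of the comparison `quotRes ⟶ zRes C`. -/
noncomputable def sesFC₁ : (zResR B hB).mid π ⟶ zKer C :=
  Rep.ofHom ⟨((zFreeMap π).hom.toLinearMap ∘ₗ ((zResR B hB).midSub π).subtype).codRestrict
      (zKerSub C) (fun x => (mem_zKerSub _).2 (by
        refine (zAug_zFreeMap π (show zFree B from x.1)).trans ?_
        exact ((zResR B hB).mem_midSub_iff π x.1).1 x.2)),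
    fun g => by
      ext x
      exact Rep.hom_comm_apply (zFreeMap π) g x.1⟩

/-- The comparison `quotRes ⟶ zRes C`. -/
noncomputable def sesFC :
    LatticePair.Hom ((zResR B hB).quotRes π hπ).toLatticePair (zRes C hC) where
  f₀ := zFreeMap π
  f₁ := sesFC₁ hB π
  comm _ := rfl

lemma sesFC_isQis : (sesFC hB hC π hπ).IsQis where
  inj := by
    rintro y ⟨z, hz⟩
    have h0 : π.hom ((zAug B).hom y) = 0 := by
      refine (zAug_zFreeMap π (show zFree B from y)).symm.trans ?_
      have h1 : (zFreeMap π).hom (show zFree B from y) = (zKerι C).hom z := hz.symm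
      rw [h1]
      exact (zKerι_exact C).apply_apply_eq_zero z
    exact ⟨(⟨y, ((zResR B hB).mem_midSub_iff π y).2 h0⟩ : ↥((zResR B hB).midSub π)), rfl⟩
  surj := by
    intro x
    obtain ⟨y, hy⟩ := Finsupp.mapDomain_surjective (M := k) hπ x
    refine ⟨(show zFree B from y), 0, ?_⟩
    rw [map_zero, add_zero]
    exact hy

lemma midIncl_sesFA_f₀ (x : zFree A) :
    ((zResR B hB).midIncl π).hom ((sesFA hA hB ι π hι hex).f₀.hom x) = (zFreeMap ι).hom x := by
  have h : (((zResR B hB).midIncl π).hom.toLinearMap ∘ₗ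
      (sesFA hA hB ι π hι hex).f₀.hom.toLinearMap : zFree A →ₗ[k] zFree B) =
      (zFreeMap ι).hom.toLinearMap := by
    refine zFree_hom_ext fun n => ?_
    have h1 : (sesFA hA hB ι π hι hex).f₀.hom (zSingle A n) = sesσ hB ι π hι hex n :=
      zRes.lift_f₀_single hA _ _ _ _ _ _ _ n
    change ((zResR B hB).midIncl π).hom ((sesFA hA hB ι π hι hex).f₀.hom (zSingle A n)) =
      (zFreeMap ι).hom (zSingle A n)
    rw [h1, midIncl_sesσ, zFreeMap_single]
  exact LinearMap.congr_fun h x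

/-- `zRes A ⟶ subRes ⟶ zRes B` is the functorial map of `ι`. -/
lemma fromSub_comp_sesFA :
    ((zResR B hB).fromSub ι π hι hex).comp (sesFA hA hB ι π hι hex) = zRes.map hA hB ι := by
  refine LatticePair.Hom.ext' ?_ ?_
  · apply Rep.hom_ext
    ext x
    exact midIncl_sesFA_f₀ hA hB ι π hι hex x
  · apply Rep.hom_ext
    ext x
    apply zKerι_injective B
    change ((zResR B hB).midIncl π).hom (((zResR B hB).subIncl π).hom
      ((sesFA hA hB ι π hι hex).f₁.hom x)) = (zFreeMap ι).hom ((zKerι A).hom x)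
    rw [← midIncl_sesFA_f₀ hA hB ι π hι hex]
    congr 1
    exact (sesFA hA hB ι π hι hex).comm x

/-- `zRes B ⟶ quotRes ⟶ zRes C` is the functorial map of `π`. -/
lemma sesFC_comp_toQuot :
    (sesFC hB hC π hπ).comp ((zResR B hB).toQuot π hπ) = zRes.map hB hC π := by
  refine LatticePair.Hom.ext' ?_ ?_
  · rfl
  · apply Rep.hom_ext
    ext x
    rfl

instance zResR_P₀_free : Module.Free k (zResR B hB).P₀ :=
  inferInstanceAs (Module.Free k (zFree B))

instance subRes_P₀_free : Module.Free k ((zResR B hB).subRes ι π hι hex).P₀ :=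
  inferInstanceAs (Module.Free k ((zResR B hB).mid π))

/-- `Ext(subRes) ≃ T(A)`. -/
noncomputable def sesEA (n : ℕ) :
    ((zResR B hB).subRes ι π hι hex).Ext hX n ≃ₗ[k] (zResR A hA).Ext hX n :=
  LinearEquiv.ofBijective (LatticePair.Ext.map hX (sesFA hA hB ι π hι hex) n)
    (LatticePair.Ext.map_bijective_of_isQis hX _ (sesFA_isQis hA hB ι π hι hex)
      (zRes_i_injective A hA) ((zResR B hB).subRes ι π hι hex).inj n)

/-- `T(C) ≃ Ext(quotRes)`. -/
noncomputable def sesEC (n : ℕ) :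
    (zResR C hC).Ext hX n ≃ₗ[k] ((zResR B hB).quotRes π hπ).Ext hX n :=
  LinearEquiv.ofBijective (LatticePair.Ext.map hX (sesFC hB hC π hπ) n)
    (LatticePair.Ext.map_bijective_of_isQis hX _ (sesFC_isQis hB hC π hπ)
      ((zResR B hB).quotRes π hπ).inj (zRes_i_injective C hC) n)

lemma sesEA_apply (n : ℕ) (x : ((zResR B hB).subRes ι π hι hex).Ext hX n) :
    sesEA hX hA hB ι π hι hex n x = LatticePair.Ext.map hX (sesFA hA hB ι π hι hex) n x := rfl

lemma sesEC_apply (n : ℕ) (x : (zResR C hC).Ext hX n) :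
    sesEC hX hB hC π hπ n x = LatticePair.Ext.map hX (sesFC hB hC π hπ) n x := rfl

/-- The connecting map `T^n(A) → T^{n+1}(C)`. -/
noncomputable def zδ (n : ℕ) : (zResR A hA).Ext hX n →ₗ[k] (zResR C hC).Ext hX (n + 1) :=
  (sesEC hX hB hC π hπ (n + 1)).symm.toLinearMap ∘ₗ ((zResR B hB).δExt ι π hι hex hπ hX n) ∘ₗ
    (sesEA hX hA hB ι π hι hex n).symm.toLinearMap

lemma zδ_apply (n : ℕ) (x : (zResR A hA).Ext hX n) :
    zδ hX hA hB hC ι π hι hex hπ n x = (sesEC hX hB hC π hπ (n + 1)).symm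
      ((zResR B hB).δExt ι π hι hex hπ hX n ((sesEA hX hA hB ι π hι hex n).symm x)) := rfl

lemma zExtMap_ι_eq (n : ℕ) (x : (zResR B hB).Ext hX n) :
    zExtMap hX hA hB ι n x = sesEA hX hA hB ι π hι hex n
      (LatticePair.Ext.map hX ((zResR B hB).fromSub ι π hι hex) n x) := by
  unfold zExtMap
  rw [← fromSub_comp_sesFA hA hB ι π hι hex]
  exact LatticePair.Ext.map_comp hX _ _ n x

lemma zExtMap_π_eq (n : ℕ) (x : (zResR C hC).Ext hX n) :
    zExtMap hX hB hC π n x = LatticePair.Ext.map hX ((zResR B hB).toQuot π hπ) n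
      (sesEC hX hB hC π hπ n x) := by
  unfold zExtMap
  rw [← sesFC_comp_toQuot hB hC π hπ]
  exact LatticePair.Ext.map_comp hX _ _ n x

include hι hex hπ in
/-- Exactness of `T^n(C) → T^n(B) → T^n(A)`. -/
theorem exact_zExtMap_zExtMap (n : ℕ) :
    Function.Exact (zExtMap hX hB hC π n) (zExtMap hX hA hB ι n) := by
  intro y
  rw [zExtMap_ι_eq hX hA hB ι π hι hex n y, LinearEquiv.map_eq_zero_iff,
    (LatticeRes.exact_toQuot_fromSub (zResR B hB) ι π hι hex hπ hX n y)]
  constructor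
  · rintro ⟨z, rfl⟩
    refine ⟨(sesEC hX hB hC π hπ n).symm z, ?_⟩
    rw [zExtMap_π_eq hX hB hC π hπ n, LinearEquiv.apply_symm_apply]
  · rintro ⟨z, rfl⟩
    exact ⟨sesEC hX hB hC π hπ n z, (zExtMap_π_eq hX hB hC π hπ n z).symm⟩

/-- Exactness of `T^n(B) → T^n(A) → T^{n+1}(C)`. -/
theorem exact_zExtMap_zδ (n : ℕ) :
    Function.Exact (zExtMap hX hA hB ι n) (zδ hX hA hB hC ι π hι hex hπ n) := by
  intro x
  rw [zδ_apply, LinearEquiv.map_eq_zero_iff,
    (LatticeRes.exact_fromSub_δExt (zResR B hB) ι π hι hex hπ hX n _)]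
  constructor
  · rintro ⟨y, hy⟩
    refine ⟨y, ?_⟩
    rw [zExtMap_ι_eq hX hA hB ι π hι hex n y, hy, LinearEquiv.apply_symm_apply]
  · rintro ⟨y, rfl⟩
    refine ⟨y, ?_⟩
    rw [zExtMap_ι_eq hX hA hB ι π hι hex n y, LinearEquiv.symm_apply_apply]

/-- Exactness of `T^n(A) → T^{n+1}(C) → T^{n+1}(B)`. -/
theorem exact_zδ_zExtMap (n : ℕ) :
    Function.Exact (zδ hX hA hB hC ι π hι hex hπ n) (zExtMap hX hB hC π (n + 1)) := by
  intro z
  rw [zExtMap_π_eq hX hB hC π hπ (n + 1) z,
    (LatticeRes.exact_δExt_toQuot (zResR B hB) ι π hι hex hπ hX n _)]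
  constructor
  · rintro ⟨y, hy⟩
    refine ⟨sesEA hX hA hB ι π hι hex n y, ?_⟩
    rw [zδ_apply, LinearEquiv.symm_apply_apply, hy, LinearEquiv.symm_apply_apply]
  · rintro ⟨x, rfl⟩
    refine ⟨(sesEA hX hA hB ι π hι hex n).symm x, ?_⟩
    rw [zδ_apply, LinearEquiv.apply_symm_apply]

/-- **δ-adjointness** for the canonical resolutions:
`⟨δ e, c⟩_C = (-1)^{n+1} ⟨e, δ c⟩_A` for `e ∈ T^{n+1}(A)`, `c ∈ H^s(C)`. -/
theorem pair_zδ (n s m : ℕ) (hm : n + s = m) (e : (zResR A hA).Ext hX (n + 1))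
    (c : (LC.cx hC).H s) :
    (zResR C hC).pair hX (n + 1) s (m + 1) (by omega)
        (zδ hX hA hB hC ι π hι hex hπ (n + 1) e) c =
      (-1 : k) ^ (n + 1) • (zResR A hA).pair hX n (s + 1) (m + 1) (by omega) e
        ((LC.cx_shortExact ι π hA hB hC hι hπ hex).δH s c) := by
  obtain ⟨e', rfl⟩ := (sesEA hX hA hB ι π hι hex (n + 1)).surjective e
  rw [zδ_apply, LinearEquiv.symm_apply_apply]
  have h1 := LatticeRes.pair_map_id (R := (zResR B hB).quotRes π hπ) (R' := zResR C hC) hX
    (sesFC hB hC π hπ) (fun x => zAug_zFreeMap π (show zFree B from x)) (n + 1) s (m + 1)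
    (by omega) ((sesEC hX hB hC π hπ (n + 1 + 1)).symm
      ((zResR B hB).δExt ι π hι hex hπ hX (n + 1) e')) c
  have key : LatticePair.Ext.map hX (sesFC hB hC π hπ) (n + 1 + 1)
      ((sesEC hX hB hC π hπ (n + 1 + 1)).symm ((zResR B hB).δExt ι π hι hex hπ hX (n + 1) e')) =
      (zResR B hB).δExt ι π hι hex hπ hX (n + 1) e' :=
    (sesEC hX hB hC π hπ (n + 1 + 1)).apply_symm_apply _
  have h1' : ((zResR B hB).quotRes π hπ).pair hX (n + 1) s (m + 1) (by omega)
      ((zResR B hB).δExt ι π hι hex hπ hX (n + 1) e') c =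
      (zResR C hC).pair hX (n + 1) s (m + 1) (by omega)
        ((sesEC hX hB hC π hπ (n + 1 + 1)).symm
          ((zResR B hB).δExt ι π hι hex hπ hX (n + 1) e')) c := by
    refine Eq.trans ?_ h1
    exact congrArg (fun y => ((zResR B hB).quotRes π hπ).pair hX (n + 1) s (m + 1) (by omega) y c)
      key.symm
  have h2 := LatticeRes.pair_map_id (R := zResR A hA) (R' := (zResR B hB).subRes ι π hι hex) hX
    (sesFA hA hB ι π hι hex)
    (fun x => π_zLift₀ _ _ _ (midToA_sesσ hB ι π hι hex) (ρ_sesσ hB ι π hι hex) x)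
    n (s + 1) (m + 1) (by omega) e'
    ((LC.cx_shortExact ι π hA hB hC hι hπ hex).δH s c)
  refine h1'.symm.trans ?_
  refine Eq.trans ?_ (congrArg (fun y => (-1 : k) ^ (n + 1) • y) h2.symm)
  exact LatticeRes.pair_δExt (zResR B hB) ι π hι hex hπ hX n s m hm e' c

end ses

end Fermat.Agent.CFT
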