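import Mathlib
import Fermat.Agent.CFT.HyperExt.LCDualitySES
import Fermat.Agent.CFT.DualityChase3

/-!
# The abstract duality theorem: `ℤ/p`-linear packaging (S55, node A8)

* `zmodBilin f`: an additive pairing `A →+ B →+ ZMod p` between `ZMod p`-modules as a
  `ZMod p`-bilinear map; bijectivity/injectivity/surjectivity are unchanged.
* `PMod L p`: finite smooth `ℤ[G]`-modules killed by `p` (the objects of the duality chase);
  `PMod.T1 hC M = Ext¹(M, C)`, `PMod.T2 hC M = Ext²(M, C)` (canonical resolutions),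
  `PMod.H0 M = H⁰(G, M)`, `PMod.H1 M = H¹(G, M)`, all as `ZMod p`-vector spaces, and the
  duality pairings `PMod.p1 hC inv M`, `PMod.p2 hC inv M`.
* `PMod.sesData`: the `SESData` of a short exact sequence `0 → A → B → C → 0` in `PMod L p`.
-/

set_option autoImplicit false
set_option linter.unusedSectionVars false

open CategoryTheory

namespace Fermat.Agent.CFT

open HExt

/-! ### Additive pairings as `ZMod p`-bilinear maps -/

section zmodBilin

variable {p : ℕ} {A B : Type*} [AddCommGroup A] [Module (ZMod p) A] [AddCommGroup B]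
  [Module (ZMod p) B]

/-- An additive pairing with values in `ZMod p` as a `ZMod p`-bilinear map. -/
def zmodBilin (f : A →+ B →+ ZMod p) : A →ₗ[ZMod p] B →ₗ[ZMod p] ZMod p :=
  AddMonoidHom.toZModLinearMap p
    ((AddMonoidHom.toZModLinearMapEquiv p (M := B) (M₁ := ZMod p)).toAddMonoidHom.comp f)

@[simp] lemma zmodBilin_apply (f : A →+ B →+ ZMod p) (a : A) (b : B) :
    zmodBilin f a b = f a b := rfl

lemma zmodBilin_eq_comp (f : A →+ B →+ ZMod p) :
    ⇑(zmodBilin f) = (AddMonoidHom.toZModLinearMapEquiv p (M := B) (M₁ := ZMod p)) ∘ f := rfl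

lemma zmodBilin_injective_iff (f : A →+ B →+ ZMod p) :
    Function.Injective (zmodBilin f) ↔ Function.Injective f := by
  rw [zmodBilin_eq_comp]
  exact Function.Injective.of_comp_iff (AddEquiv.injective _) f

lemma zmodBilin_surjective_iff (f : A →+ B →+ ZMod p) :
    Function.Surjective (zmodBilin f) ↔ Function.Surjective f := by
  rw [zmodBilin_eq_comp]
  exact Function.Surjective.of_comp_iff' (AddEquiv.bijective _) f

lemma zmodBilin_bijective_iff (f : A →+ B →+ ZMod p) :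
    Function.Bijective (zmodBilin f) ↔ Function.Bijective f := by
  rw [zmodBilin_eq_comp]
  exact Function.Bijective.of_comp_iff' (AddEquiv.bijective _) f

end zmodBilin

/-! ### The δ-adjointness in degree `(1, 0)` -/

section adj

universe u

variable {k G : Type u} [CommRing k] [Group G] {L : LevelStructure G} [IsDomain k]
  [IsPrincipalIdealRing k] {X : Rep.{u} k G} (hX : IsSmooth L X)
  {A B C : Rep.{u} k G} [Finite A] [Finite B] [Finite C] (hA : IsSmooth L A)
  (hB : IsSmooth L B) (hC : IsSmooth L C) (ι : A ⟶ B) (π : B ⟶ C)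
  (hι : Function.Injective ι.hom) (hex : Function.Exact ι.hom π.hom)
  (hπ : Function.Surjective π.hom)

/-- `⟨δ e, c⟩_C = -⟨e, δ c⟩_A` for `e ∈ T¹(A)`, `c ∈ H⁰(C)`. -/
theorem pair_zδ_one (e : (zResR A hA).Ext hX 1) (c : (LC.cx hC).H 0) :
    (zResR C hC).pair hX 1 0 1 rfl (zδ hX hA hB hC ι π hι hex hπ 1 e) c =
      -(zResR A hA).pair hX 0 1 1 rfl e
        ((LC.cx_shortExact ι π hA hB hC hι hπ hex).δH 0 c) := by
  refine (pair_zδ hX hA hB hC ι π hι hex hπ 0 0 0 rfl e c).trans ?_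
  have h1 : ((-1 : k) ^ (0 + 1)) = -1 := by simp
  rw [h1, neg_smul, one_smul]

end adj

/-! ### The objects of the chase -/

variable {G : Type} [Group G]

/-- Finite smooth `ℤ[G]`-modules killed by `p`. -/
structure PMod (L : LevelStructure G) (p : ℕ) where
  /-- the underlying representation -/
  N : Rep.{0} ℤ G
  [fin : Finite N]
  smooth : IsSmooth L N
  tors : ∀ n : N, p • n = 0

attribute [instance] PMod.fin

namespace PMod

variable {L : LevelStructure G} {p : ℕ} {C : Rep.{0} ℤ G} (hC : IsSmooth L C)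

/-- The canonical resolution. -/
noncomputable abbrev res (M : PMod L p) : LatticeRes L M.N := zResR M.N M.smooth

/-- `Ext¹(M, C)`. -/
def T1 (M : PMod L p) : Type := M.res.Ext hC 1

/-- `Ext²(M, C)`. -/
def T2 (M : PMod L p) : Type := M.res.Ext hC 2

/-- `H⁰(G, M)`. -/
def H0 (M : PMod L p) : Type := (LC.cx M.smooth).H 0

/-- `H¹(G, M)`. -/
def H1 (M : PMod L p) : Type := (LC.cx M.smooth).H 1

noncomputable instance (M : PMod L p) : AddCommGroup (T1 hC M) :=
  inferInstanceAs (AddCommGroup (M.res.Ext hC 1))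

noncomputable instance (M : PMod L p) : AddCommGroup (T2 hC M) :=
  inferInstanceAs (AddCommGroup (M.res.Ext hC 2))

noncomputable instance (M : PMod L p) : AddCommGroup (H0 M) :=
  inferInstanceAs (AddCommGroup ((LC.cx M.smooth).H 0))

noncomputable instance (M : PMod L p) : AddCommGroup (H1 M) :=
  inferInstanceAs (AddCommGroup ((LC.cx M.smooth).H 1))

noncomputable instance (M : PMod L p) : Module (ZMod p) (T1 hC M) :=
  AddCommGroup.zmodModule (fun e => M.res.nsmul_Ext_eq_zero p M.tors hC 0 e)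

noncomputable instance (M : PMod L p) : Module (ZMod p) (T2 hC M) :=
  AddCommGroup.zmodModule (fun e => M.res.nsmul_Ext_eq_zero p M.tors hC 1 e)

noncomputable instance (M : PMod L p) : Module (ZMod p) (H0 M) :=
  AddCommGroup.zmodModule (fun c => LC.nsmul_H_eq_zero M.smooth p M.tors 0 c)

noncomputable instance (M : PMod L p) : Module (ZMod p) (H1 M) :=
  AddCommGroup.zmodModule (fun c => LC.nsmul_H_eq_zero M.smooth p M.tors 1 c)

variable (inv : LC.Hp p hC 2 →+ ZMod p)

/-- The duality pairing `Ext¹(M, C) × H¹(M) → ℤ/p`. -/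
noncomputable def p1 (M : PMod L p) : T1 hC M →ₗ[ZMod p] H1 M →ₗ[ZMod p] ZMod p :=
  zmodBilin (M.res.dual1 p hC M.tors inv)

/-- The duality pairing `Ext²(M, C) × H⁰(M) → ℤ/p`. -/
noncomputable def p2 (M : PMod L p) : T2 hC M →ₗ[ZMod p] H0 M →ₗ[ZMod p] ZMod p :=
  zmodBilin (M.res.dual2 p hC M.tors inv)

lemma p1_apply (M : PMod L p) (e : T1 hC M) (c : H1 M) :
    p1 hC inv M e c = inv (M.res.pairP p hC M.tors 0 1 rfl e c) := rfl

lemma p2_apply (M : PMod L p) (e : T2 hC M) (c : H0 M) :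
    p2 hC inv M e c = inv (M.res.pairP p hC M.tors 1 0 rfl e c) := rfl

lemma bijective_p1_iff (M : PMod L p) :
    Function.Bijective (p1 hC inv M) ↔ Function.Bijective (M.res.dual1 p hC M.tors inv) :=
  zmodBilin_bijective_iff _

lemma bijective_p2_iff (M : PMod L p) :
    Function.Bijective (p2 hC inv M) ↔ Function.Bijective (M.res.dual2 p hC M.tors inv) :=
  zmodBilin_bijective_iff _

lemma injective_p2_iff (M : PMod L p) :
    Function.Injective (p2 hC inv M) ↔ Function.Injective (M.res.dual2 p hC M.tors inv) :=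
  zmodBilin_injective_iff _

lemma isPerfect_iff (M : PMod L p) :
    M.res.IsPerfect p hC M.tors inv ↔
      Function.Bijective (p1 hC inv M) ∧ Function.Bijective (p2 hC inv M) := by
  rw [bijective_p1_iff, bijective_p2_iff]
  rfl

/-! ### The zero module -/

section zero

variable (M : PMod L p) [Subsingleton M.N]

instance subsingleton_T1 : Subsingleton (T1 hC M) := by
  refine ⟨fun a b => ?_⟩
  have h : ∀ e : M.res.Ext hC (0 + 1), e = 0 := fun e => by
    have h1 := M.res.nsmul_Ext_eq_zero 1 (fun a => Subsingleton.elim _ _) hC 0 e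
    rwa [one_nsmul] at h1
  exact (h a).trans (h b).symm

instance subsingleton_T2 : Subsingleton (T2 hC M) := by
  refine ⟨fun a b => ?_⟩
  have h : ∀ e : M.res.Ext hC (1 + 1), e = 0 := fun e => by
    have h1 := M.res.nsmul_Ext_eq_zero 1 (fun a => Subsingleton.elim _ _) hC 1 e
    rwa [one_nsmul] at h1
  exact (h a).trans (h b).symm

instance subsingleton_H0 : Subsingleton (H0 M) := by
  refine ⟨fun a b => ?_⟩
  have h : ∀ c : (LC.cx M.smooth).H 0, c = 0 := fun c => by
    have h1 := LC.nsmul_H_eq_zero M.smooth 1 (fun a => Subsingleton.elim _ _) 0 c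
    rwa [one_nsmul] at h1
  exact (h a).trans (h b).symm

instance subsingleton_H1 : Subsingleton (H1 M) := by
  refine ⟨fun a b => ?_⟩
  have h : ∀ c : (LC.cx M.smooth).H 1, c = 0 := fun c => by
    have h1 := LC.nsmul_H_eq_zero M.smooth 1 (fun a => Subsingleton.elim _ _) 1 c
    rwa [one_nsmul] at h1
  exact (h a).trans (h b).symm

lemma bijective_of_subsingleton {k A B : Type*} [Field k] [AddCommGroup A] [Module k A]
    [AddCommGroup B] [Module k B] [Subsingleton A] [Subsingleton B] (f : A →ₗ[k] B →ₗ[k] k) :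
    Function.Bijective f := by
  refine ⟨fun a b _ => Subsingleton.elim a b, fun l => ⟨0, ?_⟩⟩
  ext b
  rw [Subsingleton.elim b 0, map_zero, map_zero]

end zero

/-! ### Functoriality -/

section maps

variable {M M' M'' : PMod L p}

/-- `Ext¹(M', C) → Ext¹(M, C)` for `f : M ⟶ M'`. -/
noncomputable def mapT1 (f : M.N ⟶ M'.N) : T1 hC M' →ₗ[ZMod p] T1 hC M :=
  AddMonoidHom.toZModLinearMap p
    (show T1 hC M' →+ T1 hC M from (zExtMap hC M.smooth M'.smooth f 1).toAddMonoidHom)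

/-- `Ext²(M', C) → Ext²(M, C)` for `f : M ⟶ M'`. -/
noncomputable def mapT2 (f : M.N ⟶ M'.N) : T2 hC M' →ₗ[ZMod p] T2 hC M :=
  AddMonoidHom.toZModLinearMap p
    (show T2 hC M' →+ T2 hC M from (zExtMap hC M.smooth M'.smooth f 2).toAddMonoidHom)

/-- `H⁰(M) → H⁰(M')` for `f : M ⟶ M'`. -/
noncomputable def mapH0 (f : M.N ⟶ M'.N) : H0 M →ₗ[ZMod p] H0 M' :=
  AddMonoidHom.toZModLinearMap p
    (show H0 M →+ H0 M' from ((LC.cxMap M.smooth M'.smooth f).mapH 0).toAddMonoidHom)

/-- `H¹(M) → H¹(M')` for `f : M ⟶ M'`. -/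
noncomputable def mapH1 (f : M.N ⟶ M'.N) : H1 M →ₗ[ZMod p] H1 M' :=
  AddMonoidHom.toZModLinearMap p
    (show H1 M →+ H1 M' from ((LC.cxMap M.smooth M'.smooth f).mapH 1).toAddMonoidHom)

lemma mapT1_apply (f : M.N ⟶ M'.N) (e : T1 hC M') :
    mapT1 hC f e = zExtMap hC M.smooth M'.smooth f 1 e := rfl

lemma mapT2_apply (f : M.N ⟶ M'.N) (e : T2 hC M') :
    mapT2 hC f e = zExtMap hC M.smooth M'.smooth f 2 e := rfl

lemma mapH0_apply (f : M.N ⟶ M'.N) (c : H0 M) :
    mapH0 f c = (LC.cxMap M.smooth M'.smooth f).mapH 0 c := rfl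

lemma mapH1_apply (f : M.N ⟶ M'.N) (c : H1 M) :
    mapH1 f c = (LC.cxMap M.smooth M'.smooth f).mapH 1 c := rfl

lemma mapT1_id (e : T1 hC M) : mapT1 hC (𝟙 M.N) e = e := zExtMap_id hC M.smooth 1 e

lemma mapT2_id (e : T2 hC M) : mapT2 hC (𝟙 M.N) e = e := zExtMap_id hC M.smooth 2 e

lemma mapT1_comp (f : M.N ⟶ M'.N) (g : M'.N ⟶ M''.N) (e : T1 hC M'') :
    mapT1 hC (f ≫ g) e = mapT1 hC f (mapT1 hC g e) :=
  zExtMap_comp hC M.smooth M'.smooth M''.smooth f g 1 e

lemma mapT2_comp (f : M.N ⟶ M'.N) (g : M'.N ⟶ M''.N) (e : T2 hC M'') :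
    mapT2 hC (f ≫ g) e = mapT2 hC f (mapT2 hC g e) :=
  zExtMap_comp hC M.smooth M'.smooth M''.smooth f g 2 e

lemma mapH0_id (c : H0 M) : mapH0 (𝟙 M.N) c = c := LC.mapH_cxMap_id_eq M.smooth M.smooth 0 c

lemma mapH1_id (c : H1 M) : mapH1 (𝟙 M.N) c = c := LC.mapH_cxMap_id_eq M.smooth M.smooth 1 c

lemma mapH_comp_aux (f : M.N ⟶ M'.N) (g : M'.N ⟶ M''.N) (s : ℕ) (c : (LC.cx M.smooth).H s) :
    (LC.cxMap M.smooth M''.smooth (f ≫ g)).mapH s c =
      (LC.cxMap M'.smooth M''.smooth g).mapH s ((LC.cxMap M.smooth M'.smooth f).mapH s c) := by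
  induction c using Cx.H.induction_on with
  | _ z hz =>
    rw [Cx.Hom.mapH_mk, Cx.Hom.mapH_mk, Cx.Hom.mapH_mk]
    exact Cx.H.mk_congr (LC.cxMap_comp_apply _ _ _ f g s z) _

lemma mapH0_comp (f : M.N ⟶ M'.N) (g : M'.N ⟶ M''.N) (c : H0 M) :
    mapH0 (f ≫ g) c = mapH0 g (mapH0 f c) := mapH_comp_aux f g 0 c

lemma mapH1_comp (f : M.N ⟶ M'.N) (g : M'.N ⟶ M''.N) (c : H1 M) :
    mapH1 (f ≫ g) c = mapH1 g (mapH1 f c) := mapH_comp_aux f g 1 c

/-- Naturality of `p1`. -/
lemma p1_mapT1 (f : M.N ⟶ M'.N) (e : T1 hC M') (c : H1 M) :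
    p1 hC inv M (mapT1 hC f e) c = p1 hC inv M' e (mapH1 f c) := by
  rw [p1_apply, p1_apply]
  exact congrArg inv (Subtype.ext (zpair_map hC M.smooth M'.smooth f 0 1 1 rfl e c))

/-- Naturality of `p2`. -/
lemma p2_mapT2 (f : M.N ⟶ M'.N) (e : T2 hC M') (c : H0 M) :
    p2 hC inv M (mapT2 hC f e) c = p2 hC inv M' e (mapH0 f c) := by
  rw [p2_apply, p2_apply]
  exact congrArg inv (Subtype.ext (zpair_map hC M.smooth M'.smooth f 1 0 1 rfl e c))

end maps

/-! ### Short exact sequences -/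

section ses

variable {A B C' : PMod L p} (ι : A.N ⟶ B.N) (π : B.N ⟶ C'.N)
  (hι : Function.Injective ι.hom) (hex : Function.Exact ι.hom π.hom)
  (hπ : Function.Surjective π.hom)

/-- The connecting map `Ext¹(A, C) → Ext²(C', C)`. -/
noncomputable def dT : T1 hC A →ₗ[ZMod p] T2 hC C' :=
  AddMonoidHom.toZModLinearMap p
    (show T1 hC A →+ T2 hC C' from
      (zδ hC A.smooth B.smooth C'.smooth ι π hι hex hπ 1).toAddMonoidHom)

/-- The connecting map `H⁰(C') → H¹(A)`. -/
noncomputable def dH : H0 C' →ₗ[ZMod p] H1 A :=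
  AddMonoidHom.toZModLinearMap p
    (show H0 C' →+ H1 A from
      ((LC.cx_shortExact ι π A.smooth B.smooth C'.smooth hι hπ hex).δH 0).toAddMonoidHom)

lemma adj_dT (t : T1 hC A) (h : H0 C') :
    p2 hC inv C' (dT hC ι π hι hex hπ t) h = (-1 : ZMod p) * p1 hC inv A t (dH ι π hι hex hπ h) := by
  rw [p2_apply, p1_apply, neg_one_mul, ← map_neg]
  refine congrArg inv (Subtype.ext ?_)
  exact pair_zδ_one hC A.smooth B.smooth C'.smooth ι π hι hex hπ t h

variable [Fact p.Prime]

/-- The rows of the duality chase attached to a short exact sequence in `PMod L p`. -/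
noncomputable def sesData : SESData (T1 hC) (T2 hC) H0 H1 (p1 hC inv) (p2 hC inv) A B C' where
  tC1 := mapT1 hC π
  tB1 := mapT1 hC ι
  dT := dT hC ι π hι hex hπ
  tC2 := mapT2 hC π
  tB2 := mapT2 hC ι
  hA0 := mapH0 ι
  hB0 := mapH0 π
  dH := dH ι π hι hex hπ
  hA1 := mapH1 ι
  hB1 := mapH1 π
  exact_T1B := exact_zExtMap_zExtMap hC A.smooth B.smooth C'.smooth ι π hι hex hπ 1
  exact_T1A := exact_zExtMap_zδ hC A.smooth B.smooth C'.smooth ι π hι hex hπ 1
  exact_T2C := exact_zδ_zExtMap hC A.smooth B.smooth C'.smooth ι π hι hex hπ 1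
  exact_T2B := exact_zExtMap_zExtMap hC A.smooth B.smooth C'.smooth ι π hι hex hπ 2
  inj_hA0 := (LC.cx_shortExact ι π A.smooth B.smooth C'.smooth hι hπ hex).mapH_zero_injective
  exact_H0B := (LC.cx_shortExact ι π A.smooth B.smooth C'.smooth hι hπ hex).exact_mapH_mapH 0
  exact_H0C := (LC.cx_shortExact ι π A.smooth B.smooth C'.smooth hι hπ hex).exact_mapH_δH 0
  exact_H1A := (LC.cx_shortExact ι π A.smooth B.smooth C'.smooth hι hπ hex).exact_δH_mapH 0
  exact_H1B := (LC.cx_shortExact ι π A.smooth B.smooth C'.smooth hι hπ hex).exact_mapH_mapH 1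
  adj_C1 := p1_mapT1 hC inv π
  adj_B1 := p1_mapT1 hC inv ι
  ε := -1
  ε_ne := neg_ne_zero.2 one_ne_zero
  adj_d := adj_dT hC inv ι π hι hex hπ
  adj_C2 := p2_mapT2 hC inv π
  adj_B2 := p2_mapT2 hC inv ι

end ses

end PMod

end Fermat.Agent.CFT
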