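import Mathlib
import Fermat.Agent.CFT.HyperExt.LCDualityZMod
import Fermat.Agent.CFT.LC.ShapiroPerfect
import Fermat.Agent.CFT.CoindMaps

/-!
# The abstract duality theorem: the induced-module step (S55, node A8)

For `M : PMod L p` and an open subgroup `S`:

* `M.resS S : PMod (L.comap S.subtype) p`, `M.coindS hS : PMod L p` (`coind_S^G (res M)`),
  `M.cokerS hS : PMod L p` (the cokernel of the unit `M ⟶ coind (res M)`);
* `M.dualityStep hS`: the `DualityStep₂` attached to `0 → M → coind (res M) → Q → 0`, given
  perfectness for `coind (res M)`;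
* `PMod.injective_p2_of_retract`: if `[G : S]` is invertible on `M` then injectivity of `𝒜²` for
  `coind (res M)` implies injectivity of `𝒜²` for `M`.
-/

set_option autoImplicit false
set_option linter.unusedSectionVars false

open CategoryTheory

namespace Fermat.Agent.CFT

open HExt

/-! ### Concrete cokernels in `Rep k G` -/

section coker

universe u

variable {k G : Type u} [CommRing k] [Group G] {A B : Rep.{u} k G} (f : A ⟶ B)

lemma cokerRep_range_le_comap (g : G) :
    LinearMap.range f.hom.toLinearMap ≤ (LinearMap.range f.hom.toLinearMap).comap (B.ρ g) := by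
  rintro _ ⟨a, rfl⟩
  exact ⟨A.ρ g a, Rep.hom_comm_apply f g a⟩

/-- The cokernel of `f`, as the concrete quotient by the range. -/
noncomputable def cokerRep : Rep.{u} k G :=
  Rep.quotient B (LinearMap.range f.hom.toLinearMap) (cokerRep_range_le_comap f)

/-- The projection onto the cokernel. -/
noncomputable def cokerProj : B ⟶ cokerRep f :=
  Rep.mkQ B (LinearMap.range f.hom.toLinearMap) (cokerRep_range_le_comap f)

lemma cokerProj_surjective : Function.Surjective (cokerProj f).hom :=
  Submodule.Quotient.mk_surjective _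

lemma exact_cokerProj : Function.Exact f.hom (cokerProj f).hom := by
  intro x
  exact (Submodule.Quotient.mk_eq_zero _).trans LinearMap.mem_range

instance finite_cokerRep [Finite B] : Finite (cokerRep f) :=
  Finite.of_surjective _ (cokerProj_surjective f)

lemma isSmooth_cokerRep {L : LevelStructure G} (hB : IsSmooth L B) : IsSmooth L (cokerRep f) :=
  IsSmooth.of_surjective (cokerProj f) (cokerProj_surjective f) hB

lemma nsmul_cokerRep_eq_zero (p : ℕ) (hp : ∀ b : B, p • b = 0) (q : cokerRep f) : p • q = 0 := by
  obtain ⟨x, rfl⟩ := cokerProj_surjective f q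
  rw [← map_nsmul, hp, map_zero]

end coker

/-! ### The objects -/

namespace PMod

variable {G : Type} [Group G] {L : LevelStructure G} {p : ℕ} (M : PMod L p) {S : Subgroup G}

/-- The restriction of `M` to a subgroup. -/
noncomputable def resS (S : Subgroup G) : PMod (L.comap S.subtype) p where
  N := Rep.res S.subtype M.N
  fin := inferInstanceAs (Finite M.N)
  smooth := LC.isSmooth_res M.smooth
  tors := M.tors

variable (hS : L.IsOpen S)

/-- `coind_S^G (res M)`. -/
noncomputable def coindS : PMod L p :=
  haveI := hS.finiteIndex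
  { N := Rep.coind S.subtype (Rep.res S.subtype M.N)
    fin := finite_coind S (M.resS S).N
    smooth := LC.isSmooth_coind hS (M.resS S).smooth
    tors := LC.nsmul_coind_eq_zero p (M.resS S).tors }

/-- The unit `M ⟶ coind (res M)`. -/
noncomputable def unitS : M.N ⟶ (M.coindS hS).N := coindUnit S M.N

lemma unitS_injective : Function.Injective (M.unitS hS).hom := coindUnit_injective S M.N

/-- The cokernel of the unit. -/
noncomputable def cokerS : PMod L p where
  N := cokerRep (M.unitS hS)
  fin := finite_cokerRep (M.unitS hS)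
  smooth := isSmooth_cokerRep (M.unitS hS) (M.coindS hS).smooth
  tors := nsmul_cokerRep_eq_zero (M.unitS hS) p (M.coindS hS).tors

/-- The projection `coind (res M) ⟶ Q`. -/
noncomputable def projS : (M.coindS hS).N ⟶ (M.cokerS hS).N := cokerProj (M.unitS hS)

variable [Fact p.Prime] {C : Rep.{0} ℤ G} (hC : IsSmooth L C) (inv : LC.Hp p hC 2 →+ ZMod p)

/-- The `DualityStep₂` attached to `0 → M → coind_S^G (res M) → Q → 0`. -/
noncomputable def dualityStep
    (h1 : Function.Bijective (p1 hC inv (M.coindS hS)))
    (h2 : Function.Bijective (p2 hC inv (M.coindS hS))) :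
    DualityStep₂ (T1 hC) (T2 hC) H0 H1 (p1 hC inv) (p2 hC inv) M :=
  (sesData hC inv (M.unitS hS) (M.projS hS) (M.unitS_injective hS)
    (exact_cokerProj (M.unitS hS)) (cokerProj_surjective (M.unitS hS))).toDualityStep₂ h1 h2

/-- The retraction `c • tr : coind (res M) ⟶ M`. -/
noncomputable def retrS (c : ℤ) : (M.coindS hS).N ⟶ M.N :=
  haveI := hS.finiteIndex
  c • Cup.tr S M.N

omit [Fact p.Prime] in
lemma retrS_unitS_apply (c : ℤ) (hc : ∀ n : M.N, (c * (S.index : ℤ)) • n = n) (m : M.N) :
    (M.retrS hS c).hom ((M.unitS hS).hom m) = m := by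
  have := hS.finiteIndex
  have h1 : (Cup.tr S M.N).hom ((coindUnit S M.N).hom m) = S.index • m := tr_coindUnit S M.N m
  have h2 : (M.retrS hS c).hom ((M.unitS hS).hom m) =
      c • (Cup.tr S M.N).hom ((coindUnit S M.N).hom m) := rfl
  rw [h2, h1, ← natCast_zsmul, ← mul_smul]
  exact hc m

omit [Fact p.Prime] in
lemma unitS_retrS (c : ℤ) (hc : ∀ n : M.N, (c * (S.index : ℤ)) • n = n) :
    M.unitS hS ≫ M.retrS hS c = 𝟙 M.N := by
  apply Rep.hom_ext
  refine DFunLike.ext _ _ fun m => ?_
  exact M.retrS_unitS_apply hS c hc m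

/-- (b2): if `[G : S]` acts invertibly on `M`, injectivity of `𝒜²` passes from
`coind_S^G (res M)` to `M`. -/
theorem injective_p2_of_retract (c : ℤ) (hc : ∀ n : M.N, (c * (S.index : ℤ)) • n = n)
    (hI : Function.Injective (p2 hC inv (M.coindS hS))) : Function.Injective (p2 hC inv M) := by
  refine injective_of_retract (p2 hC inv M) (p2 hC inv (M.coindS hS))
    (mapT2 hC (M.retrS hS c)) (mapH0 (M.retrS hS c)) ?_
    (fun t h => p2_mapT2 hC inv (M.retrS hS c) t h) hI
  intro t t' h
  have h' := congrArg (mapT2 hC (M.unitS hS)) h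
  rw [← mapT2_comp, ← mapT2_comp, M.unitS_retrS hS c hc, mapT2_id, mapT2_id] at h'
  exact h'

end PMod

end Fermat.Agent.CFT
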