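import Mathlib
import Fermat.Agent.CFT.HyperExt.LCDualityInduced
import Fermat.Agent.CFT.LC.ShapiroPerfectInj
import Fermat.Agent.CFT.LC.DualityModules

/-!
# The abstract duality theorem for level cohomology (S55, node A8): assembly

`lc_duality_of`: let `(G, L)` be a level group, `p` a prime, `C` a smooth `ℤ[G]`-module with
invariant maps `invG : H²(G, C)[p] → ℤ/p` and `invS : H²(S, C)[p] → ℤ/p` for every open
subgroup `S`, compatible with corestriction.  If for every open `S`

* the duality maps are bijective for every finite `p`-torsion `S`-module with trivial action, and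
* `𝒜²` is injective for every finite `p`-torsion `S`-module on which `S` acts through a
  `p`-group,

then the duality maps `Ext^r_G(M, C) → Hom(H^{2-r}(G, M), ℤ/p)`, `r = 1, 2`, are bijective for
every finite smooth `p`-torsion `G`-module `M`.
-/

set_option autoImplicit false
set_option linter.unusedSectionVars false

open CategoryTheory

namespace Fermat.Agent.CFT

open HExt

variable {G : Type} [Group G] {L : LevelStructure G} {p : ℕ} [Fact p.Prime]
  {C : Rep.{0} ℤ G} (hC : IsSmooth L C)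

/-- **The abstract duality theorem**, reduced to the two base cases over the open subgroups. -/
theorem lc_duality_of (invG : LC.Hp p hC 2 →+ ZMod p)
    (invS : ∀ S : Subgroup G, L.IsOpen S → (LC.Hp p (LC.isSmooth_res (S := S) hC) 2 →+ ZMod p))
    (hinv : ∀ (S : Subgroup G) (hS : L.IsOpen S), haveI := hS.finiteIndex;
      ∀ (x : (LC.cx (LC.isSmooth_res (S := S) hC)).H 2)
        (hx : x ∈ LC.Hp p (LC.isSmooth_res hC) 2) (hx' : LC.corH₂ hS hC x ∈ LC.Hp p hC 2),
        invG ⟨LC.corH₂ hS hC x, hx'⟩ = invS S hS ⟨x, hx⟩)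
    (htriv : ∀ (S : Subgroup G) (hS : L.IsOpen S) (Y : PMod (L.comap S.subtype) p),
      (∀ (g : S) (y : Y.N), Y.N.ρ g y = y) →
        Y.res.IsPerfect p (LC.isSmooth_res hC) Y.tors (invS S hS))
    (hpgrp : ∀ (S : Subgroup G) (hS : L.IsOpen S) (Y : PMod (L.comap S.subtype) p)
      (K : Subgroup S), (∀ g ∈ K, ∀ y : Y.N, Y.N.ρ g y = y) → (∀ g : S, ∃ n : ℕ, g ^ p ^ n ∈ K) →
        Function.Injective (Y.res.dual2 p (LC.isSmooth_res hC) Y.tors (invS S hS)))
    (M : PMod L p) : M.res.IsPerfect p hC M.tors invG := by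
  rw [PMod.isPerfect_iff]
  refine duality_chase₂ (fun M => ?_) (fun M => ?_) M
  · obtain ⟨K, hK, hfix⟩ := M.smooth.exists_level_of_finite (s := Set.univ) Set.finite_univ
    have hKo : L.IsOpen K := L.isOpen_of_isLevel hK
    have := hKo.finiteIndex
    have hperf : (M.coindS hKo).res.IsPerfect p hC (M.coindS hKo).tors invG :=
      (LC.isPerfect_zResR_coind_iff hKo (M.resS K).N (M.resS K).smooth hC p (M.resS K).tors invG
        (invS K hKo) (hinv K hKo)).2
        (htriv K hKo (M.resS K) (fun g y => hfix y (Set.mem_univ y) g.1 g.2))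
    rw [PMod.isPerfect_iff] at hperf
    exact ⟨M.dualityStep hKo hC invG hperf.1 hperf.2⟩
  · obtain ⟨V, K, hK, hKV, hfix, hcop, hpow⟩ :=
      exists_open_sylow_pow_mem (p := p) M.N L M.smooth
    have hVo : L.IsOpen V := ⟨K, hK, hKV⟩
    have := hVo.finiteIndex
    obtain ⟨c, hc⟩ := exists_int_mul_index_smul_eq M.N M.tors V hcop
    refine M.injective_p2_of_retract hVo hC invG c hc ?_
    rw [PMod.injective_p2_iff]
    refine (LC.dual_zResR_coind_injective_iff hVo (M.resS V).N (M.resS V).smooth hC p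
      (M.resS V).tors invG (invS V hVo) (hinv V hVo) 1 0 rfl).2 ?_
    exact hpgrp V hVo (M.resS V) (K.subgroupOf V) (fun g hg y => hfix g.1 hg y)
      (fun g => by
        obtain ⟨n, hn⟩ := hpow g.1 g.2
        exact ⟨n, hn⟩)

/-- **The abstract duality theorem**, relative version: the base cases and the compatibility of
the invariants are only needed for the open subgroups contained in a fixed open subgroup `G₀`
of index prime to `p` (e.g. the subgroup fixing the `p`-th roots of unity). -/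
theorem lc_duality_of_le (G₀ : Subgroup G) (hG₀ : L.IsOpen G₀) (hcop : Nat.Coprime p G₀.index)
    (invG : LC.Hp p hC 2 →+ ZMod p)
    (invS : ∀ S : Subgroup G, L.IsOpen S → (LC.Hp p (LC.isSmooth_res (S := S) hC) 2 →+ ZMod p))
    (hinv : ∀ (S : Subgroup G) (hS : L.IsOpen S), S ≤ G₀ → haveI := hS.finiteIndex;
      ∀ (x : (LC.cx (LC.isSmooth_res (S := S) hC)).H 2)
        (hx : x ∈ LC.Hp p (LC.isSmooth_res hC) 2) (hx' : LC.corH₂ hS hC x ∈ LC.Hp p hC 2),
        invG ⟨LC.corH₂ hS hC x, hx'⟩ = invS S hS ⟨x, hx⟩)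
    (htriv : ∀ (S : Subgroup G) (hS : L.IsOpen S), S ≤ G₀ →
      ∀ Y : PMod (L.comap S.subtype) p, (∀ (g : S) (y : Y.N), Y.N.ρ g y = y) →
        Y.res.IsPerfect p (LC.isSmooth_res hC) Y.tors (invS S hS))
    (hpgrp : ∀ (S : Subgroup G) (hS : L.IsOpen S), S ≤ G₀ →
      ∀ (Y : PMod (L.comap S.subtype) p) (K : Subgroup S),
        (∀ g ∈ K, ∀ y : Y.N, Y.N.ρ g y = y) → (∀ g : S, ∃ n : ℕ, g ^ p ^ n ∈ K) →
        Function.Injective (Y.res.dual2 p (LC.isSmooth_res hC) Y.tors (invS S hS)))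
    (M : PMod L p) : M.res.IsPerfect p hC M.tors invG := by
  rw [PMod.isPerfect_iff]
  refine duality_chase₂ (fun M => ?_) (fun M => ?_) M
  · obtain ⟨K₁, hK₁, hfix⟩ := M.smooth.exists_level_of_finite (s := Set.univ) Set.finite_univ
    obtain ⟨K₂, hK₂, hK₂G⟩ := hG₀
    obtain ⟨K, hK, hle⟩ := L.directed hK₁ hK₂
    have hKo : L.IsOpen K := L.isOpen_of_isLevel hK
    have hKG : K ≤ G₀ := (hle.trans inf_le_right).trans hK₂G
    have := hKo.finiteIndex
    have hperf : (M.coindS hKo).res.IsPerfect p hC (M.coindS hKo).tors invG :=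
      (LC.isPerfect_zResR_coind_iff hKo (M.resS K).N (M.resS K).smooth hC p (M.resS K).tors invG
        (invS K hKo) (hinv K hKo hKG)).2
        (htriv K hKo hKG (M.resS K)
          (fun g y => hfix y (Set.mem_univ y) g.1 ((hle.trans inf_le_left) g.2)))
    rw [PMod.isPerfect_iff] at hperf
    exact ⟨M.dualityStep hKo hC invG hperf.1 hperf.2⟩
  · obtain ⟨V₀, K₀, hK₀, hKV, hfix, hcop₀, hpow⟩ :=
      exists_open_sylow_pow_mem (p := p) (M.resS G₀).N (L.comap G₀.subtype) (M.resS G₀).smooth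
    have hVle : V₀.map G₀.subtype ≤ G₀ := Subgroup.map_subtype_le V₀
    have hVo : L.IsOpen (V₀.map G₀.subtype) := by
      obtain ⟨K, hK, rfl⟩ := hK₀
      obtain ⟨K₂, hK₂, hK₂G⟩ := hG₀
      obtain ⟨K₃, hK₃, hle⟩ := L.directed hK hK₂
      refine ⟨K₃, hK₃, fun g hg => ?_⟩
      have hgG : g ∈ G₀ := hK₂G ((hle.trans inf_le_right) hg)
      exact ⟨⟨g, hgG⟩, hKV ((hle.trans inf_le_left) hg), rfl⟩
    have hcopV : Nat.Coprime p (V₀.map G₀.subtype).index := by
      rw [Subgroup.index_map_subtype]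
      exact Nat.Coprime.mul_right hcop₀ hcop
    have := hVo.finiteIndex
    obtain ⟨c, hc⟩ := exists_int_mul_index_smul_eq M.N M.tors (V₀.map G₀.subtype) hcopV
    refine M.injective_p2_of_retract hVo hC invG c hc ?_
    rw [PMod.injective_p2_iff]
    refine (LC.dual_zResR_coind_injective_iff hVo (M.resS (V₀.map G₀.subtype)).N
      (M.resS (V₀.map G₀.subtype)).smooth hC p (M.resS (V₀.map G₀.subtype)).tors invG
      (invS _ hVo) (hinv _ hVo hVle) 1 0 rfl).2 ?_
    refine hpgrp _ hVo hVle (M.resS (V₀.map G₀.subtype))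
      ((K₀.map G₀.subtype).subgroupOf (V₀.map G₀.subtype)) ?_ ?_
    · rintro g ⟨k, hk, hkg⟩ y
      have h1 : M.N.ρ (k : G) y = y := hfix k hk y
      have h2 : (k : G) = (g : G) := hkg
      change M.N.ρ (g : G) y = y
      rw [← h2]
      exact h1
    · intro g
      obtain ⟨g₀, hg₀, hgg⟩ := g.2
      obtain ⟨n, hn⟩ := hpow g₀ hg₀
      refine ⟨n, ⟨g₀ ^ p ^ n, hn, ?_⟩⟩
      rw [map_pow, hgg]
      rfl

end Fermat.Agent.CFT
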