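import Mathlib
import Fermat.Agent.CFT.HyperExt.LCDualityMain
import Fermat.Agent.CFT.HyperExt.LCDualityBase

/-!
# The abstract duality theorem for level cohomology (S55, node A8): final statement

`lc_duality`: let `(G, L)` be a level group, `p` a prime, `C` a smooth `ℤ[G]`-module, `G₀` an open
subgroup of index prime to `p`.  Given additive maps `invG : H²(G, C)[p] → ℤ/p`,
`invS : H²(S, C)[p] → ℤ/p` for the open subgroups `S` such that for every open `S ≤ G₀`

* (T2) `invG ∘ cor = invS`,
* (base) the duality maps of the trivial module `ℤ/p` over `S` (computed with the standard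
  resolution `ℤ --p--> ℤ`) are bijective,

the duality maps `Ext^r_G(M, C) → Hom(H^{2-r}(G, M), ℤ/p)`, `r = 1, 2`, are bijective for every
finite smooth `G`-module `M` killed by `p` (computed with the canonical resolution `zResR`).
-/

set_option autoImplicit false
set_option linter.unusedSectionVars false

open CategoryTheory

namespace Fermat.Agent.CFT

open HExt

variable {G : Type} [Group G] {L : LevelStructure G} {p : ℕ} [Fact p.Prime]
  {C : Rep.{0} ℤ G} (hC : IsSmooth L C)

/-- **The abstract duality theorem for level cohomology.** -/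
theorem lc_duality (G₀ : Subgroup G) (hG₀ : L.IsOpen G₀) (hcop : Nat.Coprime p G₀.index)
    (invG : LC.Hp p hC 2 →+ ZMod p)
    (invS : ∀ S : Subgroup G, L.IsOpen S → (LC.Hp p (LC.isSmooth_res (S := S) hC) 2 →+ ZMod p))
    (hinv : ∀ (S : Subgroup G) (hS : L.IsOpen S), S ≤ G₀ → haveI := hS.finiteIndex;
      ∀ (x : (LC.cx (LC.isSmooth_res (S := S) hC)).H 2)
        (hx : x ∈ LC.Hp p (LC.isSmooth_res hC) 2) (hx' : LC.corH₂ hS hC x ∈ LC.Hp p hC 2),
        invG ⟨LC.corH₂ hS hC x, hx'⟩ = invS S hS ⟨x, hx⟩)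
    (hbase : ∀ (S : Subgroup G) (hS : L.IsOpen S), S ≤ G₀ →
      (stdRes (L.comap S.subtype) p).IsPerfect p (LC.isSmooth_res hC) zmod_nsmul_self
        (invS S hS))
    (M : PMod L p) : M.res.IsPerfect p hC M.tors invG := by
  refine lc_duality_of_le hC G₀ hG₀ hcop invG invS hinv ?_ ?_ M
  · intro S hS hle Y hY
    rw [PMod.isPerfect_iff]
    exact PMod.perfect_of_trivial (LC.isSmooth_res hC) (invS S hS) (hbase S hS hle) Y hY
  · intro S hS hle Y K hK hG
    rw [← PMod.injective_p2_iff]
    exact PMod.injective_p2_of_pgroup (LC.isSmooth_res hC) (invS S hS) (hbase S hS hle).1.2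
      (hbase S hS hle).2.1 Y K hK hG

/-- The absolute version (`G₀ = ⊤`). -/
theorem lc_duality_top (invG : LC.Hp p hC 2 →+ ZMod p)
    (invS : ∀ S : Subgroup G, L.IsOpen S → (LC.Hp p (LC.isSmooth_res (S := S) hC) 2 →+ ZMod p))
    (hinv : ∀ (S : Subgroup G) (hS : L.IsOpen S), haveI := hS.finiteIndex;
      ∀ (x : (LC.cx (LC.isSmooth_res (S := S) hC)).H 2)
        (hx : x ∈ LC.Hp p (LC.isSmooth_res hC) 2) (hx' : LC.corH₂ hS hC x ∈ LC.Hp p hC 2),
        invG ⟨LC.corH₂ hS hC x, hx'⟩ = invS S hS ⟨x, hx⟩)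
    (hbase : ∀ (S : Subgroup G) (hS : L.IsOpen S),
      (stdRes (L.comap S.subtype) p).IsPerfect p (LC.isSmooth_res hC) zmod_nsmul_self
        (invS S hS))
    (M : PMod L p) : M.res.IsPerfect p hC M.tors invG :=
  lc_duality hC ⊤ L.isOpen_top (by rw [Subgroup.index_top]; exact Nat.coprime_one_right p)
    invG invS (fun S hS _ => hinv S hS) (fun S hS _ => hbase S hS) M

end Fermat.Agent.CFT
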