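import Mathlib
import Fermat.Agent.CFT.HyperExt.LCDualityDefs
import Fermat.Agent.CFT.HyperExt.StdRes
import Fermat.Agent.CFT.LC.KummerPairing
import Fermat.Agent.CFT.LC.CxPairingNat

/-!
# The base case of the duality theorem from the existence theorem mod `p` (S55, A8 ⟸ B7)

For a level group `(G, L)`, a prime `p` and a smooth `G`-module `C` (over `ℤ`), the standard
resolution `0 → ℤ --p--> ℤ → 𝔽_p → 0` computes `Ext^r(𝔽_p, C)`:

* `Ext²(𝔽_p, C) ≅ H²(G, C)[p]` when `H¹(G, C) = 0` and the pairing with `H⁰(G, 𝔽_p) = 𝔽_p` is the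
  evaluation (`pair_c₁`), so `dual2` is bijective as soon as `inv` is (`dual2_injective`,
  `dual2_surjective`);
* `Ext¹(𝔽_p, C) ≅ C^G / p` and the pairing with `H¹(G, 𝔽_p) = Hom(G, 𝔽_p)` is the symbol pairing
  `(a, f) ↦ a ∪ δf` (`pair_HtoE_coev`, `dual1_HtoE_coev`), so `dual1` is bijective as soon as
  `LCSym.pairLin L C τ` is (`dual1_injective`, `dual1_surjective`).

Main result: `StdBase.stdRes_isPerfect` (and `stdRes_isPerfect'` with `inv := τ ∘ hpToTors`).
-/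

set_option autoImplicit false
set_option linter.unusedSectionVars false

open CategoryTheory groupCohomology

namespace Fermat.Agent.CFT

open HExt

namespace StdBase

/-- In a torsion abelian group without `p`-torsion, multiplication by `p` is surjective. -/
lemma exists_nsmul_eq_of_torsion_aux {A : Type*} [AddCommGroup A] (p : ℕ) (hp : p.Prime)
    (htf : ∀ x : A, p • x = 0 → x = 0) (htor : ∀ x : A, ∃ n : ℕ, 0 < n ∧ n • x = 0) (x : A) :
    ∃ y : A, p • y = x := by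
  obtain ⟨n, hn0, hn⟩ := htor x
  obtain ⟨a, m, hm, rfl⟩ := Nat.exists_eq_pow_mul_and_not_dvd hn0.ne' p hp.ne_one
  have h1 : ∀ (a : ℕ) (z : A), p ^ a • z = 0 → z = 0 := by
    intro a
    induction a with
    | zero => intro z hz; simpa using hz
    | succ a ih =>
      intro z hz
      rw [pow_succ, mul_smul] at hz
      exact htf z (ih _ hz)
  have h2 : m • x = 0 := h1 a _ (by rw [← mul_smul]; exact hn)
  have hcop : IsCoprime (m : ℤ) (p : ℤ) := by
    rw [Nat.isCoprime_iff_coprime]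
    exact ((Nat.Prime.coprime_iff_not_dvd hp).2 hm).symm
  obtain ⟨u, v, huv⟩ := hcop
  refine ⟨v • x, ?_⟩
  have h3 : (u * (m : ℤ) + v * (p : ℤ)) • x = x := by rw [huv, one_smul]
  rw [add_smul, mul_smul, mul_smul, natCast_zsmul, h2, smul_zero, zero_add, natCast_zsmul,
    smul_comm] at h3
  exact h3

section general

variable {k G : Type} [CommRing k] [Group G] {L : LevelStructure G} (C : Rep.{0} k G)

/-- The trivial module `k`. -/
noncomputable abbrev Tk (k G : Type) [CommRing k] [Group G] : Rep.{0} k G := Rep.trivial k G k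

/-- Evaluation at `1`: `Hom(k, C) ⟶ C`. -/
noncomputable def zEv : (Rep.ihom (Tk k G)).obj C ⟶ C :=
  Rep.ofHom ⟨(LinearMap.ringLmapEquivSelf k k C).toLinearMap, fun g => by
    refine LinearMap.ext fun f => ?_
    rfl⟩

/-- `a ↦ (m ↦ m • a)`: `C ⟶ Hom(k, C)`. -/
noncomputable def zCoev : C ⟶ (Rep.ihom (Tk k G)).obj C :=
  Rep.ofHom ⟨(LinearMap.ringLmapEquivSelf k k C).symm.toLinearMap, fun g => by
    refine LinearMap.ext fun a => ?_
    refine LinearMap.ext fun m => ?_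
    show m • C.ρ g a = C.ρ g (m • a)
    rw [map_smul]⟩

lemma zEv_apply (f : (Rep.ihom (Tk k G)).obj C) :
    (zEv C).hom f = (show k →ₗ[k] C from f) 1 := rfl

lemma zCoev_apply (a : C) (m : k) :
    (show k →ₗ[k] C from (zCoev C).hom a) m = m • a := rfl

lemma zEv_zCoev (a : C) : (zEv C).hom ((zCoev C).hom a) = a :=
  (LinearMap.ringLmapEquivSelf k k C).apply_symm_apply a

lemma zCoev_zEv (f : (Rep.ihom (Tk k G)).obj C) : (zCoev C).hom ((zEv C).hom f) = f :=
  (LinearMap.ringLmapEquivSelf k k C).symm_apply_apply f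

lemma zCoev_comp_zEv : zCoev C ≫ zEv C = 𝟙 C := by
  ext a
  exact zEv_zCoev C a

lemma zEv_comp_zCoev : zEv C ≫ zCoev C = 𝟙 _ := by
  ext f : 3
  exact zCoev_zEv C f

/-! ### Transport of cohomology along `Hom(k, C) ≅ C` -/

variable {C} (hI : IsSmooth L ((Rep.ihom (Tk k G)).obj C)) (hC : IsSmooth L C)

/-- `Hⁿ(Hom(k, C)) → Hⁿ(C)` -/
noncomputable def evH (n : ℕ) : (LC.cx hI).H n →ₗ[k] (LC.cx hC).H n :=
  (LC.cxMap hI hC (zEv C)).mapH n

/-- `Hⁿ(C) → Hⁿ(Hom(k, C))` -/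
noncomputable def coevH (n : ℕ) : (LC.cx hC).H n →ₗ[k] (LC.cx hI).H n :=
  (LC.cxMap hC hI (zCoev C)).mapH n

lemma evH_coevH (n : ℕ) (y : (LC.cx hC).H n) : evH hI hC n (coevH hI hC n y) = y := by
  induction y using Cx.H.induction_on with
  | _ z hz =>
    unfold evH coevH
    rw [Cx.Hom.mapH_mk, Cx.Hom.mapH_mk]
    refine Cx.H.mk_congr' ?_
    rw [← LC.cxMap_comp_apply, zCoev_comp_zEv, LC.cxMap_id_apply]

lemma coevH_evH (n : ℕ) (x : (LC.cx hI).H n) : coevH hI hC n (evH hI hC n x) = x := by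
  induction x using Cx.H.induction_on with
  | _ z hz =>
    unfold evH coevH
    rw [Cx.Hom.mapH_mk, Cx.Hom.mapH_mk]
    refine Cx.H.mk_congr' ?_
    rw [← LC.cxMap_comp_apply, zEv_comp_zCoev, LC.cxMap_id_apply]

lemma evH_injective (n : ℕ) : Function.Injective (evH hI hC n) :=
  Function.LeftInverse.injective (coevH_evH hI hC n)

lemma coevH_injective (n : ℕ) : Function.Injective (coevH hI hC n) :=
  Function.LeftInverse.injective (evH_coevH hI hC n)

/-! ### Precomposition with a scalar endomorphism of `k` -/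

lemma precomp_scalar_apply (i : Tk k G ⟶ Tk k G) (c : k) (hi : ∀ m : k, i.hom m = c * m)
    (f : (Rep.ihom (Tk k G)).obj C) : (Cup.precomp i C).hom f = c • f := by
  refine LinearMap.ext fun m => ?_
  show (show k →ₗ[k] C from f) (i.hom m) = c • (show k →ₗ[k] C from f) m
  rw [hi, ← smul_eq_mul, map_smul]

lemma cxMap_precomp_scalar (i : Tk k G ⟶ Tk k G) (c : k) (hi : ∀ m : k, i.hom m = c * m)
    (n : ℕ) (z : (LC.cx hI).X n) :
    (LC.cxMap hI hI (Cup.precomp i C)).f n z = c • z := by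
  match n, z with
  | 0, z => exact precomp_scalar_apply i c hi z
  | 1, z => exact Subtype.ext (funext fun g => precomp_scalar_apply i c hi _)
  | 2, z => exact Subtype.ext (funext fun g => precomp_scalar_apply i c hi _)
  | 3, z => exact Subtype.ext (funext fun g => precomp_scalar_apply i c hi _)
  | _ + 4, _ => rfl

lemma mapH_precomp_scalar (i : Tk k G ⟶ Tk k G) (c : k) (hi : ∀ m : k, i.hom m = c * m)
    (n : ℕ) (x : (LC.cx hI).H n) :
    (LC.cxMap hI hI (Cup.precomp i C)).mapH n x = c • x := by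
  induction x using Cx.H.induction_on with
  | _ z hz =>
    rw [Cx.Hom.mapH_mk, ← Cx.H.mk_smul]
    exact Cx.H.mk_congr' (cxMap_precomp_scalar hI i c hi n z)

/-! ### The evaluation cup products with the trivial module -/

variable (hT : IsSmooth L (Tk k G))

lemma d_zero_one : (LC.cx hT).d 0 (1 : k) = 0 := by
  refine Subtype.ext (funext fun g => ?_)
  show (d₀₁ (Tk k G)).hom (1 : k) g = 0
  rw [d₀₁_hom_apply]
  exact sub_self _

/-- Cup product with the class of `1 ∈ H⁰(k)` is the evaluation isomorphism. -/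
lemma cupH_two_zero_one (x : (LC.cx hI).H 2) :
    (LC.cxPairing (RepPairing.eval (Tk k G) C) hI hT hC).cupH 2 0 2 rfl x
      (Cx.H.mk (C := LC.cx hT) (n := 0) (1 : k) (d_zero_one hT)) = evH hI hC 2 x := by
  induction x using Cx.H.induction_on with
  | _ z hz =>
    unfold evH
    rw [Cx.Pairing.cupH_mk, Cx.Hom.mapH_mk]
    refine Cx.H.mk_congr' ?_
    exact Subtype.ext (funext fun p => rfl)

/-- The cup product `C⁰(Hom(k, C)) × C²(k) → C²(C)` on `coev a`. -/
lemma cup_zero_two_coev (a : C) (b : ↥(LC.C₂ L (Tk k G))) (q : G × G) :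
    ((show ↥(LC.C₂ L C) from (LC.cxPairing (RepPairing.eval (Tk k G) C) hI hT hC).cup 0 2 2 rfl
      ((zCoev C).hom a) b) : G × G → C) q = ((b : G × G → k) q) • a := rfl

lemma mapH_precomp_natScalar (i : Tk k G ⟶ Tk k G) (c : ℕ) (hi : ∀ m : k, i.hom m = (c : k) * m)
    (n : ℕ) (x : (LC.cx hI).H n) :
    (LC.cxMap hI hI (Cup.precomp i C)).mapH n x = c • x := by
  rw [mapH_precomp_scalar hI i (c : k) hi n x, Nat.cast_smul_eq_nsmul k c x]

lemma coevH_nsmul (c : ℕ) (n : ℕ) (y : (LC.cx hC).H n) :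
    coevH hI hC n (c • y) = c • coevH hI hC n y := map_nsmul _ _ _

lemma mkH0_eq_nsmul (a b : ↥(LC.H0 L C)) (c : ℕ) (h : c • (b.1 : C) = a.1) :
    LC.mkH0 hC a = c • LC.mkH0 hC b := by
  rw [← Nat.cast_smul_eq_nsmul k c (LC.mkH0 hC b)]
  unfold LC.mkH0
  rw [← Cx.H.mk_smul]
  refine Cx.H.mk_congr' ?_
  rw [Nat.cast_smul_eq_nsmul k]
  exact h.symm

end general

/-! ### The standard resolution -/

section std

variable {G : Type} [Group G] {L : LevelStructure G} {p : ℕ} [Fact p.Prime] {C : Rep.{0} ℤ G}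
  (hC : IsSmooth L C)

/-- the generator of `H⁰(G, 𝔽_p)` -/
noncomputable def c₁ : (LC.cx (stdRes L p).smooth).H 0 :=
  (LC.cxMap (stdRes L p).smooth₀ (stdRes L p).smooth (stdRes L p).π).mapH 0
    (Cx.H.mk (C := LC.cx (stdRes L p).smooth₀) (n := 0) (1 : ℤ)
      (d_zero_one (stdRes L p).smooth₀))

/-- `⟨e, 1⟩ = ev (EtoH e)` for `e ∈ Ext²`. -/
lemma pair_c₁ (e : (stdRes L p).Ext hC 2) :
    (stdRes L p).pair hC 1 0 1 rfl e (c₁ (L := L) (p := p)) =
      evH ((stdRes L p).smooth₀.ihom hC) hC 2 (Cx.EtoH ((stdRes L p).homMap hC) 2 e) := by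
  have h := Cx.Epair_mapH (stdRes L p).shortExact ((stdRes L p).P0 hC) ((stdRes L p).P1 hC)
    ((stdRes L p).adj hC) 1 0 1 rfl e
    (Cx.H.mk (C := LC.cx (stdRes L p).smooth₀) (n := 0) (1 : ℤ) (d_zero_one (stdRes L p).smooth₀))
  exact h.trans (cupH_two_zero_one ((stdRes L p).smooth₀.ihom hC) hC (stdRes L p).smooth₀ _)

lemma homMap_mapH (n : ℕ) (x : (LC.cx ((stdRes L p).smooth₀.ihom hC)).H n) :
    ((stdRes L p).homMap hC).mapH n x = p • x :=
  mapH_precomp_natScalar ((stdRes L p).smooth₀.ihom hC) (stdResI p) p (stdResI_apply p) n x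

variable (htors : ∀ n : Rep.trivial ℤ G (ZMod p), p • n = 0) (inv : LC.Hp p hC 2 →+ ZMod p)

/-- elements of a trivial module are `0`-cocycles -/
lemma d_zero_triv {V : Type} [AddCommGroup V] [Module ℤ V]
    (hV : IsSmooth L (Rep.trivial ℤ G V)) (v : V) : (LC.cx hV).d 0 v = 0 := by
  refine Subtype.ext (funext fun g => ?_)
  show (d₀₁ (Rep.trivial ℤ G V)).hom v g = 0
  rw [d₀₁_hom_apply]
  exact sub_self _

/-- `𝔽_p → H⁰(G, 𝔽_p)` -/
noncomputable def mk0 : ZMod p →+ (LC.cx (stdRes L p).smooth).H 0 :=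
  AddMonoidHom.mk' (fun z => Cx.H.mk (C := LC.cx (stdRes L p).smooth) (n := 0) z
    (d_zero_triv (stdRes L p).smooth z)) (fun _ _ => rfl)

lemma c₁_eq : c₁ (L := L) (p := p) = mk0 (L := L) (p := p) 1 := by
  unfold c₁
  rw [Cx.Hom.mapH_mk]
  have h : ((LC.cxMap (stdRes L p).smooth₀ (stdRes L p).smooth (stdRes L p).π).f 0) (1 : ℤ) =
      (1 : ZMod p) := by
    show ((1 : ℤ) : ZMod p) = 1
    exact Int.cast_one
  exact Cx.H.mk_congr' (C := LC.cx (stdRes L p).smooth) (n := 0) h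
    (hz' := d_zero_triv (stdRes L p).smooth (1 : ZMod p))

/-- every class of `H⁰(G, 𝔽_p)` is a multiple of the generator -/
lemma exists_nsmul_c₁ (c : (LC.cx (stdRes L p).smooth).H 0) :
    ∃ m : ℕ, c = m • c₁ (L := L) (p := p) := by
  induction c using Cx.H.induction_on with
  | _ z hz =>
    refine ⟨(show ZMod p from z).val, ?_⟩
    rw [c₁_eq, ← map_nsmul]
    have h1 : ((show ZMod p from z).val • (1 : ZMod p)) = z := by
      rw [nsmul_eq_mul, mul_one]
      exact ZMod.natCast_zmod_val _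
    rw [h1]
    rfl

theorem dual2_injective (hCF1b : ∀ x : (LC.cx hC).H 1, ∃ y, p • y = x)
    (hinv : Function.Injective inv) :
    Function.Injective ((stdRes L p).dual2 p hC htors inv) := by
  rw [injective_iff_map_eq_zero]
  intro e he
  have h1 : inv ((stdRes L p).pairP p hC htors 1 0 rfl e (c₁ (L := L) (p := p))) = 0 :=
    DFunLike.congr_fun he _
  have h2 : (stdRes L p).pairP p hC htors 1 0 rfl e (c₁ (L := L) (p := p)) = 0 :=
    hinv (h1.trans (map_zero inv).symm)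
  have h3 : (stdRes L p).pair hC 1 0 1 rfl e (c₁ (L := L) (p := p)) = 0 := by
    have := congrArg Subtype.val h2
    exact this
  rw [pair_c₁] at h3
  have h4 : Cx.EtoH ((stdRes L p).homMap hC) 2 e = 0 :=
    evH_injective ((stdRes L p).smooth₀.ihom hC) hC 2 (h3.trans (map_zero _).symm)
  obtain ⟨x, rfl⟩ := (Cx.exact_HtoE_EtoH ((stdRes L p).homMap hC) 1 e).1 h4
  obtain ⟨y, hy⟩ := hCF1b (evH ((stdRes L p).smooth₁.ihom hC) hC 1 x)
  have hx : x = ((stdRes L p).homMap hC).mapH 1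
      (coevH ((stdRes L p).smooth₀.ihom hC) hC 1 y) :=
    (coevH_evH ((stdRes L p).smooth₁.ihom hC) hC 1 x).symm.trans
      ((congrArg _ hy.symm).trans ((coevH_nsmul ((stdRes L p).smooth₁.ihom hC) hC p 1 y).trans
        (homMap_mapH (L := L) (p := p) hC 1 _).symm))
  rw [hx]
  exact (Cx.exact_mapH_HtoE ((stdRes L p).homMap hC) 1 _).2 ⟨_, rfl⟩

theorem dual2_surjective (hinv : Function.Surjective inv) :
    Function.Surjective ((stdRes L p).dual2 p hC htors inv) := by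
  intro g
  obtain ⟨y, hy⟩ := hinv (g (c₁ (L := L) (p := p)))
  have hx : ((stdRes L p).homMap hC).mapH 2
      (coevH ((stdRes L p).smooth₀.ihom hC) hC 2 y.1) = 0 := by
    have h1 := homMap_mapH (L := L) (p := p) hC 2
      (coevH ((stdRes L p).smooth₀.ihom hC) hC 2 y.1)
    have h2 := coevH_nsmul ((stdRes L p).smooth₀.ihom hC) hC p 2 y.1
    have h3 : p • (y.1 : (LC.cx hC).H 2) = 0 := LC.mem_Hp.1 y.2
    exact h1.trans (h2.symm.trans ((congrArg _ h3).trans (map_zero _)))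
  obtain ⟨e, he⟩ := (Cx.exact_EtoH_mapH ((stdRes L p).homMap hC) 2 _).1 hx
  refine ⟨e, ?_⟩
  refine AddMonoidHom.ext fun c => ?_
  obtain ⟨m, rfl⟩ := exists_nsmul_c₁ (L := L) (p := p) c
  rw [map_nsmul, map_nsmul]
  congr 1
  rw [LatticeRes.dual_apply, ← hy]
  congr 1
  apply Subtype.ext
  rw [LatticeRes.coe_pairP, pair_c₁, he, evH_coevH]

/-! ### The symbol pairing -/

open LCSym

/-- the `ℤ`-form of an LC character `G → 𝔽_p` -/
noncomputable def toZ (f : XChar L p) : ↥(LC.Z₁ L (Rep.trivial ℤ G (ZMod p))) :=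
  ⟨(f : G → ZMod p), by
    refine ⟨(mem_cocycles₁_iff (A := Rep.trivial ℤ G (ZMod p)) _).2 fun g h => ?_, f.2.2⟩
    rw [XChar.map_mul f g h, add_comm]
    rfl⟩

/-- every LC `1`-cocycle of the trivial `ℤ`-module `𝔽_p` is an LC character -/
lemma exists_toZ_eq (f' : ↥(LC.Z₁ L (Rep.trivial ℤ G (ZMod p)))) :
    ∃ f : XChar L p, toZ f = f' := by
  refine ⟨⟨(f' : G → ZMod p), ?_, f'.2.2⟩, rfl⟩
  refine (mem_cocycles₁_iff (A := FpRep G p) _).2 fun g h => ?_
  exact (mem_cocycles₁_iff (A := Rep.trivial ℤ G (ZMod p)) _).1 f'.2.1 g h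

/-- the integral lift of a character, as an LC `1`-cochain of `ℤ` -/
noncomputable def chCochain (f : XChar L p) : ↥(LC.C₁ L (Tk ℤ G)) :=
  ⟨fun g => chLift (charOf f) g, by
    obtain ⟨N, hN, hle⟩ := isOpen_ker_charOf f
    exact ⟨N, hN, fun g s hs => chLift_mul_right (charOf f) g (hle hs)⟩⟩

/-- the Bockstein cocycle of a character, as an LC `2`-cochain of `ℤ` -/
noncomputable def bockCochain (f : XChar L p) : ↥(LC.C₂ L (Tk ℤ G)) :=
  ⟨bock (charOf f), by
    obtain ⟨N, hN, hle⟩ := isOpen_ker_charOf f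
    exact ⟨N, hN, fun g h s hs t ht => bock_mul_right (charOf f) g h (hle hs) (hle ht)⟩⟩

/-- the Bockstein of an LC character is the class of `bock` -/
lemma δH_mkH1_toZ (f : XChar L p) :
    ∃ h0, (stdRes L p).shortExact.δH 1 (LC.mkH1 (stdRes L p).smooth (toZ f)) =
      Cx.H.mk (C := LC.cx (stdRes L p).smooth₁) (n := 2) (bockCochain f) h0 := by
  refine Cx.ShortExact.δH_mk (stdRes L p).shortExact 1 _ _ (chCochain f) (bockCochain f) ?_ ?_
  · refine Subtype.ext (funext fun g => ?_)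
    show ((chLift (charOf f) g : ℤ) : ZMod p) = (f : G → ZMod p) g
    rw [chLift_cast]
    rfl
  · refine Subtype.ext (funext fun q => ?_)
    obtain ⟨g, h⟩ := q
    show (p : ℤ) * bock (charOf f) (g, h) =
      (d₁₂ (Tk ℤ G)).hom (fun g => chLift (charOf f) g) (g, h)
    rw [d₁₂_hom_apply, n_mul_bock]
    show _ = chLift (charOf f) h - chLift (charOf f) (g * h) + chLift (charOf f) g
    ring

lemma neg_one_pow_zero_smul {k M : Type} [CommRing k] [AddCommGroup M] [Module k M] (y : M) :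
    ((-1 : k) ^ 0) • y = y := by
  rw [pow_zero, one_smul]

/-- **The hyper-Ext pairing on `Ext¹ × H¹` is the symbol pairing**:
`⟨HtoE (coev a), f⟩ = a ∪ δf`. -/
lemma pair_HtoE_coev (a : ↥(LC.H0 L C)) (f : XChar L p) :
    (stdRes L p).pair hC 0 1 1 rfl
      (Cx.HtoE ((stdRes L p).homMap hC) 0
        (coevH ((stdRes L p).smooth₁.ihom hC) hC 0 (LC.mkH0 hC a)))
      (LC.mkH1 (stdRes L p).smooth (toZ f)) =
    LC.mkH2 hC (lcSymCocycle L C (charOf f) (isOpen_ker_charOf f) a.1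
      (fun g => a.2 g)) := by
  have h := Cx.Epair_HtoE (stdRes L p).shortExact ((stdRes L p).P0 hC) ((stdRes L p).P1 hC)
    ((stdRes L p).adj hC) 0 1 1 rfl
    (coevH ((stdRes L p).smooth₁.ihom hC) hC 0 (LC.mkH0 hC a))
    (LC.mkH1 (stdRes L p).smooth (toZ f))
  obtain ⟨h0, hδ⟩ := δH_mkH1_toZ (L := L) (p := p) f
  refine h.trans ?_
  refine (@neg_one_pow_zero_smul ℤ ((LC.cx hC).H (1 + 1)) _ _
    ((LC.cx hC).instModuleH (1 + 1)) _).trans ?_
  refine (congrArg _ hδ).trans ?_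
  have hx : (LC.cx ((stdRes L p).smooth₁.ihom hC)).d 0 ((zCoev C).hom a.1) = 0 := by
    have := (LC.cxMap hC ((stdRes L p).smooth₁.ihom hC) (zCoev C)).comm 0 a.1
    have h' : (LC.cx hC).d 0 a.1 = 0 := (LC.dLC₀_eq_zero_iff hC _).2 a.2
    exact this.symm.trans ((congrArg _ h').trans (map_zero _))
  refine (Cx.Pairing.cupH_mk ((stdRes L p).P1 hC) 0 2 2 rfl ((zCoev C).hom a.1) hx
    (bockCochain f) h0).trans ?_
  refine Cx.H.mk_congr' ?_
  refine Subtype.ext (funext fun q => ?_)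
  exact int_smul_eq_zsmul C.hV2 _ _


/-! ### `Ext¹` and `H¹(𝔽_p)` in terms of invariants and characters -/

/-- every class of `Ext¹(𝔽_p, C)` comes from an invariant of `C` (when `H¹(C) = 0`) -/
lemma exists_HtoE_coev (hCF1a : ∀ x : (LC.cx hC).H 1, p • x = 0 → x = 0)
    (e : (stdRes L p).Ext hC 1) :
    ∃ a : ↥(LC.H0 L C), Cx.HtoE ((stdRes L p).homMap hC) 0
        (coevH ((stdRes L p).smooth₁.ihom hC) hC 0 (LC.mkH0 hC a)) = e := by
  have h1 : Cx.EtoH ((stdRes L p).homMap hC) 1 e = 0 := by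
    have h2 : ((stdRes L p).homMap hC).mapH 1 (Cx.EtoH ((stdRes L p).homMap hC) 1 e) = 0 :=
      (Cx.exact_EtoH_mapH ((stdRes L p).homMap hC) 1 _).2 ⟨e, rfl⟩
    have h3 : p • (Cx.EtoH ((stdRes L p).homMap hC) 1 e) = 0 :=
      (homMap_mapH (L := L) (p := p) hC 1 _).symm.trans h2
    have h5 : evH ((stdRes L p).smooth₀.ihom hC) hC 1
        (Cx.EtoH ((stdRes L p).homMap hC) 1 e) = 0 :=
      hCF1a _ ((map_nsmul (evH ((stdRes L p).smooth₀.ihom hC) hC 1) p _).symm.trans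
        ((congrArg _ h3).trans (map_zero _)))
    exact evH_injective ((stdRes L p).smooth₀.ihom hC) hC 1 (h5.trans (map_zero _).symm)
  obtain ⟨x, rfl⟩ := (Cx.exact_HtoE_EtoH ((stdRes L p).homMap hC) 0 e).1 h1
  obtain ⟨a, ha⟩ := LC.exists_mkH0_eq hC (evH ((stdRes L p).smooth₁.ihom hC) hC 0 x)
  refine ⟨a, ?_⟩
  rw [ha, coevH_evH]

/-- every class of `H¹(G, 𝔽_p)` is the class of an LC character -/
lemma exists_mkH1_toZ (c : (LC.cx (stdRes L p).smooth).H 1) :
    ∃ f : XChar L p, LC.mkH1 (stdRes L p).smooth (toZ f) = c := by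
  obtain ⟨f', rfl⟩ := LC.exists_mkH1_eq (stdRes L p).smooth c
  obtain ⟨f, rfl⟩ := exists_toZ_eq f'
  exact ⟨f, rfl⟩

lemma mkH1_toZ_add (f f' : XChar L p) :
    LC.mkH1 (stdRes L p).smooth (toZ (f + f')) =
      LC.mkH1 (stdRes L p).smooth (toZ f) + LC.mkH1 (stdRes L p).smooth (toZ f') := rfl

/-! ### The two forms of `H²(C)[p]` -/

lemma h2Equiv_mem_torsionBy (x : LC.Hp p hC 2) :
    LC.h2Equiv hC x.1 ∈ AddSubgroup.torsionBy (LC.H2 L C) (p : ℤ) :=
  AddSubgroup.torsionBy.nsmul_iff.2 (by rw [← map_nsmul, LC.mem_Hp.1 x.2, map_zero])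

/-- `H²(C)[p]` (complex form) `→` `H²(C)[p]` (Prelude form) -/
noncomputable def hpToTors : LC.Hp p hC 2 →+ ↥(AddSubgroup.torsionBy (LC.H2 L C) (p : ℤ)) :=
  AddMonoidHom.mk' (fun x => ⟨LC.h2Equiv hC x.1, h2Equiv_mem_torsionBy hC x⟩)
    (fun x y => Subtype.ext (map_add (LC.h2Equiv hC) x.1 y.1))

lemma coe_hpToTors (x : LC.Hp p hC 2) :
    ((hpToTors hC x : ↥(AddSubgroup.torsionBy (LC.H2 L C) (p : ℤ))) : LC.H2 L C) =
      LC.h2Equiv hC x.1 := rfl

lemma hpToTors_bijective : Function.Bijective (hpToTors (p := p) hC) := by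
  constructor
  · intro x y h
    have := congrArg Subtype.val h
    exact Subtype.ext ((LC.h2Equiv hC).injective this)
  · intro y
    refine ⟨⟨(LC.h2Equiv hC).symm y.1, ?_⟩, Subtype.ext ((LC.h2Equiv hC).apply_symm_apply y.1)⟩
    rw [LC.mem_Hp, ← map_nsmul, AddSubgroup.torsionBy.nsmul_iff.1 y.2, map_zero]

variable (τ : ↥(AddSubgroup.torsionBy (LC.H2 L C) (p : ℤ)) →+ ZMod p)

/-- **`dual1` is the symbol pairing.** -/
lemma dual1_HtoE_coev (hinvτ : ∀ x : LC.Hp p hC 2, inv x = τ (hpToTors hC x))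
    (a : ↥(LC.H0 L C)) (f : XChar L p) :
    (stdRes L p).dual1 p hC htors inv
      (Cx.HtoE ((stdRes L p).homMap hC) 0
        (coevH ((stdRes L p).smooth₁.ihom hC) hC 0 (LC.mkH0 hC a)))
      (LC.mkH1 (stdRes L p).smooth (toZ f)) =
    pairLin L C τ (QuotientAddGroup.mk ⟨a.1, fun g => a.2 g⟩) f := by
  rw [LatticeRes.dual_apply, hinvτ, pairLin_mk]
  congr 1
  apply Subtype.ext
  rw [coe_hpToTors, LatticeRes.coe_pairP, pair_HtoE_coev]
  rfl

theorem dual1_injective (hCF1a : ∀ x : (LC.cx hC).H 1, p • x = 0 → x = 0)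
    (hinvτ : ∀ x : LC.Hp p hC 2, inv x = τ (hpToTors hC x))
    (hE : Function.Injective (pairLin L C τ)) :
    Function.Injective ((stdRes L p).dual1 p hC htors inv) := by
  rw [injective_iff_map_eq_zero]
  intro e he
  obtain ⟨a, rfl⟩ := exists_HtoE_coev hC hCF1a e
  have h0 : pairLin L C τ (QuotientAddGroup.mk ⟨a.1, fun g => a.2 g⟩) = 0 := by
    refine LinearMap.ext fun f => ?_
    rw [← dual1_HtoE_coev hC htors inv τ hinvτ a f, he]
    rfl
  have h3 : (QuotientAddGroup.mk (⟨a.1, fun g => a.2 g⟩ : ↥(invSub C)) : VQuot C p) = 0 :=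
    hE (h0.trans (map_zero (pairLin L C τ)).symm)
  rw [QuotientAddGroup.eq_zero_iff] at h3
  obtain ⟨b, hb⟩ := h3
  have hb' : p • (b.1 : C) = a.1 := congrArg Subtype.val hb
  have hab : LC.mkH0 hC a = p • LC.mkH0 hC ⟨b.1, fun g => b.2 g⟩ :=
    mkH0_eq_nsmul hC a ⟨b.1, fun g => b.2 g⟩ p hb'
  have h4 : coevH ((stdRes L p).smooth₁.ihom hC) hC 0 (LC.mkH0 hC a) =
      ((stdRes L p).homMap hC).mapH 0
        (coevH ((stdRes L p).smooth₀.ihom hC) hC 0 (LC.mkH0 hC ⟨b.1, fun g => b.2 g⟩)) :=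
    (congrArg _ hab).trans ((coevH_nsmul ((stdRes L p).smooth₁.ihom hC) hC p 0 _).trans
      (homMap_mapH (L := L) (p := p) hC 0 _).symm)
  rw [h4]
  exact (Cx.exact_mapH_HtoE ((stdRes L p).homMap hC) 0 _).2 ⟨_, rfl⟩

theorem dual1_surjective
    (hinvτ : ∀ x : LC.Hp p hC 2, inv x = τ (hpToTors hC x))
    (hE : Function.Surjective (pairLin L C τ)) :
    Function.Surjective ((stdRes L p).dual1 p hC htors inv) := by
  intro g
  let g' : XChar L p →+ ZMod p :=
    AddMonoidHom.mk' (fun f => g (LC.mkH1 (stdRes L p).smooth (toZ f)))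
      (fun f f' => by rw [mkH1_toZ_add, map_add])
  obtain ⟨v, hv⟩ := hE (g'.toZModLinearMap p)
  obtain ⟨a, rfl⟩ := QuotientAddGroup.mk_surjective v
  refine ⟨Cx.HtoE ((stdRes L p).homMap hC) 0
    (coevH ((stdRes L p).smooth₁.ihom hC) hC 0 (LC.mkH0 hC ⟨a.1, fun g => a.2 g⟩)), ?_⟩
  refine AddMonoidHom.ext fun c => ?_
  obtain ⟨f, rfl⟩ := exists_mkH1_toZ (L := L) (p := p) c
  rw [dual1_HtoE_coev hC htors inv τ hinvτ ⟨a.1, fun g => a.2 g⟩ f]
  exact DFunLike.congr_fun hv f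

/-- **Base case of the duality theorem for the standard resolution.**  For a level group `(G, L)`
and a smooth `G`-module `C` with (CF1) multiplication by `p` bijective on `H¹(G, C)` (e.g.
`H¹(G, C) = 0`), (T1) an isomorphism `inv : H²(G, C)[p] ≅ 𝔽_p` and (E) the symbol pairing
`C^G/p × H¹(G, 𝔽_p) → 𝔽_p`, `(a, f) ↦ τ (a ∪ δf)`, perfect on the left (`pairLin` bijective), the
standard resolution `0 → ℤ → ℤ → 𝔽_p → 0` gives perfect pairings
`Ext^r(𝔽_p, C) × H^{2-r}(G, 𝔽_p) → 𝔽_p` for `r = 1, 2`. -/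
theorem stdRes_isPerfect (hCF1a : ∀ x : (LC.cx hC).H 1, p • x = 0 → x = 0)
    (hCF1b : ∀ x : (LC.cx hC).H 1, ∃ y, p • y = x) (hT1 : Function.Bijective inv)
    (hinvτ : ∀ x : LC.Hp p hC 2, inv x = τ (hpToTors hC x))
    (hE : Function.Bijective (pairLin L C τ)) :
    (stdRes L p).IsPerfect p hC htors inv :=
  ⟨⟨dual1_injective hC htors inv τ hCF1a hinvτ hE.1, dual1_surjective hC htors inv τ hinvτ hE.2⟩,
    ⟨dual2_injective hC htors inv hCF1b hT1.1, dual2_surjective hC htors inv hT1.2⟩⟩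

/-- Version with `inv` defined from `τ`. -/
theorem stdRes_isPerfect' (hCF1a : ∀ x : (LC.cx hC).H 1, p • x = 0 → x = 0)
    (hCF1b : ∀ x : (LC.cx hC).H 1, ∃ y, p • y = x) (hT1 : Function.Bijective τ)
    (hE : Function.Bijective (pairLin L C τ)) :
    (stdRes L p).IsPerfect p hC htors (τ.comp (hpToTors hC)) :=
  stdRes_isPerfect hC htors _ τ hCF1a hCF1b (hT1.comp (hpToTors_bijective hC)) (fun _ => rfl) hE

/-- Version with (CF1) in the form `H¹(G, C) = 0`. -/
theorem stdRes_isPerfect_of_H1_eq_zero (hCF1 : ∀ x : (LC.cx hC).H 1, x = 0)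
    (hT1 : Function.Bijective inv) (hinvτ : ∀ x : LC.Hp p hC 2, inv x = τ (hpToTors hC x))
    (hE : Function.Bijective (pairLin L C τ)) :
    (stdRes L p).IsPerfect p hC htors inv :=
  stdRes_isPerfect hC htors inv τ (fun x _ => hCF1 x)
    (fun x => ⟨0, (smul_zero p).trans (hCF1 x).symm⟩) hT1 hinvτ hE

/-- Version with (CF1) in the `p`-primary form: `H¹(G, C)` is a torsion group without
`p`-torsion. -/
theorem stdRes_isPerfect_of_torsion (hCF1a : ∀ x : (LC.cx hC).H 1, p • x = 0 → x = 0)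
    (htor : ∀ x : (LC.cx hC).H 1, ∃ n : ℕ, 0 < n ∧ n • x = 0)
    (hT1 : Function.Bijective inv) (hinvτ : ∀ x : LC.Hp p hC 2, inv x = τ (hpToTors hC x))
    (hE : Function.Bijective (pairLin L C τ)) :
    (stdRes L p).IsPerfect p hC htors inv :=
  stdRes_isPerfect hC htors inv τ hCF1a
    (exists_nsmul_eq_of_torsion_aux p (Fact.out : p.Prime) hCF1a htor) hT1 hinvτ hE

end std

end StdBase

end Fermat.Agent.CFT
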