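import Mathlib
import Fermat.Agent.CFT.HyperExt.Shift

/-!
# The five lemma for the hypercohomology `E` of the fibre of a chain map

For a commutative square of chain maps `φ₁ : F₁ ⟶ G₁`, `φ₂ : F₂ ⟶ G₂`, `α : F₁ ⟶ F₂`,
`β : G₁ ⟶ G₂`, the map `EMap : E^{n+1}(φ₁) ⟶ E^{n+1}(φ₂)` is bijective as soon as `α`, `β` induce
suitable bijections/injections/surjections on cohomology in degrees `n`, `n + 1`.
-/

set_option autoImplicit false

universe u v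

namespace Fermat.Agent.CFT.HExt

namespace Cx

variable {k : Type u} [CommRing k] {F₁ G₁ F₂ G₂ : Cx.{u, v} k}
  (φ₁ : Hom F₁ G₁) (φ₂ : Hom F₂ G₂) (α : Hom F₁ F₂) (β : Hom G₁ G₂)
  (hsq : ∀ n (x : F₁.X n), β.f n (φ₁.f n x) = φ₂.f n (α.f n x))

include hsq in
theorem mapH_comm_of_sq (n : ℕ) :
    (φ₂.mapH n).comp (α.mapH n) = (β.mapH n).comp (φ₁.mapH n) := by
  refine LinearMap.ext fun x => ?_
  induction x using H.induction_on with
  | _ z hz =>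
    simp only [LinearMap.comp_apply, Hom.mapH_mk]
    exact H.mk_congr (hsq n z).symm _

theorem HtoE_comp_mapH (n : ℕ) :
    (HtoE φ₂ n).comp (β.mapH n) = (EMap φ₁ φ₂ α β hsq (n + 1)).comp (HtoE φ₁ n) :=
  LinearMap.ext fun x => (EMap_HtoE φ₁ φ₂ α β hsq n x).symm

theorem EtoH_comp_EMap (n : ℕ) :
    (EtoH φ₂ n).comp (EMap φ₁ φ₂ α β hsq n) = (α.mapH n).comp (EtoH φ₁ n) :=
  LinearMap.ext fun x => EtoH_EMap φ₁ φ₂ α β hsq n x

/-- Four lemma: injectivity of `EMap` in degree `n + 1`. -/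
theorem EMap_succ_injective (n : ℕ) (h1 : Function.Surjective (α.mapH n))
    (h2 : Function.Injective (β.mapH n)) (h4 : Function.Injective (α.mapH (n + 1))) :
    Function.Injective (EMap φ₁ φ₂ α β hsq (n + 1)) :=
  LinearMap.injective_of_surjective_of_injective_of_injective
    (φ₁.mapH n) (HtoE φ₁ n) (EtoH φ₁ (n + 1)) (φ₂.mapH n) (HtoE φ₂ n) (EtoH φ₂ (n + 1))
    (α.mapH n) (β.mapH n) (EMap φ₁ φ₂ α β hsq (n + 1)) (α.mapH (n + 1))
    (mapH_comm_of_sq φ₁ φ₂ α β hsq n) (HtoE_comp_mapH φ₁ φ₂ α β hsq n)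
    (EtoH_comp_EMap φ₁ φ₂ α β hsq (n + 1))
    (exact_mapH_HtoE φ₁ n) (exact_HtoE_EtoH φ₁ n) (exact_mapH_HtoE φ₂ n) h1 h2 h4

/-- Four lemma: surjectivity of `EMap` in degree `n + 1`. -/
theorem EMap_succ_surjective (n : ℕ) (h2 : Function.Surjective (β.mapH n))
    (h4 : Function.Surjective (α.mapH (n + 1))) (h5 : Function.Injective (β.mapH (n + 1))) :
    Function.Surjective (EMap φ₁ φ₂ α β hsq (n + 1)) :=
  LinearMap.surjective_of_surjective_of_surjective_of_injective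
    (HtoE φ₁ n) (EtoH φ₁ (n + 1)) (φ₁.mapH (n + 1)) (HtoE φ₂ n) (EtoH φ₂ (n + 1))
    (φ₂.mapH (n + 1)) (β.mapH n) (EMap φ₁ φ₂ α β hsq (n + 1)) (α.mapH (n + 1)) (β.mapH (n + 1))
    (HtoE_comp_mapH φ₁ φ₂ α β hsq n) (EtoH_comp_EMap φ₁ φ₂ α β hsq (n + 1))
    (mapH_comm_of_sq φ₁ φ₂ α β hsq (n + 1))
    (exact_EtoH_mapH φ₁ (n + 1)) (exact_HtoE_EtoH φ₂ n) (exact_EtoH_mapH φ₂ (n + 1)) h2 h4 h5

/-- Five lemma: bijectivity of `EMap` in degree `n + 1`. -/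
theorem EMap_succ_bijective (n : ℕ) (h1 : Function.Surjective (α.mapH n))
    (h2 : Function.Bijective (β.mapH n)) (h4 : Function.Bijective (α.mapH (n + 1)))
    (h5 : Function.Injective (β.mapH (n + 1))) :
    Function.Bijective (EMap φ₁ φ₂ α β hsq (n + 1)) :=
  ⟨EMap_succ_injective φ₁ φ₂ α β hsq n h1 h2.1 h4.1,
    EMap_succ_surjective φ₁ φ₂ α β hsq n h2.2 h4.2 h5⟩

/-- `EMap` in degree `0` (where `E⁰ = ker (H⁰ F ⟶ H⁰ G)`). -/
theorem EMap_zero_bijective (h : Function.Bijective (α.mapH 0))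
    (h' : Function.Injective (β.mapH 0)) :
    Function.Bijective (EMap φ₁ φ₂ α β hsq 0) :=
  LinearMap.bijective_of_bijective_of_injective_of_left_exact
    (EtoH φ₁ 0) (φ₁.mapH 0) (EtoH φ₂ 0) (φ₂.mapH 0) (EMap φ₁ φ₂ α β hsq 0) (α.mapH 0)
    (β.mapH 0) (EtoH_comp_EMap φ₁ φ₂ α β hsq 0) (mapH_comm_of_sq φ₁ φ₂ α β hsq 0)
    (exact_EtoH_mapH φ₁ 0) (exact_EtoH_mapH φ₂ 0) h h' (EtoH_zero_injective φ₁)
    (EtoH_zero_injective φ₂)

end Cx

end Fermat.Agent.CFT.HExt
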