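import Mathlib
import Fermat.Agent.CFT.HyperExt.EFive

/-!
# The five lemma for a family of maps of hypercohomology groups `E`

For a chain map `φ₁ : F₁ ⟶ G₁` and a family of chain maps `φ₂ i : F₂ i ⟶ G₂ i` together with
commutative squares `α i : F₁ ⟶ F₂ i`, `β i : G₁ ⟶ G₂ i`, the total map
`EMapPi : Eⁿ(φ₁) ⟶ ∏ i, Eⁿ(φ₂ i)` is bijective / injective as soon as the total maps
`Hⁿ(F₁) ⟶ ∏ i, Hⁿ(F₂ i)` and `Hⁿ(G₁) ⟶ ∏ i, Hⁿ(G₂ i)` are in the appropriate degrees.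
-/

set_option autoImplicit false

universe u v w

namespace Fermat.Agent.CFT.HExt

/-- Exactness of a product of exact pairs of linear maps. -/
theorem exact_piMap {k : Type*} [Semiring k] {ι : Type*} {A B C : ι → Type*}
    [∀ i, AddCommMonoid (A i)] [∀ i, Module k (A i)]
    [∀ i, AddCommMonoid (B i)] [∀ i, Module k (B i)]
    [∀ i, AddCommMonoid (C i)] [∀ i, Module k (C i)]
    (f : ∀ i, A i →ₗ[k] B i) (g : ∀ i, B i →ₗ[k] C i)
    (h : ∀ i, Function.Exact (f i) (g i)) :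
    Function.Exact (LinearMap.piMap f) (LinearMap.piMap g) := by
  intro y
  constructor
  · intro hy
    have hy' : ∀ i, g i (y i) = 0 := fun i => congrFun hy i
    choose x hx using fun i => (h i (y i)).1 (hy' i)
    exact ⟨x, funext hx⟩
  · rintro ⟨x, rfl⟩
    funext i
    exact (h i _).2 ⟨x i, rfl⟩

theorem piMap_injective {k : Type*} [Semiring k] {ι : Type*} {A B : ι → Type*}
    [∀ i, AddCommMonoid (A i)] [∀ i, Module k (A i)]
    [∀ i, AddCommMonoid (B i)] [∀ i, Module k (B i)]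
    (f : ∀ i, A i →ₗ[k] B i) (h : ∀ i, Function.Injective (f i)) :
    Function.Injective (LinearMap.piMap f) := by
  intro x y hxy
  funext i
  exact h i (congrFun hxy i)

namespace Cx

variable {k : Type u} [CommRing k] {ι : Type w} {F₁ G₁ : Cx.{u, v} k} {F₂ G₂ : ι → Cx.{u, v} k}
  (φ₁ : Hom F₁ G₁) (φ₂ : ∀ i, Hom (F₂ i) (G₂ i)) (α : ∀ i, Hom F₁ (F₂ i))
  (β : ∀ i, Hom G₁ (G₂ i))
  (hsq : ∀ i n (x : F₁.X n), (β i).f n (φ₁.f n x) = (φ₂ i).f n ((α i).f n x))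

/-- The total map on cohomology of a family of chain maps out of a fixed complex. -/
noncomputable def mapHPi (n : ℕ) : F₁.H n →ₗ[k] ∀ i, (F₂ i).H n :=
  LinearMap.pi fun i => (α i).mapH n

@[simp] lemma mapHPi_apply (n : ℕ) (x : F₁.H n) (i : ι) :
    mapHPi α n x i = (α i).mapH n x := rfl

/-- The total map on hypercohomology of a family of commutative squares. -/
noncomputable def EMapPi (n : ℕ) : E φ₁ n →ₗ[k] ∀ i, E (φ₂ i) n :=
  LinearMap.pi fun i => EMap φ₁ (φ₂ i) (α i) (β i) (hsq i) n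

@[simp] lemma EMapPi_apply (n : ℕ) (x : E φ₁ n) (i : ι) :
    EMapPi φ₁ φ₂ α β hsq n x i = EMap φ₁ (φ₂ i) (α i) (β i) (hsq i) n x := rfl

include hsq in
theorem piMap_mapH_comp_mapHPi (n : ℕ) :
    (LinearMap.piMap fun i => (φ₂ i).mapH n).comp (mapHPi α n) =
      (mapHPi β n).comp (φ₁.mapH n) := by
  refine LinearMap.ext fun x => funext fun i => ?_
  exact LinearMap.congr_fun (mapH_comm_of_sq φ₁ (φ₂ i) (α i) (β i) (hsq i) n) x

theorem piMap_HtoE_comp_mapHPi (n : ℕ) :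
    (LinearMap.piMap fun i => HtoE (φ₂ i) n).comp (mapHPi β n) =
      (EMapPi φ₁ φ₂ α β hsq (n + 1)).comp (HtoE φ₁ n) := by
  refine LinearMap.ext fun x => funext fun i => ?_
  exact LinearMap.congr_fun (HtoE_comp_mapH φ₁ (φ₂ i) (α i) (β i) (hsq i) n) x

theorem piMap_EtoH_comp_EMapPi (n : ℕ) :
    (LinearMap.piMap fun i => EtoH (φ₂ i) n).comp (EMapPi φ₁ φ₂ α β hsq n) =
      (mapHPi α n).comp (EtoH φ₁ n) := by
  refine LinearMap.ext fun x => funext fun i => ?_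
  exact LinearMap.congr_fun (EtoH_comp_EMap φ₁ (φ₂ i) (α i) (β i) (hsq i) n) x

/-- Four lemma: injectivity of `EMapPi` in degree `n + 1`. -/
theorem EMapPi_succ_injective (n : ℕ) (h1 : Function.Surjective (mapHPi α n))
    (h2 : Function.Injective (mapHPi β n)) (h4 : Function.Injective (mapHPi α (n + 1))) :
    Function.Injective (EMapPi φ₁ φ₂ α β hsq (n + 1)) :=
  LinearMap.injective_of_surjective_of_injective_of_injective
    (φ₁.mapH n) (HtoE φ₁ n) (EtoH φ₁ (n + 1))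
    (LinearMap.piMap fun i => (φ₂ i).mapH n) (LinearMap.piMap fun i => HtoE (φ₂ i) n)
    (LinearMap.piMap fun i => EtoH (φ₂ i) (n + 1))
    (mapHPi α n) (mapHPi β n) (EMapPi φ₁ φ₂ α β hsq (n + 1)) (mapHPi α (n + 1))
    (piMap_mapH_comp_mapHPi φ₁ φ₂ α β hsq n) (piMap_HtoE_comp_mapHPi φ₁ φ₂ α β hsq n)
    (piMap_EtoH_comp_EMapPi φ₁ φ₂ α β hsq (n + 1))
    (exact_mapH_HtoE φ₁ n) (exact_HtoE_EtoH φ₁ n)
    (exact_piMap _ _ fun i => exact_mapH_HtoE (φ₂ i) n) h1 h2 h4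

/-- Four lemma: surjectivity of `EMapPi` in degree `n + 1`. -/
theorem EMapPi_succ_surjective (n : ℕ) (h2 : Function.Surjective (mapHPi β n))
    (h4 : Function.Surjective (mapHPi α (n + 1))) (h5 : Function.Injective (mapHPi β (n + 1))) :
    Function.Surjective (EMapPi φ₁ φ₂ α β hsq (n + 1)) :=
  LinearMap.surjective_of_surjective_of_surjective_of_injective
    (HtoE φ₁ n) (EtoH φ₁ (n + 1)) (φ₁.mapH (n + 1))
    (LinearMap.piMap fun i => HtoE (φ₂ i) n) (LinearMap.piMap fun i => EtoH (φ₂ i) (n + 1))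
    (LinearMap.piMap fun i => (φ₂ i).mapH (n + 1))
    (mapHPi β n) (EMapPi φ₁ φ₂ α β hsq (n + 1)) (mapHPi α (n + 1)) (mapHPi β (n + 1))
    (piMap_HtoE_comp_mapHPi φ₁ φ₂ α β hsq n) (piMap_EtoH_comp_EMapPi φ₁ φ₂ α β hsq (n + 1))
    (piMap_mapH_comp_mapHPi φ₁ φ₂ α β hsq (n + 1))
    (exact_EtoH_mapH φ₁ (n + 1)) (exact_piMap _ _ fun i => exact_HtoE_EtoH (φ₂ i) n)
    (exact_piMap _ _ fun i => exact_EtoH_mapH (φ₂ i) (n + 1)) h2 h4 h5

/-- Five lemma: bijectivity of `EMapPi` in degree `n + 1`. -/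
theorem EMapPi_succ_bijective (n : ℕ) (h1 : Function.Surjective (mapHPi α n))
    (h2 : Function.Bijective (mapHPi β n)) (h4 : Function.Bijective (mapHPi α (n + 1)))
    (h5 : Function.Injective (mapHPi β (n + 1))) :
    Function.Bijective (EMapPi φ₁ φ₂ α β hsq (n + 1)) :=
  ⟨EMapPi_succ_injective φ₁ φ₂ α β hsq n h1 h2.1 h4.1,
    EMapPi_succ_surjective φ₁ φ₂ α β hsq n h2.2 h4.2 h5⟩

/-- `EMapPi` in degree `0`. -/
theorem EMapPi_zero_bijective (h : Function.Bijective (mapHPi α 0))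
    (h' : Function.Injective (mapHPi β 0)) :
    Function.Bijective (EMapPi φ₁ φ₂ α β hsq 0) :=
  LinearMap.bijective_of_bijective_of_injective_of_left_exact
    (EtoH φ₁ 0) (φ₁.mapH 0) (LinearMap.piMap fun i => EtoH (φ₂ i) 0)
    (LinearMap.piMap fun i => (φ₂ i).mapH 0) (EMapPi φ₁ φ₂ α β hsq 0) (mapHPi α 0)
    (mapHPi β 0) (piMap_EtoH_comp_EMapPi φ₁ φ₂ α β hsq 0)
    (piMap_mapH_comp_mapHPi φ₁ φ₂ α β hsq 0)
    (exact_EtoH_mapH φ₁ 0) (exact_piMap _ _ fun i => exact_EtoH_mapH (φ₂ i) 0) h h'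
    (EtoH_zero_injective φ₁) (piMap_injective _ fun i => EtoH_zero_injective (φ₂ i))

end Cx

end Fermat.Agent.CFT.HExt
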