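import Fermat.Agent.CFT.HyperExt.LCExtPair
import Fermat.Agent.CFT.HyperExt.LCDualityDefs
import Fermat.Agent.CFT.LC.CxPairingNat

/-!
# Hyper-Ext in the second variable (S55, node A7.X, part 4)

For a lattice pair `R` over a level group `(G, L)`:

* `LatticePair.Ext.map₂ R hX hX' f n : R.Ext hX n →ₗ R.Ext hX' n` for `f : X ⟶ X'`
  (`map₂_id`, `map₂_comp`, commutation with the first-variable maps `map₂_map`);
* for a short exact sequence `0 → X' → X → X'' → 0` of smooth modules and `P₀`, `P₁` projective: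
  the connecting map `LatticePair.Ext.δ₂` and the long exact sequence
  (`exact_map₂_map₂`, `exact_map₂_δ₂`, `exact_δ₂_map₂`);
* the **divisible case**: if `Hom(P₀, X) → Hom(P₁, X)` is surjective then
  `LatticeRes.divEquiv : Hⁿ(Hom(N, X)) ≃ Extⁿ(N, X)`, and the hyper-Ext pairing becomes the
  cup product of the evaluation pairing (`LatticeRes.pair_divEquiv`);
* `HExt.precomp_surjective_of_divisible'`: the surjectivity hypothesis over a PID `k` for a
  `c`-divisible `X` when `c` kills `N`;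
* compatibility of the hyper-Ext pairing with `map₂` (`LatticeRes.pair_map₂`).
-/

set_option autoImplicit false

universe u

open CategoryTheory

namespace Fermat.Agent.CFT

open HExt

variable {k G : Type u} [CommRing k] [Group G] {L : LevelStructure G}

namespace LatticePair

section map₂

variable (R R' : LatticePair k L) {X X' X'' : Rep.{u} k G} (hX : IsSmooth L X)
  (hX' : IsSmooth L X') (hX'' : IsSmooth L X'')

/-- The square of second-variable functoriality commutes. -/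
lemma sq₂ (f : X ⟶ X') (n : ℕ) (x : (LC.cx (R.smooth₀.ihom hX)).X n) :
    (LC.cxMap (R.smooth₁.ihom hX) (R.smooth₁.ihom hX') (Cup.postcomp R.P₁ f)).f n
        ((R.homMap hX).f n x) =
      (R.homMap hX').f n
        ((LC.cxMap (R.smooth₀.ihom hX) (R.smooth₀.ihom hX') (Cup.postcomp R.P₀ f)).f n x) := by
  refine LC.cxMap_comm_of_comm _ _ _ _ _ _ _ _ (fun a => ?_) n x
  rfl

/-- Covariant functoriality of hyper-Ext in the second variable. -/
noncomputable def Ext.map₂ (f : X ⟶ X') (n : ℕ) : R.Ext hX n →ₗ[k] R.Ext hX' n :=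
  Cx.EMap (R.homMap hX) (R.homMap hX') _ _ (R.sq₂ hX hX' f) n

lemma Ext.map₂_id (n : ℕ) : Ext.map₂ R hX hX (𝟙 X) n = LinearMap.id := by
  have h := Cx.EMap_id (R.homMap hX) (fun _ _ => rfl) n
  exact (Cx.EMap_congr _ _ _ _ _ _ _ _
    (fun m x => (LC.cxMap_congr_apply _ _ _ (𝟙 _) (fun _ => rfl) m x).trans
      (LC.cxMap_id_apply _ m x))
    (fun m x => (LC.cxMap_congr_apply _ _ _ (𝟙 _) (fun _ => rfl) m x).trans
      (LC.cxMap_id_apply _ m x)) n).trans h

lemma Ext.map₂_comp (f : X ⟶ X') (g : X' ⟶ X'') (n : ℕ) (x : R.Ext hX n) :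
    Ext.map₂ R hX hX'' (f ≫ g) n x = Ext.map₂ R hX' hX'' g n (Ext.map₂ R hX hX' f n x) := by
  have h := Cx.EMap_comp (R.homMap hX) (R.homMap hX') (R.homMap hX'') _ _ _ _
    (R.sq₂ hX hX' f) (R.sq₂ hX' hX'' g) (fun m y => by
      change (LC.cxMap _ _ (Cup.postcomp R.P₁ g)).f m ((LC.cxMap _ _ (Cup.postcomp R.P₁ f)).f m
          ((R.homMap hX).f m y)) =
        (R.homMap hX'').f m ((LC.cxMap _ _ (Cup.postcomp R.P₀ g)).f m
          ((LC.cxMap _ _ (Cup.postcomp R.P₀ f)).f m y))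
      rw [R.sq₂ hX hX' f, R.sq₂ hX' hX'' g]) n x
  change _ = Cx.EMap _ _ _ _ (R.sq₂ hX' hX'' g) n (Cx.EMap _ _ _ _ (R.sq₂ hX hX' f) n x)
  rw [h]
  refine LinearMap.congr_fun (Cx.EMap_congr _ _ _ _ _ _ _ _ (fun m y => ?_) (fun m y => ?_) n) x
  · exact (LC.cxMap_congr_apply _ _ _ (Cup.postcomp R.P₀ f ≫ Cup.postcomp R.P₀ g)
      (fun _ => rfl) m y).trans (LC.cxMap_comp_apply _ _ _ _ _ m y)
  · exact (LC.cxMap_congr_apply _ _ _ (Cup.postcomp R.P₁ f ≫ Cup.postcomp R.P₁ g)
      (fun _ => rfl) m y).trans (LC.cxMap_comp_apply _ _ _ _ _ m y)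

variable {R R'}

/-- First- and second-variable functoriality commute. -/
lemma Ext.map_map₂ (φ : Hom R R') (f : X ⟶ X') (n : ℕ) (e : R'.Ext hX n) :
    Ext.map hX' φ n (Ext.map₂ R' hX hX' f n e) = Ext.map₂ R hX hX' f n (Ext.map hX φ n e) := by
  have h1 := Cx.EMap_comp (R'.homMap hX) (R'.homMap hX') (R.homMap hX') _ _ _ _
    (R'.sq₂ hX hX' f) (φ.sq hX') (fun m y => by
      change (LC.cxMap _ _ (Cup.precomp φ.f₁ X')).f m ((LC.cxMap _ _ (Cup.postcomp R'.P₁ f)).f m
          ((R'.homMap hX).f m y)) =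
        (R.homMap hX').f m ((LC.cxMap _ _ (Cup.precomp φ.f₀ X')).f m
          ((LC.cxMap _ _ (Cup.postcomp R'.P₀ f)).f m y))
      rw [R'.sq₂ hX hX' f, φ.sq hX']) n e
  have h2 := Cx.EMap_comp (R'.homMap hX) (R.homMap hX) (R.homMap hX') _ _ _ _
    (φ.sq hX) (R.sq₂ hX hX' f) (fun m y => by
      change (LC.cxMap _ _ (Cup.postcomp R.P₁ f)).f m ((LC.cxMap _ _ (Cup.precomp φ.f₁ X)).f m
          ((R'.homMap hX).f m y)) =
        (R.homMap hX').f m ((LC.cxMap _ _ (Cup.postcomp R.P₀ f)).f m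
          ((LC.cxMap _ _ (Cup.precomp φ.f₀ X)).f m y))
      rw [φ.sq hX, R.sq₂ hX hX' f]) n e
  change Cx.EMap _ _ _ _ (φ.sq hX') n (Cx.EMap _ _ _ _ (R'.sq₂ hX hX' f) n e) =
    Cx.EMap _ _ _ _ (R.sq₂ hX hX' f) n (Cx.EMap _ _ _ _ (φ.sq hX) n e)
  rw [h1, h2]
  refine LinearMap.congr_fun (Cx.EMap_congr _ _ _ _ _ _ _ _ (fun m y => ?_) (fun m y => ?_) n) e
  · refine LC.cxMap_comm_of_comm _ _ _ _ (Cup.postcomp R'.P₀ f) (Cup.precomp φ.f₀ X')
      (Cup.precomp φ.f₀ X) (Cup.postcomp R.P₀ f) (fun a => ?_) m y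
    rfl
  · refine LC.cxMap_comm_of_comm _ _ _ _ (Cup.postcomp R'.P₁ f) (Cup.precomp φ.f₁ X')
      (Cup.precomp φ.f₁ X) (Cup.postcomp R.P₁ f) (fun a => ?_) m y
    rfl

end map₂

/-! ### The long exact sequence in the second variable -/

section LES

variable (R : LatticePair k L) [Module.Projective k R.P₀] [Module.Projective k R.P₁]
  {X' X X'' : Rep.{u} k G} (hX' : IsSmooth L X') (hX : IsSmooth L X) (hX'' : IsSmooth L X'')
  (f : X' ⟶ X) (g : X ⟶ X'') (hf : Function.Injective f.hom) (hg : Function.Surjective g.hom)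
  (hfg : Function.Exact f.hom g.hom)

omit [Module.Projective k R.P₁] in
include hf hg hfg in
/-- `0 → C(Hom(P₀, X')) → C(Hom(P₀, X)) → C(Hom(P₀, X'')) → 0` is short exact. -/
lemma shortExact₂_P₀ :
    Cx.ShortExact
      (LC.cxMap (R.smooth₀.ihom hX') (R.smooth₀.ihom hX) (Cup.postcomp R.P₀ f))
      (LC.cxMap (R.smooth₀.ihom hX) (R.smooth₀.ihom hX'') (Cup.postcomp R.P₀ g)) :=
  LC.cx_shortExact _ _ _ _ _ (Cup.postcomp_hom_injective R.P₀ f hf)
    (Cup.postcomp_hom_surjective R.P₀ g hg) (Cup.postcomp_hom_exact R.P₀ f g hf hfg)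

omit [Module.Projective k R.P₀] in
include hf hg hfg in
/-- `0 → C(Hom(P₁, X')) → C(Hom(P₁, X)) → C(Hom(P₁, X'')) → 0` is short exact. -/
lemma shortExact₂_P₁ :
    Cx.ShortExact
      (LC.cxMap (R.smooth₁.ihom hX') (R.smooth₁.ihom hX) (Cup.postcomp R.P₁ f))
      (LC.cxMap (R.smooth₁.ihom hX) (R.smooth₁.ihom hX'') (Cup.postcomp R.P₁ g)) :=
  LC.cx_shortExact _ _ _ _ _ (Cup.postcomp_hom_injective R.P₁ f hf)
    (Cup.postcomp_hom_surjective R.P₁ g hg) (Cup.postcomp_hom_exact R.P₁ f g hf hfg)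

include hf hg hfg in
/-- The fibres form a short exact sequence of complexes. -/
lemma fib_shortExact₂ :
    Cx.ShortExact (Cx.FibMap (R.homMap hX') (R.homMap hX) _ _ (R.sq₂ hX' hX f))
      (Cx.FibMap (R.homMap hX) (R.homMap hX'') _ _ (R.sq₂ hX hX'' g)) :=
  Cx.FibMap_shortExact _ _ _ _ _ _ _ (R.sq₂ hX' hX f) (R.sq₂ hX hX'' g)
    (R.shortExact₂_P₀ hX' hX hX'' f g hf hg hfg) (R.shortExact₂_P₁ hX' hX hX'' f g hf hg hfg)

include hf hg hfg in
/-- The connecting homomorphism `Ext^n(P, X'') → Ext^{n+1}(P, X')` of the second variable. -/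
noncomputable def Ext.δ₂ (n : ℕ) : R.Ext hX'' n →ₗ[k] R.Ext hX' (n + 1) :=
  (R.fib_shortExact₂ hX' hX hX'' f g hf hg hfg).δ n

include hf hg hfg in
/-- Exactness of `Ext^n(P, X') → Ext^n(P, X) → Ext^n(P, X'')`. -/
theorem Ext.exact_map₂_map₂ (n : ℕ) :
    Function.Exact (Ext.map₂ R hX' hX f n) (Ext.map₂ R hX hX'' g n) :=
  (R.fib_shortExact₂ hX' hX hX'' f g hf hg hfg).exact_map_map n

/-- Exactness of `Ext^n(P, X) → Ext^n(P, X'') → Ext^{n+1}(P, X')`. -/
theorem Ext.exact_map₂_δ₂ (n : ℕ) :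
    Function.Exact (Ext.map₂ R hX hX'' g n) (Ext.δ₂ R hX' hX hX'' f g hf hg hfg n) :=
  (R.fib_shortExact₂ hX' hX hX'' f g hf hg hfg).exact_map_δ n

/-- Exactness of `Ext^n(P, X'') → Ext^{n+1}(P, X') → Ext^{n+1}(P, X)`. -/
theorem Ext.exact_δ₂_map₂ (n : ℕ) :
    Function.Exact (Ext.δ₂ R hX' hX hX'' f g hf hg hfg n) (Ext.map₂ R hX' hX f (n + 1)) :=
  (R.fib_shortExact₂ hX' hX hX'' f g hf hg hfg).exact_δ_map n

end LES

end LatticePair

/-! ### Divisibility over a principal ideal domain -/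

namespace HExt

section divisible'

variable {k : Type*} [CommRing k] [IsDomain k] [IsPrincipalIdealRing k]
  {P₀ X : Type*} [AddCommGroup P₀] [Module k P₀] [Module.Free k P₀] [Module.Finite k P₀]
  [AddCommGroup X] [Module k X]

/-- `Ext¹_k(P₀/N, X) = 0` for a `p`-divisible module `X` over a PID when `p` kills `P₀/N`
(general-`k` version of `exists_extension_of_smul_mem`, which avoids all `ℤ`-module diamonds). -/
theorem exists_extension_of_smul_mem' (N : Submodule k P₀) (p : k) (hN : ∀ x : P₀, p • x ∈ N)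
    (hX : ∀ x : X, ∃ y : X, p • y = x) (f : N →ₗ[k] X) :
    ∃ g : P₀ →ₗ[k] X, g ∘ₗ N.subtype = f := by
  classical
  obtain ⟨n, snf⟩ := N.smithNormalForm (Module.Free.chooseBasis k P₀)
  have hdiv : ∀ j : Fin n, ∃ c : k, p = snf.a j * c := by
    intro j
    refine ⟨snf.bN.repr ⟨p • snf.bM (snf.f j), hN _⟩ j, ?_⟩
    have h1 := snf.repr_apply_embedding_eq_repr_smul (m := ⟨p • snf.bM (snf.f j), hN _⟩) (i := j)
    have h3 : snf.bN.repr (snf.a j • (⟨p • snf.bM (snf.f j), hN _⟩ : N)) j =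
        snf.a j * snf.bN.repr ⟨p • snf.bM (snf.f j), hN _⟩ j := by
      rw [map_smul, Finsupp.smul_apply, smul_eq_mul]
    have h2 : snf.bM.repr (p • snf.bM (snf.f j)) (snf.f j) = p := by
      rw [map_smul, Module.Basis.repr_self, Finsupp.smul_apply, Finsupp.single_eq_same,
        smul_eq_mul, mul_one]
    rw [← h3, ← h1]
    exact h2.symm
  have hx : ∀ j : Fin n, ∃ x : X, snf.a j • x = f (snf.bN j) := by
    intro j
    obtain ⟨c, hc⟩ := hdiv j
    obtain ⟨y, hy⟩ := hX (f (snf.bN j))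
    exact ⟨c • y, by rw [smul_smul, ← hc, hy]⟩
  choose x hx using hx
  refine ⟨snf.bM.constr k (Function.extend snf.f x 0), ?_⟩
  refine snf.bN.ext fun j => ?_
  rw [LinearMap.comp_apply, Submodule.subtype_apply, snf.snf, map_smul,
    Module.Basis.constr_basis, snf.f.injective.extend_apply, hx]

/-- Restriction along an injective map of lattices `P₁ → P₀` with cokernel killed by `p` is
surjective on homomorphisms into a `p`-divisible module (over a PID). -/
theorem precomp_surjective_of_divisible' {P₁ : Type*} [AddCommGroup P₁] [Module k P₁]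
    (i : P₁ →ₗ[k] P₀) (hi : Function.Injective i) (p : k)
    (hp : ∀ x : P₀, p • x ∈ LinearMap.range i) (hX : ∀ x : X, ∃ y : X, p • y = x) :
    Function.Surjective (fun h : P₀ →ₗ[k] X => h ∘ₗ i) := by
  intro f
  obtain ⟨g, hg⟩ := exists_extension_of_smul_mem' (LinearMap.range i) p hp hX
    (f ∘ₗ (LinearEquiv.ofInjective i hi).symm.toLinearMap)
  refine ⟨g, ?_⟩
  ext y
  have := LinearMap.congr_fun hg (LinearEquiv.ofInjective i hi y)
  simp only [LinearMap.comp_apply, Submodule.subtype_apply, LinearEquiv.coe_coe,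
    LinearEquiv.symm_apply_apply] at this
  exact this

end divisible'

end HExt

namespace LatticeRes

/-- Over a PID: if `c` kills `N`, `P₀` is free and `X` is `c`-divisible, then
`Hom(P₀, X) → Hom(P₁, X)` is surjective. -/
theorem precomp_surjective_of_divisible [IsDomain k] [IsPrincipalIdealRing k]
    {N : Rep.{u} k G} (R : LatticeRes L N) [Module.Free k R.P₀] (X : Rep.{u} k G) (c : k)
    (hc : ∀ n : N, c • n = 0) (hXdiv : ∀ x : X, ∃ y : X, c • y = x) :
    Function.Surjective (Cup.precomp R.i X).hom := by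
  have hp : ∀ x : R.P₀, c • x ∈ LinearMap.range R.i.hom.toLinearMap := by
    intro x
    have h0 : R.π.hom (c • x) = 0 := by rw [map_smul, hc]
    exact (R.exact _).1 h0
  exact HExt.precomp_surjective_of_divisible' (X := X) R.i.hom.toLinearMap R.inj c hp hXdiv

/-- `ℕ`-multiples version of `precomp_surjective_of_divisible` (no `ℤ`-module diamonds when
`k = ℤ`). -/
theorem precomp_surjective_of_divisible_nat [IsDomain k] [IsPrincipalIdealRing k]
    {N : Rep.{u} k G} (R : LatticeRes L N) [Module.Free k R.P₀] (X : Rep.{u} k G) (p : ℕ)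
    (hc : ∀ n : N, p • n = 0) (hXdiv : ∀ x : X, ∃ y : X, p • y = x) :
    Function.Surjective (Cup.precomp R.i X).hom :=
  R.precomp_surjective_of_divisible X (p : k)
    (fun n => by rw [Nat.cast_smul_eq_nsmul k p n]; exact hc n)
    (fun x => by
      obtain ⟨y, hy⟩ := hXdiv x
      exact ⟨y, by rw [Nat.cast_smul_eq_nsmul k p y]; exact hy⟩)

/-! ### The pairing and the second variable -/

section pair₂

variable {N : Rep.{u} k G} (R : LatticeRes L N) {X X' : Rep.{u} k G} (hX : IsSmooth L X)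
  (hX' : IsSmooth L X')

/-- **Naturality of the hyper-Ext pairing in the second variable**:
`⟨f_* e, c⟩ = f_* ⟨e, c⟩`. -/
theorem pair_map₂ (f : X ⟶ X') (n s m : ℕ) (hm : n + s = m) (e : R.Ext hX (n + 1))
    (c : (LC.cx R.smooth).H s) :
    R.pair hX' n s m hm (LatticePair.Ext.map₂ R.toLatticePair hX hX' f (n + 1) e) c =
      (LC.cxMap hX hX' f).mapH (m + 1) (R.pair hX n s m hm e c) := by
  refine Cx.Epair_EMap_right R.shortExact (R.P0 hX) (R.P1 hX) (R.adj hX) (R.P0 hX') (R.P1 hX')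
    (R.adj hX') _ _ (R.sq₂ hX hX' f) (LC.cxMap hX hX' f) ?_ ?_ n s m hm e c
  · intro a b c h x y
    have key := LC.cxPairing_natural (RepPairing.eval R.P₀ X) (RepPairing.eval R.P₀ X')
      (Cup.postcomp R.P₀ f) (𝟙 R.P₀) f (R.smooth₀.ihom hX) R.smooth₀ hX (R.smooth₀.ihom hX')
      R.smooth₀ hX' (fun _ _ => rfl) a b c h x y
    rw [LC.cxMap_id_apply] at key
    exact key.symm
  · intro a b c h x y
    have key := LC.cxPairing_natural (RepPairing.eval R.P₁ X) (RepPairing.eval R.P₁ X')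
      (Cup.postcomp R.P₁ f) (𝟙 R.P₁) f (R.smooth₁.ihom hX) R.smooth₁ hX (R.smooth₁.ihom hX')
      R.smooth₁ hX' (fun _ _ => rfl) a b c h x y
    rw [LC.cxMap_id_apply] at key
    exact key.symm

end pair₂

/-! ### The divisible case -/

section div

variable {N : Rep.{u} k G} (R : LatticeRes L N) {X : Rep.{u} k G} (hX : IsSmooth L X)
  (hNX : IsSmooth L ((Rep.ihom N).obj X))
  (hsurj : Function.Surjective (Cup.precomp R.i X).hom)

include hsurj in
/-- If `Hom(P₀, X) → Hom(P₁, X)` is surjective, then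
`0 → C(Hom(N, X)) → C(Hom(P₀, X)) → C(Hom(P₁, X)) → 0` is short exact. -/
lemma shortExact_div :
    Cx.ShortExact (LC.cxMap hNX (R.smooth₀.ihom hX) (Cup.precomp R.π X)) (R.homMap hX) :=
  LC.cx_shortExact _ _ _ _ _ (Cup.precomp_hom_injective R.π X R.surj) hsurj
    (Cup.precomp_hom_exact R.i R.π X R.surj R.exact)

/-- **The divisible case**: `Hⁿ(G, Hom(N, X)) ≃ Extⁿ(N, X)` when `Hom(P₀, X) → Hom(P₁, X)` is
surjective. -/
noncomputable def divEquiv (n : ℕ) : (LC.cx hNX).H n ≃ₗ[k] R.Ext hX n :=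
  Cx.kerEquivE (R.shortExact_div hX hNX hsurj) n

/-- The edge map `Extⁿ(N, X) → Hⁿ(Hom(P₀, X))` on the image of `divEquiv`. -/
theorem EtoH_divEquiv (n : ℕ) (x : (LC.cx hNX).H n) :
    Cx.EtoH (R.homMap hX) n (R.divEquiv hX hNX hsurj n x) =
      (LC.cxMap hNX (R.smooth₀.ihom hX) (Cup.precomp R.π X)).mapH n x :=
  Cx.EtoH_kerToE (R.shortExact_div hX hNX hsurj) n x

/-- **In the divisible case the hyper-Ext pairing is the cup product** of the evaluation pairing
`Hom(N, X) × N → X`. -/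
theorem pair_divEquiv (n s m : ℕ) (hm : n + s = m) (x : (LC.cx hNX).H (n + 1))
    (c : (LC.cx R.smooth).H s) :
    R.pair hX n s m hm (R.divEquiv hX hNX hsurj (n + 1) x) c =
      (LC.cxPairing (RepPairing.eval N X) hNX R.smooth hX).cupH (n + 1) s (m + 1) (by omega)
        x c :=
  Cx.Epair_kerToE R.shortExact (R.P0 hX) (R.P1 hX) (R.adj hX) (R.shortExact_div hX hNX hsurj)
    (LC.cxPairing (RepPairing.eval N X) hNX R.smooth hX)
    (fun a b c h x y => (LC.cxPairing_adjoint (RepPairing.eval R.P₀ X) (RepPairing.eval N X)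
      (Cup.precomp R.π X) R.π (R.smooth₀.ihom hX) R.smooth₀ hX hNX R.smooth (fun _ _ => rfl)
      a b c h x y).symm) n s m hm x c

end div

end LatticeRes

/-! ### The canonical resolution over a PID -/

section zres

variable [IsDomain k] [IsPrincipalIdealRing k] (N : Rep.{u} k G) [Finite N] (hN : IsSmooth L N)

instance free_zResR_P₀ : Module.Free k (zResR N hN).P₀ :=
  inferInstanceAs (Module.Free k (zFree N))

instance free_zResR_P₁ : Module.Free k (zResR N hN).P₁ :=
  inferInstanceAs (Module.Free k ↥(zKerSub N))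

instance free_zRes_P₁ : Module.Free k (zRes N hN).P₁ :=
  inferInstanceAs (Module.Free k ↥(zKerSub N))

omit [IsDomain k] [IsPrincipalIdealRing k] in
variable {N} in
include hN in
/-- `Hom(N, X)` is smooth for a finite smooth `N` and a smooth `X`. -/
lemma isSmooth_ihom_of_finite {X : Rep.{u} k G} (hX : IsSmooth L X) :
    IsSmooth L ((Rep.ihom N).obj X) :=
  hN.ihom hX

/-- **The divisible case for the canonical resolution**: if `p` kills `N` and `X` is
`p`-divisible then `Hⁿ(G, Hom(N, X)) ≃ Extⁿ(N, X)`. -/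
noncomputable def zDivEquiv {X : Rep.{u} k G} (hX : IsSmooth L X) (p : ℕ)
    (hc : ∀ n : N, p • n = 0) (hXdiv : ∀ x : X, ∃ y : X, p • y = x) (n : ℕ) :
    (LC.cx (isSmooth_ihom_of_finite hN hX)).H n ≃ₗ[k] (zResR N hN).Ext hX n :=
  (zResR N hN).divEquiv hX (isSmooth_ihom_of_finite hN hX)
    ((zResR N hN).precomp_surjective_of_divisible_nat X p hc hXdiv) n

/-- In the divisible case the hyper-Ext pairing of the canonical resolution is the cup product of
the evaluation pairing. -/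
theorem pair_zDivEquiv {X : Rep.{u} k G} (hX : IsSmooth L X) (p : ℕ)
    (hc : ∀ n : N, p • n = 0) (hXdiv : ∀ x : X, ∃ y : X, p • y = x) (n s m : ℕ)
    (hm : n + s = m) (x : (LC.cx (isSmooth_ihom_of_finite hN hX)).H (n + 1))
    (c : (LC.cx (zResR N hN).smooth).H s) :
    (zResR N hN).pair hX n s m hm (zDivEquiv N hN hX p hc hXdiv (n + 1) x) c =
      (LC.cxPairing (RepPairing.eval N X) (isSmooth_ihom_of_finite hN hX) (zResR N hN).smooth
        hX).cupH (n + 1) s (m + 1) (by omega) x c :=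
  (zResR N hN).pair_divEquiv hX (isSmooth_ihom_of_finite hN hX)
    ((zResR N hN).precomp_surjective_of_divisible_nat X p hc hXdiv) n s m hm x c

end zres

end Fermat.Agent.CFT
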