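import Mathlib
import Fermat.Agent.CFT.HyperExt.LCExt2nd
import Fermat.Agent.CFT.LC.ShapiroExt

/-!
# Complements on the divisible case of hyper-Ext (S55, nodes D3d(iii), D3d(iv), D3d')

On top of helper29's `HyperExt/LCExt2nd.lean` (`LatticePair.Ext.map₂`, `LatticeRes.divEquiv`):

* `HExt.Cx.EMap_kerToE`: naturality of the kernel comparison `H(K) → E(φ)` for a morphism of
  short exact sequences of complexes;
* `LatticeRes.map₂_divEquiv`: naturality of `divEquiv` in the coefficient module,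
  `f_* (divEquiv x) = divEquiv' ((postcomp N f)_* x)`;
* `Cup.postcomp_bijective_of_torsion`: for `N` killed by `p` and `f : T ⟶ X` injective with image
  containing the `p`-torsion of `X`, `Hom(N, T) → Hom(N, X)` is bijective;
  `LC.mapH_postcomp_bijective`: the induced map on level cohomology is bijective.
-/

set_option autoImplicit false
set_option linter.unusedSectionVars false

universe u v

open CategoryTheory

namespace Fermat.Agent.CFT

namespace HExt

namespace Cx

variable {k : Type u} [CommRing k] {K₁ F₁ G₁ K₂ F₂ G₂ : Cx.{u, v} k}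
  {ι₁ : Hom K₁ F₁} {φ₁ : Hom F₁ G₁} {ι₂ : Hom K₂ F₂} {φ₂ : Hom F₂ G₂}

/-- Naturality of the kernel comparison `H(K) → E(φ)`. -/
theorem EMap_kerToE (h₁ : ShortExact ι₁ φ₁) (h₂ : ShortExact ι₂ φ₂) (κ : Hom K₁ K₂)
    (α : Hom F₁ F₂) (β : Hom G₁ G₂)
    (hsq : ∀ n (x : F₁.X n), β.f n (φ₁.f n x) = φ₂.f n (α.f n x))
    (hκ : ∀ n (x : K₁.X n), ι₂.f n (κ.f n x) = α.f n (ι₁.f n x)) (n : ℕ) (x : K₁.H n) :
    EMap φ₁ φ₂ α β hsq n (kerToE h₁ n x) = kerToE h₂ n (κ.mapH n x) := by
  have hcomp : (FibMap φ₁ φ₂ α β hsq).comp (kerToFib (shHom ι₁) (shHom φ₁).toHom1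
        (fun n c => (h₁.sh.exact n).apply_apply_eq_zero c)) =
      (kerToFib (shHom ι₂) (shHom φ₂).toHom1
        (fun n c => (h₂.sh.exact n).apply_apply_eq_zero c)).comp (shHom κ) := by
    refine Hom.ext' fun m y => ?_
    change ((shHom α).f m ((shHom ι₁).f m y), (shHom (shHom β)).f m 0) =
      ((shHom ι₂).f m ((shHom κ).f m y), 0)
    refine Prod.ext ?_ (map_zero _)
    cases m with
    | zero => rfl
    | succ m => exact (hκ m y).symm
  change ((FibMap φ₁ φ₂ α β hsq).mapHs n) ((kerToFib (shHom ι₁) (shHom φ₁).toHom1 _).mapHs n x) =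
    (kerToFib (shHom ι₂) (shHom φ₂).toHom1 _).mapHs n ((shHom κ).mapHs n x)
  rw [← LinearMap.comp_apply, ← Hom.mapHs_comp, hcomp, Hom.mapHs_comp, LinearMap.comp_apply]

end Cx

end HExt

open HExt

variable {k G : Type u} [CommRing k] [Group G] {L : LevelStructure G}

namespace LatticeRes

variable {N : Rep.{u} k G} (R : LatticeRes L N) {X X' : Rep.{u} k G} (hX : IsSmooth L X)
  (hX' : IsSmooth L X') (hNX : IsSmooth L ((Rep.ihom N).obj X))
  (hNX' : IsSmooth L ((Rep.ihom N).obj X'))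
  (hsurj : Function.Surjective (Cup.precomp R.i X).hom)
  (hsurj' : Function.Surjective (Cup.precomp R.i X').hom)

/-- **Naturality of `divEquiv` in the coefficient module.** -/
theorem map₂_divEquiv (f : X ⟶ X') (n : ℕ) (x : (LC.cx hNX).H n) :
    LatticePair.Ext.map₂ R.toLatticePair hX hX' f n (R.divEquiv hX hNX hsurj n x) =
      R.divEquiv hX' hNX' hsurj' n ((LC.cxMap hNX hNX' (Cup.postcomp N f)).mapH n x) := by
  refine Cx.EMap_kerToE (R.shortExact_div hX hNX hsurj) (R.shortExact_div hX' hNX' hsurj')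
    (LC.cxMap hNX hNX' (Cup.postcomp N f)) _ _ _ (fun m y => ?_) n x
  refine LC.cxMap_comm_of_comm _ _ _ _ (Cup.postcomp N f) (Cup.precomp R.π X')
    (Cup.precomp R.π X) (Cup.postcomp R.P₀ f) (fun a => ?_) m y
  rfl

end LatticeRes

/-! ### Homomorphisms into the `p`-torsion -/

namespace Cup

variable {N T X : Rep.{u} k G} (f : T ⟶ X) (p : ℕ)

/-- For `N` killed by `p` and `f : T ⟶ X` injective with image containing the `p`-torsion of
`X`: `Hom(N, T) → Hom(N, X)` is bijective. -/
theorem postcomp_bijective_of_torsion (hpN : ∀ n : N, p • n = 0)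
    (hf : Function.Injective f.hom) (hT : ∀ x : X, p • x = 0 → ∃ t : T, f.hom t = x) :
    Function.Bijective (postcomp N f).hom := by
  refine ⟨postcomp_hom_injective N f hf, fun h => ?_⟩
  change N →ₗ[k] X at h
  have hh : ∀ n : N, ∃ t : T, f.hom t = h n := fun n =>
    hT (h n) (by rw [← map_nsmul, hpN, map_zero])
  choose t ht using hh
  have hadd : ∀ a b, t (a + b) = t a + t b := fun a b =>
    hf (by rw [map_add, ht, ht, ht, map_add])
  have hsmul : ∀ (c : k) (a : N), t (c • a) = c • t a := fun c a =>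
    hf (by rw [map_smul, ht, ht, map_smul])
  refine ⟨(⟨⟨t, hadd⟩, hsmul⟩ : N →ₗ[k] T), ?_⟩
  refine LinearMap.ext fun n => ?_
  exact ht n

end Cup

namespace LC

variable {N T X : Rep.{u} k G} (f : T ⟶ X) (p : ℕ)

/-- `Hⁿ(G, Hom(N, T)) → Hⁿ(G, Hom(N, X))` is bijective if `N` is killed by `p` and `T` contains
(via the injective map `f`) the `p`-torsion of `X`. -/
theorem mapH_postcomp_bijective (hNT : IsSmooth L ((Rep.ihom N).obj T))
    (hNX : IsSmooth L ((Rep.ihom N).obj X))
    (hpN : ∀ n : N, p • n = 0) (hf : Function.Injective f.hom)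
    (hfT : ∀ x : X, p • x = 0 → ∃ t : T, f.hom t = x) (n : ℕ) :
    Function.Bijective ((LC.cxMap hNT hNX (Cup.postcomp N f)).mapH n) :=
  Cx.Hom.mapH_bijective_of_bijective _
    (fun m => LC.cxMap_f_bijective _ _ _ (Cup.postcomp_bijective_of_torsion f p hpN hf hfT) m) n

end LC

end Fermat.Agent.CFT
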