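import Fermat.Agent.CFT.HyperExt.LCExtSES
import Fermat.Agent.CFT.LC.Res

/-!
# Restriction of lattice pairs along a compatible homomorphism

For `f : H →* G` compatible with level structures `LH`, `L` (`LH.Compat L f`):
`LatticePair.res R f hf : LatticePair k LH` (same modules and maps, restricted action).
The restriction of lattice resolutions is `LatticeRes.res` of `PT/PairNat.lean`.
-/

set_option autoImplicit false

universe u

open CategoryTheory

namespace Fermat.Agent.CFT

variable {k G H : Type u} [CommRing k] [Group G] [Group H] {L : LevelStructure G}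
  {LH : LevelStructure H}

/-- Restriction of a lattice pair along a compatible homomorphism. -/
def LatticePair.res (R : LatticePair k L) (f : H →* G) (hf : LH.Compat L f) :
    LatticePair k LH where
  P₀ := Rep.res f R.P₀
  P₁ := Rep.res f R.P₁
  i := (Rep.resFunctor f).map R.i
  fin₀ := R.fin₀
  fin₁ := R.fin₁
  smooth₀ := R.smooth₀.res hf
  smooth₁ := R.smooth₁.res hf

@[simp] lemma LatticePair.res_i_hom_apply (R : LatticePair k L) (f : H →* G)
    (hf : LH.Compat L f) (x : R.P₁) :
    (R.res f hf).i.hom (show (R.res f hf).P₁ from x) = R.i.hom x := rfl

end Fermat.Agent.CFT
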