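import Fermat.Agent.CFT.HyperExt.EFivePi
import Fermat.Agent.CFT.HyperExt.LCExtResDef
import Fermat.Agent.CFT.LC.ClosedShapiro
import Fermat.Agent.CFT.LC.LocH90Ihom
import Fermat.Agent.S55.LCHom

/-!
# Localisation of hyper-Ext with values in a locally coinduced module

Let `r i : H i →* G` be a family of homomorphisms compatible with level structures
(`LC.LevelComap`), `R` a lattice pair over `G`, `A` a smooth `G`-module and `lam i : Res A ⟶ Y i`
morphisms to smooth `H i`-modules.  We define the localisation map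

`LatticePair.Ext.loc : Extⁿ_G(R, A) ⟶ ∏ i, Extⁿ_{H i}(Res R, Y i)`

and prove: if `Hom(P₀, A)`, `Hom(P₁, A)` are locally coinduced from the `Hom(Res P_j, Y i)`
(`LC.IsLocCoind`) and Hilbert 90 (`LC.LocH90`) holds for `Hom(Res P₀, Y i)`, then `Ext.loc` is
bijective for `n = 0, 1` and injective for `n = 2`  (five lemma on the `E`-sequences, using the
closed-subgroup Shapiro lemma `LC.locH_*_bijective/injective`).
-/

set_option autoImplicit false

universe u

open CategoryTheory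

namespace Fermat.Agent.CFT

open HExt

variable {k G : Type u} [CommRing k] [Group G] {L : LevelStructure G}
  {ι : Type*} {H : ι → Type u} [∀ i, Group (H i)] {LH : ∀ i, LevelStructure (H i)}
  {r : ∀ i, H i →* G}

namespace LC

/-- Naturality of the localisation chain maps `LC.locHom` with respect to a morphism of the
global module covered by morphisms of the local modules. -/
lemma locHom_comm_of_comm (hlev : LevelComap L LH r) {A B : Rep.{u} k G} (hA : IsSmooth L A)
    (hB : IsSmooth L B) {Y Z : ∀ i, Rep.{u} k (H i)} (hY : ∀ i, IsSmooth (LH i) (Y i))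
    (hZ : ∀ i, IsSmooth (LH i) (Z i)) (f : A ⟶ B) (lamA : ∀ i, Rep.res (r i) A ⟶ Y i)
    (lamB : ∀ i, Rep.res (r i) B ⟶ Z i) (g : ∀ i, Y i ⟶ Z i)
    (h : ∀ i (a : A), (lamB i).hom (show Rep.res (r i) B from f.hom a) =
      (g i).hom ((lamA i).hom (show Rep.res (r i) A from a)))
    (i : ι) (n : ℕ) (x : (cx hA).X n) :
    (locHom hlev hB hZ lamB i).f n ((cxMap hA hB f).f n x) =
      (cxMap (hY i) (hZ i) (g i)).f n ((locHom hlev hA hY lamA i).f n x) := by
  match n, x with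
  | 0, x => exact h i x
  | 1, x => exact Subtype.ext (funext fun s => h i _)
  | 2, x => exact Subtype.ext (funext fun s => h i _)
  | 3, x => exact Subtype.ext (funext fun s => h i _)
  | _ + 4, _ => rfl

end LC

namespace LatticePair

section lamIhom

variable {A : Rep.{u} k G} {Y : ∀ i, Rep.{u} k (H i)}

/-- The morphism `Res_{H i} Hom(P, A) ⟶ Hom(Res P, Y i)` induced by `lam i : Res A ⟶ Y i`. -/
noncomputable def lamIhom (P : Rep.{u} k G) (lam : ∀ i, Rep.res (r i) A ⟶ Y i) (i : ι) :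
    Rep.res (r i) ((Rep.ihom P).obj A) ⟶ (Rep.ihom (Rep.res (r i) P)).obj (Y i) :=
  (Fermat.Agent.S55.resIhomIso (r i) P A).hom ≫ (Rep.ihom (Rep.res (r i) P)).map (lam i)

lemma lamIhom_apply (P : Rep.{u} k G) (lam : ∀ i, Rep.res (r i) A ⟶ Y i) (i : ι)
    (φ : P →ₗ[k] A) (x : P) :
    (show P →ₗ[k] Y i from (lamIhom P lam i).hom
      (show ↑(Rep.res (r i) ((Rep.ihom P).obj A)) from φ)) x = (lam i).hom (φ x) := rfl

end lamIhom

variable (hlev : LC.LevelComap L LH r) (R : LatticePair k L) {A : Rep.{u} k G}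
  (hA : IsSmooth L A) {Y : ∀ i, Rep.{u} k (H i)} (hY : ∀ i, IsSmooth (LH i) (Y i))
  (lam : ∀ i, Rep.res (r i) A ⟶ Y i)

include hlev hY in
/-- Smoothness of the local modules `Hom(Res P₀, Y i)`. -/
lemma smooth₀_loc (i : ι) :
    IsSmooth (LH i) ((Rep.ihom (Rep.res (r i) R.P₀)).obj (Y i)) :=
  (R.res (r i) (hlev.compat i)).smooth₀.ihom (hY i)

include hlev hY in
/-- Smoothness of the local modules `Hom(Res P₁, Y i)`. -/
lemma smooth₁_loc (i : ι) :
    IsSmooth (LH i) ((Rep.ihom (Rep.res (r i) R.P₁)).obj (Y i)) :=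
  (R.res (r i) (hlev.compat i)).smooth₁.ihom (hY i)

/-- The localisation chain map on `C(Hom(P₀, A))`. -/
noncomputable def locHom₀ (i : ι) :
    Cx.Hom (LC.cx (R.smooth₀.ihom hA))
      (LC.cx ((R.res (r i) (hlev.compat i)).smooth₀.ihom (hY i))) :=
  LC.locHom hlev (R.smooth₀.ihom hA) (R.smooth₀_loc hlev hY) (lamIhom R.P₀ lam) i

/-- The localisation chain map on `C(Hom(P₁, A))`. -/
noncomputable def locHom₁ (i : ι) :
    Cx.Hom (LC.cx (R.smooth₁.ihom hA))
      (LC.cx ((R.res (r i) (hlev.compat i)).smooth₁.ihom (hY i))) :=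
  LC.locHom hlev (R.smooth₁.ihom hA) (R.smooth₁_loc hlev hY) (lamIhom R.P₁ lam) i

/-- The localisation maps commute with `homMap`. -/
lemma loc_sq (i : ι) (n : ℕ) (x : (LC.cx (R.smooth₀.ihom hA)).X n) :
    (R.locHom₁ hlev hA hY lam i).f n ((R.homMap hA).f n x) =
      ((R.res (r i) (hlev.compat i)).homMap (hY i)).f n
        ((R.locHom₀ hlev hA hY lam i).f n x) :=
  LC.locHom_comm_of_comm hlev (R.smooth₀.ihom hA) (R.smooth₁.ihom hA)
    (R.smooth₀_loc hlev hY) (R.smooth₁_loc hlev hY) (Cup.precomp R.i A)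
    (lamIhom R.P₀ lam) (lamIhom R.P₁ lam)
    (fun i => Cup.precomp (R.res (r i) (hlev.compat i)).i (Y i)) (fun _ _ => rfl) i n x

/-- **The localisation map on hyper-Ext**:
`Extⁿ_G(R, A) ⟶ ∏ i, Extⁿ_{H i}(Res R, Y i)`. -/
noncomputable def Ext.loc (n : ℕ) :
    R.Ext hA n →ₗ[k] ∀ i, (R.res (r i) (hlev.compat i)).Ext (hY i) n :=
  Cx.EMapPi (R.homMap hA) (fun i => (R.res (r i) (hlev.compat i)).homMap (hY i))
    (R.locHom₀ hlev hA hY lam) (R.locHom₁ hlev hA hY lam) (R.loc_sq hlev hA hY lam) n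

lemma Ext.loc_apply (n : ℕ) (e : R.Ext hA n) (i : ι) :
    Ext.loc hlev R hA hY lam n e i =
      Cx.EMap (R.homMap hA) ((R.res (r i) (hlev.compat i)).homMap (hY i))
        (R.locHom₀ hlev hA hY lam i) (R.locHom₁ hlev hA hY lam i)
        (R.loc_sq hlev hA hY lam i) n e := rfl

/-- The edge map `Ext → H(Hom(P₀, -))` commutes with localisation. -/
lemma EtoH_loc (n : ℕ) (e : R.Ext hA n) (i : ι) :
    Cx.EtoH ((R.res (r i) (hlev.compat i)).homMap (hY i)) n (Ext.loc hlev R hA hY lam n e i) =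
      (R.locHom₀ hlev hA hY lam i).mapH n (Cx.EtoH (R.homMap hA) n e) :=
  Cx.EtoH_EMap _ _ _ _ _ n e

/-- The edge map `H(Hom(P₁, -)) → Ext` commutes with localisation. -/
lemma loc_HtoE (n : ℕ) (x : (LC.cx (R.smooth₁.ihom hA)).H n) (i : ι) :
    Ext.loc hlev R hA hY lam (n + 1) (Cx.HtoE (R.homMap hA) n x) i =
      Cx.HtoE ((R.res (r i) (hlev.compat i)).homMap (hY i)) n
        ((R.locHom₁ hlev hA hY lam i).mapH n x) :=
  Cx.EMap_HtoE _ _ _ _ _ n x

section main

variable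
  (hc₀ : LC.IsLocCoind L r ((Rep.ihom R.P₀).obj A)
    (fun i => (Rep.ihom (Rep.res (r i) R.P₀)).obj (Y i)) (lamIhom R.P₀ lam))
  (hc₁ : LC.IsLocCoind L r ((Rep.ihom R.P₁).obj A)
    (fun i => (Rep.ihom (Rep.res (r i) R.P₁)).obj (Y i)) (lamIhom R.P₁ lam))

include hc₀ hc₁ in
/-- `Ext⁰` localises bijectively. -/
theorem Ext.loc_zero_bijective : Function.Bijective (Ext.loc hlev R hA hY lam 0) :=
  Cx.EMapPi_zero_bijective _ _ _ _ _
    (LC.locH_zero_bijective hlev (R.smooth₀.ihom hA) (R.smooth₀_loc hlev hY) hc₀)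
    (LC.locH_zero_bijective hlev (R.smooth₁.ihom hA) (R.smooth₁_loc hlev hY) hc₁).1

variable (h90₀ : LC.LocH90 L LH r (fun i => (Rep.ihom (Rep.res (r i) R.P₀)).obj (Y i)))

include hc₀ hc₁ h90₀ in
/-- `Ext¹` localises bijectively (under Hilbert 90 for `Hom(Res P₀, Y i)`). -/
theorem Ext.loc_one_bijective : Function.Bijective (Ext.loc hlev R hA hY lam 1) :=
  Cx.EMapPi_succ_bijective _ _ _ _ _ 0
    (LC.locH_zero_bijective hlev (R.smooth₀.ihom hA) (R.smooth₀_loc hlev hY) hc₀).2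
    (LC.locH_zero_bijective hlev (R.smooth₁.ihom hA) (R.smooth₁_loc hlev hY) hc₁)
    (LC.locH_one_bijective hlev (R.smooth₀.ihom hA) (R.smooth₀_loc hlev hY) hc₀ h90₀)
    (LC.locH_one_injective hlev (R.smooth₁.ihom hA) (R.smooth₁_loc hlev hY) hc₁)

include hc₀ hc₁ h90₀ in
/-- `Ext²` localises injectively (under Hilbert 90 for `Hom(Res P₀, Y i)`). -/
theorem Ext.loc_two_injective : Function.Injective (Ext.loc hlev R hA hY lam 2) :=
  Cx.EMapPi_succ_injective _ _ _ _ _ 1
    (LC.locH_one_surjective hlev (R.smooth₀.ihom hA) (R.smooth₀_loc hlev hY) hc₀ h90₀)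
    (LC.locH_one_injective hlev (R.smooth₁.ihom hA) (R.smooth₁_loc hlev hY) hc₁)
    (LC.locH_two_injective hlev (R.smooth₀.ihom hA) (R.smooth₀_loc hlev hY) hc₀ h90₀)

include hc₀ hc₁ in
/-- `Ext¹` localises bijectively when `P₀` is free and Hilbert 90 holds for the `Y i`. -/
theorem Ext.loc_one_bijective_of_free [Module.Free k R.P₀] (h90 : LC.LocH90 L LH r Y) :
    Function.Bijective (Ext.loc hlev R hA hY lam 1) :=
  Ext.loc_one_bijective hlev R hA hY lam hc₀ hc₁ (h90.ihom R.P₀ R.smooth₀)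

include hc₀ hc₁ in
/-- `Ext²` localises injectively when `P₀` is free and Hilbert 90 holds for the `Y i`. -/
theorem Ext.loc_two_injective_of_free [Module.Free k R.P₀] (h90 : LC.LocH90 L LH r Y) :
    Function.Injective (Ext.loc hlev R hA hY lam 2) :=
  Ext.loc_two_injective hlev R hA hY lam hc₀ hc₁ (h90.ihom R.P₀ R.smooth₀)

end main

end LatticePair

end Fermat.Agent.CFT
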