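import Fermat.Agent.CFT.HyperExt.LCExtLoc
import Fermat.Agent.CFT.LC.ClosedShapiroTwo

/-!
# Localisation of hyper-Ext in degree 2: the image

Setting of `HyperExt/LCExtLoc.lean`.  The localisation map
`Ext²_G(R, A) ⟶ ∏ i, Ext²_{H i}(Res R, Y i)` is injective (`Ext.loc_two_injective`); here we show
that its image contains every family `e'` whose edge classes
`EtoH (e' i) ∈ H²(H i, Hom(Res P₀, Y i))` are effaceable, i.e. die on restriction to
`(r i)⁻¹ N` for a level `N` of `G` (`Ext.loc_two_mem_range`).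

* `Cx.EMapPi_succ_mem_range`: the pointwise form of the four lemma for `EMapPi`.
-/

set_option autoImplicit false

universe u v w

open CategoryTheory

namespace Fermat.Agent.CFT

open HExt

namespace HExt.Cx

variable {k : Type u} [CommRing k] {ι : Type w} {F₁ G₁ : Cx.{u, v} k} {F₂ G₂ : ι → Cx.{u, v} k}
  (φ₁ : Hom F₁ G₁) (φ₂ : ∀ i, Hom (F₂ i) (G₂ i)) (α : ∀ i, Hom F₁ (F₂ i))
  (β : ∀ i, Hom G₁ (G₂ i))
  (hsq : ∀ i n (x : F₁.X n), (β i).f n (φ₁.f n x) = (φ₂ i).f n ((α i).f n x))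

/-- Four lemma, pointwise form: an element of `∏ i, Eⁿ⁺¹(φ₂ i)` whose edge classes in
`∏ i, Hⁿ⁺¹(F₂ i)` come from `Hⁿ⁺¹(F₁)` is in the image of `EMapPi`. -/
theorem EMapPi_succ_mem_range (n : ℕ) (h2 : Function.Surjective (mapHPi β n))
    (h5 : Function.Injective (mapHPi β (n + 1))) (e' : ∀ i, E (φ₂ i) (n + 1))
    (h4 : ∃ d : F₁.H (n + 1), mapHPi α (n + 1) d = fun i => EtoH (φ₂ i) (n + 1) (e' i)) :
    ∃ e, EMapPi φ₁ φ₂ α β hsq (n + 1) e = e' := by
  obtain ⟨d, hd⟩ := h4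
  -- `φ₁ d = 0`
  have h1 : φ₁.mapH (n + 1) d = 0 := by
    apply h5
    rw [map_zero]
    have := LinearMap.congr_fun (piMap_mapH_comp_mapHPi φ₁ φ₂ α β hsq (n + 1)) d
    simp only [LinearMap.comp_apply] at this
    rw [← this, hd]
    funext i
    exact (exact_EtoH_mapH (φ₂ i) (n + 1) _).2 ⟨e' i, rfl⟩
  obtain ⟨c₁, hc₁⟩ := (exact_EtoH_mapH φ₁ (n + 1) d).1 h1
  -- the difference comes from `∏ Hⁿ(G₂ i)`
  have h3 : ∀ i, EtoH (φ₂ i) (n + 1) (e' i - EMapPi φ₁ φ₂ α β hsq (n + 1) c₁ i) = 0 := by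
    intro i
    have this : EtoH (φ₂ i) (n + 1) (EMapPi φ₁ φ₂ α β hsq (n + 1) c₁ i) =
        mapHPi α (n + 1) (EtoH φ₁ (n + 1) c₁) i :=
      congrFun (LinearMap.congr_fun (piMap_EtoH_comp_EMapPi φ₁ φ₂ α β hsq (n + 1)) c₁) i
    rw [map_sub, this, hc₁, hd, sub_self]
  choose b' hb' using fun i => (exact_HtoE_EtoH (φ₂ i) n _).1 (h3 i)
  obtain ⟨b, hb⟩ := h2 b'
  refine ⟨c₁ + HtoE φ₁ n b, ?_⟩
  rw [map_add]
  have := LinearMap.congr_fun (piMap_HtoE_comp_mapHPi φ₁ φ₂ α β hsq n) b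
  simp only [LinearMap.comp_apply] at this
  rw [← this, hb]
  funext i
  have h6 : (LinearMap.piMap fun i => HtoE (φ₂ i) n) b' i = HtoE (φ₂ i) n (b' i) := rfl
  rw [Pi.add_apply, h6, hb' i]
  abel

end HExt.Cx

namespace LatticePair

variable {k G : Type u} [CommRing k] [Group G] {L : LevelStructure G}
  {ι : Type*} {H : ι → Type u} [∀ i, Group (H i)] {LH : ∀ i, LevelStructure (H i)}
  {r : ∀ i, H i →* G}
  (hlev : LC.LevelComap L LH r) (R : LatticePair k L) {A : Rep.{u} k G}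
  (hA : IsSmooth L A) {Y : ∀ i, Rep.{u} k (H i)} (hY : ∀ i, IsSmooth (LH i) (Y i))
  (lam : ∀ i, Rep.res (r i) A ⟶ Y i)
  (hc₀ : LC.IsLocCoind L r ((Rep.ihom R.P₀).obj A)
    (fun i => (Rep.ihom (Rep.res (r i) R.P₀)).obj (Y i)) (lamIhom R.P₀ lam))
  (hc₁ : LC.IsLocCoind L r ((Rep.ihom R.P₁).obj A)
    (fun i => (Rep.ihom (Rep.res (r i) R.P₁)).obj (Y i)) (lamIhom R.P₁ lam))
  (h90₀ : LC.LocH90 L LH r (fun i => (Rep.ihom (Rep.res (r i) R.P₀)).obj (Y i)))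
  (h90₁ : LC.LocH90 L LH r (fun i => (Rep.ihom (Rep.res (r i) R.P₁)).obj (Y i)))

include hc₀ hc₁ h90₀ h90₁ in
/-- **The image of the localisation of `Ext²`**: a family `e'` of local classes whose edge classes
in `H²(H i, Hom(Res P₀, Y i))` are effaceable by levels of `G` is the localisation of a global
class. -/
theorem Ext.loc_two_mem_range [Finite ι]
    (e' : ∀ i, (R.res (r i) (hlev.compat i)).Ext (hY i) 2)
    (heff : ∀ i, ∃ N, L.IsLevel N ∧
      LC.resH (LevelStructure.compat_comap (LH i) (N.comap (r i)).subtype)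
        (R.smooth₀_loc hlev hY i) 2
        (Cx.EtoH ((R.res (r i) (hlev.compat i)).homMap (hY i)) 2 (e' i)) = 0) :
    ∃ e, Ext.loc hlev R hA hY lam 2 e = e' :=
  Cx.EMapPi_succ_mem_range (R.homMap hA) (fun i => (R.res (r i) (hlev.compat i)).homMap (hY i))
    (R.locHom₀ hlev hA hY lam) (R.locHom₁ hlev hA hY lam) (R.loc_sq hlev hA hY lam) 1
    (LC.locH_one_surjective hlev (R.smooth₁.ihom hA) (R.smooth₁_loc hlev hY) hc₁ h90₁)
    (LC.locH_two_injective hlev (R.smooth₁.ihom hA) (R.smooth₁_loc hlev hY) hc₁ h90₁) e'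
    (LC.locH_two_surjective_of_eff hlev (R.smooth₀.ihom hA) (R.smooth₀_loc hlev hY) hc₀ h90₀
      (fun i => Cx.EtoH ((R.res (r i) (hlev.compat i)).homMap (hY i)) 2 (e' i)) heff)

include hc₀ hc₁ in
/-- The same when `P₀`, `P₁` are free and Hilbert 90 holds for the `Y i`. -/
theorem Ext.loc_two_mem_range_of_free [Finite ι] [Module.Free k R.P₀] [Module.Free k R.P₁]
    (h90 : LC.LocH90 L LH r Y)
    (e' : ∀ i, (R.res (r i) (hlev.compat i)).Ext (hY i) 2)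
    (heff : ∀ i, ∃ N, L.IsLevel N ∧
      LC.resH (LevelStructure.compat_comap (LH i) (N.comap (r i)).subtype)
        (R.smooth₀_loc hlev hY i) 2
        (Cx.EtoH ((R.res (r i) (hlev.compat i)).homMap (hY i)) 2 (e' i)) = 0) :
    ∃ e, Ext.loc hlev R hA hY lam 2 e = e' :=
  Ext.loc_two_mem_range hlev R hA hY lam hc₀ hc₁ (h90.ihom R.P₀ R.smooth₀)
    (h90.ihom R.P₁ R.smooth₁) e' heff

end LatticePair

end Fermat.Agent.CFT
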