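import Mathlib
import Fermat.Agent.CFT.HyperExt.LCExtDiv
import Fermat.Agent.CFT.PT.PairNat

/-!
# Naturality of the restriction of hyper-Ext (S55, node D3g)

On top of helper20's `PT/PairNat.lean` (`LatticeRes.res`, `LatticeRes.Ext.res`, `LC.cxResIhom`)
and helper29's `HyperExt/LCExt2nd.lean` (`LatticePair.Ext.map₂`, `LatticeRes.divEquiv`):

* `LatticeRes.Ext.res_map₂`: restriction commutes with change of coefficients;
* `LatticeRes.homRes`, `LatticeRes.Ext.res_map`: restriction commutes with the first-variable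
  functoriality `LatticePair.Ext.map`;
* `LatticeRes.EtoH_res`, `LatticeRes.res_HtoE`: compatibility with the edge maps;
* `LatticeRes.res_precomp_surjective`, `LatticeRes.res_divEquiv`: restriction is compatible with
  the divisible-case isomorphism `Hⁿ(Hom(N, X)) ≃ Extⁿ(N, X)`;
* `LatticeRes.map₂_res_divEquiv`: the same for restriction followed by a change of coefficients
  `t : Res X ⟶ Y'` (the shape of the localisation maps of Poitou–Tate).
-/

set_option autoImplicit false
set_option linter.unusedSectionVars false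

universe u

open CategoryTheory

namespace Fermat.Agent.CFT

open HExt LevelStructure

variable {k G H : Type u} [CommRing k] [Group G] [Group H]
  {LH : LevelStructure H} {LG : LevelStructure G} {f : H →* G}

namespace LatticeRes

variable {N N' : Rep.{u} k G} (R : LatticeRes LG N) (R' : LatticeRes LG N')
  (hf : LH.Compat LG f) {X Y : Rep.{u} k G} (hX : IsSmooth LG X) (hY : IsSmooth LG Y)

/-- Restriction commutes with change of coefficients. -/
theorem Ext.res_map₂ (g : X ⟶ Y) (n : ℕ) (e : R.Ext hX n) :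
    LatticePair.Ext.map₂ (R.res hf).toLatticePair (hX.res hf) (hY.res hf) (Rep.resMap f g) n
        (Ext.res R hf hX n e) =
      Ext.res R hf hY n (LatticePair.Ext.map₂ R.toLatticePair hX hY g n e) := by
  have sq1 : ∀ m (y : (LC.cx (R.smooth₀.ihom hX)).X m),
      ((LC.cxMap ((R.res hf).smooth₁.ihom (hX.res hf)) ((R.res hf).smooth₁.ihom (hY.res hf))
          (Cup.postcomp (R.res hf).P₁ (Rep.resMap f g))).comp
          (LC.cxResIhom hf R.smooth₁ hX)).f m ((R.homMap hX).f m y) =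
        ((R.res hf).homMap (hY.res hf)).f m
          (((LC.cxMap ((R.res hf).smooth₀.ihom (hX.res hf))
            ((R.res hf).smooth₀.ihom (hY.res hf))
            (Cup.postcomp (R.res hf).P₀ (Rep.resMap f g))).comp
            (LC.cxResIhom hf R.smooth₀ hX)).f m y) := by
    intro m y
    change (LC.cxMap _ _ (Cup.postcomp (R.res hf).P₁ (Rep.resMap f g))).f m
        ((LC.cxResIhom hf R.smooth₁ hX).f m ((R.homMap hX).f m y)) =
      ((R.res hf).homMap (hY.res hf)).f m
        ((LC.cxMap _ _ (Cup.postcomp (R.res hf).P₀ (Rep.resMap f g))).f m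
          ((LC.cxResIhom hf R.smooth₀ hX).f m y))
    rw [R.res_sq hf hX, (R.res hf).sq₂ (hX.res hf) (hY.res hf)]
  have sq2 : ∀ m (y : (LC.cx (R.smooth₀.ihom hX)).X m),
      ((LC.cxResIhom hf R.smooth₁ hY).comp
          (LC.cxMap (R.smooth₁.ihom hX) (R.smooth₁.ihom hY) (Cup.postcomp R.P₁ g))).f m
          ((R.homMap hX).f m y) =
        ((R.res hf).homMap (hY.res hf)).f m
          (((LC.cxResIhom hf R.smooth₀ hY).comp
            (LC.cxMap (R.smooth₀.ihom hX) (R.smooth₀.ihom hY) (Cup.postcomp R.P₀ g))).f m y) := by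
    intro m y
    change (LC.cxResIhom hf R.smooth₁ hY).f m
        ((LC.cxMap _ _ (Cup.postcomp R.P₁ g)).f m ((R.homMap hX).f m y)) =
      ((R.res hf).homMap (hY.res hf)).f m ((LC.cxResIhom hf R.smooth₀ hY).f m
        ((LC.cxMap _ _ (Cup.postcomp R.P₀ g)).f m y))
    rw [R.sq₂ hX hY, R.res_sq hf hY]
  have h1 := Cx.EMap_comp (R.homMap hX) ((R.res hf).homMap (hX.res hf))
    ((R.res hf).homMap (hY.res hf)) _ _ _ _ (R.res_sq hf hX)
    ((R.res hf).sq₂ (hX.res hf) (hY.res hf) (Rep.resMap f g)) sq1 n e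
  have h2 := Cx.EMap_comp (R.homMap hX) (R.homMap hY) ((R.res hf).homMap (hY.res hf)) _ _ _ _
    (R.sq₂ hX hY g) (R.res_sq hf hY) sq2 n e
  refine (h1.trans ?_).trans h2.symm
  refine LinearMap.congr_fun (Cx.EMap_congr _ _ _ _ _ _ _ _ (fun m y => ?_) (fun m y => ?_) n) e
  · change (LC.cxMap _ _ (Cup.postcomp (Rep.res f R.P₀) (Rep.resMap f g))).f m
        ((LC.cxMap _ _ (Fermat.Agent.S55.resIhomIso f R.P₀ X).hom).f m
          ((LC.cxRes hf (R.smooth₀.ihom hX)).f m y)) =
      (LC.cxMap _ _ (Fermat.Agent.S55.resIhomIso f R.P₀ Y).hom).f m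
        ((LC.cxRes hf (R.smooth₀.ihom hY)).f m
          ((LC.cxMap (R.smooth₀.ihom hX) (R.smooth₀.ihom hY) (Cup.postcomp R.P₀ g)).f m y))
    rw [LC.cxRes_cxMap]
    refine LC.cxMap_comm_of_comm _ _ _ _ _ _ _ _ (fun a => ?_) m _
    rfl
  · change (LC.cxMap _ _ (Cup.postcomp (Rep.res f R.P₁) (Rep.resMap f g))).f m
        ((LC.cxMap _ _ (Fermat.Agent.S55.resIhomIso f R.P₁ X).hom).f m
          ((LC.cxRes hf (R.smooth₁.ihom hX)).f m y)) =
      (LC.cxMap _ _ (Fermat.Agent.S55.resIhomIso f R.P₁ Y).hom).f m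
        ((LC.cxRes hf (R.smooth₁.ihom hY)).f m
          ((LC.cxMap (R.smooth₁.ihom hX) (R.smooth₁.ihom hY) (Cup.postcomp R.P₁ g)).f m y))
    rw [LC.cxRes_cxMap]
    refine LC.cxMap_comm_of_comm _ _ _ _ _ _ _ _ (fun a => ?_) m _
    rfl

/-- Compatibility of restriction with the edge map `Extⁿ → Hⁿ(Hom(P₀, -))`. -/
lemma EtoH_res (n : ℕ) (e : R.Ext hX n) :
    Cx.EtoH ((R.res hf).homMap (hX.res hf)) n (Ext.res R hf hX n e) =
      (LC.cxResIhom hf R.smooth₀ hX).mapH n (Cx.EtoH (R.homMap hX) n e) :=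
  Cx.EtoH_EMap _ _ _ _ _ n e

/-- Compatibility of restriction with the edge map `Hⁿ(Hom(P₁, -)) → Extⁿ⁺¹`. -/
lemma res_HtoE (n : ℕ) (x : (LC.cx (R.smooth₁.ihom hX)).H n) :
    Ext.res R hf hX (n + 1) (Cx.HtoE (R.homMap hX) n x) =
      Cx.HtoE ((R.res hf).homMap (hX.res hf)) n ((LC.cxResIhom hf R.smooth₁ hX).mapH n x) :=
  Cx.EMap_HtoE _ _ _ _ _ n x

variable {R R'}

/-- Restriction of a morphism of lattice pairs. -/
noncomputable def homRes (h : LatticePair.Hom R.toLatticePair R'.toLatticePair) :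
    LatticePair.Hom (R.res hf).toLatticePair (R'.res hf).toLatticePair where
  f₀ := Rep.resMap f h.f₀
  f₁ := Rep.resMap f h.f₁
  comm x := h.comm x

/-- Restriction commutes with functoriality in the first variable. -/
theorem Ext.res_map (h : LatticePair.Hom R.toLatticePair R'.toLatticePair) (n : ℕ)
    (e : R'.Ext hX n) :
    LatticePair.Ext.map (hX.res hf) (homRes hf h) n (Ext.res R' hf hX n e) =
      Ext.res R hf hX n (LatticePair.Ext.map hX h n e) := by
  have sq1 : ∀ m (y : (LC.cx (R'.smooth₀.ihom hX)).X m),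
      ((LC.cxMap ((R'.res hf).smooth₁.ihom (hX.res hf)) ((R.res hf).smooth₁.ihom (hX.res hf))
          (Cup.precomp (homRes hf h).f₁ (Rep.res f X))).comp
          (LC.cxResIhom hf R'.smooth₁ hX)).f m ((R'.homMap hX).f m y) =
        ((R.res hf).homMap (hX.res hf)).f m
          (((LC.cxMap ((R'.res hf).smooth₀.ihom (hX.res hf))
            ((R.res hf).smooth₀.ihom (hX.res hf))
            (Cup.precomp (homRes hf h).f₀ (Rep.res f X))).comp
            (LC.cxResIhom hf R'.smooth₀ hX)).f m y) := by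
    intro m y
    change (LC.cxMap _ _ (Cup.precomp (homRes hf h).f₁ (Rep.res f X))).f m
        ((LC.cxResIhom hf R'.smooth₁ hX).f m ((R'.homMap hX).f m y)) =
      ((R.res hf).homMap (hX.res hf)).f m
        ((LC.cxMap _ _ (Cup.precomp (homRes hf h).f₀ (Rep.res f X))).f m
          ((LC.cxResIhom hf R'.smooth₀ hX).f m y))
    rw [R'.res_sq hf hX, (homRes hf h).sq (hX.res hf)]
  have sq2 : ∀ m (y : (LC.cx (R'.smooth₀.ihom hX)).X m),
      ((LC.cxResIhom hf R.smooth₁ hX).comp
          (LC.cxMap (R'.smooth₁.ihom hX) (R.smooth₁.ihom hX) (Cup.precomp h.f₁ X))).f m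
          ((R'.homMap hX).f m y) =
        ((R.res hf).homMap (hX.res hf)).f m
          (((LC.cxResIhom hf R.smooth₀ hX).comp
            (LC.cxMap (R'.smooth₀.ihom hX) (R.smooth₀.ihom hX) (Cup.precomp h.f₀ X))).f m y) := by
    intro m y
    change (LC.cxResIhom hf R.smooth₁ hX).f m ((LC.cxMap _ _ (Cup.precomp h.f₁ X)).f m
        ((R'.homMap hX).f m y)) =
      ((R.res hf).homMap (hX.res hf)).f m ((LC.cxResIhom hf R.smooth₀ hX).f m
        ((LC.cxMap _ _ (Cup.precomp h.f₀ X)).f m y))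
    rw [h.sq hX, R.res_sq hf hX]
  have h1 := Cx.EMap_comp (R'.homMap hX) ((R'.res hf).homMap (hX.res hf))
    ((R.res hf).homMap (hX.res hf)) _ _ _ _ (R'.res_sq hf hX) ((homRes hf h).sq (hX.res hf))
    sq1 n e
  have h2 := Cx.EMap_comp (R'.homMap hX) (R.homMap hX) ((R.res hf).homMap (hX.res hf)) _ _ _ _
    (h.sq hX) (R.res_sq hf hX) sq2 n e
  refine (h1.trans ?_).trans h2.symm
  refine LinearMap.congr_fun (Cx.EMap_congr _ _ _ _ _ _ _ _ (fun m y => ?_) (fun m y => ?_) n) e
  · change (LC.cxMap _ _ (Cup.precomp (Rep.resMap f h.f₀) (Rep.res f X))).f m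
        ((LC.cxMap _ _ (Fermat.Agent.S55.resIhomIso f R'.P₀ X).hom).f m
          ((LC.cxRes hf (R'.smooth₀.ihom hX)).f m y)) =
      (LC.cxMap _ _ (Fermat.Agent.S55.resIhomIso f R.P₀ X).hom).f m
        ((LC.cxRes hf (R.smooth₀.ihom hX)).f m
          ((LC.cxMap (R'.smooth₀.ihom hX) (R.smooth₀.ihom hX) (Cup.precomp h.f₀ X)).f m y))
    rw [LC.cxRes_cxMap]
    refine LC.cxMap_comm_of_comm _ _ _ _ _ _ _ _ (fun a => ?_) m _
    rfl
  · change (LC.cxMap _ _ (Cup.precomp (Rep.resMap f h.f₁) (Rep.res f X))).f m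
        ((LC.cxMap _ _ (Fermat.Agent.S55.resIhomIso f R'.P₁ X).hom).f m
          ((LC.cxRes hf (R'.smooth₁.ihom hX)).f m y)) =
      (LC.cxMap _ _ (Fermat.Agent.S55.resIhomIso f R.P₁ X).hom).f m
        ((LC.cxRes hf (R.smooth₁.ihom hX)).f m
          ((LC.cxMap (R'.smooth₁.ihom hX) (R.smooth₁.ihom hX) (Cup.precomp h.f₁ X)).f m y))
    rw [LC.cxRes_cxMap]
    refine LC.cxMap_comm_of_comm _ _ _ _ _ _ _ _ (fun a => ?_) m _
    rfl

/-! ### The divisible case -/

section div

variable (R) [Module.Finite k N] (hsurj : Function.Surjective (Cup.precomp R.i X).hom)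

include hsurj in
/-- The surjectivity hypothesis of `divEquiv` restricts. -/
lemma res_precomp_surjective :
    Function.Surjective (Cup.precomp (R.res hf).i (Rep.res f X)).hom := hsurj

/-- **Restriction is compatible with the divisible-case isomorphism**
`Hⁿ(Hom(N, X)) ≃ Extⁿ(N, X)`. -/
theorem res_divEquiv (n : ℕ) (x : (LC.cx (R.smooth.ihom hX)).H n) :
    Ext.res R hf hX n (R.divEquiv hX (R.smooth.ihom hX) hsurj n x) =
      (R.res hf).divEquiv (hX.res hf) ((R.smooth.res hf).ihom (hX.res hf))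
        (R.res_precomp_surjective hf hsurj) n ((LC.cxResIhom hf R.smooth hX).mapH n x) := by
  refine Cx.EMap_kerToE (R.shortExact_div hX (R.smooth.ihom hX) hsurj)
    ((R.res hf).shortExact_div (hX.res hf) ((R.smooth.res hf).ihom (hX.res hf))
      (R.res_precomp_surjective hf hsurj))
    (LC.cxResIhom hf R.smooth hX) _ _ _ (fun m y => ?_) n x
  change (LC.cxMap _ _ (Cup.precomp (Rep.resMap f R.π) (Rep.res f X))).f m
      ((LC.cxMap _ _ (Fermat.Agent.S55.resIhomIso f N X).hom).f m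
        ((LC.cxRes hf (R.smooth.ihom hX)).f m y)) =
    (LC.cxMap _ _ (Fermat.Agent.S55.resIhomIso f R.P₀ X).hom).f m
      ((LC.cxRes hf (R.smooth₀.ihom hX)).f m
        ((LC.cxMap (R.smooth.ihom hX) (R.smooth₀.ihom hX) (Cup.precomp R.π X)).f m y))
  rw [LC.cxRes_cxMap]
  refine LC.cxMap_comm_of_comm _ _ _ _ _ _ _ _ (fun a => ?_) m _
  rfl

/-- **Localisation is compatible with the divisible-case isomorphism**: restriction along `f`
followed by a change of coefficients `t : Res X ⟶ Y'`. -/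
theorem map₂_res_divEquiv {Y' : Rep.{u} k H} (hY' : IsSmooth LH Y') (t : Rep.res f X ⟶ Y')
    (hsurjY' : Function.Surjective (Cup.precomp (R.res hf).i Y').hom) (n : ℕ)
    (x : (LC.cx (R.smooth.ihom hX)).H n) :
    LatticePair.Ext.map₂ (R.res hf).toLatticePair (hX.res hf) hY' t n
        (Ext.res R hf hX n (R.divEquiv hX (R.smooth.ihom hX) hsurj n x)) =
      (R.res hf).divEquiv hY' ((R.smooth.res hf).ihom hY') hsurjY' n
        ((LC.cxMap ((R.smooth.res hf).ihom (hX.res hf)) ((R.smooth.res hf).ihom hY')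
          (Cup.postcomp (Rep.res f N) t)).mapH n
          ((LC.cxResIhom hf R.smooth hX).mapH n x)) := by
  rw [R.res_divEquiv hf hX hsurj]
  exact (R.res hf).map₂_divEquiv (hX.res hf) hY' _ _ (R.res_precomp_surjective hf hsurj) hsurjY'
    t n _

end div

end LatticeRes

end Fermat.Agent.CFT
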