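import Fermat.Agent.CFT.HyperExt.LCHom
import Fermat.Agent.CFT.HyperExt.OctahedralE

set_option autoImplicit false

/-!
# Quasi-isomorphic lattice pairs give isomorphic hyper-Ext (S55, node A5, resolution independence)

A commutative square of modules
```
P₁  --i-->  P₀
|f₁         |f₀
P₁' --i'--> P₀'
```
with `i`, `i'` injective and inducing an isomorphism on cokernels (`QisSquare`) is bicartesian, and
if `P₀'` is projective the sequence `0 → P₁ → P₀ ⊕ P₁' → P₀' → 0` splits; hence for every `X` the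
square `Hom(P₀', X) → Hom(P₁', X)`, `Hom(P₀, X) → Hom(P₁, X)` is bicartesian
(`QisSquare.hom_inj`, `hom_glue`, `hom_surj`).

For representations and the level-constant cochain complexes this gives
`LC.EMap_precomp_bijective`: the comparison map of hyper-Ext groups
`E(Hom(P₀',X) → Hom(P₁',X)) → E(Hom(P₀,X) → Hom(P₁,X))` is bijective in all degrees.
-/

namespace Fermat.Agent.CFT

namespace HExt

section qis

variable {k : Type*} [CommRing k] {P₁ P₀ P₁' P₀' X : Type*} [AddCommGroup P₁] [Module k P₁]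
  [AddCommGroup P₀] [Module k P₀] [AddCommGroup P₁'] [Module k P₁'] [AddCommGroup P₀']
  [Module k P₀'] [AddCommGroup X] [Module k X]

/-- A commutative square of injections inducing an isomorphism on cokernels. -/
structure QisSquare (i : P₁ →ₗ[k] P₀) (i' : P₁' →ₗ[k] P₀') (f₀ : P₀ →ₗ[k] P₀')
    (f₁ : P₁ →ₗ[k] P₁') : Prop where
  comm : ∀ z, f₀ (i z) = i' (f₁ z)
  inj : Function.Injective i
  inj' : Function.Injective i'
  gen : ∀ y : P₀', ∃ (x : P₀) (p' : P₁'), y = f₀ x + i' p'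
  mem : ∀ x : P₀, f₀ x ∈ LinearMap.range i' → x ∈ LinearMap.range i

variable {i : P₁ →ₗ[k] P₀} {i' : P₁' →ₗ[k] P₀'} {f₀ : P₀ →ₗ[k] P₀'} {f₁ : P₁ →ₗ[k] P₁'}

namespace QisSquare

variable (hq : QisSquare i i' f₀ f₁)

include hq

theorem coprod_surjective : Function.Surjective (f₀.coprod i') := by
  intro y
  obtain ⟨x, p', rfl⟩ := hq.gen y
  exact ⟨(x, p'), by rw [LinearMap.coprod_apply]⟩

/-- The kernel of `P₀ ⊕ P₁' → P₀'` is the image of `z ↦ (i z, -f₁ z)`. -/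
theorem exists_of_coprod_eq_zero (w : P₀ × P₁') (hw : f₀.coprod i' w = 0) :
    ∃ z : P₁, w = (i z, -f₁ z) := by
  rw [LinearMap.coprod_apply] at hw
  have h1 : f₀ w.1 = i' (-w.2) := by rw [map_neg]; exact eq_neg_of_add_eq_zero_left hw
  obtain ⟨z, hz⟩ := hq.mem w.1 ⟨-w.2, h1.symm⟩
  refine ⟨z, Prod.ext hz.symm ?_⟩
  have h2 : i' (f₁ z) = i' (-w.2) := by rw [← hq.comm, hz, h1]
  have h3 := hq.inj' h2
  change w.2 = -f₁ z
  rw [h3, neg_neg]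

/-- `Hom(P₀', X) → Hom(P₀, X) × Hom(P₁', X)` is injective. -/
theorem hom_inj (h : P₀' →ₗ[k] X) (h₁ : h ∘ₗ f₀ = 0) (h₂ : h ∘ₗ i' = 0) : h = 0 := by
  ext y
  obtain ⟨x, p', rfl⟩ := hq.gen y
  have e₁ : h (f₀ x) = 0 := LinearMap.congr_fun h₁ x
  have e₂ : h (i' p') = 0 := LinearMap.congr_fun h₂ p'
  rw [map_add, e₁, e₂, add_zero, LinearMap.zero_apply]

/-- Compatible homomorphisms on `P₀` and `P₁'` glue to `P₀'`. -/
theorem hom_glue (h₁ : P₀ →ₗ[k] X) (h₂ : P₁' →ₗ[k] X) (hc : h₁ ∘ₗ i = h₂ ∘ₗ f₁) :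
    ∃ h : P₀' →ₗ[k] X, h ∘ₗ f₀ = h₁ ∧ h ∘ₗ i' = h₂ := by
  have hker : LinearMap.ker (f₀.coprod i') ≤ LinearMap.ker (h₁.coprod h₂) := by
    intro w hw
    obtain ⟨z, rfl⟩ := hq.exists_of_coprod_eq_zero w hw
    have e : h₁ (i z) = h₂ (f₁ z) := LinearMap.congr_fun hc z
    rw [LinearMap.mem_ker, LinearMap.coprod_apply, e, map_neg, add_neg_cancel]
  refine ⟨liftSurj (f₀.coprod i') hq.coprod_surjective (h₁.coprod h₂) hker, ?_, ?_⟩
  · ext x
    have := liftSurj_apply (f₀.coprod i') hq.coprod_surjective (h₁.coprod h₂) hker (x, 0)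
    simpa using this
  · ext y
    have := liftSurj_apply (f₀.coprod i') hq.coprod_surjective (h₁.coprod h₂) hker (0, y)
    simpa using this

/-- If `P₀'` is projective, every homomorphism on `P₁` is a difference of restrictions. -/
theorem hom_surj [Module.Projective k P₀'] (c : P₁ →ₗ[k] X) :
    ∃ (h₁ : P₀ →ₗ[k] X) (h₂ : P₁' →ₗ[k] X), h₁ ∘ₗ i - h₂ ∘ₗ f₁ = c := by
  let j : P₁ →ₗ[k] P₀ × P₁' := i.prod (-f₁)
  have hjz : ∀ z, j z = (i z, -f₁ z) := fun z => rfl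
  have hjinj : Function.Injective j := by
    intro z z' h
    rw [hjz, hjz] at h
    exact hq.inj (congrArg Prod.fst h)
  have hex : Function.Exact j (f₀.coprod i') := by
    intro w
    constructor
    · intro hw
      obtain ⟨z, rfl⟩ := hq.exists_of_coprod_eq_zero w hw
      exact ⟨z, hjz z⟩
    · rintro ⟨z, rfl⟩
      rw [hjz, LinearMap.coprod_apply, map_neg, hq.comm, add_neg_cancel]
  obtain ⟨l, hl⟩ := Module.projective_lifting_property (f₀.coprod i') LinearMap.id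
    hq.coprod_surjective
  have h01 : (∃ l, f₀.coprod i' ∘ₗ l = LinearMap.id) ↔ (∃ r, r ∘ₗ j = LinearMap.id) :=
    (Function.Exact.split_tfae hex hjinj hq.coprod_surjective).out 0 1
  obtain ⟨r, hr⟩ := h01.1 ⟨l, hl⟩
  refine ⟨(c ∘ₗ r) ∘ₗ LinearMap.inl k P₀ P₁', (c ∘ₗ r) ∘ₗ LinearMap.inr k P₀ P₁', ?_⟩
  ext z
  have e : r (j z) = z := LinearMap.congr_fun hr z
  have e' : j z = (i z, 0) - (0, f₁ z) := by
    rw [hjz, Prod.mk_sub_mk, sub_zero, zero_sub]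
  simp only [LinearMap.sub_apply, LinearMap.comp_apply, LinearMap.inl_apply, LinearMap.inr_apply]
  rw [← map_sub, ← map_sub, ← e', e]

omit hq in
open Classical in
/-- A set-theoretic gluing function `Hom(P₀, X) × Hom(P₁', X) → Hom(P₀', X)`. -/
noncomputable def glueFn (i' : P₁' →ₗ[k] P₀') (f₀ : P₀ →ₗ[k] P₀')
    (X : Type*) [AddCommGroup X] [Module k X]
    (p : (P₀ →ₗ[k] X) × (P₁' →ₗ[k] X)) : P₀' →ₗ[k] X :=
  if h : ∃ g : P₀' →ₗ[k] X, g ∘ₗ f₀ = p.1 ∧ g ∘ₗ i' = p.2 then h.choose else 0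

theorem glueFn_spec (p : (P₀ →ₗ[k] X) × (P₁' →ₗ[k] X)) (hc : p.1 ∘ₗ i = p.2 ∘ₗ f₁) :
    glueFn i' f₀ X p ∘ₗ f₀ = p.1 ∧ glueFn i' f₀ X p ∘ₗ i' = p.2 := by
  have h := hq.hom_glue p.1 p.2 hc
  rw [glueFn, dif_pos h]
  exact h.choose_spec

omit hq in
open Classical in
/-- A set-theoretic section of `Hom(P₀, X) × Hom(P₁', X) → Hom(P₁, X)`. -/
noncomputable def sectFn (i : P₁ →ₗ[k] P₀) (f₁ : P₁ →ₗ[k] P₁') (X : Type*) [AddCommGroup X]
    [Module k X] (c : P₁ →ₗ[k] X) : (P₀ →ₗ[k] X) × (P₁' →ₗ[k] X) :=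
  if h : ∃ p : (P₀ →ₗ[k] X) × (P₁' →ₗ[k] X), p.1 ∘ₗ i - p.2 ∘ₗ f₁ = c then h.choose else 0

theorem sectFn_spec [Module.Projective k P₀'] (c : P₁ →ₗ[k] X) :
    (sectFn i f₁ X c).1 ∘ₗ i - (sectFn i f₁ X c).2 ∘ₗ f₁ = c := by
  have h : ∃ p : (P₀ →ₗ[k] X) × (P₁' →ₗ[k] X), p.1 ∘ₗ i - p.2 ∘ₗ f₁ = c := by
    obtain ⟨h₁, h₂, h⟩ := hq.hom_surj c
    exact ⟨(h₁, h₂), h⟩
  rw [sectFn, dif_pos h]
  exact h.choose_spec

end QisSquare

end qis

end HExt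

universe u

namespace LevelStructure

variable {G : Type u} [Group G] {L : LevelStructure G}

lemma IsLC₁.prodMk {X Y : Type*} {f : G → X} {f' : G → Y} (hf : L.IsLC₁ f) (hf' : L.IsLC₁ f') :
    L.IsLC₁ (fun g => (f g, f' g)) := by
  obtain ⟨N, hN, h⟩ := hf
  obtain ⟨N', hN', h'⟩ := hf'
  obtain ⟨N'', hN'', hle⟩ := L.directed hN hN'
  refine ⟨N'', hN'', fun g s hs => ?_⟩
  simp only [h g s ((hle.trans inf_le_left) hs), h' g s ((hle.trans inf_le_right) hs)]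

lemma IsLC₂.prodMk {X Y : Type*} {f : G × G → X} {f' : G × G → Y} (hf : L.IsLC₂ f)
    (hf' : L.IsLC₂ f') : L.IsLC₂ (fun g => (f g, f' g)) := by
  obtain ⟨N, hN, h⟩ := hf
  obtain ⟨N', hN', h'⟩ := hf'
  obtain ⟨N'', hN'', hle⟩ := L.directed hN hN'
  refine ⟨N'', hN'', fun g g' s hs s' hs' => ?_⟩
  simp only [h g g' s ((hle.trans inf_le_left) hs) s' ((hle.trans inf_le_left) hs'),
    h' g g' s ((hle.trans inf_le_right) hs) s' ((hle.trans inf_le_right) hs')]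

lemma IsLC₃.prodMk {X Y : Type*} {f : G × G × G → X} {f' : G × G × G → Y} (hf : L.IsLC₃ f)
    (hf' : L.IsLC₃ f') : L.IsLC₃ (fun g => (f g, f' g)) := by
  obtain ⟨N, hN, h⟩ := hf
  obtain ⟨N', hN', h'⟩ := hf'
  obtain ⟨N'', hN'', hle⟩ := L.directed hN hN'
  refine ⟨N'', hN'', fun g g' g'' s hs s' hs' s'' hs'' => ?_⟩
  simp only [h g g' g'' s ((hle.trans inf_le_left) hs) s' ((hle.trans inf_le_left) hs')
      s'' ((hle.trans inf_le_left) hs''),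
    h' g g' g'' s ((hle.trans inf_le_right) hs) s' ((hle.trans inf_le_right) hs')
      s'' ((hle.trans inf_le_right) hs'')]

end LevelStructure

namespace LC

open HExt CategoryTheory

variable {k G : Type u} [CommRing k] [Group G] {L : LevelStructure G}

section bicart

variable {P₁ P₀ P₁' P₀' X : Rep.{u} k G} {i : P₁ ⟶ P₀} {i' : P₁' ⟶ P₀'} {f₀ : P₀ ⟶ P₀'}
  {f₁ : P₁ ⟶ P₁'}
  (hq : QisSquare i.hom.toLinearMap i'.hom.toLinearMap f₀.hom.toLinearMap f₁.hom.toLinearMap)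

include hq

/-! #### degree 1 -/

lemma qis_hinj₁ (x : ↥(C₁ L ((Rep.ihom P₀').obj X)))
    (h₁ : mapC₁ (Cup.precomp f₀ X) x = 0) (h₂ : mapC₁ (Cup.precomp i' X) x = 0) : x = 0 := by
  refine Subtype.ext (funext fun g => ?_)
  exact hq.hom_inj (X := X) (x.1 g) (congrFun (congrArg Subtype.val h₁) g)
    (congrFun (congrArg Subtype.val h₂) g)

lemma qis_hex₁ (y₁ : ↥(C₁ L ((Rep.ihom P₀).obj X))) (y₂ : ↥(C₁ L ((Rep.ihom P₁').obj X)))
    (h : mapC₁ (Cup.precomp i X) y₁ = mapC₁ (Cup.precomp f₁ X) y₂) :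
    ∃ x : ↥(C₁ L ((Rep.ihom P₀').obj X)),
      mapC₁ (Cup.precomp f₀ X) x = y₁ ∧ mapC₁ (Cup.precomp i' X) x = y₂ := by
  have hc : ∀ g, (y₁.1 g : P₀ →ₗ[k] X) ∘ₗ i.hom.toLinearMap =
      (y₂.1 g : P₁' →ₗ[k] X) ∘ₗ f₁.hom.toLinearMap :=
    fun g => congrFun (congrArg Subtype.val h) g
  refine ⟨⟨fun g => QisSquare.glueFn i'.hom.toLinearMap f₀.hom.toLinearMap X (y₁.1 g, y₂.1 g),
    ((y₁.2 : L.IsLC₁ _).prodMk (y₂.2 : L.IsLC₁ _)).comp
      (QisSquare.glueFn i'.hom.toLinearMap f₀.hom.toLinearMap X)⟩, ?_, ?_⟩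
  · exact Subtype.ext (funext fun g => (hq.glueFn_spec (X := X) (y₁.1 g, y₂.1 g) (hc g)).1)
  · exact Subtype.ext (funext fun g => (hq.glueFn_spec (X := X) (y₁.1 g, y₂.1 g) (hc g)).2)

lemma qis_hsurj₁ [Module.Projective k P₀'] (c : ↥(C₁ L ((Rep.ihom P₁).obj X))) :
    ∃ (y₁ : ↥(C₁ L ((Rep.ihom P₀).obj X))) (y₂ : ↥(C₁ L ((Rep.ihom P₁').obj X))),
      mapC₁ (Cup.precomp i X) y₁ - mapC₁ (Cup.precomp f₁ X) y₂ = c := by
  refine ⟨⟨fun g => (QisSquare.sectFn i.hom.toLinearMap f₁.hom.toLinearMap X (c.1 g)).1,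
      (c.2 : L.IsLC₁ _).comp (fun c => (QisSquare.sectFn i.hom.toLinearMap f₁.hom.toLinearMap
        X c).1)⟩,
    ⟨fun g => (QisSquare.sectFn i.hom.toLinearMap f₁.hom.toLinearMap X (c.1 g)).2,
      (c.2 : L.IsLC₁ _).comp (fun c => (QisSquare.sectFn i.hom.toLinearMap f₁.hom.toLinearMap
        X c).2)⟩, ?_⟩
  exact Subtype.ext (funext fun g => hq.sectFn_spec (X := X) (c.1 g))

/-! #### degree 2 -/

lemma qis_hinj₂ (x : ↥(C₂ L ((Rep.ihom P₀').obj X)))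
    (h₁ : mapC₂ (Cup.precomp f₀ X) x = 0) (h₂ : mapC₂ (Cup.precomp i' X) x = 0) : x = 0 := by
  refine Subtype.ext (funext fun g => ?_)
  exact hq.hom_inj (X := X) (x.1 g) (congrFun (congrArg Subtype.val h₁) g)
    (congrFun (congrArg Subtype.val h₂) g)

lemma qis_hex₂ (y₁ : ↥(C₂ L ((Rep.ihom P₀).obj X))) (y₂ : ↥(C₂ L ((Rep.ihom P₁').obj X)))
    (h : mapC₂ (Cup.precomp i X) y₁ = mapC₂ (Cup.precomp f₁ X) y₂) :
    ∃ x : ↥(C₂ L ((Rep.ihom P₀').obj X)),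
      mapC₂ (Cup.precomp f₀ X) x = y₁ ∧ mapC₂ (Cup.precomp i' X) x = y₂ := by
  have hc : ∀ g, (y₁.1 g : P₀ →ₗ[k] X) ∘ₗ i.hom.toLinearMap =
      (y₂.1 g : P₁' →ₗ[k] X) ∘ₗ f₁.hom.toLinearMap :=
    fun g => congrFun (congrArg Subtype.val h) g
  refine ⟨⟨fun g => QisSquare.glueFn i'.hom.toLinearMap f₀.hom.toLinearMap X (y₁.1 g, y₂.1 g),
    ((y₁.2 : L.IsLC₂ _).prodMk (y₂.2 : L.IsLC₂ _)).comp
      (QisSquare.glueFn i'.hom.toLinearMap f₀.hom.toLinearMap X)⟩, ?_, ?_⟩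
  · exact Subtype.ext (funext fun g => (hq.glueFn_spec (X := X) (y₁.1 g, y₂.1 g) (hc g)).1)
  · exact Subtype.ext (funext fun g => (hq.glueFn_spec (X := X) (y₁.1 g, y₂.1 g) (hc g)).2)

lemma qis_hsurj₂ [Module.Projective k P₀'] (c : ↥(C₂ L ((Rep.ihom P₁).obj X))) :
    ∃ (y₁ : ↥(C₂ L ((Rep.ihom P₀).obj X))) (y₂ : ↥(C₂ L ((Rep.ihom P₁').obj X))),
      mapC₂ (Cup.precomp i X) y₁ - mapC₂ (Cup.precomp f₁ X) y₂ = c := by
  refine ⟨⟨fun g => (QisSquare.sectFn i.hom.toLinearMap f₁.hom.toLinearMap X (c.1 g)).1,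
      (c.2 : L.IsLC₂ _).comp (fun c => (QisSquare.sectFn i.hom.toLinearMap f₁.hom.toLinearMap
        X c).1)⟩,
    ⟨fun g => (QisSquare.sectFn i.hom.toLinearMap f₁.hom.toLinearMap X (c.1 g)).2,
      (c.2 : L.IsLC₂ _).comp (fun c => (QisSquare.sectFn i.hom.toLinearMap f₁.hom.toLinearMap
        X c).2)⟩, ?_⟩
  exact Subtype.ext (funext fun g => hq.sectFn_spec (X := X) (c.1 g))

/-! #### degree 3 -/

lemma qis_hinj₃ (x : ↥(C₃ L ((Rep.ihom P₀').obj X)))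
    (h₁ : mapC₃ (Cup.precomp f₀ X) x = 0) (h₂ : mapC₃ (Cup.precomp i' X) x = 0) : x = 0 := by
  refine Subtype.ext (funext fun g => ?_)
  exact hq.hom_inj (X := X) (x.1 g) (congrFun (congrArg Subtype.val h₁) g)
    (congrFun (congrArg Subtype.val h₂) g)

lemma qis_hex₃ (y₁ : ↥(C₃ L ((Rep.ihom P₀).obj X))) (y₂ : ↥(C₃ L ((Rep.ihom P₁').obj X)))
    (h : mapC₃ (Cup.precomp i X) y₁ = mapC₃ (Cup.precomp f₁ X) y₂) :
    ∃ x : ↥(C₃ L ((Rep.ihom P₀').obj X)),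
      mapC₃ (Cup.precomp f₀ X) x = y₁ ∧ mapC₃ (Cup.precomp i' X) x = y₂ := by
  have hc : ∀ g, (y₁.1 g : P₀ →ₗ[k] X) ∘ₗ i.hom.toLinearMap =
      (y₂.1 g : P₁' →ₗ[k] X) ∘ₗ f₁.hom.toLinearMap :=
    fun g => congrFun (congrArg Subtype.val h) g
  refine ⟨⟨fun g => QisSquare.glueFn i'.hom.toLinearMap f₀.hom.toLinearMap X (y₁.1 g, y₂.1 g),
    ((y₁.2 : L.IsLC₃ _).prodMk (y₂.2 : L.IsLC₃ _)).comp
      (QisSquare.glueFn i'.hom.toLinearMap f₀.hom.toLinearMap X)⟩, ?_, ?_⟩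
  · exact Subtype.ext (funext fun g => (hq.glueFn_spec (X := X) (y₁.1 g, y₂.1 g) (hc g)).1)
  · exact Subtype.ext (funext fun g => (hq.glueFn_spec (X := X) (y₁.1 g, y₂.1 g) (hc g)).2)

lemma qis_hsurj₃ [Module.Projective k P₀'] (c : ↥(C₃ L ((Rep.ihom P₁).obj X))) :
    ∃ (y₁ : ↥(C₃ L ((Rep.ihom P₀).obj X))) (y₂ : ↥(C₃ L ((Rep.ihom P₁').obj X))),
      mapC₃ (Cup.precomp i X) y₁ - mapC₃ (Cup.precomp f₁ X) y₂ = c := by
  refine ⟨⟨fun g => (QisSquare.sectFn i.hom.toLinearMap f₁.hom.toLinearMap X (c.1 g)).1,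
      (c.2 : L.IsLC₃ _).comp (fun c => (QisSquare.sectFn i.hom.toLinearMap f₁.hom.toLinearMap
        X c).1)⟩,
    ⟨fun g => (QisSquare.sectFn i.hom.toLinearMap f₁.hom.toLinearMap X (c.1 g)).2,
      (c.2 : L.IsLC₃ _).comp (fun c => (QisSquare.sectFn i.hom.toLinearMap f₁.hom.toLinearMap
        X c).2)⟩, ?_⟩
  exact Subtype.ext (funext fun g => hq.sectFn_spec (X := X) (c.1 g))

/-! #### all degrees -/

variable [Module.Finite k P₁] [Module.Finite k P₀] [Module.Finite k P₁'] [Module.Finite k P₀']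
  [Module.Projective k P₀'] (s₁ : IsSmooth L P₁) (s₀ : IsSmooth L P₀) (s₁' : IsSmooth L P₁')
  (s₀' : IsSmooth L P₀') (hX : IsSmooth L X)

omit hq [Module.Projective k P₀'] in
/-- The square of `Hom` complexes commutes. -/
theorem qis_hsq (hcomm : ∀ z, f₀.hom (i.hom z) = i'.hom (f₁.hom z)) (n : ℕ)
    (x : (cx (s₀'.ihom hX)).X n) :
    (cxMap (s₁'.ihom hX) (s₁.ihom hX) (Cup.precomp f₁ X)).f n
        ((cxMap (s₀'.ihom hX) (s₁'.ihom hX) (Cup.precomp i' X)).f n x) =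
      (cxMap (s₀.ihom hX) (s₁.ihom hX) (Cup.precomp i X)).f n
        ((cxMap (s₀'.ihom hX) (s₀.ihom hX) (Cup.precomp f₀ X)).f n x) := by
  have key : ∀ h : P₀' →ₗ[k] X,
      (Cup.precomp f₁ X).hom ((Cup.precomp i' X).hom h) =
        (Cup.precomp i X).hom ((Cup.precomp f₀ X).hom h) := by
    intro h
    refine LinearMap.ext fun z => ?_
    change h (i'.hom (f₁.hom z)) = h (f₀.hom (i.hom z))
    rw [hcomm]
  match n, x with
  | 0, x => exact key x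
  | 1, x => exact Subtype.ext (funext fun g => key _)
  | 2, x => exact Subtype.ext (funext fun g => key _)
  | 3, x => exact Subtype.ext (funext fun g => key _)
  | _ + 4, _ => rfl

/-- **Resolution independence on LC cochains**: a quasi-isomorphism of lattice pairs induces a
bijection of hyper-Ext groups in all degrees. -/
theorem EMap_precomp_bijective (n : ℕ) :
    Function.Bijective
      (Cx.EMap (cxMap (s₀'.ihom hX) (s₁'.ihom hX) (Cup.precomp i' X))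
        (cxMap (s₀.ihom hX) (s₁.ihom hX) (Cup.precomp i X))
        (cxMap (s₀'.ihom hX) (s₀.ihom hX) (Cup.precomp f₀ X))
        (cxMap (s₁'.ihom hX) (s₁.ihom hX) (Cup.precomp f₁ X))
        (qis_hsq s₁ s₀ s₁' s₀' hX hq.comm) n) := by
  refine Cx.EMap_bijective_of_bicartesian _ _ _ _ _ ?_ ?_ ?_ n
  · intro m x
    match m, x with
    | 0, x => exact fun h₁ h₂ => hq.hom_inj (X := X) x h₁ h₂
    | 1, x => exact fun h₁ h₂ => qis_hinj₁ hq x h₁ h₂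
    | 2, x => exact fun h₁ h₂ => qis_hinj₂ hq x h₁ h₂
    | 3, x => exact fun h₁ h₂ => qis_hinj₃ hq x h₁ h₂
    | _ + 4, _ => exact fun _ _ => rfl
  · intro m y₁ y₂
    match m, y₁, y₂ with
    | 0, y₁, y₂ => exact fun h => hq.hom_glue (X := X) y₁ y₂ h
    | 1, y₁, y₂ => exact fun h => qis_hex₁ hq y₁ y₂ h
    | 2, y₁, y₂ => exact fun h => qis_hex₂ hq y₁ y₂ h
    | 3, y₁, y₂ => exact fun h => qis_hex₃ hq y₁ y₂ h
    | _ + 4, _, _ => exact fun _ => ⟨PUnit.unit, rfl, rfl⟩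
  · intro m c
    match m, c with
    | 0, c => exact hq.hom_surj (X := X) c
    | 1, c => exact qis_hsurj₁ hq c
    | 2, c => exact qis_hsurj₂ hq c
    | 3, c => exact qis_hsurj₃ hq c
    | _ + 4, _ => exact ⟨PUnit.unit, PUnit.unit, rfl⟩

end bicart

end LC

end Fermat.Agent.CFT
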