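import Mathlib
import Fermat.Agent.CFT.PT.PairNat
import Fermat.Agent.CFT.HyperExt.LCDualityBase

/-!
# Restriction of the canonical resolution (S55, node D3g (iii))

For `f : H →* G` compatible with the level structures and a finite smooth `G`-module `N`, the
restriction `(zResR N hN).res hf` of the canonical resolution `0 → K_N → k[N] → N → 0` and the
canonical resolution `zResR (Res N) (hN.res hf)` of the restricted module have the same
underlying modules and maps.  We record the two (identity) comparison morphisms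

* `zResResTo N hN hf : (zResR N hN).res hf ⟶ zResR (Res N) _`,
* `zResResFrom N hN hf : zResR (Res N) _ ⟶ (zResR N hN).res hf`,

they are quasi-isomorphisms compatible with the augmentations, hence the duality maps of the two
resolutions correspond (`zResR_res_dual_bijective_iff`, `zResR_res_isPerfect_iff`, …).
-/

set_option autoImplicit false
set_option linter.unusedSectionVars false

universe u

open CategoryTheory

namespace Fermat.Agent.CFT

open HExt LevelStructure

variable {k G H : Type u} [CommRing k] [IsNoetherianRing k] [Group G] [Group H]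
  {LH : LevelStructure H} {LG : LevelStructure G} {f : H →* G}

/-- The restriction of a finite module is finite. -/
instance finite_repRes (f : H →* G) (N : Rep.{u} k G) [Finite N] : Finite (Rep.res f N) :=
  inferInstanceAs (Finite N)

variable (N : Rep.{u} k G) [Finite N] (hN : IsSmooth LG N) (hf : LH.Compat LG f)

/-- `Res k[N] ⟶ k[Res N]` (the identity). -/
noncomputable def zFreeResTo : Rep.res f (zFree N) ⟶ zFree (Rep.res f N) :=
  Rep.ofHom ⟨(LinearMap.id : (N →₀ k) →ₗ[k] (N →₀ k)), fun _ => rfl⟩

/-- `k[Res N] ⟶ Res k[N]` (the identity). -/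
noncomputable def zFreeResFrom : zFree (Rep.res f N) ⟶ Rep.res f (zFree N) :=
  Rep.ofHom ⟨(LinearMap.id : (N →₀ k) →ₗ[k] (N →₀ k)), fun _ => rfl⟩

/-- `Res K_N ⟶ K_{Res N}` (the identity). -/
noncomputable def zKerResTo : Rep.res f (zKer N) ⟶ zKer (Rep.res f N) :=
  Rep.ofHom ⟨(LinearMap.id : ↥(zKerSub N) →ₗ[k] ↥(zKerSub N)), fun _ => rfl⟩

/-- `K_{Res N} ⟶ Res K_N` (the identity). -/
noncomputable def zKerResFrom : zKer (Rep.res f N) ⟶ Rep.res f (zKer N) :=
  Rep.ofHom ⟨(LinearMap.id : ↥(zKerSub N) →ₗ[k] ↥(zKerSub N)), fun _ => rfl⟩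

/-- The comparison `(zResR N).res ⟶ zResR (Res N)`. -/
noncomputable def zResResTo :
    LatticePair.Hom ((zResR N hN).res hf).toLatticePair
      (zResR (Rep.res f N) (hN.res hf)).toLatticePair where
  f₀ := zFreeResTo N
  f₁ := zKerResTo N
  comm _ := rfl

/-- The comparison `zResR (Res N) ⟶ (zResR N).res`. -/
noncomputable def zResResFrom :
    LatticePair.Hom (zResR (Rep.res f N) (hN.res hf)).toLatticePair
      ((zResR N hN).res hf).toLatticePair where
  f₀ := zFreeResFrom N
  f₁ := zKerResFrom N
  comm _ := rfl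

lemma zResResTo_aug (x : ((zResR N hN).res hf).P₀) :
    (zResR (Rep.res f N) (hN.res hf)).π.hom ((zResResTo N hN hf).f₀.hom x) =
      ((zResR N hN).res hf).π.hom x := rfl

lemma zResResFrom_aug (x : (zResR (Rep.res f N) (hN.res hf)).P₀) :
    ((zResR N hN).res hf).π.hom ((zResResFrom N hN hf).f₀.hom x) =
      (zResR (Rep.res f N) (hN.res hf)).π.hom x := rfl

lemma zResResTo_isQis : (zResResTo N hN hf).IsQis where
  inj y := fun ⟨z, hz⟩ => ⟨z, hz⟩
  surj x := ⟨x, 0, by rw [map_zero, add_zero]; rfl⟩

lemma zResResFrom_isQis : (zResResFrom N hN hf).IsQis where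
  inj y := fun ⟨z, hz⟩ => ⟨z, hz⟩
  surj x := ⟨x, 0, by rw [map_zero, add_zero]; rfl⟩

/-! ### Comparison of hyper-Ext and of the duality maps -/

section ext

variable {C : Rep.{u} k H} (hC : IsSmooth LH C)

/-- `k[Res N]` is projective. -/
lemma projective_zResR_res_P₀ : Module.Projective k (zResR (Rep.res f N) (hN.res hf)).P₀ :=
  haveI : Module.Free k (zResR (Rep.res f N) (hN.res hf)).P₀ :=
    inferInstanceAs (Module.Free k (zFree (Rep.res f N)))
  inferInstance

/-- `Extⁿ` of the two resolutions of `Res N` are identified by the comparison map. -/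
theorem zResResTo_map_bijective (n : ℕ) :
    Function.Bijective (LatticePair.Ext.map hC (zResResTo N hN hf) n) :=
  haveI := projective_zResR_res_P₀ N hN hf
  LatticePair.Ext.map_bijective_of_isQis hC (zResResTo N hN hf) (zResResTo_isQis N hN hf)
    ((zResR N hN).res hf).inj (zResR (Rep.res f N) (hN.res hf)).inj n

/-- `Extⁿ(zResR (Res N), C) ≃ Extⁿ((zResR N).res, C)`. -/
noncomputable def zResResExtEquiv (n : ℕ) :
    (zResR (Rep.res f N) (hN.res hf)).Ext hC n ≃ₗ[k] ((zResR N hN).res hf).Ext hC n :=
  LinearEquiv.ofBijective (LatticePair.Ext.map hC (zResResTo N hN hf) n)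
    (zResResTo_map_bijective N hN hf hC n)

lemma zResResExtEquiv_apply (n : ℕ) (e : (zResR (Rep.res f N) (hN.res hf)).Ext hC n) :
    zResResExtEquiv N hN hf hC n e = LatticePair.Ext.map hC (zResResTo N hN hf) n e := rfl

/-- The hyper-Ext pairings of the two resolutions correspond. -/
theorem zResRes_pair (n s m : ℕ) (hm : n + s = m)
    (e : (zResR (Rep.res f N) (hN.res hf)).Ext hC (n + 1))
    (c : (LC.cx ((zResR N hN).res hf).smooth).H s) :
    ((zResR N hN).res hf).pair hC n s m hm (zResResExtEquiv N hN hf hC (n + 1) e) c =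
      (zResR (Rep.res f N) (hN.res hf)).pair hC n s m hm e c :=
  LatticeRes.pair_map_id hC (zResResTo N hN hf) (zResResTo_aug N hN hf) n s m hm e c

variable (p : ℕ) (hpN : ∀ n : N, p • n = 0) (inv : LC.Hp p hC 2 →+ ZMod p)

/-- The duality maps of the two resolutions correspond. -/
theorem zResRes_dual (n s : ℕ) (hm : n + s = 1)
    (e : (zResR (Rep.res f N) (hN.res hf)).Ext hC (n + 1))
    (c : (LC.cx ((zResR N hN).res hf).smooth).H s) :
    ((zResR N hN).res hf).dual p hC hpN inv n s hm (zResResExtEquiv N hN hf hC (n + 1) e) c =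
      (zResR (Rep.res f N) (hN.res hf)).dual p hC hpN inv n s hm e c :=
  LatticeRes.dual_map_id p hC hpN inv (zResResTo N hN hf) (zResResTo_aug N hN hf) n s hm e c

theorem zResR_res_dual_bijective_iff (n s : ℕ) (hm : n + s = 1) :
    Function.Bijective (((zResR N hN).res hf).dual p hC hpN inv n s hm) ↔
      Function.Bijective ((zResR (Rep.res f N) (hN.res hf)).dual p hC hpN inv n s hm) :=
  haveI := projective_zResR_res_P₀ N hN hf
  LatticeRes.dual_bijective_iff_of_isQis p hC hpN inv (zResResTo N hN hf)
    (zResResTo_aug N hN hf) (zResResTo_isQis N hN hf) n s hm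

theorem zResR_res_dual_injective_iff (n s : ℕ) (hm : n + s = 1) :
    Function.Injective (((zResR N hN).res hf).dual p hC hpN inv n s hm) ↔
      Function.Injective ((zResR (Rep.res f N) (hN.res hf)).dual p hC hpN inv n s hm) :=
  haveI := projective_zResR_res_P₀ N hN hf
  LatticeRes.dual_injective_iff_of_isQis p hC hpN inv (zResResTo N hN hf)
    (zResResTo_aug N hN hf) (zResResTo_isQis N hN hf) n s hm

theorem zResR_res_dual_surjective_iff (n s : ℕ) (hm : n + s = 1) :
    Function.Surjective (((zResR N hN).res hf).dual p hC hpN inv n s hm) ↔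
      Function.Surjective ((zResR (Rep.res f N) (hN.res hf)).dual p hC hpN inv n s hm) :=
  haveI := projective_zResR_res_P₀ N hN hf
  LatticeRes.dual_surjective_iff_of_isQis p hC hpN inv (zResResTo N hN hf)
    (zResResTo_aug N hN hf) (zResResTo_isQis N hN hf) n s hm

/-- Perfectness for the restricted canonical resolution ⟺ perfectness for the canonical
resolution of the restricted module. -/
theorem zResR_res_isPerfect_iff :
    ((zResR N hN).res hf).IsPerfect p hC hpN inv ↔
      (zResR (Rep.res f N) (hN.res hf)).IsPerfect p hC hpN inv :=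
  and_congr (zResR_res_dual_bijective_iff N hN hf hC p hpN inv 0 1 rfl)
    (zResR_res_dual_bijective_iff N hN hf hC p hpN inv 1 0 rfl)

end ext

end Fermat.Agent.CFT
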